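import Mathlib

/-!
# Finiteness of the group of rational points in an isogeny class

`T a b` is the set of abscissas of the rational points of `Y² = X (X² + a X + b)`. Its finiteness is
invariant under the isogeny of degree two to `Y² = X (X² - 2 a X + a² - 4 b)`, and under the choice
of the rational point of order two; and it is equivalent to the finiteness of the group of rational
points of a Weierstrass equation with the corresponding `c₄`, `c₆`.
-/

set_option autoImplicit false

namespace Fermat.Agent.Cor.BSD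

/-- The abscissas of the rational points of `Y² = X (X² + a X + b)`. -/
def T (a b : ℚ) : Set ℚ := {X | IsSquare (X * (X ^ 2 + a * X + b))}

theorem finite_quad (p q : ℚ) : {x : ℚ | x ^ 2 + p * x + q = 0}.Finite := by
  by_cases h : ∃ x₀ : ℚ, x₀ ^ 2 + p * x₀ + q = 0
  · obtain ⟨x₀, h0⟩ := h
    refine (Set.toFinite {x₀, -p - x₀}).subset ?_
    intro x hx
    have hx' : x ^ 2 + p * x + q = 0 := hx
    have h1 : (x - x₀) * (x + p + x₀) = 0 := by linear_combination hx' - h0
    rcases mul_eq_zero.1 h1 with h2 | h2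
    · left
      linear_combination h2
    · right
      show x = -p - x₀
      linear_combination h2
  · refine Set.Finite.subset Set.finite_empty ?_
    intro x hx
    exact h ⟨x, hx⟩

/-- **Isogeny invariance** (degree two). -/
theorem T_isog {a b a' b' : ℚ} (h : (T a' b').Finite) (ha : a' = -2 * a)
    (hb : b' = a ^ 2 - 4 * b) : (T a b).Finite := by
  subst ha hb
  refine ((Set.finite_singleton (0 : ℚ)).union
    (h.biUnion fun X' _ => finite_quad (a - X') b)).subset ?_
  intro X hX
  by_cases hX0 : X = 0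
  · left
    exact hX0
  · right
    obtain ⟨Y, hY⟩ := hX
    refine Set.mem_biUnion (x := X + a + b / X) ?_ ?_
    · refine ⟨Y / X * (X - b / X), ?_⟩
      have h1 : X + a + b / X = Y * Y / X ^ 2 := by
        rw [← hY]
        field_simp
      have h2 : (X + a + b / X) ^ 2 + -2 * a * (X + a + b / X) + (a ^ 2 - 4 * b) =
          (X - b / X) ^ 2 := by
        field_simp
        ring
      rw [h2, h1]
      field_simp
    · show X ^ 2 + (a - (X + a + b / X)) * X + b = 0
      field_simp
      ring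

/-- Scaling. -/
theorem T_scale {a b a' b' : ℚ} (k : ℚ) (h : (T a b).Finite) (hk : k ≠ 0) (ha : a' = k ^ 2 * a)
    (hb : b' = k ^ 4 * b) : (T a' b').Finite := by
  subst ha hb
  refine (h.image fun x => k ^ 2 * x).subset ?_
  intro X hX
  obtain ⟨Y, hY⟩ := hX
  refine ⟨X / k ^ 2, ⟨Y / k ^ 3, ?_⟩, ?_⟩
  · field_simp
    linear_combination hY
  · field_simp

/-- The other points of order two. -/
theorem T_shift {a b a' b' : ℚ} (r s : ℚ) (h : (T a b).Finite) (h1 : a = -(r + s)) (h2 : b = r * s)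
    (ha : a' = 2 * r - s) (hb : b' = r * (r - s)) : (T a' b').Finite := by
  subst ha hb h1 h2
  refine (h.image fun x => x - r).subset ?_
  intro X hX
  obtain ⟨Y, hY⟩ := hX
  refine ⟨X + r, ⟨Y, ?_⟩, ?_⟩
  · linear_combination hY
  · simp

/-- The dual isogeny. -/
theorem T_dual {a b a' b' : ℚ} (h : (T a b).Finite) (ha : a' = -2 * a)
    (hb : b' = a ^ 2 - 4 * b) : (T a' b').Finite := by
  refine T_isog (a' := 2 ^ 2 * a) (b' := 2 ^ 4 * b) (T_scale 2 h two_ne_zero rfl rfl) ?_ ?_
  · rw [ha]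
    ring
  · rw [ha, hb]
    ring

section Curve

open WeierstrassCurve

variable {W : WeierstrassCurve ℚ} {a b : ℚ}

/-- The equation in the form `Y² = X (X² + a X + b)`. -/
theorem eq_cubic (h4 : W.c₄ = a ^ 2 - 3 * b) (h6 : 2 * W.c₆ = -2 * a ^ 3 + 9 * a * b) (x : ℚ) :
    16 * (4 * x ^ 3 + W.b₂ * x ^ 2 + 2 * W.b₄ * x + W.b₆) =
      (4 * x + (W.b₂ - a) / 3) * ((4 * x + (W.b₂ - a) / 3) ^ 2 + a * (4 * x + (W.b₂ - a) / 3) + b) := by
  rw [c₄] at h4
  rw [c₆] at h6
  linear_combination (-(4 / 3 : ℚ) * x - W.b₂ / 9) * h4 + (-1 / 27 : ℚ) * h6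

/-- If `T a b` is finite, so is the group of rational points. -/
theorem finite_of_T (h : (T a b).Finite) (h4 : W.c₄ = a ^ 2 - 3 * b)
    (h6 : 2 * W.c₆ = -2 * a ^ 3 + 9 * a * b) : Finite W.toAffine.Point := by
  have hS : {p : ℚ × ℚ | W.toAffine.Equation p.1 p.2}.Finite := by
    refine (h.biUnion (t := fun X => (fun y => ((X - (W.b₂ - a) / 3) / 4, y)) ''
      {y : ℚ | y ^ 2 + (W.a₁ * ((X - (W.b₂ - a) / 3) / 4) + W.a₃) * y +
        -(((X - (W.b₂ - a) / 3) / 4) ^ 3 + W.a₂ * ((X - (W.b₂ - a) / 3) / 4) ^ 2 +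
          W.a₄ * ((X - (W.b₂ - a) / 3) / 4) + W.a₆) = 0})
      fun X _ => (finite_quad _ _).image _).subset ?_
    rintro ⟨x, y⟩ hxy
    have hE : W.toAffine.Equation x y := hxy
    rw [Affine.equation_iff] at hE
    have hx : (4 * x + (W.b₂ - a) / 3 - (W.b₂ - a) / 3) / 4 = x := by ring
    refine Set.mem_biUnion (x := 4 * x + (W.b₂ - a) / 3) ?_ ?_
    · refine ⟨4 * (2 * y + W.a₁ * x + W.a₃), ?_⟩
      rw [← eq_cubic h4 h6, b₂, b₄, b₆]
      linear_combination -64 * hE
    · refine ⟨y, ?_, ?_⟩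
      · rw [Set.mem_ofPred_eq, hx]
        linear_combination hE
      · rw [hx]
  have : Finite {p : ℚ × ℚ | W.toAffine.Equation p.1 p.2} := hS
  let f : W.toAffine.Point → Option {p : ℚ × ℚ | W.toAffine.Equation p.1 p.2} := fun P =>
    match P with
    | .zero => none
    | .some x y h => some ⟨(x, y), h.1⟩
  refine Finite.of_injective f ?_
  intro P Q hPQ
  cases P with
  | zero =>
    cases Q with
    | zero => rfl
    | some x y h => simp [f] at hPQ
  | some x y h =>
    cases Q with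
    | zero => simp [f] at hPQ
    | some x' y' h' =>
      simp only [f, Option.some.injEq, Subtype.mk.injEq, Prod.mk.injEq] at hPQ
      obtain ⟨rfl, rfl⟩ := hPQ
      rfl

/-- The converse of `finite_of_T`. -/
theorem T_of_finite [W.IsElliptic] (h : Finite W.toAffine.Point) (h4 : W.c₄ = a ^ 2 - 3 * b)
    (h6 : 2 * W.c₆ = -2 * a ^ 3 + 9 * a * b) : (T a b).Finite := by
  let g : W.toAffine.Point → ℚ := fun P =>
    match P with
    | .zero => 0
    | .some x _ _ => 4 * x + (W.b₂ - a) / 3
  refine (Set.finite_range g).subset ?_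
  intro X hX
  obtain ⟨Y, hY⟩ := hX
  set x : ℚ := (X - (W.b₂ - a) / 3) / 4 with hx
  have hX' : X = 4 * x + (W.b₂ - a) / 3 := by rw [hx]; ring
  have h1 := eq_cubic h4 h6 x
  rw [← hX', hY, b₂, b₄, b₆] at h1
  have hE : W.toAffine.Equation x ((Y / 4 - W.a₁ * x - W.a₃) / 2) := by
    rw [Affine.equation_iff]
    linear_combination (-1 / 64 : ℚ) * h1
  exact ⟨.some _ _ ((Affine.equation_iff_nonsingular_of_Δ_ne_zero W.isUnit_Δ.ne_zero).1 hE),
    hX'.symm⟩

end Curve

end Fermat.Agent.Cor.BSD
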