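import Mathlib
import Fermat.Agent.Corollaries.Congruent.Elem

/-!
# The systems of the complete 2-descent on three elliptic curves

For the curves `Y² = X (X - a) (X + b)` with `(a, b) = (16, 9), (16, 1), (48, 1)` the homogeneous
systems `α U² - β V² = a n²`, `α β W² - α U² = b n²` are insoluble except for two classes.
-/

set_option autoImplicit false

namespace Fermat.Agent.Cor.BSD

open Fermat.Agent.Cor.Congruent (eq_zero_of_descent)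

/-- If `k` is not a square modulo `ℓ`, then `ℓ ∣ u² - k v²` implies `ℓ ∣ u`, `ℓ ∣ v`. -/
theorem dvd_pair {ℓ : ℕ} {k : ℤ}
    (hk : ∀ u v : ZMod ℓ, u ^ 2 - k * v ^ 2 = 0 → u = 0 ∧ v = 0) {u v : ℤ}
    (h : (ℓ : ℤ) ∣ u ^ 2 - k * v ^ 2) : (ℓ : ℤ) ∣ u ∧ (ℓ : ℤ) ∣ v := by
  have h1 := (ZMod.intCast_zmod_eq_zero_iff_dvd (u ^ 2 - k * v ^ 2) ℓ).2 h
  push_cast at h1
  obtain ⟨h2, h3⟩ := hk u v h1
  exact ⟨(ZMod.intCast_zmod_eq_zero_iff_dvd u ℓ).1 h2, (ZMod.intCast_zmod_eq_zero_iff_dvd v ℓ).1 h3⟩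

theorem pair3 {k : ℤ} (hk : k % 3 = 2) {u v : ℤ} (h : (3 : ℤ) ∣ u ^ 2 - k * v ^ 2) :
    (3 : ℤ) ∣ u ∧ (3 : ℤ) ∣ v := by
  refine dvd_pair (ℓ := 3) (k := k) ?_ h
  have h1 : ((k : ℤ) : ZMod 3) = 2 := by
    have h2 : ((k : ℤ) : ZMod 3) = ((2 : ℤ) : ZMod 3) :=
      (ZMod.intCast_eq_intCast_iff k 2 3).2 (by show k % 3 = 2 % 3; omega)
    rw [h2]
    rfl
  rw [h1]
  decide

theorem pair5 {k : ℤ} (hk : k % 5 = 2 ∨ k % 5 = 3) {u v : ℤ} (h : (5 : ℤ) ∣ u ^ 2 - k * v ^ 2) :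
    (5 : ℤ) ∣ u ∧ (5 : ℤ) ∣ v := by
  refine dvd_pair (ℓ := 5) (k := k) ?_ h
  rcases hk with hk | hk
  · have h1 : ((k : ℤ) : ZMod 5) = 2 := by
      have h2 : ((k : ℤ) : ZMod 5) = ((2 : ℤ) : ZMod 5) :=
        (ZMod.intCast_eq_intCast_iff k 2 5).2 (by show k % 5 = 2 % 5; omega)
      rw [h2]
      rfl
    rw [h1]
    decide
  · have h1 : ((k : ℤ) : ZMod 5) = 3 := by
      have h2 : ((k : ℤ) : ZMod 5) = ((3 : ℤ) : ZMod 5) :=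
        (ZMod.intCast_eq_intCast_iff k 3 5).2 (by show k % 5 = 3 % 5; omega)
      rw [h2]
      rfl
    rw [h1]
    decide

theorem pair7 {k : ℤ} (hk : k % 7 = 3 ∨ k % 7 = 6) {u v : ℤ} (h : (7 : ℤ) ∣ u ^ 2 - k * v ^ 2) :
    (7 : ℤ) ∣ u ∧ (7 : ℤ) ∣ v := by
  refine dvd_pair (ℓ := 7) (k := k) ?_ h
  rcases hk with hk | hk
  · have h1 : ((k : ℤ) : ZMod 7) = 3 := by
      have h2 : ((k : ℤ) : ZMod 7) = ((3 : ℤ) : ZMod 7) :=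
        (ZMod.intCast_eq_intCast_iff k 3 7).2 (by show k % 7 = 3 % 7; omega)
      rw [h2]
      rfl
    rw [h1]
    decide
  · have h1 : ((k : ℤ) : ZMod 7) = 6 := by
      have h2 : ((k : ℤ) : ZMod 7) = ((6 : ℤ) : ZMod 7) :=
        (ZMod.intCast_eq_intCast_iff k 6 7).2 (by show k % 7 = 6 % 7; omega)
      rw [h2]
      rfl
    rw [h1]
    decide

theorem dvd3 {x : ℤ} (h : (3 : ℤ) ∣ x ^ 2) : (3 : ℤ) ∣ x := Int.prime_three.dvd_of_dvd_pow h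

theorem prime5 : Prime (5 : ℤ) := Int.prime_iff_natAbs_prime.2 (by norm_num)

theorem prime7 : Prime (7 : ℤ) := Int.prime_iff_natAbs_prime.2 (by norm_num)

theorem dvd5 {x : ℤ} (h : (5 : ℤ) ∣ x ^ 2) : (5 : ℤ) ∣ x := prime5.dvd_of_dvd_pow h

theorem dvd7 {x : ℤ} (h : (7 : ℤ) ∣ x ^ 2) : (7 : ℤ) ∣ x := prime7.dvd_of_dvd_pow h

theorem dvd2 {x : ℤ} (h : (2 : ℤ) ∣ x ^ 2) : (2 : ℤ) ∣ x := Int.prime_two.dvd_of_dvd_pow h

theorem mod8 (x : ℤ) : (∃ y, x = 2 * y) ∨ x ^ 2 % 8 = 1 := by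
  have h : (∃ y, x = 2 * y) ∨ (x % 8 = 1 ∨ x % 8 = 3 ∨ x % 8 = 5 ∨ x % 8 = 7) := by
    rcases Int.emod_two_eq_zero_or_one x with h | h
    · exact Or.inl ⟨x / 2, by omega⟩
    · exact Or.inr (by omega)
  rcases h with h | h
  · exact Or.inl h
  · right
    rcases h with h | h | h | h <;> simp [sq, Int.mul_emod, h]

theorem mod4 (x : ℤ) : x ^ 2 % 4 = 0 ∨ x ^ 2 % 4 = 1 := by
  have h : x % 4 = 0 ∨ x % 4 = 1 ∨ x % 4 = 2 ∨ x % 4 = 3 := by omega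
  rcases h with h | h | h | h <;> simp [sq, Int.mul_emod, h]

theorem mod8' (x : ℤ) : x ^ 2 % 8 = 0 ∨ x ^ 2 % 8 = 1 ∨ x ^ 2 % 8 = 4 := by
  have h : x % 8 = 0 ∨ x % 8 = 1 ∨ x % 8 = 2 ∨ x % 8 = 3 ∨ x % 8 = 4 ∨ x % 8 = 5 ∨ x % 8 = 6 ∨
    x % 8 = 7 := by omega
  rcases h with h | h | h | h | h | h | h | h <;> simp [sq, Int.mul_emod, h]

/-! ### `(a, b) = (16, 9)` -/

theorem s15_31 {U V W n : ℤ} (h1 : 3 * U ^ 2 - V ^ 2 = 16 * n ^ 2)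
    (h2 : 3 * W ^ 2 - 3 * U ^ 2 = 9 * n ^ 2) : n = 0 := by
  refine eq_zero_of_descent (P := fun U V W n => 3 * U ^ 2 - V ^ 2 = 16 * n ^ 2 ∧
    3 * W ^ 2 - 3 * U ^ 2 = 9 * n ^ 2) (ℓ := 3) (by norm_num) ?_ U V W n ⟨h1, h2⟩
  rintro U V W n ⟨h1, h2⟩
  obtain ⟨⟨V', rfl⟩, ⟨n', rfl⟩⟩ := pair3 (k := -16) (u := V) (v := n) (by norm_num)
    ⟨U ^ 2, by linear_combination -h1⟩
  obtain ⟨U', rfl⟩ := dvd3 (x := U) ⟨V' ^ 2 + 16 * n' ^ 2, by linarith⟩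
  obtain ⟨W', rfl⟩ := dvd3 (x := W) ⟨3 * U' ^ 2 + 9 * n' ^ 2, by linarith⟩
  exact ⟨U', V', W', n', rfl, by linarith, by linarith⟩

theorem s15_35 {U V W n : ℤ} (h1 : 3 * U ^ 2 - 5 * V ^ 2 = 16 * n ^ 2)
    (h2 : 15 * W ^ 2 - 3 * U ^ 2 = 9 * n ^ 2) : n = 0 := by
  refine eq_zero_of_descent (P := fun U V W n => 3 * U ^ 2 - 5 * V ^ 2 = 16 * n ^ 2 ∧
    15 * W ^ 2 - 3 * U ^ 2 = 9 * n ^ 2) (ℓ := 3) (by norm_num) ?_ U V W n ⟨h1, h2⟩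
  rintro U V W n ⟨h1, h2⟩
  obtain ⟨⟨U', rfl⟩, ⟨W', rfl⟩⟩ := pair3 (k := 5) (u := U) (v := W) (by norm_num)
    ⟨-n ^ 2, by linarith⟩
  obtain ⟨n', rfl⟩ := dvd3 (x := n) ⟨5 * W' ^ 2 - U' ^ 2, by linarith⟩
  obtain ⟨V', rfl⟩ := dvd3 (x := V) ⟨2 * V ^ 2 - 9 * U' ^ 2 + 48 * n' ^ 2, by linarith⟩
  exact ⟨U', V', W', n', rfl, by linarith, by linarith⟩

theorem s15_210 {U V W n : ℤ} (h1 : 2 * U ^ 2 - 10 * V ^ 2 = 16 * n ^ 2)
    (h2 : 20 * W ^ 2 - 2 * U ^ 2 = 9 * n ^ 2) : n = 0 := by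
  refine eq_zero_of_descent (P := fun U V W n => 2 * U ^ 2 - 10 * V ^ 2 = 16 * n ^ 2 ∧
    20 * W ^ 2 - 2 * U ^ 2 = 9 * n ^ 2) (ℓ := 5) (by norm_num) ?_ U V W n ⟨h1, h2⟩
  rintro U V W n ⟨h1, h2⟩
  obtain ⟨⟨U', rfl⟩, ⟨n', rfl⟩⟩ := pair5 (k := 8) (u := U) (v := n) (by norm_num)
    ⟨V ^ 2, by linarith⟩
  obtain ⟨V', rfl⟩ := dvd5 (x := V) ⟨U' ^ 2 - 8 * n' ^ 2, by linarith⟩
  obtain ⟨W', rfl⟩ := dvd5 (x := W) ⟨W ^ 2 - 2 * U' ^ 2 - 9 * n' ^ 2, by linarith⟩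
  exact ⟨U', V', W', n', rfl, by linarith, by linarith⟩

theorem s15_62 {U V W n : ℤ} (h1 : 6 * U ^ 2 - 2 * V ^ 2 = 16 * n ^ 2)
    (h2 : 12 * W ^ 2 - 6 * U ^ 2 = 9 * n ^ 2) : n = 0 := by
  refine eq_zero_of_descent (P := fun U V W n => 6 * U ^ 2 - 2 * V ^ 2 = 16 * n ^ 2 ∧
    12 * W ^ 2 - 6 * U ^ 2 = 9 * n ^ 2) (ℓ := 3) (by norm_num) ?_ U V W n ⟨h1, h2⟩
  rintro U V W n ⟨h1, h2⟩
  obtain ⟨⟨W', rfl⟩, ⟨U', rfl⟩⟩ := pair3 (k := 2) (u := W) (v := U) (by norm_num)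
    ⟨n ^ 2 - W ^ 2, by linarith⟩
  obtain ⟨n', rfl⟩ := dvd3 (x := n) ⟨4 * W' ^ 2 - 2 * U' ^ 2, by linarith⟩
  obtain ⟨V', rfl⟩ := dvd3 (x := V) ⟨9 * U' ^ 2 - 24 * n' ^ 2, by linarith⟩
  exact ⟨U', V', W', n', rfl, by linarith, by linarith⟩

theorem s15_610 {U V W n : ℤ} (h1 : 6 * U ^ 2 - 10 * V ^ 2 = 16 * n ^ 2)
    (h2 : 60 * W ^ 2 - 6 * U ^ 2 = 9 * n ^ 2) : n = 0 := by
  refine eq_zero_of_descent (P := fun U V W n => 6 * U ^ 2 - 10 * V ^ 2 = 16 * n ^ 2 ∧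
    60 * W ^ 2 - 6 * U ^ 2 = 9 * n ^ 2) (ℓ := 3) (by norm_num) ?_ U V W n ⟨h1, h2⟩
  rintro U V W n ⟨h1, h2⟩
  obtain ⟨⟨V', rfl⟩, ⟨n', rfl⟩⟩ := pair3 (k := -1) (u := V) (v := n) (by norm_num)
    ⟨2 * U ^ 2 - 3 * V ^ 2 - 5 * n ^ 2, by linarith⟩
  obtain ⟨U', rfl⟩ := dvd3 (x := U) ⟨5 * V' ^ 2 + 8 * n' ^ 2, by linarith⟩
  obtain ⟨W', rfl⟩ := dvd3 (x := W) ⟨7 * W ^ 2 - 6 * U' ^ 2 - 9 * n' ^ 2, by linarith⟩
  exact ⟨U', V', W', n', rfl, by linarith, by linarith⟩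

/-! ### Obstructions at `2` -/

theorem two_a {U V W n : ℤ} (h1 : U ^ 2 - V ^ 2 = 8 * n ^ 2)
    (h2 : W ^ 2 - 2 * U ^ 2 = 9 * n ^ 2) : n = 0 := by
  refine eq_zero_of_descent (P := fun U V W n => U ^ 2 - V ^ 2 = 8 * n ^ 2 ∧
    W ^ 2 - 2 * U ^ 2 = 9 * n ^ 2) (ℓ := 2) (le_refl 2) ?_ U V W n ⟨h1, h2⟩
  rintro U V W n ⟨h1, h2⟩
  have k3 := mod8' W
  have k4 := mod8' n
  rcases mod8 U with ⟨U', rfl⟩ | hU
  · rcases mod8 V with ⟨V', rfl⟩ | hV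
    · rcases mod8 n with ⟨n', rfl⟩ | hn
      · rcases mod8 W with ⟨W', rfl⟩ | hW
        · exact ⟨U', V', W', n', rfl, by linarith, by linarith⟩
        · exfalso
          simp only [mul_pow] at h1 h2
          omega
      · exfalso
        have k1 := mod4 U'
        have k2 := mod4 V'
        simp only [mul_pow] at h1 h2
        omega
    · exfalso
      simp only [mul_pow] at h1 h2
      omega
  · exfalso
    omega

theorem two_b {U V W n : ℤ} (h1 : U ^ 2 - V ^ 2 = 8 * n ^ 2)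
    (h2 : W ^ 2 - 2 * U ^ 2 = 1 * n ^ 2) : n = 0 := by
  refine eq_zero_of_descent (P := fun U V W n => U ^ 2 - V ^ 2 = 8 * n ^ 2 ∧
    W ^ 2 - 2 * U ^ 2 = 1 * n ^ 2) (ℓ := 2) (le_refl 2) ?_ U V W n ⟨h1, h2⟩
  rintro U V W n ⟨h1, h2⟩
  have k3 := mod8' W
  have k4 := mod8' n
  rcases mod8 U with ⟨U', rfl⟩ | hU
  · rcases mod8 V with ⟨V', rfl⟩ | hV
    · rcases mod8 n with ⟨n', rfl⟩ | hn
      · rcases mod8 W with ⟨W', rfl⟩ | hW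
        · exact ⟨U', V', W', n', rfl, by linarith, by linarith⟩
        · exfalso
          simp only [mul_pow] at h1 h2
          omega
      · exfalso
        have k1 := mod4 U'
        have k2 := mod4 V'
        simp only [mul_pow] at h1 h2
        omega
    · exfalso
      simp only [mul_pow] at h1 h2
      omega
  · exfalso
    omega

theorem two_c {U V W n : ℤ} (h1 : U ^ 2 - 17 * V ^ 2 = 8 * n ^ 2)
    (h2 : 17 * W ^ 2 - 2 * U ^ 2 = 1 * n ^ 2) : n = 0 := by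
  refine eq_zero_of_descent (P := fun U V W n => U ^ 2 - 17 * V ^ 2 = 8 * n ^ 2 ∧
    17 * W ^ 2 - 2 * U ^ 2 = 1 * n ^ 2) (ℓ := 2) (le_refl 2) ?_ U V W n ⟨h1, h2⟩
  rintro U V W n ⟨h1, h2⟩
  have k3 := mod8' W
  have k4 := mod8' n
  rcases mod8 U with ⟨U', rfl⟩ | hU
  · rcases mod8 V with ⟨V', rfl⟩ | hV
    · rcases mod8 n with ⟨n', rfl⟩ | hn
      · rcases mod8 W with ⟨W', rfl⟩ | hW
        · exact ⟨U', V', W', n', rfl, by linarith, by linarith⟩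
        · exfalso
          simp only [mul_pow] at h1 h2
          omega
      · exfalso
        have k1 := mod4 U'
        have k2 := mod4 V'
        simp only [mul_pow] at h1 h2
        omega
    · exfalso
      simp only [mul_pow] at h1 h2
      omega
  · exfalso
    omega

theorem two_d {U V W n : ℤ} (h1 : U ^ 2 - V ^ 2 = 24 * n ^ 2)
    (h2 : W ^ 2 - 2 * U ^ 2 = 1 * n ^ 2) : n = 0 := by
  refine eq_zero_of_descent (P := fun U V W n => U ^ 2 - V ^ 2 = 24 * n ^ 2 ∧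
    W ^ 2 - 2 * U ^ 2 = 1 * n ^ 2) (ℓ := 2) (le_refl 2) ?_ U V W n ⟨h1, h2⟩
  rintro U V W n ⟨h1, h2⟩
  have k3 := mod8' W
  have k4 := mod8' n
  rcases mod8 U with ⟨U', rfl⟩ | hU
  · rcases mod8 V with ⟨V', rfl⟩ | hV
    · rcases mod8 n with ⟨n', rfl⟩ | hn
      · rcases mod8 W with ⟨W', rfl⟩ | hW
        · exact ⟨U', V', W', n', rfl, by linarith, by linarith⟩
        · exfalso
          simp only [mul_pow] at h1 h2
          omega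
      · exfalso
        have k1 := mod4 U'
        have k2 := mod4 V'
        simp only [mul_pow] at h1 h2
        omega
    · exfalso
      simp only [mul_pow] at h1 h2
      omega
  · exfalso
    omega

theorem two_e {U V W n : ℤ} (h1 : U ^ 2 - V ^ 2 = 8 * n ^ 2)
    (h2 : W ^ 2 - 6 * U ^ 2 = 1 * n ^ 2) : n = 0 := by
  refine eq_zero_of_descent (P := fun U V W n => U ^ 2 - V ^ 2 = 8 * n ^ 2 ∧
    W ^ 2 - 6 * U ^ 2 = 1 * n ^ 2) (ℓ := 2) (le_refl 2) ?_ U V W n ⟨h1, h2⟩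
  rintro U V W n ⟨h1, h2⟩
  have k3 := mod8' W
  have k4 := mod8' n
  rcases mod8 U with ⟨U', rfl⟩ | hU
  · rcases mod8 V with ⟨V', rfl⟩ | hV
    · rcases mod8 n with ⟨n', rfl⟩ | hn
      · rcases mod8 W with ⟨W', rfl⟩ | hW
        · exact ⟨U', V', W', n', rfl, by linarith, by linarith⟩
        · exfalso
          simp only [mul_pow] at h1 h2
          omega
      · exfalso
        have k1 := mod4 U'
        have k2 := mod4 V'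
        simp only [mul_pow] at h1 h2
        omega
    · exfalso
      simp only [mul_pow] at h1 h2
      omega
  · exfalso
    omega

theorem two_f {U V W n : ℤ} (h1 : U ^ 2 - 7 * V ^ 2 = 24 * n ^ 2)
    (h2 : 7 * W ^ 2 - 2 * U ^ 2 = n ^ 2) : n = 0 := by
  refine eq_zero_of_descent (P := fun U V W n => U ^ 2 - 7 * V ^ 2 = 24 * n ^ 2 ∧
    7 * W ^ 2 - 2 * U ^ 2 = n ^ 2) (ℓ := 2) (le_refl 2) ?_ U V W n ⟨h1, h2⟩
  rintro U V W n ⟨h1, h2⟩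
  have k3 := mod8' W
  have k4 := mod8' n
  rcases mod8 U with ⟨U', rfl⟩ | hU
  · rcases mod8 V with ⟨V', rfl⟩ | hV
    · rcases mod8 n with ⟨n', rfl⟩ | hn
      · rcases mod8 W with ⟨W', rfl⟩ | hW
        · exact ⟨U', V', W', n', rfl, by linarith, by linarith⟩
        · exfalso
          simp only [mul_pow] at h1 h2
          omega
      · exfalso
        have k1 := mod4 U'
        have k2 := mod4 V'
        simp only [mul_pow] at h1 h2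
        omega
    · exfalso
      simp only [mul_pow] at h1 h2
      omega
  · exfalso
    omega

theorem two_g {U V W n : ℤ} (h1 : U ^ 2 - 7 * V ^ 2 = 8 * n ^ 2)
    (h2 : 7 * W ^ 2 - 6 * U ^ 2 = n ^ 2) : n = 0 := by
  refine eq_zero_of_descent (P := fun U V W n => U ^ 2 - 7 * V ^ 2 = 8 * n ^ 2 ∧
    7 * W ^ 2 - 6 * U ^ 2 = n ^ 2) (ℓ := 2) (le_refl 2) ?_ U V W n ⟨h1, h2⟩
  rintro U V W n ⟨h1, h2⟩
  have k3 := mod8' W
  have k4 := mod8' n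
  rcases mod8 U with ⟨U', rfl⟩ | hU
  · rcases mod8 V with ⟨V', rfl⟩ | hV
    · rcases mod8 n with ⟨n', rfl⟩ | hn
      · rcases mod8 W with ⟨W', rfl⟩ | hW
        · exact ⟨U', V', W', n', rfl, by linarith, by linarith⟩
        · exfalso
          simp only [mul_pow] at h1 h2
          omega
      · exfalso
        have k1 := mod4 U'
        have k2 := mod4 V'
        simp only [mul_pow] at h1 h2
        omega
    · exfalso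
      simp only [mul_pow] at h1 h2
      omega
  · exfalso
    have k2 := mod8' V
    omega

/-! ### `(a, b) = (48, 1)`: obstructions at `7` -/

theorem s21_17 {U V W n : ℤ} (h1 : U ^ 2 - 7 * V ^ 2 = 48 * n ^ 2)
    (h2 : 7 * W ^ 2 - U ^ 2 = n ^ 2) : n = 0 := by
  refine eq_zero_of_descent (P := fun U V W n => U ^ 2 - 7 * V ^ 2 = 48 * n ^ 2 ∧
    7 * W ^ 2 - U ^ 2 = n ^ 2) (ℓ := 7) (by norm_num) ?_ U V W n ⟨h1, h2⟩
  rintro U V W n ⟨h1, h2⟩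
  obtain ⟨⟨U', rfl⟩, ⟨n', rfl⟩⟩ := pair7 (k := -1) (u := U) (v := n) (by norm_num)
    ⟨W ^ 2, by linarith⟩
  obtain ⟨V', rfl⟩ := dvd7 (x := V) ⟨U' ^ 2 - 48 * n' ^ 2, by linarith⟩
  obtain ⟨W', rfl⟩ := dvd7 (x := W) ⟨U' ^ 2 + n' ^ 2, by linarith⟩
  exact ⟨U', V', W', n', rfl, by linarith, by linarith⟩

theorem s21_321 {U V W n : ℤ} (h1 : 3 * U ^ 2 - 21 * V ^ 2 = 48 * n ^ 2)
    (h2 : 63 * W ^ 2 - 3 * U ^ 2 = n ^ 2) : n = 0 := by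
  refine eq_zero_of_descent (P := fun U V W n => 3 * U ^ 2 - 21 * V ^ 2 = 48 * n ^ 2 ∧
    63 * W ^ 2 - 3 * U ^ 2 = n ^ 2) (ℓ := 7) (by norm_num) ?_ U V W n ⟨h1, h2⟩
  rintro U V W n ⟨h1, h2⟩
  obtain ⟨⟨W', hW⟩, ⟨V', rfl⟩⟩ := pair7 (k := 3) (u := 3 * W) (v := V) (by norm_num)
    ⟨n ^ 2, by linarith⟩
  obtain ⟨W', rfl⟩ : (7 : ℤ) ∣ W := by omega
  obtain ⟨n', rfl⟩ := dvd7 (x := n) ⟨9 * W' ^ 2 - 3 * V' ^ 2, by linarith⟩
  obtain ⟨U', rfl⟩ := dvd7 (x := U) ⟨49 * V' ^ 2 + 112 * n' ^ 2, by linarith⟩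
  exact ⟨U', V', W', n', rfl, by linarith, by linarith⟩

end Fermat.Agent.Cor.BSD
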