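import Mathlib
import Fermat.Agent.Corollaries.Congruent.Descent
import Fermat.Agent.Corollaries.BSD.Systems

/-!
# The classes of the complete 2-descent on three elliptic curves
-/

set_option autoImplicit false

namespace Fermat.Agent.Cor.BSD

open Fermat.Agent.Cor.Congruent (even_val not_dvd_of_even exists_sqfree exists_common sqfree_dvd)

theorem val_zero {q d : ℕ} (h : ¬ q ∣ d) : padicValRat q (d : ℚ) = 0 := by
  rw [padicValRat.of_nat, padicValNat.eq_zero_of_not_dvd h]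
  rfl

/-- The valuation of a squarefree number. -/
theorem val_sqfree {q a : ℕ} [hq : Fact q.Prime] (ha : Squarefree a) :
    padicValRat q (a : ℚ) = if q ∣ a then 1 else 0 := by
  split_ifs with h
  · obtain ⟨m, rfl⟩ := h
    have hqa : ¬ q ∣ m := by
      rintro ⟨k, rfl⟩
      have h1 := ha q ⟨k, by ring⟩
      exact hq.out.one_lt.ne' (Nat.isUnit_iff.1 h1)
    have hm : m ≠ 0 := by
      rintro rfl
      exact hqa (dvd_zero q)
    have hq0 : (q : ℚ) ≠ 0 := by exact_mod_cast hq.out.ne_zero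
    have hm0 : (m : ℚ) ≠ 0 := by exact_mod_cast hm
    rw [Nat.cast_mul, padicValRat.mul hq0 hm0, padicValRat.self hq.out.one_lt, val_zero hqa,
      add_zero]
  · exact val_zero h

/-- **The homogeneous systems of the 2-descent** on `t² = X (X - a) (X + b)`. -/
theorem exists_system {a b : ℕ} (ha : a ≠ 0) (hb : b ≠ 0) {X t : ℚ} (ht : t ≠ 0)
    (h : t ^ 2 = X * (X - a) * (X + b)) (hX : 0 < X) :
    ∃ α β : ℕ, ∃ U V W n : ℤ, n ≠ 0 ∧ Squarefree α ∧ Squarefree β ∧
      (∀ q : ℕ, q.Prime → q ∣ α → q ∣ a * b) ∧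
      (∀ q : ℕ, q.Prime → q ∣ β → q ∣ a * (a + b)) ∧
      (∀ q : ℕ, q.Prime → ¬ q ∣ b * (a + b) → (q ∣ α ↔ q ∣ β)) ∧
      (α : ℤ) * U ^ 2 - β * V ^ 2 = a * n ^ 2 ∧ (α : ℤ) * β * W ^ 2 - α * U ^ 2 = b * n ^ 2 ∧
      X = α * ((U : ℚ) / n) ^ 2 ∧ X + b = α * β * ((W : ℚ) / n) ^ 2 := by
  have ha0 : (0 : ℚ) < a := by exact_mod_cast Nat.pos_of_ne_zero ha
  have hb0 : (0 : ℚ) < b := by exact_mod_cast Nat.pos_of_ne_zero hb
  have hXb : 0 < X + b := by linarith
  have hXa : 0 < X - a := by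
    have h1 : 0 < X * (X + b) * (X - a) := by
      have h2 : X * (X + b) * (X - a) = t ^ 2 := by rw [h]; ring
      rw [h2]
      positivity
    exact (mul_pos_iff_of_pos_left (mul_pos hX hXb)).1 h1
  obtain ⟨α, u, hα, hu, hXu⟩ := exists_sqfree hX
  obtain ⟨β, v, hβ, hv, hXv⟩ := exists_sqfree hXa
  have hα0 : (α : ℚ) ≠ 0 := by
    intro h0
    rw [h0, zero_mul] at hXu
    exact hX.ne' hXu
  have hβ0 : (β : ℚ) ≠ 0 := by
    intro h0
    rw [h0, zero_mul] at hXv
    exact hXa.ne' hXv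
  obtain ⟨w, hw⟩ : ∃ w : ℚ, X + b = α * β * w ^ 2 := by
    refine ⟨t / (α * β * u * v), ?_⟩
    have h1 : (α * u ^ 2) * (β * v ^ 2) * (X + b) = t ^ 2 := by rw [← hXu, ← hXv, h]
    field_simp
    linear_combination h1
  have hw0 : w ≠ 0 := by
    rintro rfl
    apply hXb.ne'
    rw [hw]
    ring
  obtain ⟨U, V, W, n, hn, hU, hV, hW⟩ := exists_common u v w
  have hnQ : (n : ℚ) ≠ 0 := by exact_mod_cast hn
  refine ⟨α, β, U, V, W, n, hn, hα, hβ, ?_, ?_, ?_, ?_, ?_, ?_, ?_⟩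
  · intro q hq hqα
    by_contra hq2
    have : Fact q.Prime := ⟨hq⟩
    have hqa : ¬ q ∣ a := fun h0 => hq2 (Dvd.dvd.mul_right h0 b)
    have hqb : ¬ q ∣ b := fun h0 => hq2 (Dvd.dvd.mul_left h0 a)
    refine not_dvd_of_even hα hu hXu ?_ hqα
    exact even_val (a := X) (b := X - a) (c := X + b) (d₁ := a) (d₂ := -b) hX.ne' hXa.ne'
      hXb.ne' ha0.ne' (neg_ne_zero.2 hb0.ne') (by ring) (by ring) (val_zero hqa)
      (by rw [padicValRat.neg]; exact val_zero hqb) h.symm
  · intro q hq hqβ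
    by_contra hq2
    have : Fact q.Prime := ⟨hq⟩
    have hqa : ¬ q ∣ a := fun h0 => hq2 (Dvd.dvd.mul_right h0 _)
    have hqab : ¬ q ∣ a + b := fun h0 => hq2 (Dvd.dvd.mul_left h0 a)
    refine not_dvd_of_even hβ hv hXv ?_ hqβ
    exact even_val (a := X - a) (b := X) (c := X + b) (d₁ := -a) (d₂ := -((a + b : ℕ) : ℚ))
      hXa.ne' hX.ne' hXb.ne' (neg_ne_zero.2 ha0.ne')
      (neg_ne_zero.2 (by push_cast; linarith)) (by ring) (by push_cast; ring)
      (by rw [padicValRat.neg]; exact val_zero hqa)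
      (by rw [padicValRat.neg]; exact val_zero hqab) (by rw [h]; ring)
  · intro q hq hq2
    have : Fact q.Prime := ⟨hq⟩
    have hqb : ¬ q ∣ b := fun h0 => hq2 (Dvd.dvd.mul_right h0 _)
    have hqab : ¬ q ∣ a + b := fun h0 => hq2 (Dvd.dvd.mul_left h0 b)
    have he : Even (padicValRat q (X + b)) := by
      refine even_val (a := X + b) (b := X) (c := X - a) (d₁ := b) (d₂ := ((a + b : ℕ) : ℚ))
        hXb.ne' hX.ne' hXa.ne' hb0.ne' (by push_cast; linarith) (by ring) (by push_cast; ring)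
        (val_zero hqb) (val_zero hqab) (t := t) (by rw [h]; ring)
    rw [hw, padicValRat.mul (mul_ne_zero hα0 hβ0) (pow_ne_zero 2 hw0), padicValRat.mul hα0 hβ0,
      padicValRat.pow, val_sqfree hα, val_sqfree hβ] at he
    obtain ⟨k, hk⟩ := he
    push_cast at hk
    split_ifs at hk with h1 h2 h2
    · exact ⟨fun _ => h2, fun _ => h1⟩
    · omega
    · omega
    · exact ⟨fun h3 => absurd h3 h1, fun h3 => absurd h3 h2⟩
  · have h1 : (α : ℚ) * U ^ 2 - β * V ^ 2 = a * n ^ 2 := by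
      rw [← hU, ← hV]
      linear_combination (n : ℚ) ^ 2 * (hXv - hXu)
    exact_mod_cast h1
  · have h1 : (α : ℚ) * β * W ^ 2 - α * U ^ 2 = b * n ^ 2 := by
      rw [← hU, ← hW]
      linear_combination (n : ℚ) ^ 2 * (hXu - hw)
    exact_mod_cast h1
  · rw [← hU, mul_div_cancel_right₀ _ hnQ]
    exact hXu
  · rw [← hW, mul_div_cancel_right₀ _ hnQ]
    exact hw

/-- The class of a point of `t² = X (X - a) (X + b)` with `X > 0` is trivial, or the class of a
given point. -/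
def Cls (a b κ lam : ℕ) : Prop :=
  ∀ X t : ℚ, t ≠ 0 → t ^ 2 = X * (X - a) * (X + b) → 0 < X →
    (IsSquare X ∧ IsSquare (X + b)) ∨ (IsSquare (κ * X) ∧ IsSquare (lam * (X + b)))

theorem dvd_of_dvd_of_pow {q m N k : ℕ} (hq : q.Prime) (h : q ∣ m) (hm : m ∣ N ^ k) : q ∣ N :=
  hq.dvd_of_dvd_pow (h.trans hm)

theorem cls15 : Cls 16 9 1 5 := by
  intro X t ht h hX
  obtain ⟨α, β, U, V, W, n, hn, hα, hβ, pα, pβ, pp, E1, E2, hXU, hXW⟩ :=
    exists_system (by norm_num) (by norm_num) ht h hX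
  have dα : α ∈ Nat.divisors 6 := Nat.mem_divisors.2 ⟨sqfree_dvd hα (by norm_num) fun q hq hqa =>
    dvd_of_dvd_of_pow (k := 4) hq (pα q hq hqa) (by norm_num), by norm_num⟩
  have dβ : β ∈ Nat.divisors 10 := Nat.mem_divisors.2 ⟨sqfree_dvd hβ (by norm_num) fun q hq hqa =>
    dvd_of_dvd_of_pow (k := 4) hq (pβ q hq hqa) (by norm_num), by norm_num⟩
  have p2 := pp 2 Nat.prime_two (by norm_num)
  have e6 : Nat.divisors 6 = {1, 2, 3, 6} := by decide
  have e10 : Nat.divisors 10 = {1, 2, 5, 10} := by decide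
  rw [e6] at dα
  rw [e10] at dβ
  simp only [Finset.mem_insert, Finset.mem_singleton] at dα dβ
  clear pα pβ pp hα hβ e6 e10
  rcases dα with rfl | rfl | rfl | rfl <;> rcases dβ with rfl | rfl | rfl | rfl <;>
    first
    | (exfalso; revert p2; decide)
    | skip
  all_goals push_cast at E1 E2 hXU hXW
  · exact Or.inl ⟨⟨U / n, by rw [hXU]; ring⟩, ⟨W / n, by push_cast; rw [hXW]; ring⟩⟩
  · exact Or.inr ⟨⟨U / n, by push_cast; rw [hXU]; ring⟩, ⟨5 * W / n, by push_cast; rw [hXW]; ring⟩⟩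
  · exact absurd (two_a (U := U) (V := V) (W := 2 * W) (n := n) (by linarith) (by linarith)) hn
  · exact absurd (s15_210 (U := U) (V := V) (W := W) (n := n) (by linarith) (by linarith)) hn
  · exact absurd (s15_31 (U := U) (V := V) (W := W) (n := n) (by linarith) (by linarith)) hn
  · exact absurd (s15_35 (U := U) (V := V) (W := W) (n := n) (by linarith) (by linarith)) hn
  · exact absurd (s15_62 (U := U) (V := V) (W := W) (n := n) (by linarith) (by linarith)) hn
  · exact absurd (s15_610 (U := U) (V := V) (W := W) (n := n) (by linarith) (by linarith)) hn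

theorem cls17 : Cls 16 1 1 17 := by
  intro X t ht h hX
  obtain ⟨α, β, U, V, W, n, hn, hα, hβ, pα, pβ, pp, E1, E2, hXU, hXW⟩ :=
    exists_system (by norm_num) (by norm_num) ht h hX
  have dα : α ∈ Nat.divisors 2 := Nat.mem_divisors.2 ⟨sqfree_dvd hα (by norm_num) fun q hq hqa =>
    dvd_of_dvd_of_pow (k := 4) hq (pα q hq hqa) (by norm_num), by norm_num⟩
  have dβ : β ∈ Nat.divisors 34 := Nat.mem_divisors.2 ⟨sqfree_dvd hβ (by norm_num) fun q hq hqa =>
    dvd_of_dvd_of_pow (k := 4) hq (pβ q hq hqa) (by norm_num), by norm_num⟩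
  have p2 := pp 2 Nat.prime_two (by norm_num)
  have e6 : Nat.divisors 2 = {1, 2} := by decide
  have e10 : Nat.divisors 34 = {1, 2, 17, 34} := by decide
  rw [e6] at dα
  rw [e10] at dβ
  simp only [Finset.mem_insert, Finset.mem_singleton] at dα dβ
  clear pα pβ pp hα hβ e6 e10
  rcases dα with rfl | rfl <;> rcases dβ with rfl | rfl | rfl | rfl <;>
    first
    | (exfalso; revert p2; decide)
    | skip
  all_goals push_cast at E1 E2 hXU hXW
  · exact Or.inl ⟨⟨U / n, by rw [hXU]; ring⟩, ⟨W / n, by push_cast; rw [hXW]; ring⟩⟩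
  · exact Or.inr ⟨⟨U / n, by push_cast; rw [hXU]; ring⟩,
      ⟨17 * W / n, by push_cast; rw [hXW]; ring⟩⟩
  · exact absurd (two_b (U := U) (V := V) (W := 2 * W) (n := n) (by linarith) (by linarith)) hn
  · exact absurd (two_c (U := U) (V := V) (W := 2 * W) (n := n) (by linarith) (by linarith)) hn

theorem cls21 : Cls 48 1 3 1 := by
  intro X t ht h hX
  obtain ⟨α, β, U, V, W, n, hn, hα, hβ, pα, pβ, pp, E1, E2, hXU, hXW⟩ :=
    exists_system (by norm_num) (by norm_num) ht h hX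
  have dα : α ∈ Nat.divisors 6 := Nat.mem_divisors.2 ⟨sqfree_dvd hα (by norm_num) fun q hq hqa =>
    dvd_of_dvd_of_pow (k := 4) hq (pα q hq hqa) (by norm_num), by norm_num⟩
  have dβ : β ∈ Nat.divisors 42 := Nat.mem_divisors.2 ⟨sqfree_dvd hβ (by norm_num) fun q hq hqa =>
    dvd_of_dvd_of_pow (k := 4) hq (pβ q hq hqa) (by norm_num), by norm_num⟩
  have p2 := pp 2 Nat.prime_two (by norm_num)
  have p3 := pp 3 Nat.prime_three (by norm_num)
  have e6 : Nat.divisors 6 = {1, 2, 3, 6} := by decide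
  have e10 : Nat.divisors 42 = {1, 2, 3, 6, 7, 14, 21, 42} := by decide
  rw [e6] at dα
  rw [e10] at dβ
  simp only [Finset.mem_insert, Finset.mem_singleton] at dα dβ
  clear pα pβ pp hα hβ e6 e10
  rcases dα with rfl | rfl | rfl | rfl <;>
    rcases dβ with rfl | rfl | rfl | rfl | rfl | rfl | rfl | rfl <;>
    first
    | (exfalso; revert p2 p3; decide)
    | skip
  all_goals push_cast at E1 E2 hXU hXW
  · exact Or.inl ⟨⟨U / n, by rw [hXU]; ring⟩, ⟨W / n, by push_cast; rw [hXW]; ring⟩⟩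
  · exact absurd (s21_17 (U := U) (V := V) (W := W) (n := n) (by linarith) (by linarith)) hn
  · exact absurd (two_d (U := U) (V := V) (W := 2 * W) (n := n) (by linarith) (by linarith)) hn
  · exact absurd (two_f (U := U) (V := V) (W := 2 * W) (n := n) (by linarith) (by linarith)) hn
  · exact Or.inr ⟨⟨3 * U / n, by push_cast; rw [hXU]; ring⟩,
      ⟨3 * W / n, by push_cast; rw [hXW]; ring⟩⟩
  · exact absurd (s21_321 (U := U) (V := V) (W := W) (n := n) (by linarith) (by linarith)) hn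
  · exact absurd (two_e (U := U) (V := V) (W := 6 * W) (n := n) (by linarith) (by linarith)) hn
  · exact absurd (two_g (U := U) (V := V) (W := 6 * W) (n := n) (by linarith) (by linarith)) hn

end Fermat.Agent.Cor.BSD
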