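import Mathlib
import Fermat.Agent.Corollaries.MordellWeil.Main

/-!
# A criterion for rank zero

If every point of an elliptic curve over a number field becomes divisible by `2` after adding a
point of finite order, the group of points is finite.
-/

set_option autoImplicit false

namespace Fermat.Agent.Cor.BSD

open WeierstrassCurve

/-- A finitely generated abelian group (given as `T × ℤ^r`, `T` finite) in which every element is
a double up to torsion is finite. -/
theorem finite_of_double {A T : Type*} [AddCommGroup A] [AddCommGroup T] [Finite T] {r : ℕ}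
    (e : A ≃+ T × (Fin r → ℤ))
    (h : ∀ P : A, ∃ t : A, IsOfFinAddOrder t ∧ ∃ R : A, R + R = P + t) : Finite A := by
  rcases Nat.eq_zero_or_pos r with hr | hr
  · subst hr
    exact Finite.of_equiv _ e.symm.toEquiv
  · exfalso
    let i : Fin r := ⟨0, hr⟩
    obtain ⟨t, ht, R, hR⟩ := h (e.symm (0, Pi.single i 1))
    obtain ⟨n, hn, hnt⟩ := isOfFinAddOrder_iff_nsmul_eq_zero.1 ht
    have h1 : (e t).2 i = 0 := by
      have h2 := congrArg (fun a => (e a).2 i) hnt
      simp only [map_nsmul, map_zero, Prod.smul_snd, Prod.snd_zero, Pi.smul_apply,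
        Pi.zero_apply] at h2
      rcases (by simpa using h2 : n = 0 ∨ (e t).2 i = 0) with h3 | h3
      · exact absurd h3 hn.ne'
      · exact h3
    have h2 := congrArg (fun a => (e a).2 i) hR
    simp only [map_add, AddEquiv.apply_symm_apply, Prod.snd_add, Pi.add_apply, h1,
      Pi.single_eq_same, add_zero] at h2
    omega

/-- **Criterion for rank zero.** -/
theorem finite_points {K : Type*} [Field K] [NumberField K] [DecidableEq K]
    (W : WeierstrassCurve K) [W.IsElliptic]
    (h : ∀ P : W.toAffine.Point, ∃ t : W.toAffine.Point, IsOfFinAddOrder t ∧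
      ∃ R : W.toAffine.Point, R + R = P + t) : Finite W.toAffine.Point := by
  obtain ⟨r, T, hT, hfin, ⟨e⟩⟩ := MordellWeil.exists_equiv K W
  exact finite_of_double e h

/-- The rank of a finite group of points is zero. -/
theorem finrank_eq_zero {A : Type*} [AddCommGroup A] [Finite A] : Module.finrank ℤ A = 0 := by
  have h : Module.rank ℤ A = 0 := by
    rw [rank_eq_zero_iff]
    intro x
    obtain ⟨n, hn, hnx⟩ := isOfFinAddOrder_iff_nsmul_eq_zero.1 (isOfFinAddOrder_of_finite x)
    exact ⟨n, by exact_mod_cast hn.ne', by rw [natCast_zsmul]; exact hnx⟩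
  unfold Module.finrank
  rw [h]
  simp

end Fermat.Agent.Cor.BSD
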