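import Mathlib
import Fermat.Agent.Corollaries.MordellWeil.Weak
import Fermat.Agent.Corollaries.BSD.Criterion
import Fermat.Agent.Corollaries.BSD.Classes

/-!
# The rational points of three semistable elliptic curves

The curves `y² + xy = x³ - 2x² - 9x`, `y² + xy = x³ - 4x² - x`, `y² + xy = x³ - 12x² - 3x`
(discriminants `15⁴`, `17²`, `3² 7⁴`; conductors `15`, `17`, `21`) have only finitely many
rational points.
-/

set_option autoImplicit false

namespace Fermat.Agent.Cor.BSD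

open WeierstrassCurve
open Fermat.Agent.Cor.MordellWeil (Splits2 eta eta_sq isSquare_line exists_half root₁ root₂ root₃
  two_ne_of_eta)

theorem isOfFinAddOrder_of_double {A : Type*} [AddGroup A] {P : A} (h : P + P = 0) :
    IsOfFinAddOrder P :=
  isOfFinAddOrder_iff_nsmul_eq_zero.2 ⟨2, two_pos, by rw [two_nsmul, h]⟩

theorem eta_ne {W : WeierstrassCurve ℚ} {x y : ℚ} {h : W.toAffine.Nonsingular x y}
    (hP : ¬ IsOfFinAddOrder (Affine.Point.some x y h)) : eta W x y ≠ 0 := fun h0 =>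
  hP (isOfFinAddOrder_of_double
    (Affine.Point.add_self_of_Y_eq ((two_ne_of_eta two_ne_zero).2 h0)))

/-- The sum of a point of infinite order and a point of finite order. -/
theorem exists_add {W : WeierstrassCurve ℚ} {x y x₀ y₀ : ℚ} (h : W.toAffine.Nonsingular x y)
    (h₀ : W.toAffine.Nonsingular x₀ y₀) (hP : ¬ IsOfFinAddOrder (Affine.Point.some x y h))
    (hQ : IsOfFinAddOrder (Affine.Point.some x₀ y₀ h₀)) :
    ∃ (x' y' : ℚ) (h' : W.toAffine.Nonsingular x' y'),
      Affine.Point.some x y h + Affine.Point.some x₀ y₀ h₀ = Affine.Point.some x' y' h' ∧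
      ¬ IsOfFinAddOrder (Affine.Point.some x' y' h') ∧
      ∀ e, 4 * e ^ 3 + W.b₂ * e ^ 2 + 2 * W.b₄ * e + W.b₆ = 0 →
        IsSquare ((x - e) * (x₀ - e) * (x' - e)) := by
  have hsum : ¬ IsOfFinAddOrder (Affine.Point.some x y h + Affine.Point.some x₀ y₀ h₀) := by
    intro hc
    apply hP
    have := hc.add hQ.neg
    rwa [add_neg_cancel_right] at this
  by_cases hxy : x = x₀ ∧ y = W.toAffine.negY x₀ y₀
  · exfalso
    apply hsum
    rw [Affine.Point.add_of_Y_eq hxy.1 hxy.2]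
    exact IsOfFinAddOrder.zero
  · have hadd := Affine.Point.add_some hxy (h₁ := h) (h₂ := h₀)
    refine ⟨_, _, _, hadd, ?_, fun e he => isSquare_line two_ne_zero he h.1 h₀.1 hxy⟩
    rw [← hadd]
    exact hsum

/-- If `k A`, `k B` and `A B C` are squares, so is `C`. -/
theorem sq_third {A B C k : ℚ} (hA : A ≠ 0) (hB : B ≠ 0) (hk : k ≠ 0) (h1 : IsSquare (k * A))
    (h2 : IsSquare (k * B)) (h3 : IsSquare (A * B * C)) : IsSquare C := by
  obtain ⟨p, hp⟩ := h1
  obtain ⟨q, hq⟩ := h2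
  obtain ⟨r, hr⟩ := h3
  have hp0 : p ≠ 0 := by
    rintro rfl
    exact mul_ne_zero hk hA (by rw [hp]; ring)
  have hq0 : q ≠ 0 := by
    rintro rfl
    exact mul_ne_zero hk hB (by rw [hq]; ring)
  refine ⟨k * r / (p * q), ?_⟩
  have h4 : k * r / (p * q) * (k * r / (p * q)) = k * k * (r * r) / ((p * p) * (q * q)) := by
    field_simp
  rw [h4, ← hp, ← hq, ← hr]
  field_simp

section General

variable {W : WeierstrassCurve ℚ} {a b : ℕ}

theorem eta_sq' (hs : Splits2 W 0 ((a : ℚ) / 4) (-((b : ℚ) / 4))) {x y : ℚ}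
    (h : W.toAffine.Equation x y) :
    (8 * eta W x y) ^ 2 = 4 * x * (4 * x - a) * (4 * x + b) := by
  have h1 := eta_sq two_ne_zero hs h
  linear_combination 64 * h1

/-- A point of infinite order is a double if `4 x` and `4 x + b` are squares. -/
theorem half_of_squares (hΔ : W.Δ ≠ 0) (hs : Splits2 W 0 ((a : ℚ) / 4) (-((b : ℚ) / 4))) {x y : ℚ}
    {h : W.toAffine.Nonsingular x y} (hP : ¬ IsOfFinAddOrder (Affine.Point.some x y h))
    (h1 : IsSquare (4 * x)) (h2 : IsSquare (4 * x + b)) :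
    ∃ R : W.toAffine.Point, R + R = Affine.Point.some x y h := by
  have hη := eta_ne hP
  have hE := eta_sq' hs h.1
  have h0 : 4 * x * (4 * x - a) * (4 * x + b) ≠ 0 := by
    rw [← hE]
    exact pow_ne_zero 2 (mul_ne_zero (by norm_num) hη)
  have hx0 : 4 * x ≠ 0 := fun h3 => h0 (by rw [h3]; ring)
  have hxb : 4 * x + b ≠ 0 := fun h3 => h0 (by rw [h3]; ring)
  have h3 : IsSquare (4 * x - a) := by
    refine sq_third hx0 hxb one_ne_zero (by rwa [one_mul]) (by rwa [one_mul])
      ⟨8 * eta W x y, ?_⟩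
    rw [← sq, hE]
    ring
  have key : ∀ {z w : ℚ}, IsSquare z → z = 4 * w → IsSquare w := by
    rintro z w ⟨r, rfl⟩ hw
    exact ⟨r / 2, by linear_combination -(1 / 4 : ℚ) * hw⟩
  refine exists_half two_ne_zero hΔ hs h (key h1 (by ring)) (key h3 (by ring)) (key h2 (by ring))

/-- **The criterion**: if all classes come from the point `(x₀, y₀)` of finite order, the group of
rational points is finite. -/
theorem finite_of_cls [W.IsElliptic] {κ lam : ℕ} (ha : 0 < a) (hκ0 : κ ≠ 0)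
    (hlam0 : lam ≠ 0) (hs : Splits2 W 0 ((a : ℚ) / 4) (-((b : ℚ) / 4))) (hcls : Cls a b κ lam)
    {y₁ : ℚ} (hT : W.toAffine.Nonsingular 0 y₁)
    (hT0 : IsOfFinAddOrder (Affine.Point.some 0 y₁ hT))
    {x₀ y₀ : ℚ} (hQ : W.toAffine.Nonsingular x₀ y₀)
    (hQ0 : IsOfFinAddOrder (Affine.Point.some x₀ y₀ hQ))
    (hx₀ : x₀ ≠ 0) (hx₀b : 4 * x₀ + b ≠ 0) (hκ : IsSquare (κ * (4 * x₀)))
    (hlam : IsSquare (lam * (4 * x₀ + b))) : Finite W.toAffine.Point := by
  have hΔ : W.Δ ≠ 0 := W.isUnit_Δ.ne_zero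
  have ha0 : (0 : ℚ) < a := by exact_mod_cast ha
  refine finite_points W fun P => ?_
  by_cases hP : IsOfFinAddOrder P
  · exact ⟨-P, hP.neg, 0, by rw [add_neg_cancel, add_zero]⟩
  obtain ⟨t₁, ht₁, x, y, h, hPt, hnt, hx⟩ : ∃ t₁ : W.toAffine.Point, IsOfFinAddOrder t₁ ∧
      ∃ (x y : ℚ) (h : W.toAffine.Nonsingular x y), P + t₁ = Affine.Point.some x y h ∧
      ¬ IsOfFinAddOrder (Affine.Point.some x y h) ∧ 0 < x := by
    cases P with
    | zero => exact absurd IsOfFinAddOrder.zero hP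
    | some x y h =>
      have hη := eta_ne hP
      have hE := eta_sq' hs h.1
      have h0 : 4 * x * (4 * x - a) * (4 * x + b) ≠ 0 := by
        rw [← hE]
        exact pow_ne_zero 2 (mul_ne_zero (by norm_num) hη)
      have hx0 : x ≠ 0 := fun h3 => h0 (by rw [h3]; ring)
      rcases lt_or_gt_of_ne hx0 with hx | hx
      · obtain ⟨x', y', h', hadd, hnt, hsq⟩ := exists_add h hT hP hT0
        refine ⟨_, hT0, x', y', h', hadd, hnt, ?_⟩
        have h1 := (hsq _ (root₂ hs)).nonneg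
        have h2 : 0 < (x - (a : ℚ) / 4) * (0 - (a : ℚ) / 4) :=
          mul_pos_of_neg_of_neg (by linarith) (by linarith)
        have h3 : 0 ≤ x' - (a : ℚ) / 4 := nonneg_of_mul_nonneg_right h1 h2
        linarith
      · exact ⟨0, IsOfFinAddOrder.zero, x, y, h, add_zero _, hP, hx⟩
  have hE := eta_sq' hs h.1
  have hη := eta_ne hnt
  rcases hcls (4 * x) (8 * eta W x y) (mul_ne_zero (by norm_num) hη) hE (by linarith) with
    ⟨h1, h2⟩ | ⟨h1, h2⟩
  · obtain ⟨R, hR⟩ := half_of_squares hΔ hs hnt h1 h2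
    exact ⟨t₁, ht₁, R, by rw [hR, hPt]⟩
  · obtain ⟨x', y', h', hadd, hnt', hsq⟩ := exists_add h hQ hnt hQ0
    have h0 : 4 * x * (4 * x - a) * (4 * x + b) ≠ 0 := by
      rw [← hE]
      exact pow_ne_zero 2 (mul_ne_zero (by norm_num) hη)
    have hx0 : 4 * x ≠ 0 := fun h3 => h0 (by rw [h3]; ring)
    have hxb : 4 * x + b ≠ 0 := fun h3 => h0 (by rw [h3]; ring)
    have k1 : IsSquare (4 * x') := by
      refine sq_third (k := κ) hx0 (mul_ne_zero (by norm_num) hx₀) (by exact_mod_cast hκ0) h1 hκ ?_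
      obtain ⟨r, hr⟩ := hsq _ (root₁ hs)
      exact ⟨8 * r, by linear_combination 64 * hr⟩
    have k2 : IsSquare (4 * x' + b) := by
      refine sq_third (k := lam) hxb hx₀b (by exact_mod_cast hlam0) h2 hlam ?_
      obtain ⟨r, hr⟩ := hsq _ (root₃ hs)
      exact ⟨8 * r, by linear_combination 64 * hr⟩
    obtain ⟨R, hR⟩ := half_of_squares hΔ hs hnt' k1 k2
    exact ⟨t₁ + Affine.Point.some x₀ y₀ hQ, ht₁.add hQ0, R, by
      rw [hR, ← hadd, ← hPt, add_assoc]⟩

end General

/-! ### The three curves -/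

/-- The curve `y² + xy = x³ - 2x² - 9x` of conductor `15`. -/
def W15 : WeierstrassCurve ℚ := ⟨1, -2, 0, -9, 0⟩

/-- The curve `y² + xy = x³ - 4x² - x` of conductor `17`. -/
def W17 : WeierstrassCurve ℚ := ⟨1, -4, 0, -1, 0⟩

/-- The curve `y² + xy = x³ - 12x² - 3x` of conductor `21`. -/
def W21 : WeierstrassCurve ℚ := ⟨1, -12, 0, -3, 0⟩

theorem Δ15 : W15.Δ = 15 ^ 4 := by
  simp only [W15, WeierstrassCurve.Δ, b₂, b₄, b₆, b₈]
  norm_num

theorem Δ17 : W17.Δ = 17 ^ 2 := by
  simp only [W17, WeierstrassCurve.Δ, b₂, b₄, b₆, b₈]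
  norm_num

theorem Δ21 : W21.Δ = 3 ^ 2 * 7 ^ 4 := by
  simp only [W21, WeierstrassCurve.Δ, b₂, b₄, b₆, b₈]
  norm_num

instance : W15.IsElliptic := ⟨by rw [Δ15]; norm_num⟩

instance : W17.IsElliptic := ⟨by rw [Δ17]; norm_num⟩

instance : W21.IsElliptic := ⟨by rw [Δ21]; norm_num⟩

theorem nonsing {W : WeierstrassCurve ℚ} [W.IsElliptic] {x y : ℚ}
    (h : W.toAffine.Equation x y) : W.toAffine.Nonsingular x y :=
  (Affine.equation_iff_nonsingular_of_Δ_ne_zero W.isUnit_Δ.ne_zero).1 h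

theorem splits15 : Splits2 W15 0 (((16 : ℕ) : ℚ) / 4) (-(((9 : ℕ) : ℚ) / 4)) := by
  constructor <;> simp only [W15, b₂, b₄, b₆] <;> norm_num

theorem splits17 : Splits2 W17 0 (((16 : ℕ) : ℚ) / 4) (-(((1 : ℕ) : ℚ) / 4)) := by
  constructor <;> simp only [W17, b₂, b₄, b₆] <;> norm_num

theorem splits21 : Splits2 W21 0 (((48 : ℕ) : ℚ) / 4) (-(((1 : ℕ) : ℚ) / 4)) := by
  constructor <;> simp only [W21, b₂, b₄, b₆] <;> norm_num

theorem fin_of_eta {W : WeierstrassCurve ℚ} {x y : ℚ} {h : W.toAffine.Nonsingular x y}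
    (h0 : eta W x y = 0) : IsOfFinAddOrder (Affine.Point.some x y h) := by
  by_contra hP
  exact eta_ne hP h0

theorem eq17 : W17.toAffine.Equation 0 0 := by
  rw [Affine.equation_iff]
  simp [W17]

theorem eq17' : W17.toAffine.Equation 4 (-2) := by
  rw [Affine.equation_iff]
  norm_num [W17]

/-- **The curve of conductor `17`**: only finitely many rational points. -/
theorem finite17 : Finite W17.toAffine.Point := by
  refine finite_of_cls (a := 16) (b := 1) (κ := 1) (lam := 17) (by norm_num) (by norm_num)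
    (by norm_num) splits17 cls17 (y₁ := 0) (nonsing eq17) (fin_of_eta ?_) (x₀ := 4) (y₀ := -2)
    (nonsing eq17') (fin_of_eta ?_) (by norm_num) (by norm_num) ⟨4, by norm_num⟩
    ⟨17, by norm_num⟩
  · simp [eta, W17]
  · norm_num [eta, W17]

theorem eq21 : W21.toAffine.Equation 0 0 := by
  rw [Affine.equation_iff]
  simp [W21]

theorem eq21' : W21.toAffine.Equation 12 (-6) := by
  rw [Affine.equation_iff]
  norm_num [W21]

/-- **The curve of conductor `21`**: only finitely many rational points. -/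
theorem finite21 : Finite W21.toAffine.Point := by
  refine finite_of_cls (a := 48) (b := 1) (κ := 3) (lam := 1) (by norm_num) (by norm_num)
    (by norm_num) splits21 cls21 (y₁ := 0) (nonsing eq21) (fin_of_eta ?_) (x₀ := 12) (y₀ := -6)
    (nonsing eq21') (fin_of_eta ?_) (by norm_num) (by norm_num) ⟨12, by norm_num⟩
    ⟨7, by norm_num⟩
  · simp [eta, W21]
  · norm_num [eta, W21]

theorem eq15 : W15.toAffine.Equation 0 0 := by
  rw [Affine.equation_iff]
  simp [W15]

theorem eq15' : W15.toAffine.Equation 9 18 := by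
  rw [Affine.equation_iff]
  norm_num [W15]

/-- The point `(9, 18)` has order `4`. -/
theorem fin15 : IsOfFinAddOrder (Affine.Point.some 9 18 (nonsing eq15')) := by
  have hy : (18 : ℚ) ≠ W15.toAffine.negY 9 18 := by
    norm_num [Affine.negY, W15]
  have h1 := Affine.Point.add_self_of_Y_ne hy (h₁ := nonsing eq15')
  have hsl : W15.toAffine.slope 9 9 18 18 = 4 := by
    rw [Affine.slope_of_Y_ne rfl hy]
    norm_num [Affine.negY, W15]
  have hX : W15.toAffine.addX 9 9 (W15.toAffine.slope 9 9 18 18) = 4 := by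
    rw [hsl]
    norm_num [Affine.addX, W15]
  have h2 : IsOfFinAddOrder (Affine.Point.some 9 18 (nonsing eq15') +
      Affine.Point.some 9 18 (nonsing eq15')) := by
    rw [h1]
    refine fin_of_eta ?_
    have h3 := eta_sq' splits15 (Affine.equation_add (nonsing eq15').1 (nonsing eq15').1
      (fun h => hy h.2))
    rw [hX] at h3
    have h4 : (8 * eta W15 4 (W15.toAffine.addY 9 9 18 (W15.toAffine.slope 9 9 18 18))) ^ 2 = 0 := by
      rw [h3]
      norm_num
    rw [hX]
    have h5 := pow_eq_zero_iff (two_ne_zero) |>.1 h4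
    linarith
  rw [← two_nsmul] at h2
  obtain ⟨n, hn, hnt⟩ := isOfFinAddOrder_iff_nsmul_eq_zero.1 h2
  exact isOfFinAddOrder_iff_nsmul_eq_zero.2 ⟨n * 2, by omega, by rw [mul_nsmul, two_nsmul,
    ← two_nsmul, ← hnt, ← mul_nsmul, ← mul_nsmul, mul_comm]⟩

/-- **The curve of conductor `15`**: only finitely many rational points. -/
theorem finite15 : Finite W15.toAffine.Point := by
  refine finite_of_cls (a := 16) (b := 9) (κ := 1) (lam := 5) (by norm_num) (by norm_num)
    (by norm_num) splits15 cls15 (y₁ := 0) (nonsing eq15) (fin_of_eta ?_) (x₀ := 9) (y₀ := 18)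
    (nonsing eq15') fin15 (by norm_num) (by norm_num) ⟨6, by norm_num⟩
    ⟨15, by norm_num⟩
  simp [eta, W15]

end Fermat.Agent.Cor.BSD
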