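import Fermat.Agent.Corollaries.MordellWeil.Halve
import Mathlib.Algebra.QuadraticAlgebra.Basic

/-!
# Descent through one rational point of order two, the algebra

`W` is a Weierstrass curve over a field `F`, `2 ≠ 0`, whose 2-torsion polynomial is
`4 X (X² + A X + B)`, `X = x - e`.

* `exists_half_one` : if `X = r²`, `X² + A X + B = s²` and `2 X + A + 2 s = t²`, then the point is
  divisible by `2` over `F`;
* `isSquare_of_add` : `(x(P) - e) (x(Q) - e) (x(P + Q) - e)` is a square, `e` a root of the 2-torsion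
  polynomial in any extension;
* `dvd_of_quartic_eq` : if `d² r⁴ + a d r² + b = d s²` with `a`, `b`, `d` integers, `d` squarefree and `r`, `s`
  rational, then `d` divides `b`.
-/

set_option autoImplicit false

namespace Fermat.Agent.Cor.BSD.One

open WeierstrassCurve
open Fermat.Agent.Cor.MordellWeil

/-! ### Halving -/

section Halving

variable {F : Type*} [Field F]

/-- The 2-torsion polynomial `4x³ + b₂x² + 2b₄x + b₆` is `4 X (X² + A X + B)`, `X = x - e`. -/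
structure Splits1 (W : WeierstrassCurve F) (e A B : F) : Prop where
  h2 : W.b₂ = 4 * A - 12 * e
  h4 : W.b₄ = 6 * e ^ 2 - 4 * A * e + 2 * B
  h6 : W.b₆ = -4 * e ^ 3 + 4 * A * e ^ 2 - 4 * B * e

theorem eta_sq_one (h2 : (2 : F) ≠ 0) {W : WeierstrassCurve F} {e A B : F} (hs : Splits1 W e A B)
    {x y : F} (h : W.toAffine.Equation x y) :
    eta W x y ^ 2 = (x - e) * ((x - e) ^ 2 + A * (x - e) + B) := by
  have h1 := four_eta_sq h2 W h
  rw [hs.h2, hs.h4, hs.h6] at h1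
  refine mul_left_cancel₀ (four_ne h2) ?_
  rw [h1]
  ring

theorem disc_one {W : WeierstrassCurve F} {e A B : F} (hs : Splits1 W e A B) :
    4 * W.Δ = 4 * (16 * (B ^ 2 * (A ^ 2 - 4 * B))) := by
  have h8 : 4 * W.b₈ = W.b₂ * W.b₆ - W.b₄ ^ 2 := W.b_relation
  have h1 : 4 * W.Δ = -W.b₂ ^ 2 * (4 * W.b₈) - 32 * W.b₄ ^ 3 - 108 * W.b₆ ^ 2 +
      36 * W.b₂ * W.b₄ * W.b₆ := by
    unfold Δ
    ring
  rw [h1, h8, hs.h2, hs.h4, hs.h6]
  ring

theorem ne_zero_of_splits (h2 : (2 : F) ≠ 0) {W : WeierstrassCurve F} (hΔ : W.Δ ≠ 0) {e A B : F}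
    (hs : Splits1 W e A B) : B ≠ 0 ∧ A ^ 2 - 4 * B ≠ 0 := by
  have h := mul_left_cancel₀ (four_ne h2) (disc_one hs)
  constructor
  · rintro rfl
    apply hΔ
    rw [h]
    ring
  · intro h0
    apply hΔ
    rw [h, h0]
    ring

theorem root_one {W : WeierstrassCurve F} {e A B : F} (hs : Splits1 W e A B) :
    4 * e ^ 3 + W.b₂ * e ^ 2 + 2 * W.b₄ * e + W.b₆ = 0 := by
  rw [hs.h2, hs.h4, hs.h6]
  ring

/-- The coefficients in terms of `α = a₁ / 2`, `γ = a₃ / 2`. -/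
theorem exists_coeffs_one (h2 : (2 : F) ≠ 0) {W : WeierstrassCurve F} {e A B : F}
    (hs : Splits1 W e A B) : ∃ α γ : F, W.a₁ = 2 * α ∧ W.a₃ = 2 * γ ∧
      W.a₂ = A - 3 * e - α ^ 2 ∧ W.a₄ = 3 * e ^ 2 - 2 * A * e + B - 2 * α * γ ∧
      W.a₆ = -e ^ 3 + A * e ^ 2 - B * e - γ ^ 2 := by
  have h1 : W.a₁ = 2 * (W.a₁ / 2) := by field_simp
  have h3 : W.a₃ = 2 * (W.a₃ / 2) := by field_simp
  set α := W.a₁ / 2
  set γ := W.a₃ / 2
  have k2 := hs.h2
  have k4 := hs.h4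
  have k6 := hs.h6
  unfold b₂ at k2
  unfold b₄ at k4
  unfold b₆ at k6
  rw [h1] at k2
  rw [h1, h3] at k4
  rw [h3] at k6
  refine ⟨α, γ, h1, h3, ?_, ?_, ?_⟩
  · refine mul_left_cancel₀ (four_ne h2) ?_
    linear_combination k2
  · refine mul_left_cancel₀ h2 ?_
    linear_combination k4
  · refine mul_left_cancel₀ (four_ne h2) ?_
    linear_combination k6

variable [DecidableEq F]

/-- **Halving with one rational point of order two.** -/
theorem exists_half_one (h2 : (2 : F) ≠ 0) {W : WeierstrassCurve F} (hΔ : W.Δ ≠ 0) {e A B : F}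
    (hs : Splits1 W e A B) {x y : F} (h : W.toAffine.Nonsingular x y) {r s t : F}
    (hr : x - e = r ^ 2) (hs2 : (x - e) ^ 2 + A * (x - e) + B = s ^ 2)
    (ht : 2 * (x - e) + A + 2 * s = t ^ 2) (hη : eta W x y = r * s) :
    ∃ Q : W.toAffine.Point, Q + Q = Affine.Point.some x y h := by
  obtain ⟨hB, hD⟩ := ne_zero_of_splits h2 hΔ hs
  obtain ⟨α, γ, ha1, ha3, ha2, ha4, ha6⟩ := exists_coeffs_one h2 hs
  have he : e = x - r ^ 2 := by linear_combination -hr
  have hA : A = t ^ 2 - 2 * r ^ 2 - 2 * s := by linear_combination ht - 2 * hr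
  have hBv : B = (r ^ 2 + s - r * t) * (r ^ 2 + s + r * t) := by
    rw [hr, hA] at hs2
    linear_combination hs2
  have hy : y = r * s - α * x - γ := by
    have h3 := two_eta h2 W x y
    rw [hη, ha1, ha3] at h3
    refine mul_left_cancel₀ h2 ?_
    linear_combination -h3
  have ht0 : t ≠ 0 := by
    rintro rfl
    apply hD
    rw [hBv, hA]
    ring
  have hq0 : r ^ 2 + s + r * t ≠ 0 := by
    intro h0
    apply hB
    rw [hBv, h0, mul_zero]
  rw [he, hA] at ha2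
  rw [he, hBv, hA] at ha4 ha6
  set q : F := x + r * t + s with hq
  set v : F := (r ^ 2 + s + r * t) * t with hv
  set z : F := v - α * q - γ with hz
  have hv0 : v ≠ 0 := mul_ne_zero hq0 ht0
  have heq : W.toAffine.Equation q z := by
    rw [Affine.equation_iff]
    change z ^ 2 + W.a₁ * q * z + W.a₃ * z = q ^ 3 + W.a₂ * q ^ 2 + W.a₄ * q + W.a₆
    rw [ha1, ha2, ha3, ha4, ha6, hz, hv, hq]
    ring
  have hns : W.toAffine.Nonsingular q z :=
    (Affine.equation_iff_nonsingular_of_Δ_ne_zero hΔ).1 heq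
  have hneg : z - W.toAffine.negY q z = 2 * v := by
    change z - (-z - W.a₁ * q - W.a₃) = 2 * v
    rw [ha1, ha3, hz]
    ring
  have hne : z ≠ W.toAffine.negY q z := by
    intro h0
    rw [← sub_eq_zero, hneg] at h0
    exact mul_ne_zero h2 hv0 h0
  have hsl : W.toAffine.slope q q z z = r + t - α := by
    rw [Affine.slope_of_Y_ne rfl hne, hneg]
    rw [div_eq_iff (mul_ne_zero h2 hv0)]
    change 3 * q ^ 2 + 2 * W.a₂ * q + W.a₄ - W.a₁ * z = _
    rw [ha1, ha2, ha4, hz, hv, hq]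
    ring
  have hX : W.toAffine.addX q q (W.toAffine.slope q q z z) = x := by
    rw [hsl]
    change (r + t - α) ^ 2 + W.a₁ * (r + t - α) - W.a₂ - q - q = x
    rw [ha1, ha2, hq]
    ring
  have hY : W.toAffine.addY q q z (W.toAffine.slope q q z z) = y := by
    unfold Affine.addY Affine.negAddY
    rw [hX, hsl]
    change -((r + t - α) * (x - q) + z) - W.a₁ * x - W.a₃ = y
    rw [ha1, ha3, hy, hz, hv, hq]
    ring
  refine ⟨Affine.Point.some q z hns, ?_⟩
  rw [Affine.Point.add_self_of_Y_ne hne]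
  simp only [Affine.Point.some.injEq]
  exact ⟨hX, hY⟩

/-- Three points with `P + Q = R`. -/
theorem isSquare_of_add (h2 : (2 : F) ≠ 0) {W : WeierstrassCurve F} {e : F}
    (he : 4 * e ^ 3 + W.b₂ * e ^ 2 + 2 * W.b₄ * e + W.b₆ = 0) {x₁ x₂ x₃ y₁ y₂ y₃ : F}
    {h₁ : W.toAffine.Nonsingular x₁ y₁} {h₂ : W.toAffine.Nonsingular x₂ y₂}
    {h₃ : W.toAffine.Nonsingular x₃ y₃}
    (h : Affine.Point.some x₁ y₁ h₁ + Affine.Point.some x₂ y₂ h₂ = Affine.Point.some x₃ y₃ h₃) :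
    IsSquare ((x₁ - e) * (x₂ - e) * (x₃ - e)) := by
  by_cases hxy : x₁ = x₂ ∧ y₁ = W.toAffine.negY x₂ y₂
  · rw [Affine.Point.add_of_Y_eq hxy.1 hxy.2] at h
    exact absurd h.symm (by simp)
  · rw [Affine.Point.add_some hxy] at h
    simp only [Affine.Point.some.injEq] at h
    rw [← h.1]
    exact isSquare_line h2 he h₁.1 h₂.1 hxy

end Halving

/-! ### Arithmetic -/

/-- `d s²` an integer, `d` squarefree: `s` is an integer. -/
theorem exists_int_of_mul_sq {d c : ℤ} (hd : Squarefree d) {s : ℚ} (h : (d : ℚ) * s ^ 2 = c) :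
    ∃ m : ℤ, s = m := by
  have hden : (s.den : ℚ) ≠ 0 := by exact_mod_cast s.den_nz
  have h1 : (d : ℚ) * (s.num : ℚ) ^ 2 = c * (s.den : ℚ) ^ 2 := by
    have h2 : (s.num : ℚ) = s * s.den := (Rat.mul_den_eq_num s).symm
    rw [h2, ← h]
    ring
  have h2 : d * s.num ^ 2 = c * (s.den : ℤ) ^ 2 := by exact_mod_cast h1
  have hcop : IsCoprime ((s.den : ℤ) ^ 2) (s.num ^ 2) := by
    have h3 : IsCoprime s.num (s.den : ℤ) := by
      rw [Int.isCoprime_iff_gcd_eq_one]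
      exact s.reduced
    exact h3.symm.pow
  have h3 : (s.den : ℤ) ^ 2 ∣ d := hcop.dvd_of_dvd_mul_right ⟨c, by rw [h2]; ring⟩
  have h4 : IsUnit (s.den : ℤ) := hd _ (by rwa [← sq])
  have h5 : s.den = 1 := by
    have h6 := Int.isUnit_iff.mp h4
    omega
  exact ⟨s.num, by rw [← Rat.num_div_den s, h5]; simp⟩

/-- The arithmetic of the descent. -/
theorem prime_dvd_of_eq {a b d : ℤ} (hd : Squarefree d) {r s : ℚ}
    (h : (d : ℚ) ^ 2 * r ^ 4 + a * d * r ^ 2 + b = d * s ^ 2) {q : ℤ} (hq : Prime q) (hqd : q ∣ d) :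
    q ∣ b := by
  by_contra hqb
  have hden : (r.den : ℚ) ≠ 0 := by exact_mod_cast r.den_nz
  set m : ℤ := r.num with hm
  set n : ℤ := (r.den : ℤ) with hn
  have hr : (m : ℚ) = r * n := by
    rw [hm, hn]
    exact_mod_cast (Rat.mul_den_eq_num r).symm
  have hcop : IsCoprime m n := by
    rw [Int.isCoprime_iff_gcd_eq_one]
    exact r.reduced
  have h1 : (d : ℚ) * (s * n ^ 2) ^ 2 = ((d ^ 2 * m ^ 4 + a * d * m ^ 2 * n ^ 2 + b * n ^ 4 : ℤ) : ℚ) := by
    push_cast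
    rw [hr]
    linear_combination -(n : ℚ) ^ 4 * h
  obtain ⟨S, hS⟩ := exists_int_of_mul_sq hd h1
  rw [hS] at h1
  have h2 : d * S ^ 2 = d ^ 2 * m ^ 4 + a * d * m ^ 2 * n ^ 2 + b * n ^ 4 := by exact_mod_cast h1
  obtain ⟨e, rfl⟩ := hqd
  have hqe : ¬ q ∣ e := by
    rintro ⟨f, rfl⟩
    exact hq.not_isUnit (hd q ⟨f, by ring⟩)
  have hq0 : q ≠ 0 := hq.ne_zero
  -- `q ∣ n`
  have hqn : q ∣ n := by
    have h3 : q ∣ b * n ^ 4 := ⟨e * S ^ 2 - q * e ^ 2 * m ^ 4 - a * e * m ^ 2 * n ^ 2, by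
      linear_combination -h2⟩
    exact hq.dvd_of_dvd_pow ((hq.dvd_or_dvd h3).resolve_left hqb)
  obtain ⟨k, hk⟩ := hqn
  rw [hk] at h2
  -- `q ∣ S`
  have hqS : q ∣ S := by
    have h3 : q ∣ e * S ^ 2 := ⟨e ^ 2 * m ^ 4 + a * e * m ^ 2 * q * k ^ 2 + b * q ^ 2 * k ^ 4, by
      refine mul_left_cancel₀ hq0 ?_
      linear_combination h2⟩
    exact hq.dvd_of_dvd_pow ((hq.dvd_or_dvd h3).resolve_left hqe)
  obtain ⟨l, rfl⟩ := hqS
  -- `q ∣ m`
  have hqm : q ∣ m := by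
    have h3 : q ∣ e ^ 2 * m ^ 4 := ⟨e * l ^ 2 - a * e * m ^ 2 * k ^ 2 - b * q * k ^ 4, by
      refine mul_left_cancel₀ (pow_ne_zero 2 hq0) ?_
      linear_combination -h2⟩
    rcases hq.dvd_or_dvd h3 with h4 | h4
    · exact absurd (hq.dvd_of_dvd_pow h4) hqe
    · exact hq.dvd_of_dvd_pow h4
  exact hq.not_isUnit (hcop.isUnit_of_dvd' hqm ⟨k, hk⟩)

theorem dvd_of_quartic_eq {a b d : ℤ} (hd : Squarefree d) {r s : ℚ}
    (h : (d : ℚ) ^ 2 * r ^ 4 + a * d * r ^ 2 + b = d * s ^ 2) : d ∣ b := by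
  rw [← Int.natAbs_dvd_natAbs, ← Nat.prod_primeFactors_of_squarefree (Int.squarefree_natAbs.mpr hd)]
  refine Finset.prod_primes_dvd _ (fun p hp => (Nat.prime_of_mem_primeFactors hp).prime) fun p hp => ?_
  have h1 := prime_dvd_of_eq hd h (q := p) (Nat.prime_iff_prime_int.mp
    (Nat.prime_of_mem_primeFactors hp)) (Int.natCast_dvd.mpr (Nat.dvd_of_mem_primeFactors hp))
  exact Int.natCast_dvd.mp h1

/-- The squarefree part of a rational number. -/
theorem exists_squarefree_mul_sq {x : ℚ} (hx : x ≠ 0) :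
    ∃ (d : ℤ) (r : ℚ), Squarefree d ∧ r ≠ 0 ∧ x = d * r ^ 2 := by
  have hden : (x.den : ℚ) ≠ 0 := by exact_mod_cast x.den_nz
  have hnum : x.num ≠ 0 := Rat.num_ne_zero.mpr hx
  obtain ⟨a, b, hab, ha⟩ := Nat.sq_mul_squarefree (x.num * x.den).natAbs
  have hne : x.num * x.den ≠ 0 := mul_ne_zero hnum (by exact_mod_cast x.den_nz)
  have hb0 : b ≠ 0 := by
    rintro rfl
    apply hne
    rw [← Int.natAbs_eq_zero, ← hab]
    ring
  have hx2 : x * (x.den : ℚ) ^ 2 = ((x.num * x.den : ℤ) : ℚ) := by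
    push_cast
    rw [← Rat.mul_den_eq_num x]
    ring
  rcases Int.natAbs_eq (x.num * x.den) with h | h
  · refine ⟨a, b / x.den, Int.squarefree_natCast.mpr ha, ?_, ?_⟩
    · exact div_ne_zero (by exact_mod_cast hb0) hden
    · rw [h, ← hab] at hx2
      push_cast at hx2 ⊢
      field_simp
      linear_combination hx2
  · refine ⟨-a, b / x.den, by rw [← Int.squarefree_natAbs]; simpa using ha, ?_, ?_⟩
    · exact div_ne_zero (by exact_mod_cast hb0) hden
    · rw [h, ← hab] at hx2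
      push_cast at hx2 ⊢
      field_simp
      linear_combination hx2

end Fermat.Agent.Cor.BSD.One
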