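import Mathlib
import Fermat.Agent.Corollaries.BSD.Points
import Fermat.Agent.Corollaries.BSD.Isog
import Fermat.Agent.Corollaries.BSD.TwoIsog

/-!
# The curves of conductor `14`: descent through one point of order two

`a² - 4 b = - 7 c²`, `b = 2 m²`, `c` a power of `7`, `m` a power of `2`, `a ≡ 5 mod 8`,
`a² - 4 b ≡ 9 mod 16`: the curve `Y² = X (X² + a X + b)` has only finitely many rational points.
This applies to `(a, b) = (13, 128), (181, 8192), (-11, 32)`.
-/

set_option autoImplicit false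

namespace Fermat.Agent.Cor.BSD

open WeierstrassCurve
open Fermat.Agent.Cor.Congruent (eq_zero_of_descent exists_common)
open Fermat.Agent.Cor.MordellWeil (eta)
open Fermat.Agent.Cor.BSD.One (Splits1 exists_half_one dvd_of_quartic_eq exists_squarefree_mul_sq)

/-! ### The obstruction at `2` -/

theorem key16 : ∀ U n N : ZMod 16, N ^ 2 = -(U ^ 4 + 10 * U ^ 2 * n ^ 2 + 9 * n ^ 4) →
    8 * U = 0 ∧ 8 * n = 0 := by
  decide +kernel

theorem even_of_zmod {x : ℤ} (h : 8 * (x : ZMod 16) = 0) : ∃ y, x = 2 * y := by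
  have h1 : ((8 * x : ℤ) : ZMod 16) = 0 := by
    push_cast
    exact h
  rw [ZMod.intCast_zmod_eq_zero_iff_dvd] at h1
  obtain ⟨k, hk⟩ := h1
  exact ⟨k, by push_cast at hk; omega⟩

theorem no_neg {a D : ℤ} (ha : a % 8 = 5) (hD : D % 16 = 9) {z w : ℚ}
    (h : w ^ 2 = -(z ^ 4 + 2 * a * z ^ 2 + D)) : False := by
  obtain ⟨U, W, V, n, hn, hU, hW, -⟩ := exists_common z w 0
  have hE : (W * n) ^ 2 = -(U ^ 4 + 2 * a * U ^ 2 * n ^ 2 + D * n ^ 4) := by
    have h1 : ((W : ℚ) * n) ^ 2 = -(U ^ 4 + 2 * a * U ^ 2 * n ^ 2 + D * n ^ 4) := by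
      rw [← hU, ← hW]
      linear_combination (n : ℚ) ^ 4 * h
    exact_mod_cast h1
  refine hn (eq_zero_of_descent (P := fun U _ N n =>
    N ^ 2 = -(U ^ 4 + 2 * a * U ^ 2 * n ^ 2 + D * n ^ 4)) (ℓ := 2) le_rfl ?_ U 0 (W * n) n hE)
  intro U V N n hE
  have h2a : ((2 * a : ℤ) : ZMod 16) = 10 := by
    have : ((2 * a : ℤ) : ZMod 16) = ((10 : ℤ) : ZMod 16) :=
      (ZMod.intCast_eq_intCast_iff _ _ 16).2 (by show 2 * a % 16 = 10 % 16; omega)
    rw [this]
    rfl
  have hD' : ((D : ℤ) : ZMod 16) = 9 := by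
    have : ((D : ℤ) : ZMod 16) = ((9 : ℤ) : ZMod 16) :=
      (ZMod.intCast_eq_intCast_iff _ _ 16).2 (by show D % 16 = 9 % 16; omega)
    rw [this]
    rfl
  have h1 := congrArg (Int.cast : ℤ → ZMod 16) hE
  push_cast at h1 h2a
  rw [hD', h2a] at h1
  obtain ⟨k1, k2⟩ := key16 _ _ _ h1
  obtain ⟨U', rfl⟩ := even_of_zmod k1
  obtain ⟨n', rfl⟩ := even_of_zmod k2
  obtain ⟨N', rfl⟩ : (4 : ℤ) ∣ N := by
    have h3 : (4 : ℤ) ^ 2 ∣ N ^ 2 := ⟨-(U' ^ 4 + 2 * a * U' ^ 2 * n' ^ 2 + D * n' ^ 4), by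
      linear_combination hE⟩
    exact (Int.pow_dvd_pow_iff two_ne_zero).1 h3
  refine ⟨U', 0, N', n', rfl, ?_⟩
  have h16 : (16 : ℤ) ≠ 0 := by norm_num
  exact mul_left_cancel₀ h16 (by linear_combination hE)

/-! ### Squarefree divisors -/

theorem sqfree_cases {d N : ℤ} {q k : ℕ} (hq : q.Prime) (hd : Squarefree d) (h : d ∣ N)
    (hN : N ∣ (q : ℤ) ^ k) : d = 1 ∨ d = -1 ∨ d = q ∨ d = -q := by
  have h1 : d.natAbs ∣ q ^ k := by
    have := Int.natAbs_dvd_natAbs.2 (h.trans hN)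
    rwa [Int.natAbs_pow, Int.natAbs_natCast] at this
  obtain ⟨j, -, hj⟩ := (Nat.dvd_prime_pow hq).1 h1
  have hsq : Squarefree (q ^ j) := by
    rw [← hj]
    exact Int.squarefree_natAbs.2 hd
  have hj1 : j ≤ 1 := by
    by_contra hcon
    have h2 : q * q ∣ q ^ j := by
      rw [← sq]
      exact pow_dvd_pow q (by omega)
    exact hq.one_lt.ne' (Nat.isUnit_iff.1 (hsq q h2))
  interval_cases j
  · rw [pow_zero] at hj
    rcases Int.natAbs_eq d with h3 | h3 <;> rw [hj] at h3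
    · exact Or.inl (by exact_mod_cast h3)
    · exact Or.inr (Or.inl (by exact_mod_cast h3))
  · rw [pow_one] at hj
    rcases Int.natAbs_eq d with h3 | h3 <;> rw [hj] at h3
    · exact Or.inr (Or.inr (Or.inl h3))
    · exact Or.inr (Or.inr (Or.inr h3))

/-! ### The curve -/

/-- The curve `Y² = X³ + a X² + b X`. -/
def V (a b : ℤ) : WeierstrassCurve ℚ := ⟨0, a, 0, b, 0⟩

theorem V_splits (a b : ℤ) : Splits1 (V a b) 0 (a : ℚ) (b : ℚ) := by
  constructor <;> simp only [V, b₂, b₄, b₆] <;> ring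

theorem V_eq {a b : ℤ} {x y : ℚ} :
    (V a b).toAffine.Equation x y ↔ y ^ 2 = x * (x ^ 2 + a * x + b) := by
  rw [Affine.equation_iff]
  simp only [V]
  constructor <;> intro h <;> linear_combination h

theorem eta_V {a b : ℤ} {x y : ℚ} : eta (V a b) x y = y := by
  simp [eta, V]

theorem V_Δ (a b : ℤ) : (V a b).Δ = 16 * ((b : ℚ) ^ 2 * ((a : ℚ) ^ 2 - 4 * b)) := by
  simp only [V, WeierstrassCurve.Δ, b₂, b₄, b₆, b₈]
  ring

section Descent

variable {a b c m : ℤ} (hb : b = 2 * m ^ 2) (hbk : ∃ k : ℕ, b ∣ (2 : ℤ) ^ k)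
  (hD : a ^ 2 - 4 * b = -7 * c ^ 2) (hDk : ∃ k : ℕ, a ^ 2 - 4 * b ∣ (7 : ℤ) ^ k)
  (ha8 : a % 8 = 5) (hD16 : (a ^ 2 - 4 * b) % 16 = 9)

include hD hDk ha8 hD16 in
/-- The second step of the descent. -/
theorem isSquare_or {r s : ℚ} (hs : s ^ 2 = r ^ 4 + a * r ^ 2 + b) :
    IsSquare (2 * r ^ 2 + a + 2 * s) ∨ IsSquare (2 * r ^ 2 + a - 2 * s) := by
  have hc0 : (c : ℚ) ≠ 0 := by
    intro h0
    have h1 : c = 0 := by exact_mod_cast h0
    rw [hD, h1] at hD16
    norm_num at hD16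
  have hDQ : (a : ℚ) ^ 2 - 4 * b = -7 * c ^ 2 := by exact_mod_cast hD
  have hprod : (2 * r ^ 2 + a + 2 * s) * (2 * r ^ 2 + a - 2 * s) = -7 * (c : ℚ) ^ 2 := by
    rw [← hDQ]
    linear_combination -4 * hs
  have hZ0 : 2 * r ^ 2 + a + 2 * s ≠ 0 := by
    intro h0
    rw [h0, zero_mul] at hprod
    exact mul_ne_zero (by norm_num) (pow_ne_zero 2 hc0) hprod.symm
  obtain ⟨d, u, hd, hu, hZ⟩ := exists_squarefree_mul_sq hZ0
  have hd0 : (d : ℚ) ≠ 0 := by
    intro h0
    rw [h0, zero_mul] at hZ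
    exact hZ0 hZ
  have hq : (d : ℚ) ^ 2 * u ^ 4 + ((-2 * a : ℤ) : ℚ) * d * u ^ 2 + ((a ^ 2 - 4 * b : ℤ) : ℚ) =
      d * (2 * r * u) ^ 2 := by
    push_cast
    have h1 : (2 * r ^ 2 + a + 2 * s) ^ 2 - 2 * a * (2 * r ^ 2 + a + 2 * s) + (a ^ 2 - 4 * b) =
        4 * r ^ 2 * (2 * r ^ 2 + a + 2 * s) := by
      linear_combination 4 * hs
    rw [hZ] at h1
    linear_combination h1
  obtain ⟨k, hk⟩ := hDk
  rcases sqfree_cases (q := 7) (by norm_num) hd (dvd_of_quartic_eq hd hq) (by exact_mod_cast hk) with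
    rfl | rfl | rfl | rfl
  · left
    exact ⟨u, by rw [hZ]; push_cast; ring⟩
  · exfalso
    refine no_neg (z := u) (w := 2 * r * u) ha8 hD16 ?_
    push_cast at hq ⊢
    linear_combination hq
  · exfalso
    refine no_neg (z := c / u) (w := 2 * r * c / u) ha8 hD16 ?_
    have h1 : (2 * r ^ 2 + a - 2 * s) = -(c / u) ^ 2 := by
      rw [hZ] at hprod
      push_cast at hprod
      field_simp
      linear_combination (1 / 7 : ℚ) * hprod
    have h2 : (2 * r ^ 2 + a - 2 * s) ^ 2 - 2 * a * (2 * r ^ 2 + a - 2 * s) + (a ^ 2 - 4 * b) =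
        4 * r ^ 2 * (2 * r ^ 2 + a - 2 * s) := by
      linear_combination 4 * hs
    rw [h1] at h2
    push_cast
    have h3 : (2 * r * c / u) ^ 2 = 4 * r ^ 2 * (c / u) ^ 2 := by ring
    rw [h3]
    linear_combination h2
  · right
    refine ⟨c / u, ?_⟩
    rw [hZ] at hprod
    push_cast at hprod
    field_simp
    linear_combination (-1 / 7 : ℚ) * hprod

include hD hDk ha8 hD16 in
theorem half_V (hΔ : (V a b).Δ ≠ 0) {x y u : ℚ} {h : (V a b).toAffine.Nonsingular x y}
    (hP : ¬ IsOfFinAddOrder (Affine.Point.some x y h)) (hx : x = u ^ 2) :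
    ∃ R : (V a b).toAffine.Point, R + R = Affine.Point.some x y h := by
  have hy : y ≠ 0 := by
    have := eta_ne hP
    rwa [eta_V] at this
  have hE := V_eq.1 h.1
  have hx0 : x ≠ 0 := by
    rintro rfl
    apply hy
    have : y ^ 2 = 0 := by rw [hE]; ring
    exact pow_eq_zero_iff two_ne_zero |>.1 this
  have hu : u ≠ 0 := by
    rintro rfl
    exact hx0 (by rw [hx]; ring)
  have hs : (y / u) ^ 2 = u ^ 4 + a * u ^ 2 + b := by
    field_simp
    rw [hE, hx]
    ring
  rcases isSquare_or hD hDk ha8 hD16 hs with ⟨t, ht⟩ | ⟨t, ht⟩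
  · refine exists_half_one two_ne_zero hΔ (V_splits a b) h (r := u) (s := y / u) (t := t)
      (by rw [hx]; ring) (by rw [hs, hx]; ring) (by rw [hx]; linear_combination ht) ?_
    rw [eta_V]
    field_simp
  · refine exists_half_one two_ne_zero hΔ (V_splits a b) h (r := -u) (s := -(y / u)) (t := t)
      (by rw [hx]; ring) ?_ (by rw [hx]; linear_combination ht) ?_
    · have : (-(y / u)) ^ 2 = (y / u) ^ 2 := by ring
      rw [this, hs, hx]
      ring
    · rw [eta_V]
      field_simp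

include hb hbk hD hDk ha8 hD16 in
/-- **Descent through one point of order two.** -/
theorem finite_V : Finite (V a b).toAffine.Point := by
  have hm0 : (m : ℚ) ≠ 0 := by
    intro h0
    have h1 : m = 0 := by exact_mod_cast h0
    obtain ⟨k, hk⟩ := hbk
    rw [hb, h1] at hk
    norm_num at hk
  have hc0 : (c : ℚ) ≠ 0 := by
    intro h0
    have h1 : c = 0 := by exact_mod_cast h0
    rw [hD, h1] at hD16
    norm_num at hD16
  have hbQ : (b : ℚ) = 2 * m ^ 2 := by exact_mod_cast hb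
  have hDQ : (a : ℚ) ^ 2 - 4 * b = -7 * c ^ 2 := by exact_mod_cast hD
  have hΔ : (V a b).Δ ≠ 0 := by
    rw [V_Δ, hDQ, hbQ]
    positivity
  have hell : (V a b).IsElliptic := ⟨isUnit_iff_ne_zero.2 hΔ⟩
  refine finite_points (V a b) fun P => ?_
  by_cases hP : IsOfFinAddOrder P
  · exact ⟨-P, hP.neg, 0, by rw [add_neg_cancel, add_zero]⟩
  cases P with
  | zero => exact absurd IsOfFinAddOrder.zero hP
  | some x y h =>
    have hy : y ≠ 0 := by
      have := eta_ne hP
      rwa [eta_V] at this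
    have hE := V_eq.1 h.1
    have hx0 : x ≠ 0 := by
      rintro rfl
      apply hy
      have : y ^ 2 = 0 := by rw [hE]; ring
      exact pow_eq_zero_iff two_ne_zero |>.1 this
    have hpos : 0 < x ^ 2 + a * x + b := by
      have h1 : 4 * (x ^ 2 + a * x + b) = (2 * x + a) ^ 2 + 7 * c ^ 2 := by
        linear_combination -hDQ
      have h2 : 0 < (2 * x + a) ^ 2 + 7 * (c : ℚ) ^ 2 := by positivity
      linarith
    have hxpos : 0 < x := by
      have h1 : 0 < x * (x ^ 2 + a * x + b) := by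
        rw [← hE]
        positivity
      exact (mul_pos_iff_of_pos_right hpos).1 h1
    obtain ⟨d, u, hd, hu, hX⟩ := exists_squarefree_mul_sq hx0
    have hd0 : (d : ℚ) ≠ 0 := by
      intro h0
      rw [h0, zero_mul] at hX
      exact hx0 hX
    have hq : (d : ℚ) ^ 2 * u ^ 4 + (a : ℚ) * d * u ^ 2 + (b : ℚ) = d * (y / (d * u)) ^ 2 := by
      rw [hX] at hE
      field_simp
      linear_combination -hE
    obtain ⟨k, hk⟩ := hbk
    have hcases := sqfree_cases (q := 2) (by norm_num) hd (dvd_of_quartic_eq hd hq) (by exact_mod_cast hk)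
    have hneg : ∀ e : ℚ, 0 < e → x ≠ -e * u ^ 2 := by
      intro e he h1
      have h2 : 0 < e * u ^ 2 := by positivity
      linarith
    rcases hcases with rfl | rfl | rfl | rfl
    · obtain ⟨R, hR⟩ := half_V hD hDk ha8 hD16 hΔ hP (u := u) (by rw [hX]; push_cast; ring)
      exact ⟨0, IsOfFinAddOrder.zero, R, by rw [hR, add_zero]⟩
    · exact absurd (by rw [hX]; push_cast; ring) (hneg 1 one_pos)
    · -- translate by `(0, 0)`
      have hT : (V a b).toAffine.Nonsingular 0 0 := nonsing (V_eq.2 (by ring))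
      have hT0 : IsOfFinAddOrder (Affine.Point.some 0 0 hT) := fin_of_eta eta_V
      have hxy : ¬ (x = 0 ∧ y = (V a b).toAffine.negY 0 0) := fun hh => hx0 hh.1
      have hadd := Affine.Point.add_some hxy (h₁ := h) (h₂ := hT)
      have hsum : ¬ IsOfFinAddOrder (Affine.Point.some x y h + Affine.Point.some 0 0 hT) := by
        intro hc
        apply hP
        have := hc.add hT0.neg
        rwa [add_neg_cancel_right] at this
      rw [hadd] at hsum
      obtain ⟨R, hR⟩ := half_V hD hDk ha8 hD16 hΔ hsum (u := m / u) (by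
        rw [Affine.slope_of_X_ne hx0]
        change ((y - 0) / (x - 0)) ^ 2 + 0 * ((y - 0) / (x - 0)) - (a : ℚ) - x - 0 = _
        have h1 : ((y - 0) / (x - 0)) ^ 2 = (x ^ 2 + a * x + b) / x := by
          rw [sub_zero, sub_zero, div_pow, hE]
          field_simp
        rw [h1, hbQ, hX]
        push_cast
        field_simp
        ring)
      exact ⟨_, hT0, R, by rw [hR, hadd]⟩
    · exact absurd (by rw [hX]; push_cast; ring) (hneg 2 two_pos)

include hb hbk hD hDk ha8 hD16 in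
theorem T_of_descent : (T (a : ℚ) (b : ℚ)).Finite := by
  have hfin := finite_V hb hbk hD hDk ha8 hD16
  have hm0 : (m : ℚ) ≠ 0 := by
    intro h0
    have h1 : m = 0 := by exact_mod_cast h0
    obtain ⟨k, hk⟩ := hbk
    rw [hb, h1] at hk
    norm_num at hk
  have hc0 : (c : ℚ) ≠ 0 := by
    intro h0
    have h1 : c = 0 := by exact_mod_cast h0
    rw [hD, h1] at hD16
    norm_num at hD16
  have hbQ : (b : ℚ) = 2 * m ^ 2 := by exact_mod_cast hb
  have hDQ : (a : ℚ) ^ 2 - 4 * b = -7 * c ^ 2 := by exact_mod_cast hD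
  have hΔ : (V a b).Δ ≠ 0 := by
    rw [V_Δ, hDQ, hbQ]
    positivity
  have hell : (V a b).IsElliptic := ⟨isUnit_iff_ne_zero.2 hΔ⟩
  have h1 : (T (4 * (a : ℚ)) (16 * (b : ℚ))).Finite := by
    refine T_of_finite (W := V a b) hfin ?_ ?_
    · simp only [V, c₄, b₂, b₄]
      ring
    · simp only [V, c₆, b₂, b₄, b₆]
      ring
  exact T_scale (1 / 2) h1 (by norm_num) (by ring) (by ring)

end Descent

theorem T14_0 : (T 13 128).Finite := by
  have h := T_of_descent (a := 13) (b := 128) (c := 7) (m := 8) (by norm_num) ⟨7, by norm_num⟩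
    (by norm_num) ⟨3, by norm_num⟩ (by norm_num) (by norm_num)
  exact_mod_cast h

theorem T14_2 : (T 181 8192).Finite := by
  have h := T_of_descent (a := 181) (b := 8192) (c := 1) (m := 64) (by norm_num) ⟨13, by norm_num⟩
    (by norm_num) ⟨1, by norm_num⟩ (by norm_num) (by norm_num)
  exact_mod_cast h

theorem T14_3 : (T (-11) 32).Finite := by
  have h := T_of_descent (a := -11) (b := 32) (c := 1) (m := 4) (by norm_num) ⟨5, by norm_num⟩
    (by norm_num) ⟨1, by norm_num⟩ (by norm_num) (by norm_num)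
  exact_mod_cast h

theorem T14_1 : (T (-26) (-343)).Finite :=
  T_dual T14_0 (by norm_num) (by norm_num)

theorem T14_4 : (T (-362) (-7)).Finite :=
  T_dual T14_2 (by norm_num) (by norm_num)

theorem T14_5 : (T 22 (-7)).Finite :=
  T_dual T14_3 (by norm_num) (by norm_num)

end Fermat.Agent.Cor.BSD
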