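import Mathlib
import Fermat.Agent.Corollaries.HW.LOne
import Fermat.Agent.Corollaries.BSD.Points

/-!
# The rank part of the conjecture of Birch and Swinnerton-Dyer for three elliptic curves

For the elliptic curves `y² + xy = x³ - 2x² - 9x`, `y² + xy = x³ - 4x² - x` and
`y² + xy = x³ - 12x² - 3x` (conductors `15`, `17`, `21`) the order of vanishing of the Hasse-Weil
`L`-function at `s = 1` equals the rank of the group of rational points; both are `0`.
-/

set_option autoImplicit false

noncomputable section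

namespace Fermat.Agent.Cor.BSD

open WeierstrassCurve Fermat.Agent.Cor.HW

theorem ap_eq_of_dvd {W : WeierstrassCurve ℤ} {q : ℕ} [hq : Fact q.Prime] (hΔ : W.Δ ≠ 0)
    (hd : (q : ℤ) ∣ W.Δ) (hc : ¬ (q : ℤ) ∣ W.c₄) (hq2 : q ≠ 2) :
    ap W q = legendreSym q (-W.c₆) := by
  rw [ap, if_pos hd, apOfModel_eq_legendreSym ⟨hq.out, hd, hc, hΔ⟩ hq2]

theorem isSemistable_of_primeFactors {W : WeierstrassCurve ℤ} (hΔ : W.Δ ≠ 0) {S : Finset ℕ}
    (hS : W.Δ.natAbs.primeFactors = S) (h : ∀ p ∈ S, ¬ (p : ℤ) ∣ W.c₄) :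
    W.IsSemistableModel := by
  intro p hp hd
  refine h p ?_
  rw [← hS, Nat.mem_primeFactors]
  exact ⟨hp, Int.natCast_dvd.1 hd, Int.natAbs_ne_zero.2 hΔ⟩

theorem conductorLevel_eq_prod {W : WeierstrassCurve ℤ} {S : Finset ℕ}
    (hS : W.Δ.natAbs.primeFactors = S) : W.conductorLevel = ∏ p ∈ S, p := by
  rw [conductorLevel, Nat.radical_eq_prod_primeFactors, hS]

/-- The `L`-function does not vanish at `s = 1` if the root number is `1` and `N ≤ 50`. -/
theorem exists_L {W : WeierstrassCurve ℤ} (hΔ : W.Δ ≠ 0) (hW : W.IsSemistableModel)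
    (hN : W.conductorLevel ≤ 50) (hw : rootNumber W = 1) (hfin : Finite (W.map (Int.castRingHom ℚ)).toAffine.Point) :
    ∃ L : ℂ → ℂ, IsHasseWeil W L ∧ (∀ L' : ℂ → ℂ, IsHasseWeil W L' → L' = L) ∧ L 1 ≠ 0 ∧
      analyticOrderNatAt L 1 = Module.finrank ℤ (W.map (Int.castRingHom ℚ)).toAffine.Point := by
  obtain ⟨L, hL, hu⟩ := existsUnique_isHasseWeil hΔ hW
  refine ⟨L, hL, hu, (L_one_ne_zero_iff hΔ hW hL hN).2 hw, ?_⟩
  rw [analyticOrderNatAt_eq hΔ hW hL hN, if_pos hw, finrank_eq_zero]

/-! ### Conductor `15` -/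

/-- The curve `y² + xy = x³ - 2x² - 9x` over `ℤ`. -/
def C15 : WeierstrassCurve ℤ := ⟨1, -2, 0, -9, 0⟩

theorem primeFactors15 : C15.Δ.natAbs.primeFactors = {3, 5} := by
  rw [show C15.Δ.natAbs = 3 ^ 4 * 5 ^ 4 from by decide, Nat.primeFactors_mul (by norm_num)
    (by norm_num), Nat.primeFactors_prime_pow (by norm_num) Nat.prime_three,
    Nat.primeFactors_prime_pow (by norm_num) Nat.prime_five]
  rfl

theorem isSemistable15 : C15.IsSemistableModel :=
  isSemistable_of_primeFactors (by decide) primeFactors15 (by decide)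

theorem conductorLevel15 : C15.conductorLevel = 15 := by
  rw [conductorLevel_eq_prod primeFactors15]
  rfl

theorem rootNumber15 : rootNumber C15 = 1 := by
  have : Fact (Nat.Prime 3) := ⟨Nat.prime_three⟩
  have : Fact (Nat.Prime 5) := ⟨Nat.prime_five⟩
  rw [rootNumber, primeFactors15, Finset.prod_insert (by decide), Finset.prod_singleton,
    ap_eq_of_dvd (by decide) (by decide) (by decide) (by norm_num),
    ap_eq_of_dvd (by decide) (by decide) (by decide) (by norm_num),
    show -C15.c₆ = -4879 from by decide]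
  norm_num

theorem finite_C15 : Finite (C15.map (Int.castRingHom ℚ)).toAffine.Point := by
  have h : C15.map (Int.castRingHom ℚ) = W15 := by
    ext <;> simp [C15, W15, WeierstrassCurve.map]
  rw [h]
  exact finite15

/-- **Birch - Swinnerton-Dyer (rank part) for a curve of conductor `15`.** -/
theorem bsd15 : ∃ L : ℂ → ℂ, IsHasseWeil C15 L ∧ (∀ L' : ℂ → ℂ, IsHasseWeil C15 L' → L' = L) ∧
    L 1 ≠ 0 ∧ analyticOrderNatAt L 1 = Module.finrank ℤ (C15.map (Int.castRingHom ℚ)).toAffine.Point :=
  exists_L (by decide) isSemistable15 (by rw [conductorLevel15]; norm_num) rootNumber15 finite_C15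

/-! ### Conductor `17` -/

/-- The curve `y² + xy = x³ - 4x² - x` over `ℤ`. -/
def C17 : WeierstrassCurve ℤ := ⟨1, -4, 0, -1, 0⟩

theorem primeFactors17 : C17.Δ.natAbs.primeFactors = {17} := by
  rw [show C17.Δ.natAbs = 17 ^ 2 from by decide,
    Nat.primeFactors_prime_pow (by norm_num) (by norm_num)]

theorem isSemistable17 : C17.IsSemistableModel :=
  isSemistable_of_primeFactors (by decide) primeFactors17 (by decide)

theorem conductorLevel17 : C17.conductorLevel = 17 := by
  rw [conductorLevel_eq_prod primeFactors17]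
  rfl

theorem rootNumber17 : rootNumber C17 = 1 := by
  have : Fact (Nat.Prime 17) := ⟨by norm_num⟩
  rw [rootNumber, primeFactors17, Finset.prod_singleton,
    ap_eq_of_dvd (by decide) (by decide) (by decide) (by norm_num),
    show -C17.c₆ = -4455 from by decide]
  norm_num

theorem finite_C17 : Finite (C17.map (Int.castRingHom ℚ)).toAffine.Point := by
  have h : C17.map (Int.castRingHom ℚ) = W17 := by
    ext <;> simp [C17, W17, WeierstrassCurve.map]
  rw [h]
  exact finite17

/-- **Birch - Swinnerton-Dyer (rank part) for a curve of conductor `17`.** -/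
theorem bsd17 : ∃ L : ℂ → ℂ, IsHasseWeil C17 L ∧ (∀ L' : ℂ → ℂ, IsHasseWeil C17 L' → L' = L) ∧
    L 1 ≠ 0 ∧ analyticOrderNatAt L 1 = Module.finrank ℤ (C17.map (Int.castRingHom ℚ)).toAffine.Point :=
  exists_L (by decide) isSemistable17 (by rw [conductorLevel17]; norm_num) rootNumber17 finite_C17

/-! ### Conductor `21` -/

/-- The curve `y² + xy = x³ - 12x² - 3x` over `ℤ`. -/
def C21 : WeierstrassCurve ℤ := ⟨1, -12, 0, -3, 0⟩

theorem primeFactors21 : C21.Δ.natAbs.primeFactors = {3, 7} := by
  rw [show C21.Δ.natAbs = 3 ^ 2 * 7 ^ 4 from by decide, Nat.primeFactors_mul (by norm_num)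
    (by norm_num), Nat.primeFactors_prime_pow (by norm_num) Nat.prime_three,
    Nat.primeFactors_prime_pow (by norm_num) (by norm_num)]
  rfl

theorem isSemistable21 : C21.IsSemistableModel :=
  isSemistable_of_primeFactors (by decide) primeFactors21 (by decide)

theorem conductorLevel21 : C21.conductorLevel = 21 := by
  rw [conductorLevel_eq_prod primeFactors21]
  rfl

theorem rootNumber21 : rootNumber C21 = 1 := by
  have : Fact (Nat.Prime 3) := ⟨Nat.prime_three⟩
  have : Fact (Nat.Prime 7) := ⟨by norm_num⟩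
  rw [rootNumber, primeFactors21, Finset.prod_insert (by decide), Finset.prod_singleton,
    ap_eq_of_dvd (by decide) (by decide) (by decide) (by norm_num),
    ap_eq_of_dvd (by decide) (by decide) (by decide) (by norm_num),
    show -C21.c₆ = -113975 from by decide]
  norm_num

theorem finite_C21 : Finite (C21.map (Int.castRingHom ℚ)).toAffine.Point := by
  have h : C21.map (Int.castRingHom ℚ) = W21 := by
    ext <;> simp [C21, W21, WeierstrassCurve.map]
  rw [h]
  exact finite21

/-- **Birch - Swinnerton-Dyer (rank part) for a curve of conductor `21`.** -/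
theorem bsd21 : ∃ L : ℂ → ℂ, IsHasseWeil C21 L ∧ (∀ L' : ℂ → ℂ, IsHasseWeil C21 L' → L' = L) ∧
    L 1 ≠ 0 ∧ analyticOrderNatAt L 1 = Module.finrank ℤ (C21.map (Int.castRingHom ℚ)).toAffine.Point :=
  exists_L (by decide) isSemistable21 (by rw [conductorLevel21]; norm_num) rootNumber21 finite_C21

end Fermat.Agent.Cor.BSD
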