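import Mathlib
import Fermat.Agent.Corollaries.BSD.Points
import Fermat.Agent.Corollaries.BSD.Isog

/-!
# Finiteness of the group of rational points in the isogeny classes `15a`, `17a`, `21a`
-/

set_option autoImplicit false

namespace Fermat.Agent.Cor.BSD

open WeierstrassCurve

/-! ### Conductor `15` -/

theorem T15_0 : (T (-7) (-144)).Finite := by
  refine T_of_finite (W := W15) finite15 ?_ ?_ <;>
    norm_num [W15, c₄, c₆, b₂, b₄, b₆]

theorem T15_0' : (T (-34) 225).Finite :=
  T_shift (-9) 16 T15_0 (by norm_num) (by norm_num) (by norm_num) (by norm_num)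

theorem T15_0'' : (T 41 400).Finite :=
  T_shift 16 (-9) T15_0 (by norm_num) (by norm_num) (by norm_num) (by norm_num)

theorem T15_2 : (T 17 16).Finite :=
  T_scale (1 / 2) (T_dual T15_0' rfl rfl) (by norm_num) (by norm_num) (by norm_num)

theorem T15_3 : (T 14 625).Finite :=
  T_dual T15_0 (by norm_num) (by norm_num)

theorem T15_1 : (T (-82) 81).Finite :=
  T_dual T15_0'' (by norm_num) (by norm_num)

theorem T15_2' : (T (-31) 240).Finite :=
  T_shift (-16) (-1) T15_2 (by norm_num) (by norm_num) (by norm_num) (by norm_num)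

theorem T15_2'' : (T 14 (-15)).Finite :=
  T_shift (-1) (-16) T15_2 (by norm_num) (by norm_num) (by norm_num) (by norm_num)

theorem T15_6 : (T 62 1).Finite :=
  T_dual T15_2' (by norm_num) (by norm_num)

theorem T15_7 : (T (-7) 16).Finite :=
  T_scale (1 / 2) (T_dual T15_2'' rfl rfl) (by norm_num) (by norm_num) (by norm_num)

theorem T15_1' : (T (-79) (-80)).Finite :=
  T_shift 1 81 T15_1 (by norm_num) (by norm_num) (by norm_num) (by norm_num)

theorem T15_1'' : (T 161 6480).Finite :=
  T_shift 81 1 T15_1 (by norm_num) (by norm_num) (by norm_num) (by norm_num)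

theorem T15_5 : (T 158 6561).Finite :=
  T_dual T15_1' (by norm_num) (by norm_num)

theorem T15_4 : (T (-322) 1).Finite :=
  T_dual T15_1'' (by norm_num) (by norm_num)

/-! ### Conductor `17` -/

theorem T17_1 : (T (-15) (-16)).Finite := by
  refine T_of_finite (W := W17) finite17 ?_ ?_ <;>
    norm_num [W17, c₄, c₆, b₂, b₄, b₆]

theorem T17_1' : (T (-18) 17).Finite :=
  T_shift (-1) 16 T17_1 (by norm_num) (by norm_num) (by norm_num) (by norm_num)

theorem T17_1'' : (T 33 272).Finite :=
  T_shift 16 (-1) T17_1 (by norm_num) (by norm_num) (by norm_num) (by norm_num)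

theorem T17_0 : (T 30 289).Finite :=
  T_dual T17_1 (by norm_num) (by norm_num)

theorem T17_2 : (T (-66) 1).Finite :=
  T_dual T17_1'' (by norm_num) (by norm_num)

theorem T17_3 : (T 9 16).Finite :=
  T_scale (1 / 2) (T_dual T17_1' rfl rfl) (by norm_num) (by norm_num) (by norm_num)

/-! ### Conductor `21` -/

theorem T21_1 : (T (-47) (-48)).Finite := by
  refine T_of_finite (W := W21) finite21 ?_ ?_ <;>
    norm_num [W21, c₄, c₆, b₂, b₄, b₆]

theorem T21_1' : (T (-50) 49).Finite :=
  T_shift (-1) 48 T21_1 (by norm_num) (by norm_num) (by norm_num) (by norm_num)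

theorem T21_1'' : (T 97 2352).Finite :=
  T_shift 48 (-1) T21_1 (by norm_num) (by norm_num) (by norm_num) (by norm_num)

theorem T21_5 : (T 94 2401).Finite :=
  T_dual T21_1 (by norm_num) (by norm_num)

theorem T21_4 : (T (-194) 1).Finite :=
  T_dual T21_1'' (by norm_num) (by norm_num)

theorem T21_0 : (T 25 144).Finite :=
  T_scale (1 / 2) (T_dual T21_1' rfl rfl) (by norm_num) (by norm_num) (by norm_num)

theorem T21_0' : (T (-23) 112).Finite :=
  T_shift (-16) (-9) T21_0 (by norm_num) (by norm_num) (by norm_num) (by norm_num)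

theorem T21_0'' : (T (-2) (-63)).Finite :=
  T_shift (-9) (-16) T21_0 (by norm_num) (by norm_num) (by norm_num) (by norm_num)

theorem T21_2 : (T 46 81).Finite :=
  T_dual T21_0' (by norm_num) (by norm_num)

theorem T21_3 : (T 1 16).Finite :=
  T_scale (1 / 2) (T_dual T21_0'' rfl rfl) (by norm_num) (by norm_num) (by norm_num)

end Fermat.Agent.Cor.BSD
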