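import Mathlib
import Fermat.Agent.Corollaries.BSD.Main
import Fermat.Agent.Corollaries.BSD.Table
import Fermat.Agent.Corollaries.BSD.Fourteen
import Fermat.Agent.Corollaries.Table.Table

/-!
# The rank part of the conjecture of Birch and Swinnerton-Dyer for semistable elliptic curves of
# conductor at most `21` different from `11`, `19`

There are `24` such curves (`6` of conductor `14`, `8` of conductor `15`, `4` of conductor `17`,
`6` of conductor `21`). For each of them `L(E, 1) ≠ 0` and the group of rational points is finite.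
-/

set_option autoImplicit false

noncomputable section

namespace Fermat.Agent.Cor.BSD

open WeierstrassCurve Fermat.Agent.Cor.HW
open Fermat.Agent.Cor.Table (curves level exists_iso_of_conductorLevel_le curves_facts)

/-! ### The algebraic side -/

/-- The coefficients `a` of the equations `Y² = X (X² + a X + b)` of the curves of the table. -/
def pa : Fin 30 → ℤ :=
  ![0, 0, 0, 13, -26, 181, -11, -362, 22, -7, -79, 14, 14, -322, 158, 62, -7, 30, -15, -66, 9,
    0, 0, 0, -2, -47, 46, 1, -194, 94]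

/-- The coefficients `b` of the equations `Y² = X (X² + a X + b)` of the curves of the table. -/
def pb : Fin 30 → ℤ :=
  ![0, 0, 0, 128, -343, 8192, 32, -7, -7, -144, -80, -15, 625, 1, 6561, 1, 16, 289, -16, 1, 16,
    0, 0, 0, -63, -48, 81, 16, 1, 2401]

theorem curves_inv : ∀ i : Fin 30, level i ≠ 11 → level i ≠ 19 →
    (curves i).c₄ = pa i ^ 2 - 3 * pb i ∧
      2 * (curves i).c₆ = -2 * pa i ^ 3 + 9 * pa i * pb i := by
  decide +kernel

theorem T_curves (i : Fin 30) (h11 : level i ≠ 11) (h19 : level i ≠ 19) :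
    (T (pa i) (pb i)).Finite := by
  fin_cases i
  · exact absurd rfl h11
  · exact absurd rfl h11
  · exact absurd rfl h11
  · show (T ((13 : ℤ) : ℚ) ((128 : ℤ) : ℚ)).Finite
    exact_mod_cast T14_0
  · show (T ((-26 : ℤ) : ℚ) ((-343 : ℤ) : ℚ)).Finite
    exact_mod_cast T14_1
  · show (T ((181 : ℤ) : ℚ) ((8192 : ℤ) : ℚ)).Finite
    exact_mod_cast T14_2
  · show (T ((-11 : ℤ) : ℚ) ((32 : ℤ) : ℚ)).Finite
    exact_mod_cast T14_3
  · show (T ((-362 : ℤ) : ℚ) ((-7 : ℤ) : ℚ)).Finite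
    exact_mod_cast T14_4
  · show (T ((22 : ℤ) : ℚ) ((-7 : ℤ) : ℚ)).Finite
    exact_mod_cast T14_5
  · show (T ((-7 : ℤ) : ℚ) ((-144 : ℤ) : ℚ)).Finite
    exact_mod_cast T15_0
  · show (T ((-79 : ℤ) : ℚ) ((-80 : ℤ) : ℚ)).Finite
    exact_mod_cast T15_1'
  · show (T ((14 : ℤ) : ℚ) ((-15 : ℤ) : ℚ)).Finite
    exact_mod_cast T15_2''
  · show (T ((14 : ℤ) : ℚ) ((625 : ℤ) : ℚ)).Finite
    exact_mod_cast T15_3
  · show (T ((-322 : ℤ) : ℚ) ((1 : ℤ) : ℚ)).Finite
    exact_mod_cast T15_4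
  · show (T ((158 : ℤ) : ℚ) ((6561 : ℤ) : ℚ)).Finite
    exact_mod_cast T15_5
  · show (T ((62 : ℤ) : ℚ) ((1 : ℤ) : ℚ)).Finite
    exact_mod_cast T15_6
  · show (T ((-7 : ℤ) : ℚ) ((16 : ℤ) : ℚ)).Finite
    exact_mod_cast T15_7
  · show (T ((30 : ℤ) : ℚ) ((289 : ℤ) : ℚ)).Finite
    exact_mod_cast T17_0
  · show (T ((-15 : ℤ) : ℚ) ((-16 : ℤ) : ℚ)).Finite
    exact_mod_cast T17_1
  · show (T ((-66 : ℤ) : ℚ) ((1 : ℤ) : ℚ)).Finite
    exact_mod_cast T17_2
  · show (T ((9 : ℤ) : ℚ) ((16 : ℤ) : ℚ)).Finite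
    exact_mod_cast T17_3
  · exact absurd rfl h19
  · exact absurd rfl h19
  · exact absurd rfl h19
  · show (T ((-2 : ℤ) : ℚ) ((-63 : ℤ) : ℚ)).Finite
    exact_mod_cast T21_0''
  · show (T ((-47 : ℤ) : ℚ) ((-48 : ℤ) : ℚ)).Finite
    exact_mod_cast T21_1
  · show (T ((46 : ℤ) : ℚ) ((81 : ℤ) : ℚ)).Finite
    exact_mod_cast T21_2
  · show (T ((1 : ℤ) : ℚ) ((16 : ℤ) : ℚ)).Finite
    exact_mod_cast T21_3
  · show (T ((-194 : ℤ) : ℚ) ((1 : ℤ) : ℚ)).Finite
    exact_mod_cast T21_4
  · show (T ((94 : ℤ) : ℚ) ((2401 : ℤ) : ℚ)).Finite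
    exact_mod_cast T21_5

/-- The invariants of a semistable curve of conductor at most `21`. -/
theorem exists_index {W : WeierstrassCurve ℤ} (hΔ : W.Δ ≠ 0) (hW : W.IsSemistableModel)
    (hN : W.conductorLevel ≤ 21) : ∃ i : Fin 30, W.conductorLevel = level i ∧
      W.c₄ = (curves i).c₄ ∧ W.c₆ = (curves i).c₆ := by
  obtain ⟨i, r, s, t, hi⟩ := exists_iso_of_conductorLevel_le hΔ hW hN
  refine ⟨i, ?_, ?_, ?_⟩
  · rw [← (curves_facts i).2.2, ← hi, conductorLevel, conductorLevel, variableChange_Δ]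
    simp
  · rw [← hi, variableChange_c₄]
    simp
  · rw [← hi, variableChange_c₆]
    simp

/-- **The group of rational points is finite.** -/
theorem finite_points_of_conductor {W : WeierstrassCurve ℤ} (hΔ : W.Δ ≠ 0)
    (hW : W.IsSemistableModel) (hN : W.conductorLevel ≤ 21) (h11 : W.conductorLevel ≠ 11)
    (h19 : W.conductorLevel ≠ 19) : Finite (W.map (Int.castRingHom ℚ)).toAffine.Point := by
  obtain ⟨i, hl, h4, h6⟩ := exists_index hΔ hW hN
  rw [hl] at h11 h19
  obtain ⟨k4, k6⟩ := curves_inv i h11 h19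
  refine finite_of_T (T_curves i h11 h19) ?_ ?_
  · rw [map_c₄, h4, k4, eq_intCast]
    push_cast
    rfl
  · rw [map_c₆, h6]
    have : (2 : ℚ) * ((curves i).c₆ : ℚ) = ((2 * (curves i).c₆ : ℤ) : ℚ) := by push_cast; rfl
    rw [eq_intCast, this, k6]
    push_cast
    rfl

/-! ### The analytic side -/

theorem rootNumber_eq_prod (W : WeierstrassCurve ℤ) :
    rootNumber W = -∏ q ∈ W.conductorLevel.primeFactors, -ap W q := by
  rw [rootNumber, conductorLevel, Nat.primeFactors_radical]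

theorem ap_odd {W : WeierstrassCurve ℤ} (hΔ : W.Δ ≠ 0) (hW : W.IsSemistableModel) {q : ℕ}
    [hq : Fact q.Prime] (hd : q ∣ W.conductorLevel) (hq2 : q ≠ 2) :
    ap W q = legendreSym q (-W.c₆) :=
  ap_eq_of_dvd hΔ ((W.prime_dvd_conductorLevel_iff hΔ hq.out).1 hd)
    (hW q hq.out ((W.prime_dvd_conductorLevel_iff hΔ hq.out).1 hd)) hq2

theorem ap_even {W : WeierstrassCurve ℤ} (hΔ : W.Δ ≠ 0) (hW : W.IsSemistableModel)
    (hd : 2 ∣ W.conductorLevel) : ap W 2 = ZMod.χ₈ ((-W.c₆ : ℤ) : ZMod 8) := by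
  have h2 := (W.prime_dvd_conductorLevel_iff hΔ Nat.prime_two).1 hd
  rw [ap, if_pos h2, apOfModel_two ⟨Nat.prime_two, h2, hW 2 Nat.prime_two h2, hΔ⟩]

theorem rootNumber_mul {W : WeierstrassCurve ℤ} {p q : ℕ} (hp : p.Prime) (hq : q.Prime)
    (hpq : p ≠ q) (hN : W.conductorLevel = p * q) : rootNumber W = -(ap W p * ap W q) := by
  rw [rootNumber_eq_prod, hN, Nat.primeFactors_mul hp.ne_zero hq.ne_zero, hp.primeFactors,
    hq.primeFactors, Finset.prod_union (by simpa using hpq), Finset.prod_singleton,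
    Finset.prod_singleton]
  ring

theorem rootNumber_single {W : WeierstrassCurve ℤ} {p : ℕ} (hp : p.Prime)
    (hN : W.conductorLevel = p) : rootNumber W = ap W p := by
  rw [rootNumber_eq_prod, hN, hp.primeFactors, Finset.prod_singleton, neg_neg]

/-- The values of `c₆`. -/
def sc : Fin 30 → ℤ :=
  ![20008, 229985128, -152, 5291, 57707, 742643, -253, 47449331, -11341, 4879, 521479, -3689,
    36631, 33384799, 720559, -238049, -161, 12015, 4455, 287199, -81, 10088, 7096328, 8, 575,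
    113975, -80569, 71, 7300511, 185039]

theorem c₆_curves : ∀ i : Fin 30, (curves i).c₆ = sc i := by
  decide +kernel

/-- **The root number of a semistable elliptic curve of conductor at most `21` is `1`.** -/
theorem rootNumber_of_conductor {W : WeierstrassCurve ℤ} (hΔ : W.Δ ≠ 0)
    (hW : W.IsSemistableModel) (hN : W.conductorLevel ≤ 21) : rootNumber W = 1 := by
  have : Fact (Nat.Prime 3) := ⟨Nat.prime_three⟩
  have : Fact (Nat.Prime 5) := ⟨Nat.prime_five⟩
  have : Fact (Nat.Prime 7) := ⟨by norm_num⟩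
  have : Fact (Nat.Prime 11) := ⟨by norm_num⟩
  have : Fact (Nat.Prime 17) := ⟨by norm_num⟩
  have : Fact (Nat.Prime 19) := ⟨by norm_num⟩
  obtain ⟨i, hl, -, h6⟩ := exists_index hΔ hW hN
  rw [c₆_curves] at h6
  have hlev : ∀ j : Fin 30, level j = 11 ∨ level j = 14 ∨ level j = 15 ∨ level j = 17 ∨
      level j = 19 ∨ level j = 21 := by
    decide +kernel
  rcases hlev i with h | h | h | h | h | h
  · rw [rootNumber_single (by norm_num : Nat.Prime 11) (hl.trans h),
      ap_odd hΔ hW ⟨1, hl.trans h⟩ (by norm_num), h6]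
    revert h
    clear h6 hl
    fin_cases i <;> intro h <;> first
      | exact absurd h (by decide)
      | (simp only [sc]; norm_num)
  · rw [rootNumber_mul Nat.prime_two (by norm_num : Nat.Prime 7) (by norm_num) (hl.trans h),
      ap_even hΔ hW ⟨7, hl.trans h⟩, ap_odd hΔ hW ⟨2, hl.trans h⟩ (by norm_num), h6]
    revert h
    clear h6 hl
    fin_cases i <;> intro h <;> first
      | exact absurd h (by decide)
      | (simp only [sc]; norm_num; done)
      | (simp only [sc]; norm_num; decide)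
  · rw [rootNumber_mul Nat.prime_three Nat.prime_five (by norm_num) (hl.trans h),
      ap_odd hΔ hW ⟨5, hl.trans h⟩ (by norm_num), ap_odd hΔ hW ⟨3, hl.trans h⟩ (by norm_num), h6]
    revert h
    clear h6 hl
    fin_cases i <;> intro h <;> first
      | exact absurd h (by decide)
      | (simp only [sc]; norm_num)
  · rw [rootNumber_single (by norm_num : Nat.Prime 17) (hl.trans h),
      ap_odd hΔ hW ⟨1, hl.trans h⟩ (by norm_num), h6]
    revert h
    clear h6 hl
    fin_cases i <;> intro h <;> first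
      | exact absurd h (by decide)
      | (simp only [sc]; norm_num)
  · rw [rootNumber_single (by norm_num : Nat.Prime 19) (hl.trans h),
      ap_odd hΔ hW ⟨1, hl.trans h⟩ (by norm_num), h6]
    revert h
    clear h6 hl
    fin_cases i <;> intro h <;> first
      | exact absurd h (by decide)
      | (simp only [sc]; norm_num)
  · rw [rootNumber_mul Nat.prime_three (by norm_num : Nat.Prime 7) (by norm_num) (hl.trans h),
      ap_odd hΔ hW ⟨7, hl.trans h⟩ (by norm_num), ap_odd hΔ hW ⟨3, hl.trans h⟩ (by norm_num), h6]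
    revert h
    clear h6 hl
    fin_cases i <;> intro h <;> first
      | exact absurd h (by decide)
      | (simp only [sc]; norm_num)

/-! ### The theorem -/

/-- **The conjecture of Birch and Swinnerton-Dyer (rank part)** for the semistable elliptic curves
over `ℚ` of conductor at most `21`, different from `11` and `19`: the `L`-function exists, it does
not vanish at `s = 1`, the group of rational points is finite, and the order of vanishing at
`s = 1` is the rank. -/
theorem bsd {W : WeierstrassCurve ℤ} (hΔ : W.Δ ≠ 0) (hW : W.IsSemistableModel)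
    (hN : W.conductorLevel ≤ 21) (h11 : W.conductorLevel ≠ 11) (h19 : W.conductorLevel ≠ 19) :
    Finite (W.map (Int.castRingHom ℚ)).toAffine.Point ∧
    ∃ L : ℂ → ℂ, IsHasseWeil W L ∧ (∀ L' : ℂ → ℂ, IsHasseWeil W L' → L' = L) ∧ L 1 ≠ 0 ∧
      analyticOrderNatAt L 1 = Module.finrank ℤ (W.map (Int.castRingHom ℚ)).toAffine.Point := by
  have hfin := finite_points_of_conductor hΔ hW hN h11 h19
  exact ⟨hfin, exists_L hΔ hW (hN.trans (by norm_num))
    (rootNumber_of_conductor hΔ hW hN) hfin⟩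

/-- The finiteness for an arbitrary equation over `ℚ`. -/
theorem finite_points_rat {E : WeierstrassCurve ℚ} {W : WeierstrassCurve ℤ}
    (hE : W.IsIntegralModelOf E) (hΔ : W.Δ ≠ 0) (hW : W.IsSemistableModel)
    (hN : W.conductorLevel ≤ 21) (h11 : W.conductorLevel ≠ 11) (h19 : W.conductorLevel ≠ 19) :
    Finite E.toAffine.Point := by
  obtain ⟨C, hC⟩ := hE
  obtain ⟨i, hl, h4, h6⟩ := exists_index hΔ hW hN
  rw [hl] at h11 h19
  obtain ⟨k4, k6⟩ := curves_inv i h11 h19
  have hu : (C.u : ℚ) ≠ 0 := C.u.ne_zero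
  have hu' : ((C.u⁻¹ : ℚˣ) : ℚ) = (C.u : ℚ)⁻¹ := by simp
  have e4 : E.c₄ = (C.u : ℚ) ^ 4 * (W.c₄ : ℚ) := by
    have h := congrArg WeierstrassCurve.c₄ hC
    rw [variableChange_c₄, map_c₄, hu', eq_intCast] at h
    rw [← h]
    field_simp
  have e6 : E.c₆ = (C.u : ℚ) ^ 6 * (W.c₆ : ℚ) := by
    have h := congrArg WeierstrassCurve.c₆ hC
    rw [variableChange_c₆, map_c₆, hu', eq_intCast] at h
    rw [← h]
    field_simp
  have k4' : (W.c₄ : ℚ) = (pa i : ℚ) ^ 2 - 3 * pb i := by
    rw [h4, k4]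
    push_cast
    rfl
  have k6' : 2 * (W.c₆ : ℚ) = -2 * (pa i : ℚ) ^ 3 + 9 * pa i * pb i := by
    rw [h6]
    exact_mod_cast k6
  refine finite_of_T (T_scale (C.u : ℚ) (T_curves i h11 h19) hu rfl rfl) ?_ ?_
  · rw [e4, k4']
    ring
  · rw [e6]
    linear_combination (C.u : ℚ) ^ 6 * k6'

/-- **The conjecture of Birch and Swinnerton-Dyer (rank part)** for the elliptic curves `E` over
`ℚ` with a semistable integral equation `W` of conductor at most `21`, different from `11`
and `19`. -/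
theorem bsd_rat {E : WeierstrassCurve ℚ} {W : WeierstrassCurve ℤ} (hE : W.IsIntegralModelOf E)
    (hΔ : W.Δ ≠ 0) (hW : W.IsSemistableModel) (hN : W.conductorLevel ≤ 21)
    (h11 : W.conductorLevel ≠ 11) (h19 : W.conductorLevel ≠ 19) :
    Finite E.toAffine.Point ∧
    ∃ L : ℂ → ℂ, IsHasseWeil W L ∧ (∀ L' : ℂ → ℂ, IsHasseWeil W L' → L' = L) ∧ L 1 ≠ 0 ∧
      analyticOrderNatAt L 1 = Module.finrank ℤ E.toAffine.Point := by
  have hfin := finite_points_rat hE hΔ hW hN h11 h19
  refine ⟨hfin, ?_⟩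
  obtain ⟨L, hL, hu⟩ := existsUnique_isHasseWeil hΔ hW
  have h50 : W.conductorLevel ≤ 50 := hN.trans (by norm_num)
  have hw := rootNumber_of_conductor hΔ hW hN
  refine ⟨L, hL, hu, (L_one_ne_zero_iff hΔ hW hL h50).2 hw, ?_⟩
  rw [analyticOrderNatAt_eq hΔ hW hL h50, if_pos hw, finrank_eq_zero]

end Fermat.Agent.Cor.BSD
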