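import Fermat.Agent.Corollaries.HW.LOne

/-!
# The analytic rank of semistable elliptic curves of small conductor

For the curves `y² + xy = x³ - 2x² - 9x` (conductor `15`), `y² + xy = x³ - 4x² - x` (`17`),
`y² + xy = x³ - 12x² - 3x` (`21`), `y² + xy + y = x³ + x²` (`15`), `y² + y = x³ - x²` (`11`):
discriminant, conductor, semistability, root number `1`, and `L(E, 1) > 0`.
-/

set_option autoImplicit false

noncomputable section

namespace Fermat.Agent.Cor.BSD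

open Fermat.Agent.Cor.HW

/-- The local sign at an odd prime of multiplicative reduction. -/
theorem ap_of_dvd {W : WeierstrassCurve ℤ} {q : ℕ} (hq : q.Prime) (hq2 : q ≠ 2) (h0 : W.Δ ≠ 0)
    (hd : (q : ℤ) ∣ W.Δ) (hc : ¬ (q : ℤ) ∣ W.c₄) :
    ap W q = @legendreSym q ⟨hq⟩ (-W.c₆) := by
  have : Fact q.Prime := ⟨hq⟩
  rw [ap, if_pos hd, apOfModel_eq_legendreSym ⟨hq, hd, hc, h0⟩ hq2]

/-- The conductor if the prime factors of the discriminant are known. -/
theorem conductorLevel_of_primeFactors {W : WeierstrassCurve ℤ} {s : Finset ℕ}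
    (h : W.Δ.natAbs.primeFactors = s) : W.conductorLevel = ∏ q ∈ s, q := by
  rw [WeierstrassCurve.conductorLevel, Nat.radical_eq_prod_primeFactors, h]

theorem rootNumber_of_primeFactors {W : WeierstrassCurve ℤ} {s : Finset ℕ}
    (h : W.Δ.natAbs.primeFactors = s) : rootNumber W = -∏ q ∈ s, -ap W q := by
  rw [rootNumber, h]

theorem isSemistableModel_of_primeFactors {W : WeierstrassCurve ℤ} {s : Finset ℕ}
    (h0 : W.Δ ≠ 0) (h : W.Δ.natAbs.primeFactors = s) (hs : ∀ q ∈ s, ¬ (q : ℤ) ∣ W.c₄) :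
    W.IsSemistableModel := by
  intro p hp hd
  refine hs p ?_
  rw [← h, Nat.mem_primeFactors]
  exact ⟨hp, Int.natCast_dvd.mp hd, Int.natAbs_ne_zero.mpr h0⟩

theorem primeFactors_two_pow {p q : ℕ} (hp : p.Prime) (hq : q.Prime) (m n : ℕ) (hm : m ≠ 0)
    (hn : n ≠ 0) : (p ^ m * q ^ n).primeFactors = {p, q} := by
  rw [Nat.primeFactors_mul (pow_ne_zero _ hp.ne_zero) (pow_ne_zero _ hq.ne_zero),
    Nat.primeFactors_prime_pow hm hp, Nat.primeFactors_prime_pow hn hq]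
  rfl

/-- A semistable equation whose discriminant is `± p^m q^n`, with odd primes `p ≠ q`. -/
theorem data_two {W : WeierstrassCurve ℤ} {p q m n : ℕ} (hp : p.Prime) (hq : q.Prime)
    (hp2 : p ≠ 2) (hq2 : q ≠ 2) (hpq : p ≠ q) (hm : m ≠ 0) (hn : n ≠ 0)
    (h : W.Δ.natAbs = p ^ m * q ^ n) (hcp : ¬ (p : ℤ) ∣ W.c₄) (hcq : ¬ (q : ℤ) ∣ W.c₄) :
    W.Δ ≠ 0 ∧ W.IsSemistableModel ∧ W.conductorLevel = p * q ∧
      rootNumber W = -(@legendreSym p ⟨hp⟩ (-W.c₆) * @legendreSym q ⟨hq⟩ (-W.c₆)) := by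
  have h0 : W.Δ ≠ 0 := by
    intro h0
    rw [h0, Int.natAbs_zero] at h
    exact mul_ne_zero (pow_ne_zero _ hp.ne_zero) (pow_ne_zero _ hq.ne_zero) h.symm
  have hs : W.Δ.natAbs.primeFactors = {p, q} := by
    rw [h]
    exact primeFactors_two_pow hp hq m n hm hn
  have hdp : (p : ℤ) ∣ W.Δ := by
    rw [Int.natCast_dvd, h]
    exact (dvd_pow_self p hm).mul_right _
  have hdq : (q : ℤ) ∣ W.Δ := by
    rw [Int.natCast_dvd, h]
    exact (dvd_pow_self q hn).mul_left _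
  refine ⟨h0, isSemistableModel_of_primeFactors h0 hs ?_, ?_, ?_⟩
  · intro r hr
    rw [Finset.mem_insert, Finset.mem_singleton] at hr
    rcases hr with rfl | rfl
    exacts [hcp, hcq]
  · rw [conductorLevel_of_primeFactors hs, Finset.prod_pair hpq]
  · rw [rootNumber_of_primeFactors hs, Finset.prod_pair hpq, ap_of_dvd hp hp2 h0 hdp hcp,
      ap_of_dvd hq hq2 h0 hdq hcq]
    ring

/-- **The analytic rank is zero** and `L(E, 1) > 0`: conductor at most `50`, root number `1`. -/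
theorem analytic_of_rootNumber {W : WeierstrassCurve ℤ} (h0 : W.Δ ≠ 0)
    (hW : W.IsSemistableModel) (hN : W.conductorLevel ≤ 50) (hw : rootNumber W = 1) {L : ℂ → ℂ}
    (hL : IsHasseWeil W L) :
    analyticOrderNatAt L 1 = 0 ∧ analyticOrderAt L 1 = 0 ∧ ∃ y : ℝ, 0 < y ∧ L 1 = y := by
  obtain ⟨y, hy, hy1⟩ := L_one_pos h0 hW hL hN hw
  have h1 : analyticOrderAt L 1 = 0 := by
    rw [AnalyticAt.analyticOrderAt_eq_zero (hL.1.analyticAt 1), hy1]
    exact_mod_cast hy.ne'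
  exact ⟨by rw [analyticOrderNatAt, h1]; rfl, h1, y, hy, hy1⟩

/-- The curve `15a1`: `y² + xy = x³ - 2x² - 9x`, over `ℤ`. -/
def M15 : WeierstrassCurve ℤ := ⟨1, -2, 0, -9, 0⟩

/-- The curve `17a2`: `y² + xy = x³ - 4x² - x`, over `ℤ`. -/
def M17 : WeierstrassCurve ℤ := ⟨1, -4, 0, -1, 0⟩

/-- The curve `21a2`: `y² + xy = x³ - 12x² - 3x`, over `ℤ`. -/
def M21 : WeierstrassCurve ℤ := ⟨1, -12, 0, -3, 0⟩

/-- The modular curve `X₁(15)`: `y² + xy + y = x³ + x²`, over `ℤ`. -/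
def X15 : WeierstrassCurve ℤ := ⟨1, 1, 1, 0, 0⟩

theorem data15 : M15.Δ ≠ 0 ∧ M15.IsSemistableModel ∧ M15.conductorLevel = 15 ∧
    rootNumber M15 = 1 := by
  obtain ⟨h1, h2, h3, h4⟩ := data_two (W := M15) (p := 3) (q := 5) (m := 4) (n := 4)
    (by norm_num) (by norm_num) (by norm_num) (by norm_num) (by norm_num) (by norm_num)
    (by norm_num) (by decide) (by decide) (by decide)
  refine ⟨h1, h2, by rw [h3], ?_⟩
  rw [h4, show -M15.c₆ = -4879 from by decide]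
  have : Fact (Nat.Prime 3) := ⟨by norm_num⟩
  have : Fact (Nat.Prime 5) := ⟨by norm_num⟩
  norm_num

theorem data21 : M21.Δ ≠ 0 ∧ M21.IsSemistableModel ∧ M21.conductorLevel = 21 ∧
    rootNumber M21 = 1 := by
  obtain ⟨h1, h2, h3, h4⟩ := data_two (W := M21) (p := 3) (q := 7) (m := 2) (n := 4)
    (by norm_num) (by norm_num) (by norm_num) (by norm_num) (by norm_num) (by norm_num)
    (by norm_num) (by decide) (by decide) (by decide)
  refine ⟨h1, h2, by rw [h3], ?_⟩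
  rw [h4, show -M21.c₆ = -113975 from by decide]
  norm_num

theorem dataX15 : X15.Δ ≠ 0 ∧ X15.IsSemistableModel ∧ X15.conductorLevel = 15 ∧
    rootNumber X15 = 1 := by
  obtain ⟨h1, h2, h3, h4⟩ := data_two (W := X15) (p := 3) (q := 5) (m := 1) (n := 1)
    (by norm_num) (by norm_num) (by norm_num) (by norm_num) (by norm_num) (by norm_num)
    (by norm_num) (by decide) (by decide) (by decide)
  refine ⟨h1, h2, by rw [h3], ?_⟩
  rw [h4, show -X15.c₆ = 161 from by decide]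
  norm_num

theorem data17 : M17.Δ ≠ 0 ∧ M17.IsSemistableModel ∧ M17.conductorLevel = 17 ∧
    rootNumber M17 = 1 := by
  have hq : Nat.Prime 17 := by norm_num
  have h : M17.Δ.natAbs = 17 ^ 2 := by decide
  have h0 : M17.Δ ≠ 0 := by decide
  have hc : ¬ ((17 : ℕ) : ℤ) ∣ M17.c₄ := by decide
  have hs : M17.Δ.natAbs.primeFactors = {17} := by
    rw [h, Nat.primeFactors_prime_pow (by norm_num) hq]
  refine ⟨h0, isSemistableModel_of_primeFactors h0 hs ?_, ?_, ?_⟩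
  · intro r hr
    rw [Finset.mem_singleton] at hr
    rw [hr]
    exact hc
  · rw [conductorLevel_of_primeFactors hs, Finset.prod_singleton]
  · rw [rootNumber_of_primeFactors hs, Finset.prod_singleton,
      ap_of_dvd hq (by norm_num) h0 (by decide) hc, show -M17.c₆ = -4455 from by decide]
    norm_num

/-- `y² + xy = x³ - 2x² - 9x`: analytic rank `0`, `L(E, 1) > 0`. -/
theorem analytic15 {L : ℂ → ℂ} (hL : IsHasseWeil M15 L) :
    analyticOrderNatAt L 1 = 0 ∧ analyticOrderAt L 1 = 0 ∧ ∃ y : ℝ, 0 < y ∧ L 1 = y :=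
  analytic_of_rootNumber data15.1 data15.2.1 (by rw [data15.2.2.1]; norm_num) data15.2.2.2 hL

/-- `y² + xy = x³ - 4x² - x`: analytic rank `0`, `L(E, 1) > 0`. -/
theorem analytic17 {L : ℂ → ℂ} (hL : IsHasseWeil M17 L) :
    analyticOrderNatAt L 1 = 0 ∧ analyticOrderAt L 1 = 0 ∧ ∃ y : ℝ, 0 < y ∧ L 1 = y :=
  analytic_of_rootNumber data17.1 data17.2.1 (by rw [data17.2.2.1]; norm_num) data17.2.2.2 hL

/-- `y² + xy = x³ - 12x² - 3x`: analytic rank `0`, `L(E, 1) > 0`. -/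
theorem analytic21 {L : ℂ → ℂ} (hL : IsHasseWeil M21 L) :
    analyticOrderNatAt L 1 = 0 ∧ analyticOrderAt L 1 = 0 ∧ ∃ y : ℝ, 0 < y ∧ L 1 = y :=
  analytic_of_rootNumber data21.1 data21.2.1 (by rw [data21.2.2.1]; norm_num) data21.2.2.2 hL

/-- `y² + xy + y = x³ + x²`: analytic rank `0`, `L(E, 1) > 0`. -/
theorem analyticX15 {L : ℂ → ℂ} (hL : IsHasseWeil X15 L) :
    analyticOrderNatAt L 1 = 0 ∧ analyticOrderAt L 1 = 0 ∧ ∃ y : ℝ, 0 < y ∧ L 1 = y :=
  analytic_of_rootNumber dataX15.1 dataX15.2.1 (by rw [dataX15.2.2.1]; norm_num) dataX15.2.2.2 hL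

end Fermat.Agent.Cor.BSD

end
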