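import Fermat.Agent.Corollaries.BSD.TwoDesc
import Fermat.Agent.Corollaries.MordellWeil.Main
import Fermat.Agent.Corollaries.LN.Integral

/-!
# The rank of the elliptic curve `65a`

`y² + x y = x³ - x` has rank one over `ℚ`: `finrank_E65`.
-/

set_option autoImplicit false

noncomputable section

namespace Fermat.Agent.Cor.BSD.One

open WeierstrassCurve
open Fermat.Agent.Cor.MordellWeil

/-! ### Ranks -/

section rank

variable {M : Type*} [AddCommGroup M]

theorem finrank_le_one_of_smul {G : M} {n : ℤ} (hn : n ≠ 0) (h : ∀ P : M, ∃ m : ℤ, n • P = m • G) :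
    Module.finrank ℤ M ≤ 1 := by
  have h1 : Module.rank ℤ M ≤ ((1 : ℕ) : Cardinal) := by
    refine rank_le fun s hs => ?_
    by_contra hcard
    push Not at hcard
    obtain ⟨a, ha, b, hb, hab⟩ := Finset.one_lt_card.mp hcard
    have hpair : LinearIndependent ℤ ![a, b] := by
      have h2 := hs.comp ![⟨a, ha⟩, ⟨b, hb⟩] (by
        intro i j hij
        fin_cases i <;> fin_cases j <;> simp_all)
      convert h2 using 1
      ext i
      fin_cases i <;> rfl
    rw [LinearIndependent.pair_iff] at hpair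
    obtain ⟨m, hm⟩ := h a
    obtain ⟨m', hm'⟩ := h b
    obtain ⟨h3, h4⟩ := hpair (m' * n) (-(m * n)) (by
      rw [neg_smul, mul_smul, mul_smul, hm, hm', smul_smul, smul_smul, mul_comm, add_neg_cancel])
    have hm0 : m = 0 := by
      rcases mul_eq_zero.mp (neg_eq_zero.mp h4) with h5 | h5
      · exact h5
      · exact absurd h5 hn
    rw [hm0, zero_smul] at hm
    exact hn (hpair n 0 (by rw [hm, zero_smul, add_zero])).1
  exact Module.finrank_le_of_rank_le h1

/-- `M` finitely generated and generated modulo `2 M` by `G` and an element `T` of order `2`. -/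
theorem finrank_le_one (hfg : AddGroup.FG M) {T G : M} (hT : T + T = 0)
    (h : ∀ P : M, ∃ Q : M, P - (Q + Q) ∈ Submodule.span ℤ {T, G}) : Module.finrank ℤ M ≤ 1 := by
  have hfin : Module.Finite ℤ M := Module.Finite.iff_addGroup_fg.mpr hfg
  set S : Submodule ℤ M := Submodule.span ℤ {T, G} with hS
  obtain ⟨r, hr, hr0⟩ := Submodule.exists_sub_one_mem_and_smul_eq_zero_of_fg_of_le_smul
    (Ideal.span {(2 : ℤ)}) (⊤ : Submodule ℤ (M ⧸ S)) Module.Finite.fg_top (by
      rintro x -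
      obtain ⟨P, rfl⟩ := Submodule.Quotient.mk_surjective S x
      obtain ⟨Q, hQ⟩ := h P
      have h1 : (Submodule.Quotient.mk P : M ⧸ S) = (2 : ℤ) • Submodule.Quotient.mk Q := by
        rw [two_smul, ← Submodule.Quotient.mk_add]
        exact (Submodule.Quotient.eq S).mpr hQ
      rw [h1]
      exact Submodule.smul_mem_smul (Ideal.mem_span_singleton_self 2) Submodule.mem_top)
  have hodd : r ≠ 0 := by
    rintro rfl
    rw [Ideal.mem_span_singleton] at hr
    omega
  refine finrank_le_one_of_smul (G := G) (n := 2 * r) (by omega) fun P => ?_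
  have h1 : r • P ∈ S := by
    have h2 := hr0 (Submodule.Quotient.mk P) Submodule.mem_top
    rwa [← Submodule.Quotient.mk_smul, Submodule.Quotient.mk_eq_zero] at h2
  obtain ⟨a, b, hab⟩ := Submodule.mem_span_pair.mp h1
  refine ⟨2 * b, ?_⟩
  rw [mul_smul, ← hab, smul_add, smul_smul, smul_smul, mul_comm 2 a, mul_smul, two_smul ℤ T, hT,
    smul_zero, zero_add]

end rank

/-! ### The curve -/

/-- The elliptic curve `65a`: `y² + x y = x³ - x`. -/
def W65 : WeierstrassCurve ℤ := ⟨1, 0, 0, -1, 0⟩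

/-- `65a` over `ℚ`. -/
abbrev E65 : WeierstrassCurve ℚ := W65.map (Int.castRingHom ℚ)

theorem Δ_W65 : W65.Δ = 65 := by decide

theorem Δ_E65 : E65.Δ = 65 := by
  rw [map_Δ, Δ_W65]
  norm_num

theorem Δ_ne : E65.Δ ≠ 0 := by
  rw [Δ_E65]
  norm_num

instance isElliptic_E65 : E65.IsElliptic := ⟨isUnit_iff_ne_zero.mpr Δ_ne⟩

theorem a₁_E65 : E65.a₁ = 1 := by simp [W65]
theorem a₂_E65 : E65.a₂ = 0 := by simp [W65]
theorem a₃_E65 : E65.a₃ = 0 := by simp [W65]
theorem a₄_E65 : E65.a₄ = -1 := by simp [W65]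
theorem a₆_E65 : E65.a₆ = 0 := by simp [W65]

theorem equation_iff65 {x y : ℚ} : E65.toAffine.Equation x y ↔ y ^ 2 + x * y = x ^ 3 - x := by
  rw [Affine.equation_iff]
  change y ^ 2 + E65.a₁ * x * y + E65.a₃ * y = x ^ 3 + E65.a₂ * x ^ 2 + E65.a₄ * x + E65.a₆ ↔ _
  rw [a₁_E65, a₂_E65, a₃_E65, a₄_E65, a₆_E65]
  constructor <;> intro h <;> linear_combination h

theorem eta65 (x y : ℚ) : eta E65 x y = y + x / 2 := by
  rw [eta, a₁_E65, a₃_E65]
  ring

theorem splits65 : Splits1 E65 0 (1 / 4) (-1) := by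
  refine ⟨?_, ?_, ?_⟩
  · rw [b₂, a₁_E65, a₂_E65]; norm_num
  · rw [b₄, a₁_E65, a₃_E65, a₄_E65]; norm_num
  · rw [b₆, a₃_E65, a₆_E65]; norm_num

theorem nonsingular65 {x y : ℚ} (h : y ^ 2 + x * y = x ^ 3 - x) : E65.toAffine.Nonsingular x y :=
  (Affine.equation_iff_nonsingular_of_Δ_ne_zero Δ_ne).1 (equation_iff65.mpr h)

/-- The point of order `2`. -/
def T65 : E65.toAffine.Point := Affine.Point.some 0 0 (nonsingular65 (by norm_num))

/-- The generator. -/
def G65 : E65.toAffine.Point := Affine.Point.some 1 0 (nonsingular65 (by norm_num))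

theorem T65_add : T65 + T65 = 0 := by
  rw [T65]
  refine Affine.Point.add_of_Y_eq rfl ?_
  rw [Affine.negY]
  change (0 : ℚ) = -0 - E65.a₁ * 0 - E65.a₃
  rw [a₁_E65, a₃_E65]
  norm_num

/-! ### The classes -/

theorem isSquare_65 : ¬ IsSquare (65 : ℚ) := by norm_num

theorem irr65 (r : ℚ) : r ^ 2 ≠ -(-1) + -(1 / 4) * r := by
  intro h
  exact isSquare_65 ⟨8 * r + 1, by linear_combination -64 * h⟩

theorem five_dvd {m n S : ℤ} (h : 8 * m ^ 4 + m ^ 2 * n ^ 2 - 2 * n ^ 4 = S ^ 2 ∨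
    8 * m ^ 4 - m ^ 2 * n ^ 2 - 2 * n ^ 4 = -S ^ 2) : (5 : ℤ) ∣ m ∧ (5 : ℤ) ∣ n := by
  have h5 : Prime (5 : ℤ) := Int.prime_iff_natAbs_prime.mpr (by norm_num)
  have key : ∀ m n S : ZMod 5, 8 * m ^ 4 + m ^ 2 * n ^ 2 - 2 * n ^ 4 = S ^ 2 →
      S = 0 ∧ n ^ 2 + m ^ 2 = 0 := by decide
  have key' : ∀ m n S : ZMod 5, 8 * m ^ 4 - m ^ 2 * n ^ 2 - 2 * n ^ 4 = -S ^ 2 →
      S = 0 ∧ n ^ 2 - m ^ 2 = 0 := by decide
  rcases h with h | h
  · have h1 := key m n S (by exact_mod_cast congrArg (Int.cast : ℤ → ZMod 5) h)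
    have hS : (5 : ℤ) ∣ S := (ZMod.intCast_zmod_eq_zero_iff_dvd S 5).mp h1.1
    have hk : (5 : ℤ) ∣ n ^ 2 + m ^ 2 := (ZMod.intCast_zmod_eq_zero_iff_dvd _ 5).mp (by
      push_cast
      exact h1.2)
    obtain ⟨l, rfl⟩ := hS
    obtain ⟨k, hk⟩ := hk
    have hn : n ^ 2 = 5 * k - m ^ 2 := by linear_combination hk
    have hm : (5 : ℤ) ∣ m ^ 4 := ⟨l ^ 2 - k * m ^ 2 + 2 * k ^ 2, by
      have e : n ^ 4 = (5 * k - m ^ 2) ^ 2 := by rw [← hn]; ring
      rw [e, hn] at h
      refine mul_left_cancel₀ (show (5 : ℤ) ≠ 0 by norm_num) ?_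
      linear_combination h⟩
    have hm' := h5.dvd_of_dvd_pow hm
    refine ⟨hm', h5.dvd_of_dvd_pow (n := 2) ?_⟩
    rw [hn]
    exact (Dvd.intro k rfl).sub (dvd_pow hm' two_ne_zero)
  · have h1 := key' m n S (by exact_mod_cast congrArg (Int.cast : ℤ → ZMod 5) h)
    have hS : (5 : ℤ) ∣ S := (ZMod.intCast_zmod_eq_zero_iff_dvd S 5).mp h1.1
    have hk : (5 : ℤ) ∣ n ^ 2 - m ^ 2 := (ZMod.intCast_zmod_eq_zero_iff_dvd _ 5).mp (by
      push_cast
      exact h1.2)
    obtain ⟨l, rfl⟩ := hS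
    obtain ⟨k, hk⟩ := hk
    have hn : n ^ 2 = 5 * k + m ^ 2 := by linear_combination hk
    have hm : (5 : ℤ) ∣ m ^ 4 := ⟨-l ^ 2 + k * m ^ 2 + 2 * k ^ 2, by
      have e : n ^ 4 = (5 * k + m ^ 2) ^ 2 := by rw [← hn]; ring
      rw [e, hn] at h
      refine mul_left_cancel₀ (show (5 : ℤ) ≠ 0 by norm_num) ?_
      linear_combination h⟩
    have hm' := h5.dvd_of_dvd_pow hm
    refine ⟨hm', h5.dvd_of_dvd_pow (n := 2) ?_⟩
    rw [hn]
    exact (Dvd.intro k rfl).add (dvd_pow hm' two_ne_zero)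

/-- The classes `± 2` are excluded at the prime `5`. -/
theorem no_two {ε : ℤ} (hε : ε = 1 ∨ ε = -1) {r s : ℚ}
    (h : 8 * r ^ 4 + ε * r ^ 2 - 2 = ε * s ^ 2) : False := by
  have hε0 : (ε : ℚ) ^ 2 = 1 := by
    rcases hε with rfl | rfl <;> norm_num
  have hden : (r.den : ℚ) ≠ 0 := by exact_mod_cast r.den_nz
  set m : ℤ := r.num with hm
  set n : ℤ := (r.den : ℤ) with hn
  have hr : (m : ℚ) = r * n := by
    rw [hm, hn]
    exact_mod_cast (Rat.mul_den_eq_num r).symm
  have hcop : IsCoprime m n := by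
    rw [Int.isCoprime_iff_gcd_eq_one]
    exact r.reduced
  have h1 : ((ε : ℤ) : ℚ) * (s * n ^ 2) ^ 2 =
      ((8 * m ^ 4 + ε * m ^ 2 * n ^ 2 - 2 * n ^ 4 : ℤ) : ℚ) := by
    push_cast
    rw [hr]
    linear_combination -(n : ℚ) ^ 4 * h
  have hsf : Squarefree ε := by
    rcases hε with rfl | rfl
    · exact squarefree_one
    · rw [← Int.squarefree_natAbs]
      simp
  obtain ⟨S, hS⟩ := exists_int_of_mul_sq hsf h1
  rw [hS] at h1
  have h2 : ε * S ^ 2 = 8 * m ^ 4 + ε * m ^ 2 * n ^ 2 - 2 * n ^ 4 := by exact_mod_cast h1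
  have h3 : (5 : ℤ) ∣ m ∧ (5 : ℤ) ∣ n := by
    refine five_dvd (S := S) ?_
    rcases hε with rfl | rfl
    · left
      linear_combination -h2
    · right
      linear_combination -h2
  have h5 := hcop.isUnit_of_dvd' h3.1 h3.2
  rw [Int.isUnit_iff] at h5
  omega

/-- The first descent map of `65a`. -/
theorem alpha65 {x y : ℚ} (h : E65.toAffine.Equation x y) (hx : x ≠ 0) :
    ∃ r : ℚ, r ≠ 0 ∧ (x = r ^ 2 ∨ x = -r ^ 2) := by
  obtain ⟨d, r, s, hd, hdvd, hr0, hr, hs, -⟩ := exists_alpha (k := 2) (a := 1) (b := -16)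
    (by norm_num) (by norm_num) splits65 h (by rwa [sub_zero])
  rw [sub_zero] at hr hs
  have hdle : d.natAbs ≤ 16 := Nat.le_of_dvd (by norm_num) (Int.natAbs_dvd_natAbs.mpr hdvd)
  have hd4 : ¬ (2 * 2 : ℤ) ∣ d := fun h4 => by
    have := hd 2 h4
    rw [Int.isUnit_iff] at this
    omega
  have hdvd' : d.natAbs ∣ 16 := Int.natAbs_dvd_natAbs.mpr hdvd
  have hd' : d.natAbs = 1 ∨ d.natAbs = 2 := by
    have h16 : d.natAbs ∈ Nat.divisors 16 := Nat.mem_divisors.mpr ⟨hdvd', by norm_num⟩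
    have e : Nat.divisors 16 = {1, 2, 4, 8, 16} := by decide
    rw [e] at h16
    simp only [Finset.mem_insert, Finset.mem_singleton] at h16
    omega
  rcases hd' with h1 | h2
  · refine ⟨r, hr0, ?_⟩
    rcases Int.natAbs_eq d with h3 | h3
    · left
      rw [hr, h3, h1]
      norm_num
    · right
      rw [hr, h3, h1]
      norm_num
  · exfalso
    rcases Int.natAbs_eq d with h3 | h3
    · rw [h3, h2] at hr hs
      refine no_two (Or.inl rfl) (r := r) (s := 2 * s) ?_
      rw [hr] at hs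
      push_cast at hs ⊢
      linear_combination 2 * hs
    · rw [h3, h2] at hr hs
      refine no_two (Or.inr rfl) (r := r) (s := 2 * s) ?_
      rw [hr] at hs
      push_cast at hs ⊢
      linear_combination 2 * hs

/-- The second descent map of `65a`. -/
theorem beta65 {x r s : ℚ} (hr : x = r ^ 2) (hs : x ^ 2 + 1 / 4 * x + -1 = s ^ 2) :
    ∃ t : ℚ, t ≠ 0 ∧ (2 * x + 1 / 4 + 2 * s = t ^ 2 ∨ 2 * x + 1 / 4 + 2 * s = 5 * t ^ 2 ∨
      2 * x + 1 / 4 + 2 * s = 13 * t ^ 2 ∨ 2 * x + 1 / 4 + 2 * s = 65 * t ^ 2) := by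
  obtain ⟨c, t, hc, hdvd, ht0, ht⟩ := exists_beta (k := 2) (a := 1) (b := -16)
    (by norm_num) (by norm_num) Δ_ne splits65 (x := x) (r := r) (s := s) (by rwa [sub_zero])
    (by rwa [sub_zero])
  rw [sub_zero] at ht
  have hpos : 0 < 2 * x + 1 / 4 + 2 * s := by
    by_contra hcon
    push Not at hcon
    have h1 : (2 * x + 1 / 4 + 2 * s) * (2 * x + 1 / 4 - 2 * s) = 65 / 16 := by
      linear_combination 4 * hs
    have h2 : 0 ≤ x := by rw [hr]; positivity
    have h3 : 0 < 2 * x + 1 / 4 - 2 * s := by linarith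
    nlinarith
  have hc0 : 0 < c := by
    by_contra hcon
    push Not at hcon
    have h1 : (c : ℚ) ≤ 0 := by exact_mod_cast hcon
    have h2 : (c : ℚ) * t ^ 2 ≤ 0 := mul_nonpos_of_nonpos_of_nonneg h1 (sq_nonneg t)
    linarith
  refine ⟨t, ht0, ?_⟩
  have h65 : c.natAbs ∈ Nat.divisors 65 :=
    Nat.mem_divisors.mpr ⟨Int.natAbs_dvd_natAbs.mpr (by simpa using hdvd), by norm_num⟩
  have e : Nat.divisors 65 = {1, 5, 13, 65} := by decide
  rw [e] at h65
  simp only [Finset.mem_insert, Finset.mem_singleton] at h65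
  have hc' : c = 1 ∨ c = 5 ∨ c = 13 ∨ c = 65 := by omega
  rcases hc' with rfl | rfl | rfl | rfl
  · left; rw [ht]; norm_num
  · right; left; rw [ht]; norm_num
  · right; right; left; rw [ht]; norm_num
  · right; right; right; rw [ht]; norm_num

/-! ### The Mordell-Weil group modulo `2` -/

/-- `P` is in the span of `T`, `G` modulo `2 W(ℚ)`. -/
def Good (P : E65.toAffine.Point) : Prop :=
  ∃ Q : E65.toAffine.Point, P - (Q + Q) ∈ Submodule.span ℤ {T65, G65}

theorem T65_mem : T65 ∈ Submodule.span ℤ {T65, G65} :=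
  Submodule.subset_span (Set.mem_insert _ _)

theorem G65_mem : G65 ∈ Submodule.span ℤ {T65, G65} :=
  Submodule.subset_span (Set.mem_insert_of_mem _ rfl)

theorem good_of_mem {P : E65.toAffine.Point} (h : P ∈ Submodule.span ℤ {T65, G65}) : Good P :=
  ⟨0, by rwa [add_zero, sub_zero]⟩

theorem good_of_half {P Q : E65.toAffine.Point} (h : Q + Q = P) : Good P :=
  ⟨Q, by rw [h, sub_self]; exact Submodule.zero_mem _⟩

theorem good_of_add {P g : E65.toAffine.Point} (hg : g ∈ Submodule.span ℤ {T65, G65})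
    (h : Good (P + g)) : Good P := by
  obtain ⟨Q, hQ⟩ := h
  refine ⟨Q, ?_⟩
  have := Submodule.sub_mem _ hQ hg
  rwa [show P + g - (Q + Q) - g = P - (Q + Q) by abel] at this

theorem eq_T65 {y : ℚ} (h : E65.toAffine.Nonsingular 0 y) : Affine.Point.some 0 y h = T65 := by
  have h1 := equation_iff65.mp h.1
  have h2 : y = 0 := by
    have h3 : y ^ 2 = 0 := by linear_combination h1
    exact pow_eq_zero_iff two_ne_zero |>.mp h3
  subst h2
  rfl

theorem sq_eq65 {x y r s : ℚ} (h : E65.toAffine.Equation x y) (hr : x = r ^ 2) (hr0 : r ≠ 0)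
    (hη : y + x / 2 = r * s) : x ^ 2 + 1 / 4 * x + -1 = s ^ 2 := by
  have h1 := equation_iff65.mp h
  have h2 : x * s ^ 2 = x * (x ^ 2 + 1 / 4 * x + -1) := by
    have h3 : (y + x / 2) ^ 2 = x * s ^ 2 := by rw [hη, hr]; ring
    rw [← h3]
    linear_combination h1
  exact (mul_left_cancel₀ (by rw [hr]; exact pow_ne_zero 2 hr0) h2).symm

theorem half65 {x y r s : ℚ} (h : E65.toAffine.Nonsingular x y) (hr : x = r ^ 2) (hr0 : r ≠ 0)
    (hη : y + x / 2 = r * s)
    (hu : IsSquare (2 * x + 1 / 4 + 2 * s) ∨ IsSquare (65 / 16 * (2 * x + 1 / 4 + 2 * s))) :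
    Good (Affine.Point.some x y h) := by
  obtain ⟨Q, hQ⟩ := exists_half_of_class two_ne_zero Δ_ne splits65 h (r := r) (s := s)
    (by rw [sub_zero, hr]) hr0 (by rw [eta65, hη]) (by
      rw [sub_zero]
      rcases hu with hu | hu
      · exact Or.inl hu
      · right
        rwa [show (65 / 16 : ℚ) = (1 / 4) ^ 2 - 4 * -1 by norm_num] at hu)
  exact good_of_half hQ

/-- Points whose abscissa is a square. -/
theorem good_of_sq {x y r : ℚ} (h : E65.toAffine.Nonsingular x y) (hr : x = r ^ 2) (hr0 : r ≠ 0) :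
    Good (Affine.Point.some x y h) := by
  set s : ℚ := (y + x / 2) / r with hs
  have hη : y + x / 2 = r * s := by
    rw [hs]
    field_simp
  have hsq := sq_eq65 h.1 hr hr0 hη
  obtain ⟨t, ht0, ht⟩ := beta65 hr hsq
  -- the case of a non-trivial class
  have hG : ∀ c : ℚ, (c = 5 ∨ c = 13) → 2 * x + 1 / 4 + 2 * s = c * t ^ 2 →
      Good (Affine.Point.some x y h) := by
    intro c hc hu
    refine good_of_add G65_mem ?_
    rcases hPG : Affine.Point.some x y h + G65 with _ | ⟨x₃, y₃, h₃⟩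
    · exact good_of_mem (Submodule.zero_mem _)
    · by_cases hx3 : x₃ = 0
      · subst hx3
        rw [eq_T65]
        exact good_of_mem T65_mem
      · have hsq3 := isSquare_of_add two_ne_zero (root_one splits65) (h₁ := h)
          (h₂ := nonsingular65 (x := 1) (y := 0) (by norm_num)) (h₃ := h₃) hPG
        rw [sub_zero, sub_zero, sub_zero, mul_one] at hsq3
        obtain ⟨w, hw⟩ := hsq3
        have hw0 : w ≠ 0 := by
          rintro rfl
          rw [mul_zero] at hw
          rcases mul_eq_zero.mp hw with h4 | h4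
          · rw [hr] at h4
            exact pow_ne_zero 2 hr0 h4
          · exact hx3 h4
        have hr3 : x₃ = (w / r) ^ 2 := by
          rw [div_pow, eq_div_iff (pow_ne_zero 2 hr0), ← hr, sq w, ← hw]
          ring
        have hr30 : w / r ≠ 0 := div_ne_zero hw0 hr0
        set s₃ : ℚ := (y₃ + x₃ / 2) / (w / r) with hs3
        have hη3 : y₃ + x₃ / 2 = (w / r) * s₃ := by
          rw [hs3]
          field_simp
        have hsq3 := sq_eq65 h₃.1 hr3 hr30 hη3
        have hprod := isSquare_mul_of_add two_ne_zero splits65 irr65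
          (h₁ := h) (h₂ := nonsingular65 (x := 1) (y := 0) (by norm_num)) (h₃ := h₃) hPG
          (s₁ := s) (s₂ := 1 / 2) (s₃ := s₃) (by rw [sub_zero]; exact hsq) (by norm_num)
          (by rw [sub_zero]; exact hsq3)
        rw [sub_zero, sub_zero, hu] at hprod
        refine half65 h₃ hr3 hr30 hη3 ?_
        have hn : ∀ q : ℚ, q ≠ 0 → q * t * (q * t) ≠ 0 := fun q hq =>
          mul_ne_zero (mul_ne_zero hq ht0) (mul_ne_zero hq ht0)
        rcases hc with rfl | rfl
        · rcases hprod with ⟨z, hz⟩ | ⟨z, hz⟩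
          · right
            refine ⟨z / (2 * t), ?_⟩
            rw [div_mul_div_comm, eq_div_iff (hn 2 (by norm_num))]
            linear_combination hz
          · left
            refine ⟨8 * z / (65 * t), ?_⟩
            rw [div_mul_div_comm, eq_div_iff (hn 65 (by norm_num))]
            linear_combination 64 * hz
        · rcases hprod with ⟨z, hz⟩ | ⟨z, hz⟩
          · left
            refine ⟨2 * z / (13 * t), ?_⟩
            rw [div_mul_div_comm, eq_div_iff (hn 13 (by norm_num))]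
            linear_combination 4 * hz
          · right
            refine ⟨2 * z / (13 * t), ?_⟩
            rw [div_mul_div_comm, eq_div_iff (hn 13 (by norm_num))]
            linear_combination 4 * hz
  rcases ht with ht | ht | ht | ht
  · exact half65 h hr hr0 hη (Or.inl ⟨t, by rw [ht]; ring⟩)
  · exact hG 5 (Or.inl rfl) ht
  · exact hG 13 (Or.inr rfl) ht
  · exact half65 h hr hr0 hη (Or.inr ⟨65 / 4 * t, by rw [ht]; ring⟩)

/-- **`W(ℚ)` is generated by `T`, `G` and `2 W(ℚ)`.** -/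
theorem good65 (P : E65.toAffine.Point) : Good P := by
  rcases P with _ | ⟨x, y, h⟩
  · exact good_of_mem (Submodule.zero_mem _)
  · by_cases hx : x = 0
    · subst hx
      rw [eq_T65]
      exact good_of_mem T65_mem
    · obtain ⟨r, hr0, hr | hr⟩ := alpha65 h.1 hx
      · exact good_of_sq h hr hr0
      · refine good_of_add T65_mem ?_
        rw [T65, Affine.Point.add_some (fun h => hx h.1)]
        refine good_of_sq (r := 1 / r) _ ?_ (one_div_ne_zero hr0)
        rw [Affine.slope_of_X_ne hx]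
        change ((y - 0) / (x - 0)) ^ 2 + E65.a₁ * ((y - 0) / (x - 0)) - E65.a₂ - x - 0 = _
        rw [a₁_E65, a₂_E65]
        have h1 := equation_iff65.mp h.1
        have h2 : (1 / r) ^ 2 = -1 / x := by
          rw [hr]
          field_simp
        rw [h2, sub_zero, sub_zero]
        field_simp
        linear_combination x * h1

/-! ### The rank -/

theorem three_G65 : ∃ (y : ℚ) (h : E65.toAffine.Nonsingular (25 / 9) y),
    G65 + G65 + G65 = Affine.Point.some (25 / 9) y h := by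
  have hns : E65.toAffine.Nonsingular 4 (-10) := nonsingular65 (by norm_num)
  have h2 : G65 + G65 = Affine.Point.some 4 (-10) hns := by
    have hne : (0 : ℚ) ≠ E65.toAffine.negY 1 0 := by
      change (0 : ℚ) ≠ -0 - E65.a₁ * 1 - E65.a₃
      rw [a₁_E65, a₃_E65]
      norm_num
    have hsl : E65.toAffine.slope 1 1 0 0 = 2 := by
      rw [Affine.slope_of_Y_ne rfl hne]
      change (3 * 1 ^ 2 + 2 * E65.a₂ * 1 + E65.a₄ - E65.a₁ * 0) /
        (0 - (-0 - E65.a₁ * 1 - E65.a₃)) = 2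
      rw [a₁_E65, a₂_E65, a₃_E65, a₄_E65]
      norm_num
    have hX : E65.toAffine.addX 1 1 2 = 4 := by
      change (2 : ℚ) ^ 2 + E65.a₁ * 2 - E65.a₂ - 1 - 1 = 4
      rw [a₁_E65, a₂_E65]
      norm_num
    have hY : E65.toAffine.addY 1 1 0 2 = -10 := by
      unfold Affine.addY Affine.negAddY
      rw [hX]
      change -(2 * (4 - 1) + 0) - E65.a₁ * 4 - E65.a₃ = (-10 : ℚ)
      rw [a₁_E65, a₃_E65]
      norm_num
    rw [G65, Affine.Point.add_self_of_Y_ne hne]
    simp only [hsl, hX, hY]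
  have h3 : (4 : ℚ) ≠ 1 := by norm_num
  have hX : E65.toAffine.addX 4 1 (E65.toAffine.slope 4 1 (-10) 0) = 25 / 9 := by
    rw [Affine.slope_of_X_ne h3]
    change ((-10 - 0 : ℚ) / (4 - 1)) ^ 2 + E65.a₁ * ((-10 - 0) / (4 - 1)) - E65.a₂ - 4 - 1 = 25 / 9
    rw [a₁_E65, a₂_E65]
    norm_num
  have hns2 := Affine.nonsingular_add hns (nonsingular65 (x := 1) (y := 0) (by norm_num))
    (fun h => h3 h.1)
  have h4 : G65 + G65 + G65 = Affine.Point.some _ _ hns2 := by
    rw [h2, G65]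
    exact Affine.Point.add_some fun h => h3 h.1
  rw [hX] at hns2
  refine ⟨_, hns2, ?_⟩
  rw [h4]
  simp only [Affine.Point.some.injEq, and_true]
  exact hX

theorem not_torsion_G65 : ¬ IsOfFinAddOrder G65 := by
  intro h
  obtain ⟨y, hy, h3⟩ := three_G65
  set P : (LN.EQQ W65).Point := G65 + G65 + G65 with hP
  have hfin : IsOfFinAddOrder P := by
    obtain ⟨n, hn, hn0⟩ := isOfFinAddOrder_iff_nsmul_eq_zero.mp h
    refine isOfFinAddOrder_iff_nsmul_eq_zero.mpr ⟨n, hn, ?_⟩
    rw [hP, nsmul_add, nsmul_add, hn0]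
    simp
  have hxc : ECRed.xc P = 25 / 9 := by
    rw [h3]
    rfl
  have hP0 : P ≠ 0 := by
    rw [h3]
    simp
  by_cases h2 : 2 • P = 0
  · obtain ⟨a, -, ha, -⟩ := LN.exists_int_of_two_nsmul hP0 h2
    rw [hxc] at ha
    have h5 : (100 : ℤ) = 9 * a := by
      have : (100 : ℚ) = 9 * a := by rw [← ha]; norm_num
      exact_mod_cast this
    omega
  · obtain ⟨a, -, ha, -⟩ := LN.exists_int_of_torsion hfin h2
    rw [hxc] at ha
    have h5 : (25 : ℤ) = 9 * a := by
      have : (25 : ℚ) = 9 * a := by rw [← ha]; norm_num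
      exact_mod_cast this
    omega

/-- **The curve `65a` has rank one over `ℚ`.** -/
theorem finrank_E65 : Module.finrank ℤ E65.toAffine.Point = 1 := by
  have hfg : AddGroup.FG E65.toAffine.Point := mordell_weil ℚ E65
  have hfin : Module.Finite ℤ E65.toAffine.Point := Module.Finite.iff_addGroup_fg.mpr hfg
  refine le_antisymm (finrank_le_one hfg T65_add good65) ?_
  by_contra hcon
  have h0 : Module.finrank ℤ E65.toAffine.Point = 0 := by omega
  rw [Module.finrank_eq_zero_iff] at h0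
  obtain ⟨a, ha, h⟩ := h0 G65
  refine not_torsion_G65 (isOfFinAddOrder_iff_nsmul_eq_zero.mpr ⟨a.natAbs, by omega, ?_⟩)
  rcases Int.natAbs_eq a with h1 | h1
  · rw [h1] at h
    rwa [natCast_zsmul] at h
  · rw [h1, neg_smul, neg_eq_zero, natCast_zsmul] at h
    exact h

end Fermat.Agent.Cor.BSD.One
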