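import Fermat.Agent.Corollaries.BSD.LineK
import Fermat.Agent.Corollaries.BSD.SixtyFive

/-!
# Rank at most one from two classes

* `finrank_le_one_of_sum`: in a finitely generated abelian group, if the sum of two elements which
  are not doubles is a double, the rank is at most one;
* `finrank_le_one_of_classes`: `θ ∈ K` a root of the 2-torsion polynomial of `W / F`, not in `F`; if
  `x - θ` or `ε (x - θ)` is a square for every point, and a point with `x - θ` a square is a double,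
  then the rank of `W(F)` is at most one.
-/

set_option autoImplicit false

noncomputable section

namespace Fermat.Agent.Cor.BSD.LineK

open WeierstrassCurve

theorem finrank_le_one_of_sum {M : Type*} [AddCommGroup M] (hfg : AddGroup.FG M)
    (h : ∀ P Q : M, (¬ ∃ R : M, R + R = P) → (¬ ∃ R : M, R + R = Q) → ∃ R : M, R + R = P + Q) :
    Module.finrank ℤ M ≤ 1 := by
  by_cases hG : ∃ G : M, ¬ ∃ R : M, R + R = G
  · obtain ⟨G, hG⟩ := hG
    refine One.finrank_le_one hfg (T := 0) (G := G) (add_zero 0) fun P => ?_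
    by_cases hP : ∃ R : M, R + R = P
    · obtain ⟨R, hR⟩ := hP
      exact ⟨R, by rw [hR, sub_self]; exact Submodule.zero_mem _⟩
    · obtain ⟨R, hR⟩ := h P G hP hG
      refine ⟨R, ?_⟩
      rw [hR, sub_add_cancel_left]
      exact Submodule.neg_mem _ (Submodule.subset_span (by simp))
  · push Not at hG
    refine One.finrank_le_one hfg (T := 0) (G := 0) (add_zero 0) fun P => ?_
    obtain ⟨R, hR⟩ := hG P
    exact ⟨R, by rw [hR, sub_self]; exact Submodule.zero_mem _⟩

variable {F K : Type*} [Field F] [Field K] [DecidableEq F]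

theorem finrank_le_one_of_classes (f : F →+* K) (h2 : (2 : F) ≠ 0) {W : WeierstrassCurve F} {θ : K}
    (hfg : AddGroup.FG W.toAffine.Point)
    (hθ : 4 * θ ^ 3 + f W.b₂ * θ ^ 2 + 2 * f W.b₄ * θ + f W.b₆ = 0) (hθF : ∀ x : F, f x ≠ θ)
    {ε : K} (hε : ε ≠ 0)
    (hcls : ∀ x y : F, W.toAffine.Nonsingular x y →
      IsSquare (f x - θ) ∨ IsSquare (ε * (f x - θ)))
    (hhalf : ∀ (x y : F) (h : W.toAffine.Nonsingular x y), IsSquare (f x - θ) →
      ∃ R : W.toAffine.Point, R + R = Affine.Point.some x y h) :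
    Module.finrank ℤ W.toAffine.Point ≤ 1 := by
  refine finrank_le_one_of_sum hfg fun P Q hP hQ => ?_
  rcases P with _ | ⟨x₁, y₁, h₁⟩
  · exact absurd ⟨0, add_zero 0⟩ hP
  rcases Q with _ | ⟨x₂, y₂, h₂⟩
  · exact absurd ⟨0, add_zero 0⟩ hQ
  have e₁ : IsSquare (ε * (f x₁ - θ)) :=
    (hcls x₁ y₁ h₁).resolve_left fun h => hP (hhalf x₁ y₁ h₁ h)
  have e₂ : IsSquare (ε * (f x₂ - θ)) :=
    (hcls x₂ y₂ h₂).resolve_left fun h => hQ (hhalf x₂ y₂ h₂ h)
  have h12 : IsSquare ((f x₁ - θ) * (f x₂ - θ)) := by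
    have h := (e₁.mul e₂).div (IsSquare.mul_self ε)
    rwa [show ε * (f x₁ - θ) * (ε * (f x₂ - θ)) = (f x₁ - θ) * (f x₂ - θ) * (ε * ε) by ring,
      mul_div_cancel_right₀ _ (mul_ne_zero hε hε)] at h
  rcases hPQ : Affine.Point.some x₁ y₁ h₁ + Affine.Point.some x₂ y₂ h₂ with _ | ⟨x₃, y₃, h₃⟩
  · exact ⟨0, add_zero 0⟩
  · exact hhalf x₃ y₃ h₃ (isSquare_third f h2 hθ hθF hPQ h12)

end Fermat.Agent.Cor.BSD.LineK
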