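import Fermat.Agent.Corollaries.BSD.TateBound

/-!
# The two components, and generators of groups of rank one

* `Egg W c P`: the rational point `P` of `W` has `x(P) < c`, where `4 c³ + b₂ c² + 2 b₄ c + b₆ < 0`;
  `egg_add`: these points are the non trivial class of a subgroup of index at most two;
* `exists_zsmul_or`: a group `A ≃+ T' × ℤ`, `T'` finite, whose elements of finite order are `0` and
  `T`: if `g` and `g + T` are not divisible by any `n ≥ 2`, every element is `n g` or `n g + T`.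
-/

set_option autoImplicit false

noncomputable section

namespace Fermat.Agent.Cor.BSD.Gen65

open WeierstrassCurve

/-! ### The components -/

section egg

variable {W : WeierstrassCurve ℚ} {c : ℚ}

/-- The point is affine with `x < c`. -/
def Egg (c : ℚ) (P : W.toAffine.Point) : Prop :=
  match P with
  | .zero => False
  | .some x _ _ => x < c

theorem not_egg_zero : ¬ Egg c (0 : W.toAffine.Point) := fun h => h

theorem ne_c (hc : 4 * c ^ 3 + W.b₂ * c ^ 2 + 2 * W.b₄ * c + W.b₆ < 0) {x y : ℚ}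
    (h : W.toAffine.Equation x y) : x ≠ c := by
  rintro rfl
  rw [Affine.equation_iff] at h
  unfold WeierstrassCurve.b₂ WeierstrassCurve.b₄ WeierstrassCurve.b₆ at hc
  nlinarith [sq_nonneg (2 * y + W.a₁ * x + W.a₃)]

theorem prod_neg (hc : 4 * c ^ 3 + W.b₂ * c ^ 2 + 2 * W.b₄ * c + W.b₆ < 0) {x₁ x₂ y₁ y₂ : ℚ}
    (h₁ : W.toAffine.Equation x₁ y₁) (h₂ : W.toAffine.Equation x₂ y₂)
    (hxy : ¬ (x₁ = x₂ ∧ y₁ = W.toAffine.negY x₂ y₂)) :
    (c - x₁) * (c - x₂) * (c - W.toAffine.addX x₁ x₂ (W.toAffine.slope x₁ x₂ y₁ y₂)) < 0 := by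
  have h := Affine.addPolynomial_slope h₁ h₂ hxy
  set L := W.toAffine.slope x₁ x₂ y₁ y₂ with hL
  set x₃ := W.toAffine.addX x₁ x₂ L with hx₃
  rw [Affine.addPolynomial_eq, neg_inj] at h
  have h1 := congrArg (Polynomial.eval c) h
  simp only [Cubic.toPoly, Polynomial.eval_add, Polynomial.eval_mul, Polynomial.eval_sub,
    Polynomial.eval_C, Polynomial.eval_X, Polynomial.eval_pow] at h1
  have h2 : (c - x₁) * (c - x₂) * (c - x₃) =
      (4 * c ^ 3 + W.b₂ * c ^ 2 + 2 * W.b₄ * c + W.b₆) / 4 -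
        (L * (c - x₁) + y₁ + (W.a₁ * c + W.a₃) / 2) ^ 2 := by
    rw [← h1]
    unfold WeierstrassCurve.b₂ WeierstrassCurve.b₄ WeierstrassCurve.b₆
    ring
  rw [h2]
  nlinarith [sq_nonneg (L * (c - x₁) + y₁ + (W.a₁ * c + W.a₃) / 2)]

/-- **The two components.** -/
theorem egg_add (hc : 4 * c ^ 3 + W.b₂ * c ^ 2 + 2 * W.b₄ * c + W.b₆ < 0)
    (P Q : W.toAffine.Point) : Egg c (P + Q) ↔ ¬ (Egg c P ↔ Egg c Q) := by
  rcases P with _ | ⟨x₁, y₁, h₁⟩
  · change Egg c (0 + Q) ↔ ¬ (False ↔ Egg c Q)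
    rw [zero_add]
    tauto
  rcases Q with _ | ⟨x₂, y₂, h₂⟩
  · change Egg c (Affine.Point.some x₁ y₁ h₁ + 0) ↔ ¬ (Egg c (Affine.Point.some x₁ y₁ h₁) ↔ False)
    rw [add_zero]
    tauto
  by_cases hxy : x₁ = x₂ ∧ y₁ = W.toAffine.negY x₂ y₂
  · rw [Affine.Point.add_of_Y_eq hxy.1 hxy.2]
    change False ↔ ¬ (x₁ < c ↔ x₂ < c)
    rw [hxy.1]
    tauto
  · rw [Affine.Point.add_some hxy]
    change W.toAffine.addX x₁ x₂ (W.toAffine.slope x₁ x₂ y₁ y₂) < c ↔ ¬ (x₁ < c ↔ x₂ < c)
    have h3 := prod_neg hc h₁.1 h₂.1 hxy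
    have h4 := ne_c hc h₁.1
    have h5 := ne_c hc h₂.1
    set X := W.toAffine.addX x₁ x₂ (W.toAffine.slope x₁ x₂ y₁ y₂)
    rcases lt_or_gt_of_ne h4 with h4 | h4 <;> rcases lt_or_gt_of_ne h5 with h5 | h5
    · have h6 : 0 < (c - x₁) * (c - x₂) := mul_pos (by linarith) (by linarith)
      have h7 : ¬ (X < c) := by
        intro h8
        have h9 := mul_pos h6 (sub_pos.2 h8)
        linarith
      exact ⟨fun h => (h7 h).elim, fun h => (h ⟨fun _ => h5, fun _ => h4⟩).elim⟩
    · have h6 : (c - x₁) * (c - x₂) < 0 := mul_neg_of_pos_of_neg (by linarith) (by linarith)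
      have h7 : X < c := by
        by_contra h8
        rw [not_lt] at h8
        have h9 := mul_nonneg_of_nonpos_of_nonpos h6.le (sub_nonpos.2 h8)
        linarith
      exact ⟨fun _ h => absurd (h.1 h4) (not_lt.2 h5.le), fun _ => h7⟩
    · have h6 : (c - x₁) * (c - x₂) < 0 := mul_neg_of_neg_of_pos (by linarith) (by linarith)
      have h7 : X < c := by
        by_contra h8
        rw [not_lt] at h8
        have h9 := mul_nonneg_of_nonpos_of_nonpos h6.le (sub_nonpos.2 h8)
        linarith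
      exact ⟨fun _ h => absurd (h.2 h5) (not_lt.2 h4.le), fun _ => h7⟩
    · have h6 : 0 < (c - x₁) * (c - x₂) := mul_pos_of_neg_of_neg (by linarith) (by linarith)
      have h7 : ¬ (X < c) := by
        intro h8
        have h9 := mul_pos h6 (sub_pos.2 h8)
        linarith
      exact ⟨fun h => (h7 h).elim, fun h =>
        (h ⟨fun h => absurd h (not_lt.2 h4.le), fun h => absurd h (not_lt.2 h5.le)⟩).elim⟩

theorem egg_of_nsmul (hc : 4 * c ^ 3 + W.b₂ * c ^ 2 + 2 * W.b₄ * c + W.b₆ < 0)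
    {R : W.toAffine.Point} {n : ℕ} (h : Egg c (n • R)) : Egg c R := by
  by_contra hR
  have h1 : ∀ n : ℕ, ¬ Egg c (n • R) := by
    intro n
    induction n with
    | zero => rw [zero_nsmul]; exact not_egg_zero
    | succ n ih =>
      rw [succ_nsmul, egg_add hc]
      tauto
  exact h1 n h

/-- A double is not on the egg. -/
theorem not_egg_double (hc : 4 * c ^ 3 + W.b₂ * c ^ 2 + 2 * W.b₄ * c + W.b₆ < 0)
    (R : W.toAffine.Point) : ¬ Egg c (R + R) := by
  rw [egg_add hc]
  tauto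

end egg

/-! ### Groups of rank one -/

section group

variable {A T' : Type*} [AddCommGroup A] [AddCommGroup T'] [Finite T'] {r : ℕ}

theorem finrank_eq_of_equiv (e : A ≃+ T' × (Fin r → ℤ)) : Module.finrank ℤ A = r := by
  have h1 : Module.finrank ℤ A = Module.finrank ℤ (T' × (Fin r → ℤ)) :=
    LinearEquiv.finrank_eq e.toIntLinearEquiv
  rw [h1]
  have h2 := Submodule.finrank_quotient_add_finrank
    (LinearMap.ker (LinearMap.snd ℤ T' (Fin r → ℤ)))
  have h3 : Module.finrank ℤ (LinearMap.ker (LinearMap.snd ℤ T' (Fin r → ℤ))) = 0 := by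
    rw [Module.finrank_eq_zero_iff]
    rintro ⟨⟨t, v⟩, hv⟩
    have hv' : v = 0 := hv
    subst hv'
    refine ⟨(Nat.card T' : ℤ), by exact_mod_cast Nat.card_pos.ne', ?_⟩
    apply Subtype.ext
    change ((Nat.card T' : ℤ) • t, (Nat.card T' : ℤ) • (0 : Fin r → ℤ)) = 0
    rw [natCast_zsmul, card_nsmul_eq_zero', smul_zero]
    rfl
  have h4 := (LinearMap.quotKerEquivOfSurjective (LinearMap.snd ℤ T' (Fin r → ℤ))
    LinearMap.snd_surjective).finrank_eq
  rw [Module.finrank_fin_fun] at h4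
  omega

/-- The elements of finite order are `0`, `T`; `g`, `g + T` are not divisible: `g` and `T`
generate. -/
theorem exists_zsmul_or (e : A ≃+ T' × (Fin 1 → ℤ)) {T g : A}
    (htors : ∀ P : A, IsOfFinAddOrder P → P = 0 ∨ P = T) (hg : ¬ IsOfFinAddOrder g)
    (hnd : ∀ n : ℕ, 2 ≤ n → ∀ R : A, n • R ≠ g ∧ n • R ≠ g + T) (P : A) :
    ∃ n : ℤ, P = n • g ∨ P = n • g + T := by
  have hker : ∀ a : A, (e a).2 0 = 0 → IsOfFinAddOrder a := by
    intro a ha
    refine isOfFinAddOrder_iff_nsmul_eq_zero.mpr ⟨Nat.card T', Nat.card_pos, ?_⟩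
    apply e.injective
    rw [map_nsmul, map_zero]
    refine Prod.ext ?_ ?_
    · change Nat.card T' • (e a).1 = 0
      exact card_nsmul_eq_zero'
    · change Nat.card T' • (e a).2 = 0
      have : (e a).2 = 0 := by
        funext i
        rw [Subsingleton.elim i 0]
        exact ha
      rw [this, smul_zero]
  let φ : A →+ ℤ :=
    { toFun := fun a => (e a).2 0
      map_zero' := by rw [map_zero]; rfl
      map_add' := fun a b => by rw [map_add]; rfl }
  have hφker : ∀ a : A, φ a = 0 → a = 0 ∨ a = T := fun a ha => htors a (hker a ha)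
  obtain ⟨b, hb⟩ : ∃ b : A, φ b = 1 := by
    refine ⟨e.symm (0, fun _ => 1), ?_⟩
    change (e (e.symm (0, fun _ => 1))).2 0 = 1
    rw [e.apply_symm_apply]
  have hk0 : φ g ≠ 0 := fun h => hg (hker g h)
  have hk1 : φ g = 1 ∨ φ g = -1 := by
    by_contra hcon
    have h2 : 2 ≤ (φ g).natAbs := by omega
    obtain ⟨R, hR⟩ : ∃ R : A, φ ((φ g).natAbs • R - g) = 0 := by
      rcases Int.natAbs_eq (φ g) with h | h
      · refine ⟨b, ?_⟩
        rw [map_sub, map_nsmul, hb, nsmul_eq_mul, mul_one]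
        omega
      · refine ⟨-b, ?_⟩
        rw [map_sub, map_nsmul, map_neg, hb, nsmul_eq_mul, mul_neg, mul_one]
        omega
    rcases hφker _ hR with h | h
    · exact (hnd _ h2 R).1 (sub_eq_zero.mp h)
    · exact (hnd _ h2 R).2 (by rw [← h]; abel)
  have h1 : φ g * φ g = 1 := by
    rcases hk1 with h | h <;> rw [h] <;> norm_num
  refine ⟨φ g * φ P, ?_⟩
  have h2 : φ (P - (φ g * φ P) • g) = 0 := by
    rw [map_sub, map_zsmul, smul_eq_mul]
    linear_combination -(φ P) * h1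
  rcases hφker _ h2 with h | h
  · exact Or.inl (sub_eq_zero.mp h)
  · right
    rw [← h]
    abel

end group

end Fermat.Agent.Cor.BSD.Gen65
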