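import Mathlib

/-!
# Finiteness of the set of rational points in terms of the short Weierstrass form

`S A B` is the set of the rational numbers `u` such that `u³ + A u + B` is a square. The finiteness
of the set of rational points of `W` depends only on `S (-27 c₄) (-54 c₆)`; it is inherited through
rational maps `u ↦ N(u) / h(u)²` of degree three and five (isogenies of degree three and five).
-/

set_option autoImplicit false

namespace Fermat.Agent.Cor.BSD.Short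

open WeierstrassCurve Polynomial

/-- The abscissas of the rational points of `v² = u³ + A u + B`. -/
def S (A B : ℚ) : Set ℚ := {u | IsSquare (u ^ 3 + A * u + B)}

theorem finite_quadratic (p q : ℚ) : {x : ℚ | x ^ 2 + p * x + q = 0}.Finite := by
  have hp : (X ^ 2 + C p * X + C q : ℚ[X]) ≠ 0 := Monic.ne_zero (by monicity!)
  refine (finite_setOfPred_isRoot hp).subset fun x hx => ?_
  simpa [IsRoot] using hx

theorem finite_cubic (p q r : ℚ) : {x : ℚ | x ^ 3 + p * x ^ 2 + q * x + r = 0}.Finite := by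
  have hp : (X ^ 3 + C p * X ^ 2 + C q * X + C r : ℚ[X]) ≠ 0 := Monic.ne_zero (by monicity!)
  refine (finite_setOfPred_isRoot hp).subset fun x hx => ?_
  simpa [IsRoot] using hx

theorem finite_quintic (a b c d e : ℚ) :
    {x : ℚ | x ^ 5 + a * x ^ 4 + b * x ^ 3 + c * x ^ 2 + d * x + e = 0}.Finite := by
  have hp : (X ^ 5 + C a * X ^ 4 + C b * X ^ 3 + C c * X ^ 2 + C d * X + C e : ℚ[X]) ≠ 0 :=
    Monic.ne_zero (by monicity!)
  refine (finite_setOfPred_isRoot hp).subset fun x hx => ?_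
  simpa [IsRoot] using hx

theorem div_id {n H k A B w : ℚ} (hk : k ≠ 0) (hH : H ≠ 0)
    (h : n ^ 3 + k ^ 4 * A * n * H ^ 4 + k ^ 6 * B * H ^ 6 = w ^ 2) :
    (n / (k ^ 2 * H ^ 2)) ^ 3 + A * (n / (k ^ 2 * H ^ 2)) + B =
      w / (k ^ 3 * H ^ 3) * (w / (k ^ 3 * H ^ 3)) := by
  field_simp
  linear_combination h

/-- Rational maps of degree five. -/
theorem finite_of_quintic {A B A' B' k : ℚ} (hk : k ≠ 0) (h1 h0 n4 n3 n2 n1 n0 : ℚ) (g : ℚ → ℚ)
    (hid : ∀ u : ℚ, (u ^ 5 + n4 * u ^ 4 + n3 * u ^ 3 + n2 * u ^ 2 + n1 * u + n0) ^ 3 +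
      k ^ 4 * A' * (u ^ 5 + n4 * u ^ 4 + n3 * u ^ 3 + n2 * u ^ 2 + n1 * u + n0) *
        (u ^ 2 + h1 * u + h0) ^ 4 + k ^ 6 * B' * (u ^ 2 + h1 * u + h0) ^ 6 =
      (u ^ 3 + A * u + B) * g u ^ 2) (hS : (S A' B').Finite) : (S A B).Finite := by
  refine ((finite_quadratic h1 h0).union (hS.biUnion (t := fun v => {u : ℚ | u ^ 5 +
    (n4 - k ^ 2 * v) * u ^ 4 + (n3 - k ^ 2 * v * (2 * h1)) * u ^ 3 +
    (n2 - k ^ 2 * v * (h1 ^ 2 + 2 * h0)) * u ^ 2 + (n1 - k ^ 2 * v * (2 * h1 * h0)) * u +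
    (n0 - k ^ 2 * v * h0 ^ 2) = 0}) fun v _ => finite_quintic _ _ _ _ _)).subset ?_
  rintro u ⟨v, hv⟩
  by_cases hh : u ^ 2 + h1 * u + h0 = 0
  · exact Or.inl hh
  refine Or.inr (Set.mem_biUnion (x := (u ^ 5 + n4 * u ^ 4 + n3 * u ^ 3 + n2 * u ^ 2 + n1 * u + n0) /
    (k ^ 2 * (u ^ 2 + h1 * u + h0) ^ 2)) ⟨v * g u / (k ^ 3 * (u ^ 2 + h1 * u + h0) ^ 3), ?_⟩ ?_)
  · refine div_id hk hh ?_
    rw [hid u, hv]
    ring
  · rw [Set.mem_ofPred_eq]
    have hV : (u ^ 5 + n4 * u ^ 4 + n3 * u ^ 3 + n2 * u ^ 2 + n1 * u + n0) /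
        (k ^ 2 * (u ^ 2 + h1 * u + h0) ^ 2) * (k ^ 2 * (u ^ 2 + h1 * u + h0) ^ 2) =
        u ^ 5 + n4 * u ^ 4 + n3 * u ^ 3 + n2 * u ^ 2 + n1 * u + n0 :=
      div_mul_cancel₀ _ (mul_ne_zero (pow_ne_zero 2 hk) (pow_ne_zero 2 hh))
    generalize (u ^ 5 + n4 * u ^ 4 + n3 * u ^ 3 + n2 * u ^ 2 + n1 * u + n0) /
        (k ^ 2 * (u ^ 2 + h1 * u + h0) ^ 2) = V at hV ⊢
    linear_combination -hV

/-- Rational maps of degree three. -/
theorem finite_of_cubic {A B A' B' k : ℚ} (hk : k ≠ 0) (h0 n2 n1 n0 : ℚ) (g : ℚ → ℚ)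
    (hid : ∀ u : ℚ, (u ^ 3 + n2 * u ^ 2 + n1 * u + n0) ^ 3 +
      k ^ 4 * A' * (u ^ 3 + n2 * u ^ 2 + n1 * u + n0) * (u + h0) ^ 4 +
      k ^ 6 * B' * (u + h0) ^ 6 = (u ^ 3 + A * u + B) * g u ^ 2) (hS : (S A' B').Finite) :
    (S A B).Finite := by
  refine ((Set.finite_singleton (-h0)).union (hS.biUnion (t := fun v => {u : ℚ | u ^ 3 +
    (n2 - k ^ 2 * v) * u ^ 2 + (n1 - k ^ 2 * v * (2 * h0)) * u +
    (n0 - k ^ 2 * v * h0 ^ 2) = 0}) fun v _ => finite_cubic _ _ _)).subset ?_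
  rintro u ⟨v, hv⟩
  by_cases hh : u + h0 = 0
  · exact Or.inl (eq_neg_of_add_eq_zero_left hh)
  refine Or.inr (Set.mem_biUnion (x := (u ^ 3 + n2 * u ^ 2 + n1 * u + n0) /
    (k ^ 2 * (u + h0) ^ 2)) ⟨v * g u / (k ^ 3 * (u + h0) ^ 3), ?_⟩ ?_)
  · refine div_id hk hh ?_
    rw [hid u, hv]
    ring
  · rw [Set.mem_ofPred_eq]
    have hV : (u ^ 3 + n2 * u ^ 2 + n1 * u + n0) / (k ^ 2 * (u + h0) ^ 2) *
        (k ^ 2 * (u + h0) ^ 2) = u ^ 3 + n2 * u ^ 2 + n1 * u + n0 :=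
      div_mul_cancel₀ _ (mul_ne_zero (pow_ne_zero 2 hk) (pow_ne_zero 2 hh))
    generalize (u ^ 3 + n2 * u ^ 2 + n1 * u + n0) / (k ^ 2 * (u + h0) ^ 2) = V at hV ⊢
    linear_combination -hV

/-- The set of rational points is finite if `S (-27 c₄) (-54 c₆)` is. -/
theorem finite_of_S {W : WeierstrassCurve ℚ} (h : (S (-27 * W.c₄) (-54 * W.c₆)).Finite) :
    Finite W.toAffine.Point := by
  have hS : {p : ℚ × ℚ | W.toAffine.Equation p.1 p.2}.Finite := by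
    refine (h.biUnion (t := fun u => (fun y => ((u - 3 * W.b₂) / 36, y)) ''
      {y : ℚ | y ^ 2 + (W.a₁ * ((u - 3 * W.b₂) / 36) + W.a₃) * y +
        -(((u - 3 * W.b₂) / 36) ^ 3 + W.a₂ * ((u - 3 * W.b₂) / 36) ^ 2 +
          W.a₄ * ((u - 3 * W.b₂) / 36) + W.a₆) = 0})
      fun u _ => (finite_quadratic _ _).image _).subset ?_
    rintro ⟨x, y⟩ hxy
    have hE : W.toAffine.Equation x y := hxy
    rw [Affine.equation_iff] at hE
    have hx : (36 * x + 3 * W.b₂ - 3 * W.b₂) / 36 = x := by ring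
    refine Set.mem_biUnion (x := 36 * x + 3 * W.b₂) ?_ ?_
    · refine ⟨108 * (2 * y + W.a₁ * x + W.a₃), ?_⟩
      rw [c₄, c₆, b₂, b₄, b₆]
      linear_combination -46656 * hE
    · refine ⟨y, ?_, ?_⟩
      · rw [Set.mem_ofPred_eq, hx]
        linear_combination hE
      · rw [hx]
  have : Finite {p : ℚ × ℚ | W.toAffine.Equation p.1 p.2} := hS
  let f : W.toAffine.Point → Option {p : ℚ × ℚ | W.toAffine.Equation p.1 p.2} := fun P =>
    match P with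
    | .zero => none
    | .some x y h => some ⟨(x, y), h.1⟩
  refine Finite.of_injective f ?_
  intro P Q hPQ
  cases P with
  | zero =>
    cases Q with
    | zero => rfl
    | some x y h => simp [f] at hPQ
  | some x y h =>
    cases Q with
    | zero => simp [f] at hPQ
    | some x' y' h' =>
      simp only [f, Option.some.injEq, Subtype.mk.injEq, Prod.mk.injEq] at hPQ
      obtain ⟨rfl, rfl⟩ := hPQ
      rfl

end Fermat.Agent.Cor.BSD.Short
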