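import Fermat.Agent.Corollaries.Mazur.Main
import Fermat.Agent.Torsion.Mult
import Fermat.Agent.Corollaries.BSD.Short
import Fermat.Agent.Corollaries.Table.Eleven

/-!
# The rational points of the curves of conductor `11`

The curve `y² + y = x³ - x²` is the modular curve `X₁(11)`; a rational point with `x ≠ 0, 1` gives
an elliptic curve over `ℚ` with a rational point of order `11`, which contradicts Mazur's theorem.
The two other curves of conductor `11` are mapped to it by isogenies of degree five.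
-/

set_option autoImplicit false

namespace Fermat.Agent.Cor.BSD

open WeierstrassCurve

namespace Eleven

/-- Tate's normal form. -/
def tate (b c : ℚ) : WeierstrassCurve ℚ := ⟨1 - c, -b, -b, 0, 0⟩

theorem tate_Δ (b c : ℚ) : (tate b c).Δ =
    b ^ 3 * (16 * b ^ 2 + (1 - 20 * c - 8 * c ^ 2) * b - c * (1 - c) ^ 3) := by
  simp only [tate, WeierstrassCurve.Δ, b₂, b₄, b₆, b₈]
  ring

theorem eval_ΨSq_eleven (b c : ℚ) : ((tate b c).ΨSq (11 : ℕ)).eval 0 =
    (b ^ 40 * ((c ^ 3 - b ^ 2 + b * c) * (b - c) ^ 3 - b * c * (b - c - c ^ 2) ^ 3)) ^ 2 := by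
  have hB : (tate b c).Ψ₂Sq.eval 0 = b ^ 2 := by
    rw [Torsion.eval_Ψ₂Sq]
    simp only [tate, b₂, b₄, b₆]
    ring
  have h3 : ((tate b c).preΨ' 3).eval 0 = -b ^ 3 := by
    rw [preΨ'_three, Torsion.eval_Ψ₃]
    simp only [tate, b₂, b₄, b₆, b₈]
    ring
  have h4 : ((tate b c).preΨ' 4).eval 0 = -c * b ^ 4 := by
    rw [preΨ'_four, Torsion.eval_preΨ₄]
    simp only [tate, b₂, b₄, b₆, b₈]
    ring
  have h5 : ((tate b c).preΨ' 5).eval 0 = b ^ 8 * (b - c) := by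
    rw [show 5 = 2 * (0 + 2) + 1 from rfl, preΨ'_odd]
    simp only [zero_add, preΨ'_one, preΨ'_two, Even.zero, if_true, Polynomial.eval_sub,
      Polynomial.eval_mul, Polynomial.eval_pow, Polynomial.eval_one, h3, h4, hB]
    ring
  have h6 : ((tate b c).preΨ' 6).eval 0 = -b ^ 11 * (b - c - c ^ 2) := by
    rw [show 6 = 2 * (0 + 3) from rfl, preΨ'_even]
    simp only [zero_add, preΨ'_one, preΨ'_two, Polynomial.eval_sub,
      Polynomial.eval_mul, Polynomial.eval_pow, Polynomial.eval_one, h3, h4, h5]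
    ring
  have h7 : ((tate b c).preΨ' 7).eval 0 = b ^ 16 * (c ^ 3 - b ^ 2 + b * c) := by
    rw [show 7 = 2 * (1 + 2) + 1 from rfl, preΨ'_odd]
    simp only [Nat.reduceAdd, preΨ'_two, if_neg (show ¬ Even 1 by decide),
      Polynomial.eval_sub, Polynomial.eval_mul, Polynomial.eval_pow, Polynomial.eval_one, h3, h4,
      h5, hB]
    ring
  rw [ΨSq_ofNat, if_neg (show ¬ Even 11 by decide), mul_one, Polynomial.eval_pow]
  congr 1
  rw [show 11 = 2 * (3 + 2) + 1 from rfl, preΨ'_odd]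
  simp only [Nat.reduceAdd, if_neg (show ¬ Even 3 by decide),
    Polynomial.eval_sub, Polynomial.eval_mul, Polynomial.eval_pow, Polynomial.eval_one, h4, h5, h6,
    h7, hB]
  ring

/-- `X⁵ - 18X⁴ + 35X³ - 16X² - 2X + 1` has no rational root. -/
theorem quintic_ne (X : ℚ) : X ^ 5 - 18 * X ^ 4 + 35 * X ^ 3 - 16 * X ^ 2 - 2 * X + 1 ≠ 0 := by
  intro h
  have hd : (X.den : ℚ) ≠ 0 := by exact_mod_cast X.den_nz
  have hX : X = X.num / X.den := (Rat.num_div_den X).symm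
  have h1 : (X.num : ℚ) ^ 5 - 18 * X.num ^ 4 * X.den + 35 * X.num ^ 3 * X.den ^ 2 -
      16 * X.num ^ 2 * X.den ^ 3 - 2 * X.num * X.den ^ 4 + (X.den : ℚ) ^ 5 = 0 := by
    rw [hX] at h
    field_simp at h
    linear_combination h
  have h2 : X.num ^ 5 - 18 * X.num ^ 4 * X.den + 35 * X.num ^ 3 * X.den ^ 2 -
      16 * X.num ^ 2 * X.den ^ 3 - 2 * X.num * X.den ^ 4 + (X.den : ℤ) ^ 5 = 0 := by
    exact_mod_cast h1
  have h3 : (2 : ℤ) ∣ X.num ∧ (2 : ℤ) ∣ X.den := by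
    have h4 := congrArg (fun z : ℤ => (z : ZMod 2)) h2
    push_cast at h4
    have key : ∀ a b : ZMod 2, a ^ 5 - 18 * a ^ 4 * b + 35 * a ^ 3 * b ^ 2 -
      16 * a ^ 2 * b ^ 3 - 2 * a * b ^ 4 + b ^ 5 = 0 → a = 0 ∧ b = 0 := by decide
    obtain ⟨h5, h6⟩ := key _ _ h4
    refine ⟨(ZMod.intCast_zmod_eq_zero_iff_dvd _ 2).mp h5, ?_⟩
    have h7 : ((X.den : ℤ) : ZMod 2) = 0 := by exact_mod_cast h6
    exact (ZMod.intCast_zmod_eq_zero_iff_dvd _ 2).mp h7
  have h5 := X.reduced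
  have h6 : 2 ∣ X.num.natAbs := Int.natCast_dvd.mp h3.1
  have h7 : 2 ∣ X.den := Int.natCast_dvd_natCast.mp h3.2
  have h8 := Nat.dvd_gcd h6 h7
  rw [h5] at h8
  omega

/-- **The rational points of `X₁(11)`**: `y² + y = x³ - x²` only for `x = 0` or `x = 1`. -/
theorem x_eq {X Y : ℚ} (h : Y ^ 2 + Y = X ^ 3 - X ^ 2) : X = 0 ∨ X = 1 := by
  by_contra hcon
  push Not at hcon
  obtain ⟨hX, hX1⟩ := hcon
  have hX1' : X - 1 ≠ 0 := sub_ne_zero.mpr hX1
  set c : ℚ := Y * (X + Y) / X with hc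
  set b : ℚ := (1 + Y) * c with hb
  have hcX : c * X = Y * (X + Y) := by rw [hc]; field_simp
  have hY : Y * (1 + Y) ≠ 0 := by
    have : Y * (1 + Y) = X ^ 2 * (X - 1) := by linear_combination h
    rw [this]
    exact mul_ne_zero (pow_ne_zero 2 hX) hX1'
  have hY0 : Y ≠ 0 := left_ne_zero_of_mul hY
  have hXY : X + Y ≠ 0 := by
    intro h0
    have h1 : Y = -X := by linear_combination h0
    rw [h1] at h
    have h2 : X * (X - 1) ^ 2 = 0 := by linear_combination -h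
    exact mul_ne_zero hX (pow_ne_zero 2 hX1') h2
  have hc0 : c ≠ 0 := div_ne_zero (mul_ne_zero hY0 hXY) hX
  have hb0 : b ≠ 0 := mul_ne_zero (right_ne_zero_of_mul hY) hc0
  -- the discriminant
  have hQ : 16 * b ^ 2 + (1 - 20 * c - 8 * c ^ 2) * b - c * (1 - c) ^ 3 ≠ 0 := by
    intro h0
    have h1 : 16 * (1 + Y) ^ 2 * c + (1 - 20 * c - 8 * c ^ 2) * (1 + Y) - (1 - c) ^ 3 = 0 := by
      refine (mul_eq_zero.mp ?_).resolve_left hc0
      rw [hb] at h0
      linear_combination h0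
    have hc' : c = (X - 1) * (X ^ 2 + Y) / X := by
      rw [hc]
      congr 1
      linear_combination h
    have h2 : 16 * (1 + Y) ^ 2 * ((X - 1) * (X ^ 2 + Y)) * X ^ 2 + (X ^ 3 -
        20 * ((X - 1) * (X ^ 2 + Y)) * X ^ 2 - 8 * ((X - 1) * (X ^ 2 + Y)) ^ 2 * X) * (1 + Y) -
        (X - (X - 1) * (X ^ 2 + Y)) ^ 3 = 0 := by
      rw [hc'] at h1
      field_simp at h1
      linear_combination h1
    have hα : (-X ^ 2 + 7 * X ^ 3 - 15 * X ^ 4 + 13 * X ^ 5 - X ^ 6 - 4 * X ^ 7 + X ^ 9) +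
        (-1 + 6 * X - 8 * X ^ 2 - 3 * X ^ 3 + 20 * X ^ 4 - 24 * X ^ 5 + 16 * X ^ 6 - 5 * X ^ 7) *
          Y = 0 := by
      linear_combination h2 - (1 - 6 * X + 10 * X ^ 2 - 15 * X ^ 3 + 7 * X ^ 4 + 3 * X ^ 5 - Y -
        5 * X * Y - 3 * X ^ 2 * Y + 9 * X ^ 3 * Y) * h
    have hN : X ^ 6 * (X - 1) ^ 7 *
        (X ^ 5 - 18 * X ^ 4 + 35 * X ^ 3 - 16 * X ^ 2 - 2 * X + 1) = 0 := by
      linear_combination ((-X ^ 2 + 7 * X ^ 3 - 15 * X ^ 4 + 13 * X ^ 5 - X ^ 6 - 4 * X ^ 7 +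
        X ^ 9) + (-1 + 6 * X - 8 * X ^ 2 - 3 * X ^ 3 + 20 * X ^ 4 - 24 * X ^ 5 + 16 * X ^ 6 -
        5 * X ^ 7) * (-1 - Y)) * hα + (-1 + 6 * X - 8 * X ^ 2 - 3 * X ^ 3 + 20 * X ^ 4 -
        24 * X ^ 5 + 16 * X ^ 6 - 5 * X ^ 7) ^ 2 * h
    exact mul_ne_zero (mul_ne_zero (pow_ne_zero 6 hX) (pow_ne_zero 7 hX1')) (quintic_ne X) hN
  have hΔ : (tate b c).Δ ≠ 0 := by
    rw [tate_Δ]
    exact mul_ne_zero (pow_ne_zero 3 hb0) hQ
  have hell : (tate b c).IsElliptic := ⟨isUnit_iff_ne_zero.mpr hΔ⟩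
  have heq : (tate b c).toAffine.Equation 0 0 := by
    rw [Affine.equation_iff]
    simp [tate]
  have hns : (tate b c).toAffine.Nonsingular 0 0 :=
    (Affine.equation_iff_nonsingular_of_Δ_ne_zero hΔ).mp heq
  have h11 : 11 • Affine.Point.some 0 0 hns = 0 := by
    rw [Torsion.nsmul_eq_zero_iff, eval_ΨSq_eleven]
    have hG : (c - Y - Y ^ 2) * Y ^ 3 - (1 + Y) * (Y - c) ^ 3 = 0 := by
      have hG' : (c - Y - Y ^ 2) * Y ^ 3 - (1 + Y) * (Y - c) ^ 3 =
          Y ^ 5 / X ^ 3 * (Y ^ 2 + Y - (X ^ 3 - X ^ 2)) := by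
        rw [hc]
        field_simp
        ring
      rw [hG', h, sub_self, mul_zero]
    have h1 : (c ^ 3 - b ^ 2 + b * c) * (b - c) ^ 3 - b * c * (b - c - c ^ 2) ^ 3 = 0 := by
      rw [hb]
      linear_combination c ^ 5 * hG
    rw [h1, mul_zero, zero_pow two_ne_zero]
  refine mazur (tate b c) (p := 11) (by norm_num) (Or.inl rfl) (Affine.Point.some 0 0 hns) ?_
  exact addOrderOf_eq_prime (hp := ⟨by norm_num⟩) h11 (Affine.Point.some_ne_zero hns)

open Short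

/-- The curve `11a3`. -/
theorem finite_S_11a3 : (S (-432) 8208).Finite := by
  refine (Set.toFinite {-12, 24}).subset ?_
  rintro u ⟨v, hv⟩
  have h : ((v / 108 - 1) / 2) ^ 2 + (v / 108 - 1) / 2 =
      ((u + 12) / 36) ^ 3 - ((u + 12) / 36) ^ 2 := by
    linear_combination (-1 / 46656) * hv
  rcases x_eq h with h0 | h1
  · left
    linarith
  · right
    rw [Set.mem_singleton_iff]
    linarith

/-- The curve `11a1`. -/
theorem finite_S_11a1 : (S (-13392) (-1080432)).Finite := by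
  refine finite_of_quintic (k := 5) (by norm_num) 60 (-34704 / 5) 120 41040 (-13150080)
    (-1589518080) (-80923898880) (fun u => u ^ 6 + 180 * u ^ 5 - 61344 * u ^ 4 + 25430976 * u ^ 3 +
      3914002944 * u ^ 2 + 601610830848 * u + 20743394955264) ?_ finite_S_11a3
  intro u
  ring

/-- The curve `11a2`. -/
theorem finite_S_11a2 : (S (-10135152) (-12419196912)).Finite := by
  refine finite_of_quintic (k := 5) (by norm_num) 3660 (16744176 / 5) 7320 19740240 22566798720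
    7636588657920 (-2192261307540480) (fun u => u ^ 6 + 10980 * u ^ 5 + 50586336 * u ^ 4 +
      125169575616 * u ^ 3 + 175410665731584 * u ^ 2 + 131964110551876608 * u +
      41621029676759568384) ?_ finite_S_11a1
  intro u
  ring

end Eleven

open Fermat.Agent.Cor.BSD.Eleven Fermat.Agent.Cor.BSD.Short in
/-- **A semistable elliptic curve of conductor `11` has only finitely many rational points.** -/
theorem finite_eleven {W : WeierstrassCurve ℤ} (hΔ : W.Δ ≠ 0) (hW : W.IsSemistableModel)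
    (hN : W.conductorLevel = 11) : Finite (W.map (Int.castRingHom ℚ)).toAffine.Point := by
  obtain ⟨E, hE, r, s, t, h⟩ := Table.exists_iso_eleven hΔ hW hN
  have h4 : W.c₄ = E.c₄ := by rw [← h, WeierstrassCurve.variableChange_c₄]; simp
  have h6 : W.c₆ = E.c₆ := by rw [← h, WeierstrassCurve.variableChange_c₆]; simp
  refine finite_of_S ?_
  rw [WeierstrassCurve.map_c₄, WeierstrassCurve.map_c₆, h4, h6]
  rcases hE with rfl | rfl | rfl
  · rw [Table.E11a1_c₄, Table.E11a1_c₆]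
    norm_num
    exact finite_S_11a1
  · rw [Table.E11a2_c₄, Table.E11a2_c₆]
    norm_num
    exact finite_S_11a2
  · rw [Table.E11a3_c₄, Table.E11a3_c₆]
    norm_num
    exact finite_S_11a3

end Fermat.Agent.Cor.BSD
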