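import Mathlib

/-!
# The curve `43a` over its cubic field: the even valuations of `x - θ`

Let `ζ` be a root of `X ^ 3 + 2 X ^ 2 + 2` in a number field `K`, and `θ = ζ / 2`, a root of the two-division
polynomial `4 X ^ 3 + 4 X ^ 2 + 1` of the curve `y ^ 2 + y = x ^ 3 + x ^ 2` of conductor `43`. For every rational point
`(x, y)` of the curve and every finite place `v` of `K` the valuation of `x - θ` is even.
-/

set_option autoImplicit false

open IsDedekindDomain NumberField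

namespace Fermat.Agent.Cor.BSD.Even43

section val

variable {K : Type*} [Field K] {Γ₀ : Type*} [LinearOrderedCommGroupWithZero Γ₀] (w : Valuation K Γ₀)

theorem val_natCast_le (n : ℕ) : w (n : K) ≤ 1 := by
  induction n with
  | zero => simp
  | succ n ih =>
    push_cast
    exact (w.map_add _ _).trans (max_le ih w.map_one.le)

theorem val_intCast_le (n : ℤ) : w (n : K) ≤ 1 := by
  obtain ⟨m, rfl | rfl⟩ := n.eq_nat_or_neg
  · simpa using val_natCast_le w m
  · rw [Int.cast_neg, w.map_neg]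
    simpa using val_natCast_le w m

theorem val_nat_coprime {p : ℕ} (hp : w (p : K) < 1) {m : ℕ} (h : m.Coprime p) : w (m : K) = 1 := by
  refine le_antisymm (val_natCast_le w m) (not_lt.1 fun hm => ?_)
  have h1 : (m : ℤ) * m.gcdA p + p * m.gcdB p = 1 := by
    have := Nat.gcd_eq_gcd_ab m p
    rw [h] at this
    simpa using this.symm
  have h2 : (m : K) * ((m.gcdA p : ℤ) : K) + (p : K) * ((m.gcdB p : ℤ) : K) = 1 := by
    exact_mod_cast congrArg (Int.cast : ℤ → K) h1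
  have h3 : w ((m : K) * ((m.gcdA p : ℤ) : K) + (p : K) * ((m.gcdB p : ℤ) : K)) < 1 := by
    refine (w.map_add _ _).trans_lt (max_lt ?_ ?_)
    · rw [map_mul]
      exact (mul_le_of_le_one_right' (val_intCast_le w _)).trans_lt hm
    · rw [map_mul]
      exact (mul_le_of_le_one_right' (val_intCast_le w _)).trans_lt hp
  rw [h2, map_one] at h3
  exact lt_irrefl _ h3

theorem exists_val_nat {p : ℕ} (hp : p.Prime) (hw : w (p : K) < 1) {n : ℕ} (hn : n ≠ 0) :
    ∃ e : ℕ, w (n : K) = w (p : K) ^ e := by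
  obtain ⟨e, n', h, rfl⟩ := Nat.exists_eq_pow_mul_and_not_dvd hn p hp.ne_one
  refine ⟨e, ?_⟩
  push_cast
  rw [map_mul, map_pow, val_nat_coprime w hw ((hp.coprime_iff_not_dvd.2 h).symm), mul_one]

theorem exists_val_rat [CharZero K] {p : ℕ} (hp : p.Prime) (hw : w (p : K) < 1) {r : ℚ} (hr : r ≠ 0) :
    ∃ e : ℤ, w (r : K) = w (p : K) ^ e := by
  have hp0 : w (p : K) ≠ 0 := by
    rw [Ne, map_eq_zero]
    exact_mod_cast hp.ne_zero
  obtain ⟨a, ha⟩ := exists_val_nat w hp hw (n := r.num.natAbs) (by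
    rw [Ne, Int.natAbs_eq_zero]
    exact Rat.num_ne_zero.2 hr)
  obtain ⟨b, hb⟩ := exists_val_nat w hp hw (n := r.den) r.den_ne_zero
  have h1 : w ((r.num : ℤ) : K) = w (p : K) ^ a := by
    rw [← ha]
    rcases Int.natAbs_eq r.num with h | h
    · conv_lhs => rw [h]
      simp
    · conv_lhs => rw [h]
      rw [Int.cast_neg, w.map_neg]
      simp
  refine ⟨a - b, ?_⟩
  rw [Rat.cast_def, map_div₀, h1, hb, zpow_sub₀ hp0]
  simp

theorem zpow_lt_one_iff' {q : Γ₀} (h0 : q ≠ 0) (h1 : q < 1) {e : ℤ} (h : q ^ e < 1) : 1 ≤ e := by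
  by_contra he
  have he' : e ≤ 0 := by omega
  obtain ⟨n, rfl⟩ : ∃ n : ℕ, e = -n := ⟨e.natAbs, by omega⟩
  have h2 : q ^ n ≤ 1 := pow_le_one' h1.le n
  have h3 : q ^ (-(n : ℤ)) * q ^ n = 1 := by
    rw [← zpow_natCast q n, ← zpow_add₀ h0]
    simp
  have h4 : q ^ (-(n : ℤ)) * q ^ n < 1 := (mul_le_of_le_one_right' h2).trans_lt h
  rw [h3] at h4
  exact lt_irrefl _ h4

/-- Poles. -/
theorem pole {x y : K} (h : y ^ 2 + y = x ^ 3 + x ^ 2) (hx : 1 < w x) : w x = (w y / w x) * (w y / w x) := by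
  have hx0 : w x ≠ 0 := (zero_lt_one.trans hx).ne'
  have h1 : w (x ^ 3 + x ^ 2) = w x ^ 3 := by
    rw [Valuation.map_add_eq_of_lt_left, map_pow]
    rw [map_pow, map_pow]
    exact pow_lt_pow_right₀ hx (by norm_num)
  have hy : 1 < w y := by
    by_contra hy
    push Not at hy
    have h2 : w (y ^ 2 + y) ≤ 1 := by
      refine (w.map_add _ _).trans (max_le ?_ hy)
      rw [map_pow]
      exact pow_le_one' hy 2
    rw [h, h1] at h2
    exact absurd (one_lt_pow' hx (by norm_num : (3 : ℕ) ≠ 0)) (not_lt.2 h2)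
  have h2 : w (y ^ 2 + y) = w y ^ 2 := by
    rw [Valuation.map_add_eq_of_lt_left, map_pow]
    rw [map_pow]
    calc w y = w y ^ 1 := (pow_one _).symm
      _ < w y ^ 2 := pow_lt_pow_right₀ hy (by norm_num)
  have h3 : w y ^ 2 = w x ^ 3 := by rw [← h1, ← h2, h]
  rw [div_mul_div_comm, ← pow_two, h3, eq_div_iff (mul_ne_zero hx0 hx0)]
  exact (pow_three _).symm

end val

variable {K : Type*} [Field K] [CharZero K] {Γ₀ : Type*} [LinearOrderedCommGroupWithZero Γ₀] (w : Valuation K Γ₀)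

theorem isSquare_val_two {ζ : K} (hζ : ζ ^ 3 + 2 * ζ ^ 2 + 2 = 0) {x y : ℚ} (h : y ^ 2 + y = x ^ 3 + x ^ 2)
    (h2 : w (2 : K) < 1) : IsSquare (w ((x : K) - ζ / 2)) := by
  have h20 : w (2 : K) ≠ 0 := by rw [Ne, map_eq_zero]; norm_num
  have hK : (y : K) ^ 2 + y = (x : K) ^ 3 + (x : K) ^ 2 := by exact_mod_cast congrArg (Rat.cast : ℚ → K) h
  have e1 : ζ ^ 3 = -(2 * (ζ ^ 2 + 1)) := by linear_combination hζ
  have e2 : w ζ ^ 3 = w 2 * w (ζ ^ 2 + 1) := by rw [← map_pow, e1, w.map_neg, map_mul]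
  have hz : w ζ < 1 := by
    by_contra hz
    push Not at hz
    have h3 : w (ζ ^ 2 + 1) ≤ w ζ ^ 2 := by
      refine (w.map_add _ _).trans (max_le (map_pow w ζ 2).le ?_)
      rw [map_one]
      exact one_le_pow_of_one_le' hz 2
    have h4 : w ζ ^ 3 ≤ w 2 * w ζ ^ 2 := by
      rw [e2]
      exact mul_le_mul_right h3 _
    have hz0 : 0 < w ζ := zero_lt_one.trans_le hz
    have h5 : w 2 * w ζ ^ 2 < 1 * w ζ ^ 2 := by
      exact mul_lt_mul_of_pos_right h2 (pow_pos hz0 2)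
    have h6 : w ζ ^ 2 ≤ w ζ ^ 3 := pow_le_pow_right' hz (by norm_num)
    rw [one_mul] at h5
    exact absurd (h4.trans_lt h5) (not_lt.2 h6)
  have e3 : w (ζ ^ 2 + 1) = 1 := by
    rw [Valuation.map_add_eq_of_lt_right, map_one]
    rw [map_pow, map_one]
    exact pow_lt_one' hz (by norm_num)
  rw [e3, mul_one] at e2
  have hz0 : w ζ ≠ 0 := by
    intro h0
    rw [h0] at e2
    exact h20 (by rw [← e2]; simp)
  have e4 : w (ζ / 2) = (w ζ)⁻¹ * (w ζ)⁻¹ := by
    rw [map_div₀, ← e2]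
    field_simp
  rcases le_or_gt (w (x : K)) 1 with hx | hx
  · rw [Valuation.map_sub_eq_of_lt_right]
    · exact ⟨_, e4⟩
    · refine hx.trans_lt ?_
      rw [e4]
      have : 1 < (w ζ)⁻¹ := (one_lt_inv₀ (zero_lt_iff.2 hz0)).2 hz
      rw [← pow_two]
      exact one_lt_pow₀ this (by norm_num)
  · have hx0 : x ≠ 0 := by
      rintro rfl
      simp at hx
    obtain ⟨e, he⟩ := exists_val_rat w Nat.prime_two (by exact_mod_cast h2) hx0
    have he' : w (x : K) = w (2 : K) ^ e := by exact_mod_cast he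
    have hneg : e ≤ -1 := by
      have h3 : w (2 : K) ^ (-e) < 1 := by
        rw [zpow_neg, ← he']
        exact (inv_lt_one₀ (zero_lt_one.trans hx)).2 hx
      have := zpow_lt_one_iff' h20 h2 h3
      omega
    rw [Valuation.map_sub_eq_of_lt_left]
    · exact ⟨_, pole w hK hx⟩
    · rw [e4, he', ← e2]
      obtain ⟨n, rfl⟩ : ∃ n : ℕ, e = -(n + 1) := ⟨(-e - 1).toNat, by omega⟩
      have h7 : ((w ζ) ^ 3) ^ (-((n : ℤ) + 1)) = (w ζ)⁻¹ ^ (3 * n + 3) := by
        rw [zpow_neg, inv_pow, show ((n : ℤ) + 1) = ((n + 1 : ℕ) : ℤ) by push_cast; rfl, zpow_natCast,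
          ← pow_mul, show 3 * (n + 1) = 3 * n + 3 by ring]
      rw [h7, ← pow_two]
      have : 1 < (w ζ)⁻¹ := (one_lt_inv₀ (zero_lt_iff.2 hz0)).2 hz
      exact pow_lt_pow_right₀ this (by omega)

theorem isSquare_val_odd {ζ : K} (hζ : ζ ^ 3 + 2 * ζ ^ 2 + 2 = 0) {x y : ℚ} (h : y ^ 2 + y = x ^ 3 + x ^ 2)
    (h2 : w (2 : K) = 1) : IsSquare (w ((x : K) - ζ / 2)) := by
  have hK : (y : K) ^ 2 + y = (x : K) ^ 3 + (x : K) ^ 2 := by exact_mod_cast congrArg (Rat.cast : ℚ → K) h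
  obtain ⟨θ, hθ⟩ : ∃ θ, θ = ζ / 2 := ⟨_, rfl⟩
  have hζθ : ζ = 2 * θ := by rw [hθ]; ring
  rw [hζθ] at hζ
  have e1 : 4 * θ ^ 3 + 4 * θ ^ 2 + 1 = 0 := by linear_combination hζ / 2
  rw [← hθ]
  have h4 : w (4 : K) = 1 := by
    rw [show (4 : K) = 2 * 2 by norm_num, map_mul, h2, one_mul]
  have hθ1 : w θ ≤ 1 := by
    by_contra hc
    push Not at hc
    have h3 : w (4 * θ ^ 3) = w θ ^ 3 := by rw [map_mul, map_pow, h4, one_mul]
    have h5 : w (4 * θ ^ 2 + 1) < w (4 * θ ^ 3) := by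
      rw [h3]
      refine (w.map_add _ _).trans_lt (max_lt ?_ ?_)
      · rw [map_mul, map_pow, h4, one_mul]
        exact pow_lt_pow_right₀ hc (by norm_num)
      · rw [map_one]
        exact one_lt_pow' hc (by norm_num)
    have h6 := Valuation.map_add_eq_of_lt_left w h5
    rw [show 4 * θ ^ 3 + (4 * θ ^ 2 + 1) = 0 by linear_combination e1, map_zero, h3] at h6
    exact absurd h6 (pow_pos (zero_lt_one.trans hc) 3).ne
  rcases le_or_gt (w (x : K)) 1 with hx | hx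
  swap
  · rw [Valuation.map_sub_eq_of_lt_left w (hθ1.trans_lt hx)]
    exact ⟨_, pole w hK hx⟩
  obtain ⟨g, hg⟩ : ∃ g, g = (x : K) ^ 2 + (θ + 1) * x + (θ ^ 2 + θ) := ⟨_, rfl⟩
  have e2 : ((x : K) - θ) * g = ((y : K) + 1 / 2) ^ 2 := by
    rw [hg]; linear_combination -hK - e1 / 4
  have hsub : w ((x : K) - θ) ≤ 1 := (w.map_sub _ _).trans (max_le hx hθ1)
  rcases hsub.eq_or_lt with h1 | h1
  · rw [h1]; exact IsSquare.one
  have hg1 : w g ≤ 1 := by
    rw [hg]
    refine (w.map_add _ _).trans (max_le ((w.map_add _ _).trans (max_le ?_ ?_)) ?_)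
    · rw [map_pow]; exact pow_le_one' hx 2
    · rw [map_mul]
      exact mul_le_one' ((w.map_add _ _).trans (max_le hθ1 w.map_one.le)) hx
    · refine (w.map_add _ _).trans (max_le ?_ hθ1)
      rw [map_pow]; exact pow_le_one' hθ1 2
  rcases hg1.eq_or_lt with h3 | h3
  · refine ⟨w ((y : K) + 1 / 2), ?_⟩
    have := congrArg w e2
    rw [map_mul, h3, mul_one, map_pow] at this
    rw [this, pow_two]
  exfalso
  -- the place is above 43
  obtain ⟨u, hu⟩ : ∃ u, u = 3 * θ + 2 := ⟨_, rfl⟩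
  have e3 : θ * u = g - ((x : K) - θ) * ((x : K) + 2 * θ + 1) := by
    rw [hg, hu]; ring
  have hθ0 : w θ = 1 := by
    refine le_antisymm hθ1 (not_lt.1 fun hc => ?_)
    have h5 : w (4 * θ ^ 3 + 4 * θ ^ 2) < 1 := by
      refine (w.map_add _ _).trans_lt (max_lt ?_ ?_)
      · rw [map_mul, map_pow, h4, one_mul]; exact pow_lt_one' hc (by norm_num)
      · rw [map_mul, map_pow, h4, one_mul]; exact pow_lt_one' hc (by norm_num)
    rw [show 4 * θ ^ 3 + 4 * θ ^ 2 = -1 by linear_combination e1, w.map_neg, map_one] at h5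
    exact lt_irrefl _ h5
  have hu1 : w u < 1 := by
    have h5 : w (θ * u) < 1 := by
      rw [e3]
      refine (w.map_sub _ _).trans_lt (max_lt h3 ?_)
      rw [map_mul]
      refine (mul_le_of_le_one_right' ?_).trans_lt h1
      refine (w.map_add _ _).trans (max_le ((w.map_add _ _).trans (max_le hx ?_)) w.map_one.le)
      rw [map_mul, h2, one_mul]; exact hθ1
    rwa [map_mul, hθ0, one_mul] at h5
  have e4 : (43 : K) = u ^ 2 * (12 - 4 * u) := by
    rw [hu]; linear_combination 27 * e1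
  have h43 : w ((43 : ℕ) : K) < 1 := by
    have : ((43 : ℕ) : K) = u ^ 2 * (12 - 4 * u) := by rw [← e4]; norm_num
    rw [this, map_mul, map_pow]
    refine (mul_le_of_le_one_right' ?_).trans_lt (pow_lt_one' hu1 (by norm_num))
    refine (w.map_sub _ _).trans (max_le ?_ ?_)
    · simpa using val_natCast_le w 12
    · rw [map_mul, h4, one_mul]; exact hu1.le
  have hp : Nat.Prime 43 := by norm_num
  have h430 : w ((43 : ℕ) : K) ≠ 0 := by
    rw [Ne, map_eq_zero]; norm_num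
  obtain ⟨t, ht⟩ : ∃ t : ℚ, t = 3 * x + 2 := ⟨_, rfl⟩
  have htK : (t : K) = 3 * x + 2 := by rw [ht]; push_cast; ring
  have ht1 : w (t : K) < 1 := by
    rw [show (t : K) = u + 3 * ((x : K) - θ) by rw [htK, hu]; ring]
    refine (w.map_add _ _).trans_lt (max_lt hu1 ?_)
    rw [map_mul]
    exact (mul_le_of_le_one_left' (by simpa using val_natCast_le w 3)).trans_lt h1
  have ht43 : w (t : K) ≤ w ((43 : ℕ) : K) := by
    rcases eq_or_ne t 0 with h0 | h0
    · rw [h0]; simp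
    · obtain ⟨e, he⟩ := exists_val_rat w hp h43 h0
      have he1 : 1 ≤ e := zpow_lt_one_iff' h430 h43 (he ▸ ht1)
      obtain ⟨n, rfl⟩ : ∃ n : ℕ, e = n + 1 := ⟨(e - 1).toNat, by omega⟩
      rw [he, zpow_add₀ h430, zpow_one, zpow_natCast]
      exact mul_le_of_le_one_left' (pow_le_one' h43.le n)
  have e5 : (27 : K) * (2 * y + 1) ^ 2 = (4 * (t : K) ^ 3 - 12 * (t : K) ^ 2) + ((43 : ℕ) : K) := by
    rw [htK]; push_cast; linear_combination 108 * hK
  have h5 : w (4 * (t : K) ^ 3 - 12 * (t : K) ^ 2) < w ((43 : ℕ) : K) := by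
    have h6 : w (t : K) ^ 2 < w ((43 : ℕ) : K) := by
      rw [pow_two]
      calc w (t : K) * w (t : K) ≤ w ((43 : ℕ) : K) * w (t : K) := mul_le_mul_left ht43 _
        _ < w ((43 : ℕ) : K) * 1 := mul_lt_mul_of_pos_left ht1 (zero_lt_iff.2 h430)
        _ = w ((43 : ℕ) : K) := mul_one _
    rw [show 4 * (t : K) ^ 3 - 12 * (t : K) ^ 2 = (t : K) ^ 2 * (4 * t - 12) by ring, map_mul, map_pow]
    refine (mul_le_of_le_one_right' ?_).trans_lt h6
    refine (w.map_sub _ _).trans (max_le ?_ ?_)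
    · rw [map_mul, h4, one_mul]; exact ht1.le
    · simpa using val_natCast_le w 12
  have h6 : w ((27 : K) * (2 * y + 1) ^ 2) = w ((43 : ℕ) : K) := by
    rw [e5, Valuation.map_add_eq_of_lt_right w h5]
  have h27 : w (27 : K) = 1 := by
    simpa using val_nat_coprime w h43 (m := 27) (by norm_num)
  rw [map_mul, h27, one_mul, map_pow] at h6
  have hy0 : (2 * y + 1 : ℚ) ≠ 0 := by
    intro h0
    have : (2 * (y : K) + 1) = 0 := by exact_mod_cast congrArg (Rat.cast : ℚ → K) h0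
    rw [this, map_zero] at h6
    exact h430 (by rw [← h6]; simp)
  obtain ⟨n, hn⟩ := exists_val_rat w hp h43 hy0
  have hn' : w (2 * (y : K) + 1) = w ((43 : ℕ) : K) ^ n := by rw [← hn]; push_cast; rfl
  rw [hn'] at h6
  rcases le_or_gt n 0 with hn0 | hn0
  · obtain ⟨m, rfl⟩ : ∃ m : ℕ, n = -m := ⟨n.natAbs, by omega⟩
    have h7 : (w ((43 : ℕ) : K) ^ (-(m : ℤ))) ^ 2 * (w ((43 : ℕ) : K) ^ m) ^ 2 = 1 := by
      rw [← mul_pow, ← zpow_natCast _ m, ← zpow_add₀ h430]; simp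
    rw [h6] at h7
    have h8 : w ((43 : ℕ) : K) * (w ((43 : ℕ) : K) ^ m) ^ 2 < 1 :=
      (mul_le_of_le_one_right' (pow_le_one' (pow_le_one' h43.le m) 2)).trans_lt h43
    rw [h7] at h8
    exact lt_irrefl _ h8
  · obtain ⟨m, rfl⟩ : ∃ m : ℕ, n = m + 1 := ⟨(n - 1).toNat, by omega⟩
    have h7 : w ((43 : ℕ) : K) ^ ((m : ℤ) + 1) ≤ w ((43 : ℕ) : K) := by
      rw [zpow_add₀ h430, zpow_one, zpow_natCast]
      exact mul_le_of_le_one_left' (pow_le_one' h43.le m)
    have h8 : (w ((43 : ℕ) : K) ^ ((m : ℤ) + 1)) ^ 2 < w ((43 : ℕ) : K) := by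
      rw [pow_two]
      calc _ ≤ w ((43 : ℕ) : K) * w ((43 : ℕ) : K) := mul_le_mul' h7 h7
        _ < w ((43 : ℕ) : K) * 1 := mul_lt_mul_of_pos_left h43 (zero_lt_iff.2 h430)
        _ = w ((43 : ℕ) : K) := mul_one _
    rw [h6] at h8
    exact lt_irrefl _ h8

end Fermat.Agent.Cor.BSD.Even43

namespace Fermat.Agent.Cor.BSD

/-- **The valuations of `x - θ` are even** at every finite place of the cubic field of `43a`. -/
theorem even43 {K : Type*} [Field K] [NumberField K] {ζ : K} (hζ : ζ ^ 3 + 2 * ζ ^ 2 + 2 = 0) {x y : ℚ}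
    (h : y ^ 2 + y = x ^ 3 + x ^ 2) (v : HeightOneSpectrum (𝓞 K)) :
    IsSquare (v.valuation K ((x : K) - ζ / 2)) := by
  have h2 : v.valuation K (2 : K) ≤ 1 := by simpa using Even43.val_natCast_le (v.valuation K) 2
  rcases h2.eq_or_lt with h2 | h2
  · exact Even43.isSquare_val_odd _ hζ h h2
  · exact Even43.isSquare_val_two _ hζ h h2

end Fermat.Agent.Cor.BSD
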