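import Mathlib

/-!
# The 2-descent over a cubic field: `x - θ` has even valuations

`W : y² + y = x³ + a₂x² + a₄x + a₆` with squarefree discriminant, `θ` a root of the 2-division
polynomial in a number field `K`. `even_val`: for every rational point `(x, y)` of `W` and every
prime ideal `v` of `K` the valuation of `x - θ` at `v` is even.
-/

set_option autoImplicit false

noncomputable section

namespace Fermat.Agent.Cor.BSD.Ev

open NumberField IsDedekindDomain

variable {K : Type*} [Field K] [NumberField K] (v : HeightOneSpectrum (𝓞 K))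

omit [NumberField K] in
/-- Every prime ideal contains a prime number. -/
theorem exists_prime_mem : ∃ p : ℕ, p.Prime ∧ (p : 𝓞 K) ∈ v.asIdeal := by
  have : NeZero v.asIdeal := ⟨v.ne_bot⟩
  have hv := v.isPrime
  refine ⟨_, Nat.absNorm_under_prime v.asIdeal, ?_⟩
  have h1 := Int.absNorm_under_mem v.asIdeal
  simpa using h1

theorem val_int_le (n : ℤ) : v.valuation K (n : K) ≤ 1 := by
  simpa using v.valuation_le_one (K := K) (n : 𝓞 K)

theorem val_nat_lt {p : ℕ} (hpv : (p : 𝓞 K) ∈ v.asIdeal) : v.valuation K (p : K) < 1 := by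
  simpa using (v.valuation_lt_one_iff_mem (K := K) (p : 𝓞 K)).mpr hpv

theorem val_int_eq {p : ℕ} (hp : p.Prime) (hpv : (p : 𝓞 K) ∈ v.asIdeal) {n : ℤ}
    (hn : ¬ (p : ℤ) ∣ n) : v.valuation K (n : K) = 1 := by
  have h1 : ((n : 𝓞 K)) ∉ v.asIdeal := by
    intro h
    have hcop : IsCoprime (p : ℤ) n :=
      ((Nat.prime_iff_prime_int.mp hp).coprime_iff_not_dvd).mpr hn
    obtain ⟨a, b, hab⟩ := hcop
    apply v.isPrime.ne_top
    rw [Ideal.eq_top_iff_one]
    have h1 : ((a * (p : ℕ) + b * n : ℤ) : 𝓞 K) ∈ v.asIdeal := by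
      push_cast
      exact v.asIdeal.add_mem (v.asIdeal.mul_mem_left _ hpv) (v.asIdeal.mul_mem_left _ h)
    rw [hab] at h1
    simpa using h1
  have h2 := (v.valuation_eq_one_iff_notMem (K := K)).mpr h1
  simpa using h2

theorem exists_zpow {p : ℕ} (hp : p.Prime) (hpv : (p : 𝓞 K) ∈ v.asIdeal) {q : ℚ} (hq : q ≠ 0) :
    ∃ n : ℤ, v.valuation K (q : K) = v.valuation K (p : K) ^ n := by
  have hnat : ∀ n : ℕ, n ≠ 0 → ∃ e : ℕ, v.valuation K (n : K) = v.valuation K (p : K) ^ e := by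
    intro n hn
    obtain ⟨e, m, hm, rfl⟩ := Nat.exists_eq_pow_mul_and_not_dvd hn p hp.ne_one
    refine ⟨e, ?_⟩
    have h1 : v.valuation K ((m : ℤ) : K) = 1 :=
      val_int_eq v hp hpv (fun h => hm (by exact_mod_cast h))
    rw [Int.cast_natCast] at h1
    rw [Nat.cast_mul, Nat.cast_pow, map_mul, map_pow, h1, mul_one]
  obtain ⟨e, he⟩ := hnat q.num.natAbs (Int.natAbs_ne_zero.mpr (Rat.num_ne_zero.mpr hq))
  obtain ⟨f, hf⟩ := hnat q.den q.den_nz
  have hnum : v.valuation K (q.num : K) = v.valuation K (q.num.natAbs : K) := by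
    rcases Int.natAbs_eq q.num with h | h
    · conv_lhs => rw [h]
      rw [Int.cast_natCast]
    · conv_lhs => rw [h]
      rw [Int.cast_neg, Valuation.map_neg, Int.cast_natCast]
  have hp0 : v.valuation K (p : K) ≠ 0 := by
    rw [Valuation.ne_zero_iff]
    exact_mod_cast hp.ne_zero
  refine ⟨(e : ℤ) - f, ?_⟩
  have hqq : (q : K) = (q.num : K) / (q.den : K) := by
    conv_lhs => rw [← Rat.num_div_den q]
    push_cast
    rfl
  rw [hqq, map_div₀, hnum, he, hf, zpow_sub₀ hp0, zpow_natCast, zpow_natCast]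

/-- A rational number of valuation `< 1` has valuation `≤ v(p)`. -/
theorem val_le_of_lt {p : ℕ} (hp : p.Prime) (hpv : (p : 𝓞 K) ∈ v.asIdeal) {q : ℚ}
    (hq : v.valuation K (q : K) < 1) : v.valuation K (q : K) ≤ v.valuation K (p : K) := by
  rcases eq_or_ne q 0 with rfl | h0
  · rw [Rat.cast_zero, map_zero]
    exact zero_le
  obtain ⟨n, hn⟩ := exists_zpow v hp hpv h0
  have hp1 := val_nat_lt v hpv
  have hp0 : 0 < v.valuation K (p : K) := by
    rw [zero_lt_iff, Valuation.ne_zero_iff]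
    exact_mod_cast hp.ne_zero
  rw [hn] at hq ⊢
  have hn1 : 1 ≤ n := by
    by_contra h
    have h1 : n ≤ 0 := by omega
    exact not_le.mpr hq (one_le_zpow_of_nonpos₀ hp0 hp1.le h1)
  calc v.valuation K (p : K) ^ n ≤ v.valuation K (p : K) ^ (1 : ℤ) :=
        zpow_le_zpow_right_of_le_one₀ hp0 hp1.le hn1
    _ = v.valuation K (p : K) := zpow_one _

section Curve

variable {a₂ a₄ a₆ : ℤ} {ζ : 𝓞 K}
  (hζ : ζ ^ 3 + 2 * a₂ * ζ ^ 2 + 4 * a₄ * ζ + 2 * (1 + 4 * a₆) = 0)

omit [NumberField K] in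
include hζ in
theorem eq_K : (ζ : K) ^ 3 + 2 * a₂ * (ζ : K) ^ 2 + 4 * a₄ * (ζ : K) + 2 * (1 + 4 * a₆) = 0 := by
  have h := congrArg (algebraMap (𝓞 K) K) hζ
  simpa only [map_add, map_mul, map_pow, map_ofNat, map_intCast, map_one, map_zero] using h

include hζ in
/-- `ζ` is not rational (Eisenstein at `2`). -/
theorem ne_rat (q : ℚ) : (ζ : K) ≠ (q : K) := by
  intro h
  have h1 := eq_K hζ
  rw [h] at h1
  have h2 : q ^ 3 + 2 * a₂ * q ^ 2 + 4 * a₄ * q + 2 * (1 + 4 * a₆) = 0 := by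
    exact_mod_cast h1
  have h3 : IsIntegral ℤ (q : K) := h ▸ RingOfIntegers.isIntegral_coe ζ
  have h4 : IsIntegral ℤ q := by
    have h5 : (q : K) = algebraMap ℚ K q := (eq_ratCast _ q).symm
    rw [h5] at h3
    exact (isIntegral_algebraMap_iff (algebraMap ℚ K).injective).mp h3
  obtain ⟨m, hm⟩ := IsIntegrallyClosed.isIntegral_iff.mp h4
  have hm' : (m : ℚ) = q := by simpa using hm
  rw [← hm'] at h2
  have h6 : m ^ 3 + 2 * a₂ * m ^ 2 + 4 * a₄ * m + 2 * (1 + 4 * a₆) = 0 := by exact_mod_cast h2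
  have h7 : Even (m ^ 3) := by
    refine ⟨-(a₂ * m ^ 2 + 2 * a₄ * m + (1 + 4 * a₆)), ?_⟩
    linear_combination h6
  obtain ⟨k, hk⟩ := (Int.even_pow.mp h7).1
  rw [hk] at h6
  ring_nf at h6
  omega

include hζ in
/-- the places prime to `2` -/
theorem exists_sq_of_odd (hD : Squarefree (-16 * a₂ ^ 2 * (a₂ * (1 + 4 * a₆) - a₄ ^ 2) -
      64 * a₄ ^ 3 - 27 * (1 + 4 * a₆) ^ 2 + 72 * a₂ * a₄ * (1 + 4 * a₆)))
    (h2 : v.valuation K (2 : K) = 1) {x y : ℚ} (h : y ^ 2 + y = x ^ 3 + a₂ * x ^ 2 + a₄ * x + a₆) :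
    ∃ b, v.valuation K ((x : K) - (ζ : K) / 2) = b ^ 2 := by
  set t : K := 2 * (x : K) - (ζ : K) with ht
  have hs : v.valuation K ((x : K) - (ζ : K) / 2) = v.valuation K t := by
    have e1 : t = 2 * ((x : K) - (ζ : K) / 2) := by rw [ht]; ring
    rw [e1, map_mul, h2, one_mul]
  rw [hs]
  set Y : ℚ := 2 * y + 1 with hY
  have hK := eq_K hζ
  have hxyK : (y : K) ^ 2 + y = (x : K) ^ 3 + a₂ * (x : K) ^ 2 + a₄ * x + a₆ := by
    exact_mod_cast congrArg (fun r : ℚ => (r : K)) h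
  have hYK : (Y : K) = 2 * (y : K) + 1 := by rw [hY]; push_cast; ring
  -- the derivative
  set g : K := 3 * (ζ : K) ^ 2 + 4 * a₂ * (ζ : K) + 4 * a₄ with hg
  have hprod : t * (g + (3 * (ζ : K) + 2 * a₂) * t + t ^ 2) = 2 * (Y : K) ^ 2 := by
    rw [hYK, hg, ht]
    linear_combination (-1 : K) * hK - 8 * hxyK
  have hζ1 : v.valuation K (ζ : K) ≤ 1 := v.valuation_le_one ζ
  have hint : ∀ z : 𝓞 K, v.valuation K (z : K) ≤ 1 := fun z => v.valuation_le_one z
  have hg1 : v.valuation K g ≤ 1 := by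
    have := hint (3 * ζ ^ 2 + 4 * a₂ * ζ + 4 * a₄)
    rw [hg]
    simpa only [map_add, map_mul, map_pow, map_ofNat, map_intCast] using this
  have hc1 : v.valuation K (3 * (ζ : K) + 2 * a₂) ≤ 1 := by
    have := hint (3 * ζ + 2 * a₂)
    simpa only [map_add, map_mul, map_ofNat, map_intCast] using this
  have hv := congrArg (v.valuation K) hprod
  rw [map_mul, map_mul, h2, one_mul, map_pow] at hv
  rcases lt_trichotomy (v.valuation K t) 1 with hlt | heq | hgt
  · -- `v(t) < 1`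
    have hg2 : v.valuation K g = 1 := by
      by_contra hne
      have hglt : v.valuation K g < 1 := lt_of_le_of_ne hg1 hne
      obtain ⟨p, hp, hpv⟩ := exists_prime_mem v
      have hb1 := val_nat_lt v hpv
      have hb0 : 0 < v.valuation K (p : K) := by
        rw [zero_lt_iff, Valuation.ne_zero_iff]
        exact_mod_cast hp.ne_zero
      -- `h(z)`, `h'(z)` for `z = 2x`
      have hhz : v.valuation K (Y : K) < 1 := by
        have h5 : v.valuation K (Y : K) ^ 2 < 1 := by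
          rw [← hv]
          refine mul_lt_one_of_nonneg_of_lt_one_left zero_le hlt ?_
          refine (v.valuation K).map_add_le ((v.valuation K).map_add_le hg1 ?_) ?_
          · rw [map_mul]
            exact mul_le_one' hc1 hlt.le
          · rw [map_pow]
            exact pow_le_one' hlt.le 2
        exact (pow_lt_one_iff_of_nonneg zero_le two_ne_zero).mp h5
      have hYle := val_le_of_lt v hp hpv hhz
      have hdz : v.valuation K ((12 * x ^ 2 + 8 * a₂ * x + 4 * a₄ : ℚ) : K) < 1 := by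
        have e1 : ((12 * x ^ 2 + 8 * a₂ * x + 4 * a₄ : ℚ) : K) =
            g + (2 * (3 * (ζ : K) + 2 * a₂) * t + 3 * t ^ 2) := by
          rw [hg, ht]
          push_cast
          ring
        rw [e1]
        refine (v.valuation K).map_add_lt hglt ((v.valuation K).map_add_lt ?_ ?_)
        · rw [map_mul, map_mul, h2, one_mul]
          exact mul_lt_one_of_nonneg_of_lt_one_right hc1 zero_le hlt
        · rw [map_mul, map_pow]
          have h3 : v.valuation K (3 : K) ≤ 1 := by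
            simpa using val_int_le v 3
          exact mul_lt_one_of_nonneg_of_lt_one_right h3 zero_le (pow_lt_one' hlt two_ne_zero)
      have hdle := val_le_of_lt v hp hpv hdz
      have hx1 : v.valuation K (2 * (x : K)) ≤ 1 := by
        have e1 : 2 * (x : K) = t + (ζ : K) := by rw [ht]; ring
        rw [e1]
        exact (v.valuation K).map_add_le hlt.le hζ1
      have hx2 : v.valuation K (x : K) ≤ 1 := by
        rwa [map_mul, h2, one_mul] at hx1
      -- the discriminant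
      let O := (v.valuation K).integer
      have hxO : (x : K) ∈ O := hx2
      have hVO : (((-12 : ℤ) : K) * (x : K) ^ 2 + ((-8 * a₂ : ℤ) : K) * (x : K) +
          ((4 * a₂ ^ 2 - 16 * a₄ : ℤ) : K)) ∈ O :=
        O.add_mem (O.add_mem (O.mul_mem (intCast_mem _ _) (O.pow_mem hxO 2))
          (O.mul_mem (intCast_mem _ _) hxO)) (intCast_mem _ _)
      have hUO : (((432 : ℤ) : K) * (x : K) ^ 3 + ((432 * a₂ : ℤ) : K) * (x : K) ^ 2 +
          ((432 * a₄ : ℤ) : K) * (x : K) +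
          ((2 * (-32 * a₂ ^ 3 + 144 * a₂ * a₄ - 54 * (1 + 4 * a₆)) : ℤ) : K)) ∈ O :=
        O.add_mem (O.add_mem (O.add_mem (O.mul_mem (intCast_mem _ _) (O.pow_mem hxO 3))
          (O.mul_mem (intCast_mem _ _) (O.pow_mem hxO 2))) (O.mul_mem (intCast_mem _ _) hxO))
          (intCast_mem _ _)
      set D : ℤ := -16 * a₂ ^ 2 * (a₂ * (1 + 4 * a₆) - a₄ ^ 2) -
        64 * a₄ ^ 3 - 27 * (1 + 4 * a₆) ^ 2 + 72 * a₂ * a₄ * (1 + 4 * a₆) with hDdef
      have hdisc : 2 * 2 * (D : K) =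
          ((12 * x ^ 2 + 8 * a₂ * x + 4 * a₄ : ℚ) : K) ^ 2 *
            (((-12 : ℤ) : K) * (x : K) ^ 2 + ((-8 * a₂ : ℤ) : K) * (x : K) +
              ((4 * a₂ ^ 2 - 16 * a₄ : ℤ) : K)) +
          (Y : K) ^ 2 * (((432 : ℤ) : K) * (x : K) ^ 3 + ((432 * a₂ : ℤ) : K) * (x : K) ^ 2 +
            ((432 * a₄ : ℤ) : K) * (x : K) +
            ((2 * (-32 * a₂ ^ 3 + 144 * a₂ * a₄ - 54 * (1 + 4 * a₆)) : ℤ) : K)) := by
        rw [hDdef, hYK]
        push_cast
        linear_combination (-4 : K) * (432 * (x : K) ^ 3 + 432 * a₂ * (x : K) ^ 2 +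
          432 * a₄ * (x : K) + 2 * (-32 * a₂ ^ 3 + 144 * a₂ * a₄ - 54 * (1 + 4 * a₆))) * hxyK
      have hDv : v.valuation K (D : K) ≤ v.valuation K (p : K) ^ 2 := by
        have e1 : v.valuation K (D : K) = v.valuation K (2 * 2 * (D : K)) := by
          rw [map_mul, map_mul, h2, one_mul, one_mul]
        rw [e1, hdisc]
        refine (v.valuation K).map_add_le ?_ ?_
        · rw [map_mul, map_pow]
          calc _ ≤ v.valuation K (p : K) ^ 2 * 1 := by
                gcongr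
                exact hVO
            _ = _ := mul_one _
        · rw [map_mul, map_pow]
          calc _ ≤ v.valuation K (p : K) ^ 2 * 1 := by
                gcongr
                exact hUO
            _ = _ := mul_one _
      have hb2 : v.valuation K (p : K) ^ 2 < v.valuation K (p : K) := by
        rw [sq]
        exact mul_lt_of_lt_one_right hb0 hb1
      by_cases hpD : (p : ℤ) ∣ D
      · obtain ⟨m, hm⟩ := hpD
        have hpm : ¬ (p : ℤ) ∣ m := by
          rintro ⟨c, hc⟩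
          have h5 : IsUnit (p : ℤ) := hD (p : ℤ) ⟨c, by rw [hm, hc]; ring⟩
          exact (Nat.prime_iff_prime_int.mp hp).not_isUnit h5
        have h5 : v.valuation K (D : K) = v.valuation K (p : K) := by
          rw [hm, Int.cast_mul, map_mul, val_int_eq v hp hpv hpm, mul_one, Int.cast_natCast]
        rw [h5] at hDv
        exact absurd hDv (not_le.mpr hb2)
      · rw [val_int_eq v hp hpv hpD] at hDv
        exact absurd hDv (not_le.mpr (hb2.trans hb1))
    have h3 : v.valuation K (g + (3 * (ζ : K) + 2 * a₂) * t + t ^ 2) = 1 := by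
      rw [add_assoc, Valuation.map_add_eq_of_lt_left _ ?_, hg2]
      rw [hg2]
      refine (v.valuation K).map_add_lt ?_ ?_
      · rw [map_mul]
        exact mul_lt_one_of_nonneg_of_lt_one_right hc1 zero_le hlt
      · rw [map_pow]
        exact pow_lt_one' hlt two_ne_zero
    rw [h3, mul_one] at hv
    exact ⟨_, hv⟩
  · exact ⟨1, by rw [heq, one_pow]⟩
  · -- `v(t) > 1`
    have ht0 : v.valuation K t ≠ 0 := (zero_lt_one.trans hgt).ne'
    have h3 : v.valuation K (g + (3 * (ζ : K) + 2 * a₂) * t + t ^ 2) = v.valuation K t ^ 2 := by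
      have h4 : v.valuation K (g + (3 * (ζ : K) + 2 * a₂) * t) < v.valuation K (t ^ 2) := by
        rw [map_pow]
        have h5 : v.valuation K t < v.valuation K t ^ 2 := by
          rw [sq]
          exact (lt_mul_iff_one_lt_right (zero_lt_iff.mpr ht0)).mpr hgt
        refine (v.valuation K).map_add_lt (hg1.trans_lt (hgt.trans h5)) ?_
        rw [map_mul]
        refine lt_of_le_of_lt ?_ h5
        calc _ ≤ 1 * v.valuation K t := by gcongr
          _ = _ := one_mul _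
      rw [Valuation.map_add_eq_of_lt_right _ h4, map_pow]
    rw [h3] at hv
    refine ⟨v.valuation K (Y : K) / v.valuation K t, ?_⟩
    rw [div_pow, ← hv]
    field_simp

include hζ in
/-- the places over `2` -/
theorem exists_sq_of_two (h2 : ((2 : ℕ) : 𝓞 K) ∈ v.asIdeal) {x y : ℚ}
    (h : y ^ 2 + y = x ^ 3 + a₂ * x ^ 2 + a₄ * x + a₆) :
    ∃ b, v.valuation K ((x : K) - (ζ : K) / 2) = b ^ 2 := by
  have hK := eq_K hζ
  have hxyK : (y : K) ^ 2 + y = (x : K) ^ 3 + a₂ * (x : K) ^ 2 + a₄ * x + a₆ := by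
    exact_mod_cast congrArg (fun r : ℚ => (r : K)) h
  have h2lt : v.valuation K (2 : K) < 1 := by
    simpa using val_nat_lt v h2
  have hζ1 : v.valuation K (ζ : K) ≤ 1 := v.valuation_le_one ζ
  set a := v.valuation K (ζ : K) with ha
  -- `v(ζ)³ = v(2)`
  have hζ0 : (ζ : K) ≠ 0 := by
    have := ne_rat hζ 0
    rwa [Rat.cast_zero] at this
  have ha0 : 0 < a := by
    rw [ha, zero_lt_iff, Valuation.ne_zero_iff]
    exact hζ0
  have hcube : (ζ : K) ^ 3 = 2 * (-(1 + (((4 * a₆ : ℤ) : K) + ((a₂ : ℤ) : K) * (ζ : K) ^ 2 +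
      ((2 * a₄ : ℤ) : K) * (ζ : K)))) := by
    push_cast
    linear_combination hK
  let O := (v.valuation K).integer
  have hζO : (ζ : K) ∈ O := hζ1
  have hle : v.valuation K (-(1 + (((4 * a₆ : ℤ) : K) + ((a₂ : ℤ) : K) * (ζ : K) ^ 2 +
      ((2 * a₄ : ℤ) : K) * (ζ : K)))) ≤ 1 :=
    O.neg_mem (O.add_mem O.one_mem (O.add_mem (O.add_mem (intCast_mem _ _)
      (O.mul_mem (intCast_mem _ _) (O.pow_mem hζO 2))) (O.mul_mem (intCast_mem _ _) hζO)))
  have ha1 : a < 1 := by
    have h3 : a ^ 3 < 1 := by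
      rw [ha, ← map_pow, hcube, map_mul]
      exact mul_lt_one_of_nonneg_of_lt_one_left zero_le h2lt hle
    exact (pow_lt_one_iff_of_nonneg zero_le three_ne_zero).mp h3
  have h4lt : ∀ n : ℤ, v.valuation K ((2 * n : ℤ) : K) < 1 := by
    intro n
    rw [Int.cast_mul, map_mul]
    exact mul_lt_one_of_nonneg_of_lt_one_left zero_le (by simpa using h2lt) (val_int_le v n)
  have hv2 : v.valuation K (2 : K) = a ^ 3 := by
    rw [ha, ← map_pow, hcube, map_mul, Valuation.map_neg, Valuation.map_add_eq_of_lt_left,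
      map_one, mul_one]
    rw [map_one]
    refine (v.valuation K).map_add_lt ((v.valuation K).map_add_lt ?_ ?_) ?_
    · have := h4lt (2 * a₆)
      rwa [← mul_assoc, show (2 : ℤ) * 2 = 4 by norm_num] at this
    · rw [map_mul, map_pow]
      exact mul_lt_one_of_nonneg_of_lt_one_right (val_int_le v a₂) zero_le
        (pow_lt_one' ha1 two_ne_zero)
    · rw [map_mul]
      exact mul_lt_one_of_nonneg_of_lt_one_right (val_int_le v _) zero_le ha1
  have hθ : v.valuation K ((ζ : K) / 2) = a ^ (-2 : ℤ) := by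
    rw [map_div₀, hv2, ← ha, show (-2 : ℤ) = 1 - ((3 : ℕ) : ℤ) by norm_num, zpow_sub₀ ha0.ne',
      zpow_one, zpow_natCast]
  rcases eq_or_ne x 0 with rfl | hx0
  · refine ⟨a ^ (-1 : ℤ), ?_⟩
    rw [Rat.cast_zero, zero_sub, Valuation.map_neg, hθ, ← zpow_natCast, ← zpow_mul]
    norm_num
  obtain ⟨n, hn⟩ := exists_zpow v Nat.prime_two h2 hx0
  rw [Nat.cast_ofNat, hv2, ← zpow_natCast, ← zpow_mul] at hn
  have hmono : StrictAnti fun k : ℤ => a ^ k := zpow_right_strictAnti₀ ha0 ha1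
  rcases le_or_gt 0 n with h0 | h0
  · -- `x` is integral at `2`
    refine ⟨a ^ (-1 : ℤ), ?_⟩
    rw [Valuation.map_sub_eq_of_lt_right _ ?_, hθ, ← zpow_natCast, ← zpow_mul]
    · norm_num
    · rw [hn, hθ]
      exact hmono (by push_cast; omega)
  · have hvs : v.valuation K ((x : K) - (ζ : K) / 2) = a ^ (3 * n) := by
      rw [Valuation.map_sub_eq_of_lt_left _ ?_, hn]
      · norm_num
      · rw [hn, hθ]
        exact hmono (by push_cast; omega)
    -- `n` is even
    have hYK : (2 * (y : K) + 1) ^ 2 = 2 ^ 2 * (x : K) ^ 3 + (((4 * a₂ : ℤ) : K) * (x : K) ^ 2 +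
        (((4 * a₄ : ℤ) : K) * (x : K) + ((1 + 4 * a₆ : ℤ) : K))) := by
      push_cast
      linear_combination 4 * hxyK
    have hlead : v.valuation K ((2 : K) ^ 2 * (x : K) ^ 3) = a ^ (6 + 9 * n) := by
      rw [map_mul, map_pow, map_pow, hv2, hn, zpow_add₀ ha0.ne', ← zpow_natCast, ← zpow_natCast,
        ← zpow_natCast, ← zpow_mul, ← zpow_mul]
      congr 2
      push_cast
      ring
    have h44 : ∀ m : ℤ, v.valuation K ((4 * m : ℤ) : K) ≤ a ^ (6 : ℤ) := by
      intro m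
      have e1 : ((4 * m : ℤ) : K) = 2 ^ 2 * (m : K) := by push_cast; ring
      rw [e1, map_mul, map_pow, hv2, ← zpow_natCast, ← zpow_natCast, ← zpow_mul]
      calc _ ≤ a ^ (((3 : ℕ) : ℤ) * ((2 : ℕ) : ℤ)) * 1 := by
            gcongr
            exact val_int_le v m
        _ = a ^ (6 : ℤ) := by rw [mul_one]; norm_num
    have hsq : v.valuation K (2 * (y : K) + 1) ^ 2 = a ^ (6 + 9 * n) := by
      rw [← map_pow, hYK, Valuation.map_add_eq_of_lt_left, hlead]
      rw [hlead]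
      refine (v.valuation K).map_add_lt ?_ ((v.valuation K).map_add_lt ?_ ?_)
      · rw [map_mul, map_pow, hn, ← zpow_natCast, ← zpow_mul]
        calc _ ≤ a ^ (6 : ℤ) * a ^ (((3 : ℕ) : ℤ) * n * ((2 : ℕ) : ℤ)) := by
              gcongr
              exact h44 a₂
          _ = a ^ (6 + ((3 : ℕ) : ℤ) * n * ((2 : ℕ) : ℤ)) := by rw [zpow_add₀ ha0.ne']
          _ < a ^ (6 + 9 * n) := hmono (by push_cast; omega)
      · rw [map_mul, hn]
        calc _ ≤ a ^ (6 : ℤ) * a ^ (((3 : ℕ) : ℤ) * n) := by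
              gcongr
              exact h44 a₄
          _ = a ^ (6 + ((3 : ℕ) : ℤ) * n) := by rw [zpow_add₀ ha0.ne']
          _ < a ^ (6 + 9 * n) := hmono (by push_cast; omega)
      · calc _ ≤ 1 := val_int_le v _
          _ = a ^ (0 : ℤ) := (zpow_zero a).symm
          _ < a ^ (6 + 9 * n) := hmono (by omega)
    have hY0 : (2 * y + 1 : ℚ) ≠ 0 := by
      intro h0'
      have h5 : 2 * (y : K) + 1 = 0 := by
        have := congrArg (fun r : ℚ => (r : K)) h0'
        push_cast at this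
        exact this
      rw [h5, map_zero, zero_pow two_ne_zero] at hsq
      exact (zpow_ne_zero _ ha0.ne') hsq.symm
    obtain ⟨k, hk⟩ := exists_zpow v Nat.prime_two h2 hY0
    rw [Nat.cast_ofNat, hv2, ← zpow_natCast, ← zpow_mul] at hk
    have hk' : v.valuation K (2 * (y : K) + 1) = a ^ (((3 : ℕ) : ℤ) * k) := by
      rw [← hk]
      push_cast
      rfl
    rw [hk', ← zpow_natCast, ← zpow_mul] at hsq
    have hexp := hmono.injective hsq
    push_cast at hexp
    refine ⟨a ^ (k - 1), ?_⟩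
    rw [hvs, ← zpow_natCast, ← zpow_mul]
    congr 1
    push_cast
    omega

/-- **The valuations of `x - θ` are even**, `θ = ζ/2`. -/
theorem even_val (hζ : ζ ^ 3 + 2 * a₂ * ζ ^ 2 + 4 * a₄ * ζ + 2 * (1 + 4 * a₆) = 0)
    (hD : Squarefree (-16 * a₂ ^ 2 * (a₂ * (1 + 4 * a₆) - a₄ ^ 2) -
      64 * a₄ ^ 3 - 27 * (1 + 4 * a₆) ^ 2 + 72 * a₂ * a₄ * (1 + 4 * a₆)))
    {x y : ℚ} (h : y ^ 2 + y = x ^ 3 + a₂ * x ^ 2 + a₄ * x + a₆) :
    ∃ k : ℤ, v.valuation K ((x : K) - (ζ : K) / 2) = WithZero.exp (2 * k) := by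
  have hex : ∃ b, v.valuation K ((x : K) - (ζ : K) / 2) = b ^ 2 := by
    by_cases h2 : ((2 : ℕ) : 𝓞 K) ∈ v.asIdeal
    · exact exists_sq_of_two v hζ h2 h
    · have h3 := (v.valuation_eq_one_iff_notMem (K := K)).mpr h2
      rw [map_natCast, Nat.cast_ofNat] at h3
      exact exists_sq_of_odd v hζ hD h3 h
  obtain ⟨b, hb⟩ := hex
  have hne : (x : K) - (ζ : K) / 2 ≠ 0 := by
    intro h0
    apply ne_rat hζ (2 * x)
    push_cast
    linear_combination -2 * h0
  have hb0 : b ≠ 0 := by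
    rintro rfl
    rw [zero_pow two_ne_zero, Valuation.zero_iff] at hb
    exact hne hb
  refine ⟨WithZero.log b, ?_⟩
  rw [hb, two_mul, WithZero.exp_add, WithZero.exp_log hb0, sq]

end Curve

/-- The valuations of `x - θ` are even, `θ = ζ/2`, `ζ ∈ K`. -/
theorem even_val_field {a₂ a₄ a₆ : ℤ} {ζ : K}
    (hζ : ζ ^ 3 + 2 * a₂ * ζ ^ 2 + 4 * a₄ * ζ + 2 * (1 + 4 * a₆) = 0)
    (hD : Squarefree (-16 * a₂ ^ 2 * (a₂ * (1 + 4 * a₆) - a₄ ^ 2) -
      64 * a₄ ^ 3 - 27 * (1 + 4 * a₆) ^ 2 + 72 * a₂ * a₄ * (1 + 4 * a₆)))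
    {x y : ℚ} (h : y ^ 2 + y = x ^ 3 + a₂ * x ^ 2 + a₄ * x + a₆) :
    ∃ k : ℤ, v.valuation K ((x : K) - ζ / 2) = WithZero.exp (2 * k) := by
  have hint : IsIntegral ℤ ζ := by
    refine ⟨Polynomial.X ^ 3 + (Polynomial.C (2 * a₂) * Polynomial.X ^ 2 +
      Polynomial.C (4 * a₄) * Polynomial.X + Polynomial.C (2 * (1 + 4 * a₆))), ?_, ?_⟩
    · refine Polynomial.monic_X_pow_add ?_
      compute_degree
      norm_num
    · simp only [Polynomial.eval₂_add, Polynomial.eval₂_mul, Polynomial.eval₂_pow,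
        Polynomial.eval₂_X, Polynomial.eval₂_C]
      simp only [eq_intCast]
      push_cast
      linear_combination hζ
  have h1 : ∃ z : 𝓞 K, (z : K) = ζ := ⟨⟨ζ, hint⟩, rfl⟩
  obtain ⟨z, rfl⟩ := h1
  refine even_val v ?_ hD h
  apply RingOfIntegers.coe_injective
  rw [map_zero]
  simp only [map_add, map_mul, map_pow, map_ofNat, map_intCast, map_one]
  exact hζ

/-- `43a`: `y² + y = x³ + x²`. -/
theorem even43 {ζ : K} (hζ : ζ ^ 3 + 2 * ζ ^ 2 + 2 = 0) {x y : ℚ}
    (h : y ^ 2 + y = x ^ 3 + x ^ 2) :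
    ∃ k : ℤ, v.valuation K ((x : K) - ζ / 2) = WithZero.exp (2 * k) := by
  refine even_val_field v (a₂ := 1) (a₄ := 0) (a₆ := 0) ?_ ?_ (x := x) (y := y) ?_
  · push_cast
    linear_combination hζ
  · have h43 : Prime (43 : ℤ) := by norm_num
    have h := h43.neg.squarefree
    norm_num
    exact h
  · push_cast
    linear_combination h

/-- `37a`: `y² + y = x³ - x`. -/
theorem even37 {ζ : K} (hζ : ζ ^ 3 - 4 * ζ + 2 = 0) {x y : ℚ}
    (h : y ^ 2 + y = x ^ 3 - x) :
    ∃ k : ℤ, v.valuation K ((x : K) - ζ / 2) = WithZero.exp (2 * k) := by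
  refine even_val_field v (a₂ := 0) (a₄ := -1) (a₆ := 0) ?_ ?_ (x := x) (y := y) ?_
  · push_cast
    linear_combination hζ
  · have h37 : Prime (37 : ℤ) := by norm_num
    have h := h37.squarefree
    norm_num
  · push_cast
    linear_combination h

end Fermat.Agent.Cor.BSD.Ev
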