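import Fermat.Agent.Corollaries.MO.Cubic

/-!
# The cubic field of discriminant `-172` has class number one

`K` a cubic field with a power basis `1, ζ, ζ²`, `ζ³ + 2ζ² + 2 = 0`: `𝓞 K` is a principal ideal
domain (`isPrincipalIdealRing`), and `N(x - yζ) = x³ + 2x²y + 2y³` (`norm_lin`).

`abs_discr_le_disc`: for a root `θ` of an integral cubic polynomial `f`, the discriminant of the
cubic field `ℚ(θ)` is at most that of `f` (the first half of the proof is helper79's, `MO/Cubic`).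
-/

set_option autoImplicit false

open Polynomial NumberField Module

namespace Fermat.Agent.Cor.BSD.F43

theorem abs_discr_le_disc {K : Type*} [Field K] [NumberField K] (hrank : finrank ℚ K = 3) {θ : K}
    (B : Basis (Fin 3) ℚ K) (hB0 : B 0 = 1) (hB1 : B 1 = θ) (hB2 : B 2 = θ ^ 2) {a b c d : ℤ}
    (ha : a ≠ 0) (hF : (a : K) * θ ^ 3 + b * θ ^ 2 + c * θ + d = 0)
    (h0 : b ^ 2 * c ^ 2 - 4 * a * c ^ 3 - 4 * b ^ 3 * d - 27 * a ^ 2 * d ^ 2 +
      18 * a * b * c * d ≠ 0) :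
    |discr K| ≤ |b ^ 2 * c ^ 2 - 4 * a * c ^ 3 - 4 * b ^ 3 * d - 27 * a ^ 2 * d ^ 2 +
      18 * a * b * c * d| := by
  have haQ : (a : ℚ) ≠ 0 := by exact_mod_cast ha
  have haK : (a : K) ≠ 0 := by exact_mod_cast ha
  have hcube : θ ^ 3 = -((b / a : ℚ) • θ ^ 2 + (c / a : ℚ) • θ + (d / a : ℚ) • (1 : K)) := by
    simp only [Algebra.smul_def, map_div₀, map_intCast]
    field_simp
    linear_combination hF
  obtain ⟨ht1, ht2⟩ := MO.trace_cubic B hB0 hB1 hB2 hcube
  -- the algebraic integers `aθ` and `aθ² + bθ`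
  have hi1 : IsIntegral ℤ ((a : K) * θ) := by
    refine ⟨X ^ 3 + C b * X ^ 2 + C (a * c) * X + C (a ^ 2 * d), ?_, ?_⟩
    · monicity!
    · simp only [eval₂_add, eval₂_mul, eval₂_pow, eval₂_X, eval₂_C]
      simp only [eq_intCast, Int.cast_mul, Int.cast_pow]
      linear_combination (a : K) ^ 2 * hF
  have hi2 : IsIntegral ℤ ((a : K) * θ ^ 2 + b * θ) := by
    have h1 : IsIntegral ℤ ((a : K) * θ ^ 2 + b * θ + c) := by
      refine ⟨X ^ 3 + C (-c) * X ^ 2 + C (b * d) * X + C (-(a * d ^ 2)), ?_, ?_⟩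
      · monicity!
      · simp only [eval₂_add, eval₂_mul, eval₂_pow, eval₂_X, eval₂_C]
        simp only [eq_intCast, Int.cast_mul, Int.cast_pow, Int.cast_neg]
        linear_combination ((a : K) * ((a : K) * θ ^ 3 + b * θ ^ 2 + c * θ + d - 2 * d) +
          b * ((a : K) * θ ^ 2 + b * θ + c)) * hF
    have h2 : (a : K) * θ ^ 2 + b * θ = ((a : K) * θ ^ 2 + b * θ + c) - ((c : ℤ) : K) := by ring
    rw [h2]
    exact h1.sub (isIntegral_algebraMap (R := ℤ) (x := c))
  let w : Fin 3 → 𝓞 K := ![1, ⟨_, hi1⟩, ⟨_, hi2⟩]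
  -- the traces
  have T0 : Algebra.trace ℚ K 1 = 3 := by
    rw [← map_one (algebraMap ℚ K), Algebra.trace_algebraMap, hrank]
    norm_num
  have T1 : Algebra.trace ℚ K ((a : K) * θ) = -b := by
    have h1 : (a : K) * θ = (a : ℚ) • θ := by rw [Algebra.smul_def, map_intCast]
    rw [h1, map_smul, ht1, smul_eq_mul]
    field_simp
  have T2 : Algebra.trace ℚ K ((a : K) * θ ^ 2 + b * θ) = -2 * c := by
    have h1 : (a : K) * θ ^ 2 + b * θ = (a : ℚ) • θ ^ 2 + (b : ℚ) • θ := by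
      rw [Algebra.smul_def, Algebra.smul_def, map_intCast, map_intCast]
    rw [h1, map_add, map_smul, map_smul, ht1, ht2, smul_eq_mul, smul_eq_mul]
    field_simp
    ring
  have lin : ∀ x y z : ℤ, Algebra.trace ℚ K ((x : K) * 1 + y * ((a : K) * θ) +
      z * ((a : K) * θ ^ 2 + b * θ)) = x * 3 - y * b - z * (2 * c) := by
    intro x y z
    have h1 : (x : K) * 1 + y * ((a : K) * θ) + z * ((a : K) * θ ^ 2 + b * θ) =
        (x : ℚ) • (1 : K) + (y : ℚ) • ((a : K) * θ) + (z : ℚ) • ((a : K) * θ ^ 2 + b * θ) := by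
      rw [Algebra.smul_def, Algebra.smul_def, Algebra.smul_def, map_intCast, map_intCast,
        map_intCast]
    rw [h1, map_add, map_add, map_smul, map_smul, map_smul, T0, T1, T2, smul_eq_mul, smul_eq_mul,
      smul_eq_mul]
    ring
  have key : ∀ (i j : Fin 3) (x y z : ℤ), (w i : K) * (w j : K) =
      (x : K) * 1 + y * ((a : K) * θ) + z * ((a : K) * θ ^ 2 + b * θ) →
      Algebra.traceMatrix ℤ w i j = x * 3 - y * b - z * (2 * c) := by
    intro i j x y z h
    have h2 : ((w i * w j : 𝓞 K) : K) = (w i : K) * (w j : K) :=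
      map_mul (algebraMap (𝓞 K) K) _ _
    have h1 : ((Algebra.traceMatrix ℤ w i j : ℤ) : ℚ) = x * 3 - y * b - z * (2 * c) := by
      rw [Algebra.traceMatrix_apply, Algebra.traceForm_apply, Algebra.coe_trace_int]
      exact (congrArg (Algebra.trace ℚ K) (h2.trans h)).trans (lin x y z)
    exact_mod_cast h1
  have w0 : ((w 0 : 𝓞 K) : K) = 1 := rfl
  have w1 : ((w 1 : 𝓞 K) : K) = (a : K) * θ := rfl
  have w2 : ((w 2 : 𝓞 K) : K) = (a : K) * θ ^ 2 + b * θ := rfl
  have m00 := key 0 0 1 0 0 (by rw [w0]; push_cast; ring)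
  have m01 := key 0 1 0 1 0 (by rw [w0, w1]; push_cast; ring)
  have m02 := key 0 2 0 0 1 (by rw [w0, w2]; push_cast; ring)
  have m10 := key 1 0 0 1 0 (by rw [w0, w1]; push_cast; ring)
  have m11 := key 1 1 0 (-b) a (by rw [w1]; push_cast; ring)
  have m12 := key 1 2 (-(a * d)) (-c) 0 (by
    rw [w1, w2]; push_cast; linear_combination (a : K) * hF)
  have m20 := key 2 0 0 0 1 (by rw [w0, w2]; push_cast; ring)
  have m21 := key 2 1 (-(a * d)) (-c) 0 (by
    rw [w1, w2]; push_cast; linear_combination (a : K) * hF)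
  have m22 := key 2 2 (-(b * d)) (-d) (-c) (by
    rw [w2]; push_cast; linear_combination ((a : K) * θ + b) * hF)
  have hdisc : Algebra.discr ℤ w = b ^ 2 * c ^ 2 - 4 * a * c ^ 3 - 4 * b ^ 3 * d -
      27 * a ^ 2 * d ^ 2 + 18 * a * b * c * d := by
    rw [Algebra.discr_def, Matrix.det_fin_three, m00, m01, m02, m10, m11, m12, m20, m21, m22]
    ring
  rw [← hdisc] at h0 ⊢
  exact MO.abs_discr_le hrank w h0

section field

variable {K : Type*} [Field K] [NumberField K] {ζ : K}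

theorem norm_lin (B : Basis (Fin 3) ℚ K) (hB0 : B 0 = 1) (hB1 : B 1 = ζ) (hB2 : B 2 = ζ ^ 2)
    (hζ : ζ ^ 3 + 2 * ζ ^ 2 + 2 = 0) (x y : ℚ) :
    Algebra.norm ℚ (algebraMap ℚ K x - algebraMap ℚ K y * ζ) = x ^ 3 + 2 * x ^ 2 * y + 2 * y ^ 3 := by
  have a0 : (algebraMap ℚ K x - algebraMap ℚ K y * ζ) * B 0 = x • B 0 + (-y) • B 1 := by
    rw [hB0, hB1, Algebra.smul_def, Algebra.smul_def, map_neg]; ring
  have a1 : (algebraMap ℚ K x - algebraMap ℚ K y * ζ) * B 1 = x • B 1 + (-y) • B 2 := by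
    rw [hB1, hB2, Algebra.smul_def, Algebra.smul_def, map_neg]; ring
  have a2 : (algebraMap ℚ K x - algebraMap ℚ K y * ζ) * B 2 =
      (x + 2 * y) • B 2 + (2 * y) • B 0 := by
    rw [hB0, hB2, Algebra.smul_def, Algebra.smul_def, map_add, map_mul, map_ofNat]
    linear_combination (-algebraMap ℚ K y) * hζ
  rw [Algebra.norm_eq_matrix_det B, Matrix.det_fin_three]
  simp only [Algebra.leftMulMatrix_eq_repr_mul, a0, a1, a2]
  simp
  ring

theorem norm_lin_int (B : Basis (Fin 3) ℚ K) (hB0 : B 0 = 1) (hB1 : B 1 = ζ) (hB2 : B 2 = ζ ^ 2)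
    (hζ : ζ ^ 3 + 2 * ζ ^ 2 + 2 = 0) {z : 𝓞 K} (hz : (z : K) = ζ) (x y : ℤ) :
    Algebra.norm ℤ ((x : 𝓞 K) - (y : 𝓞 K) * z) = x ^ 3 + 2 * x ^ 2 * y + 2 * y ^ 3 := by
  have h := norm_lin B hB0 hB1 hB2 hζ x y
  have h1 : algebraMap (𝓞 K) K ((x : 𝓞 K) - (y : 𝓞 K) * z) =
      algebraMap ℚ K x - algebraMap ℚ K y * ζ := by
    rw [map_sub, map_mul, map_intCast, map_intCast, map_intCast, map_intCast, ← hz]
  have h2 := Algebra.coe_norm_int ((x : 𝓞 K) - (y : 𝓞 K) * z)
  rw [← h1] at h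
  have h3 := h2.trans h
  exact_mod_cast h3

theorem isPrincipalIdealRing (hrank : finrank ℚ K = 3) (B : Basis (Fin 3) ℚ K) (hB0 : B 0 = 1)
    (hB1 : B 1 = ζ) (hB2 : B 2 = ζ ^ 2) (hζ : ζ ^ 3 + 2 * ζ ^ 2 + 2 = 0) :
    IsPrincipalIdealRing (𝓞 K) := by
  have hint : IsIntegral ℤ ζ := by
    refine ⟨X ^ 3 + C 2 * X ^ 2 + C 2, ?_, ?_⟩
    · monicity!
    · simp only [eval₂_add, eval₂_mul, eval₂_pow, eval₂_X, eval₂_C]
      simpa using hζ
  obtain ⟨z, hz⟩ : ∃ z : 𝓞 K, (z : K) = ζ := ⟨⟨ζ, hint⟩, rfl⟩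
  have hz3 : z ^ 3 + 2 * z ^ 2 + 2 = 0 := by
    have h : algebraMap (𝓞 K) K (z ^ 3 + 2 * z ^ 2 + 2) = 0 := by
      have hz' : algebraMap (𝓞 K) K z = ζ := hz
      rw [map_add, map_add, map_mul, map_pow, map_pow, map_ofNat, hz', hζ]
    exact (map_eq_zero_iff _ RingOfIntegers.coe_injective).mp h
  have hdisc : |discr K| ≤ 172 := by
    have h := abs_discr_le_disc hrank B hB0 hB1 hB2 (a := 1) (b := 2) (c := 0) (d := 2) (by norm_num)
      (by push_cast; linear_combination hζ) (by norm_num)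
    norm_num at h
    exact h
  have hN : ∀ x y : ℤ, Ideal.absNorm (Ideal.span {(x : 𝓞 K) - (y : 𝓞 K) * z}) =
      (x ^ 3 + 2 * x ^ 2 * y + 2 * y ^ 3).natAbs := by
    intro x y
    rw [Ideal.absNorm_span_singleton, norm_lin_int B hB0 hB1 hB2 hζ hz]
  apply RingOfIntegers.isPrincipalIdealRing_of_isPrincipal_of_norm_le_of_isPrime
  rintro ⟨P, hP0⟩ hP hn
  simp only at hP hn ⊢
  have hP0' : P ≠ ⊥ := nonZeroDivisors.ne_zero hP0
  -- the norm is less than four
  have hlt : Ideal.absNorm P < 4 := by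
    have hr : InfinitePlace.nrComplexPlaces K ≤ 1 := by
      have := InfinitePlace.card_add_two_mul_card_eq_rank K
      omega
    have h1 : (4 / Real.pi) ^ InfinitePlace.nrComplexPlaces K ≤ 4 / 3.14 := by
      have hpi := Real.pi_gt_d2
      have hpi4 := Real.pi_lt_four
      have h4 : 1 ≤ 4 / Real.pi := by
        rw [le_div_iff₀ (by linarith)]
        linarith
      calc (4 / Real.pi) ^ InfinitePlace.nrComplexPlaces K ≤ (4 / Real.pi) ^ 1 :=
            pow_le_pow_right₀ h4 hr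
        _ ≤ 4 / 3.14 := by
            rw [pow_one]
            exact div_le_div_of_nonneg_left (by norm_num) (by norm_num) hpi.le
    have h2 : √(|discr K| : ℝ) ≤ 13.12 := by
      rw [Real.sqrt_le_left (by norm_num)]
      have : ((|discr K| : ℤ) : ℝ) ≤ 172 := by exact_mod_cast hdisc
      push_cast at this
      refine this.trans (by norm_num)
    have h3 : (Ideal.absNorm P : ℝ) < 4 := by
      refine lt_of_le_of_lt hn ?_
      rw [hrank]
      have h5 : (0 : ℝ) ≤ √(|discr K| : ℝ) := Real.sqrt_nonneg _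
      calc (4 / Real.pi) ^ InfinitePlace.nrComplexPlaces K *
            (((Nat.factorial 3 : ℕ) : ℝ) / ((3 : ℕ) : ℝ) ^ 3 * √(|discr K| : ℝ))
          ≤ 4 / 3.14 * (((Nat.factorial 3 : ℕ) : ℝ) / ((3 : ℕ) : ℝ) ^ 3 * 13.12) := by
            gcongr
        _ < 4 := by
            norm_num [Nat.factorial]
    exact_mod_cast h3
  have hne0 : Ideal.absNorm P ≠ 0 := by
    rw [Ne, Ideal.absNorm_eq_zero_iff]
    exact hP0'
  have hne1 : Ideal.absNorm P ≠ 1 := by
    rw [Ne, Ideal.absNorm_eq_one_iff]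
    exact hP.ne_top
  -- an element of `P` whose norm is that of `P` generates it
  have hgen : ∀ w : 𝓞 K, w ∈ P → Ideal.absNorm (Ideal.span {w}) = Ideal.absNorm P →
      Submodule.IsPrincipal P := by
    intro w hw hnw
    obtain ⟨J, hJ⟩ := Ideal.dvd_iff_le.mpr ((Ideal.span_singleton_le_iff_mem P).mpr hw)
    have h1 : Ideal.absNorm P * Ideal.absNorm J = Ideal.absNorm P * 1 := by
      rw [← map_mul, ← hJ, hnw, mul_one]
    have h2 := Nat.eq_of_mul_eq_mul_left (Nat.pos_of_ne_zero hne0) h1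
    rw [Ideal.absNorm_eq_one_iff] at h2
    rw [h2, Ideal.mul_top] at hJ
    exact ⟨w, hJ.symm⟩
  have hmem := Ideal.absNorm_mem P
  have h23 : Ideal.absNorm P = 2 ∨ Ideal.absNorm P = 3 := by omega
  rcases h23 with h2 | h3
  · rw [h2] at hmem
    have hzP : z ∈ P := by
      apply hP.mem_of_pow_mem 3
      have : z ^ 3 = (-(z ^ 2 + 1)) * ((2 : ℕ) : 𝓞 K) := by
        push_cast
        linear_combination hz3
      rw [this]
      exact P.mul_mem_left _ hmem
    refine hgen (0 - (-1) * z) (by simpa using hzP) ?_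
    have := hN 0 (-1)
    norm_num at this
    rw [h2]
    norm_num
    exact this
  · rw [h3] at hmem
    have hmax : P.IsMaximal := hP.isMaximal hP0'
    let : Field (𝓞 K ⧸ P) := Ideal.Quotient.field P
    have hcard : Nat.card (𝓞 K ⧸ P) = 3 := by
      rw [← h3, Ideal.absNorm_apply, Submodule.cardQuot_apply]
    have : Finite (𝓞 K ⧸ P) := Nat.finite_of_card_ne_zero (by omega)
    let : Fintype (𝓞 K ⧸ P) := Fintype.ofFinite _
    have hpow : (Ideal.Quotient.mk P z) ^ 3 = Ideal.Quotient.mk P z := by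
      have := FiniteField.pow_card (Ideal.Quotient.mk P z)
      rwa [← Nat.card_eq_fintype_card, hcard] at this
    have hmem2 : z ^ 3 - z ∈ P := by
      rw [← Ideal.Quotient.eq_zero_iff_mem, map_sub, map_pow, hpow, sub_self]
    have hz1 : z + 1 ∈ P := by
      apply hP.mem_of_pow_mem 2
      have : (z + 1) ^ 2 = (z ^ 3 - z) + (z ^ 2 + z + 1) * ((3 : ℕ) : 𝓞 K) := by
        push_cast
        linear_combination (-1 : 𝓞 K) * hz3
      rw [this]
      exact P.add_mem hmem2 (P.mul_mem_left _ hmem)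
    refine hgen (1 - (-1) * z) (by simpa [add_comm] using hz1) ?_
    have := hN 1 (-1)
    norm_num at this
    rw [h3]
    norm_num
    exact this

end field

/-- The field `ℚ(ζ)`, `ζ³ + 2ζ² + 2 = 0`. -/
theorem exists_field : ∃ (K : Type) (_ : Field K) (_ : NumberField K) (ζ : K)
    (B : Basis (Fin 3) ℚ K), finrank ℚ K = 3 ∧ B 0 = 1 ∧ B 1 = ζ ∧ B 2 = ζ ^ 2 ∧
      ζ ^ 3 + 2 * ζ ^ 2 + 2 = 0 := by
  obtain ⟨f, hf⟩ : ∃ f : ℚ[X], f = C (1 : ℚ) * X ^ 3 + C (2 : ℚ) * X ^ 2 + C (0 : ℚ) * X +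
    C (2 : ℚ) := ⟨_, rfl⟩
  have hdeg : f.natDegree = 3 := by rw [hf]; exact natDegree_cubic one_ne_zero
  have hfne : f ≠ 0 := by
    intro h
    rw [h, natDegree_zero] at hdeg
    omega
  have hev : ∀ {R : Type} [CommRing R] (φ : ℚ →+* R) (θ : R),
      f.eval₂ φ θ = θ ^ 3 + 2 * θ ^ 2 + 2 := by
    intro R _ φ θ
    rw [hf]
    have e2 : φ 2 = 2 := map_ofNat φ 2
    simp only [eval₂_add, eval₂_mul, eval₂_pow, eval₂_X, eval₂_C]
    rw [e2, map_one, map_zero]
    ring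
  have hirr : Irreducible f := by
    rw [irreducible_iff_roots_eq_zero_of_degree_le_three (by omega) (by omega),
      Multiset.eq_zero_iff_forall_notMem]
    intro x hx
    rw [mem_roots hfne, IsRoot.def] at hx
    have h1 : x ^ 3 + 2 * x ^ 2 + 2 = 0 := by
      rw [hf] at hx
      simpa using hx
    -- no rational root
    have hn : x.num ^ 3 + 2 * x.num ^ 2 * x.den + 2 * (x.den : ℤ) ^ 3 = 0 := by
      have hd : (x.den : ℚ) ≠ 0 := by exact_mod_cast x.den_nz
      have h2 : (x.num : ℚ) = x * x.den := by rw [Rat.mul_den_eq_num]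
      have h3 : (x.num : ℚ) ^ 3 + 2 * x.num ^ 2 * x.den + 2 * (x.den : ℚ) ^ 3 = 0 := by
        rw [h2]
        linear_combination (x.den : ℚ) ^ 3 * h1
      exact_mod_cast h3
    have e1 : (2 : ℤ) ∣ x.num := by
      apply Int.prime_two.dvd_of_dvd_pow (n := 3)
      exact ⟨-(x.num ^ 2 * x.den + (x.den : ℤ) ^ 3), by linear_combination hn⟩
    obtain ⟨k, hk⟩ := e1
    have e2 : (2 : ℤ) ∣ x.den := by
      apply Int.prime_two.dvd_of_dvd_pow (n := 3)
      refine ⟨-(2 * k ^ 3 + 2 * k ^ 2 * x.den), ?_⟩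
      rw [hk] at hn
      have : 2 * ((x.den : ℤ) ^ 3 + 2 * (2 * k ^ 3 + 2 * k ^ 2 * x.den)) = 0 := by
        linear_combination hn
      have h4 : (x.den : ℤ) ^ 3 + 2 * (2 * k ^ 3 + 2 * k ^ 2 * x.den) = 0 := by omega
      linear_combination h4
    have hc := x.reduced
    have e3 : 2 ∣ x.num.natAbs := by omega
    have e4 : 2 ∣ x.den := by omega
    have := Nat.dvd_gcd e3 e4
    rw [hc] at this
    omega
  have : Fact (Irreducible f) := ⟨hirr⟩
  have hdim : (AdjoinRoot.powerBasis hfne).dim = 3 := by rw [AdjoinRoot.powerBasis_dim, hdeg]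
  have hfin : Module.Finite ℚ (AdjoinRoot f) := (AdjoinRoot.powerBasis hfne).finite
  have hchar : CharZero (AdjoinRoot f) := algebraRat.charZero _
  have hNF : NumberField (AdjoinRoot f) := ⟨⟩
  have hrank : finrank ℚ (AdjoinRoot f) = 3 := by
    rw [(AdjoinRoot.powerBasis hfne).finrank, hdim]
  have hF : AdjoinRoot.root f ^ 3 + 2 * AdjoinRoot.root f ^ 2 + 2 = 0 := by
    have h : f.eval₂ (AdjoinRoot.of f) (AdjoinRoot.root f) = 0 := AdjoinRoot.eval₂_root f
    rw [← hev (AdjoinRoot.of f) (AdjoinRoot.root f), h]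
  have hB : ∀ i : Fin 3, ((AdjoinRoot.powerBasis hfne).basis.reindex (finCongr hdim)) i =
      AdjoinRoot.root f ^ (i : ℕ) := by
    intro i
    rw [Basis.reindex_apply, PowerBasis.basis_eq_pow, AdjoinRoot.powerBasis_gen]
    rfl
  exact ⟨AdjoinRoot f, inferInstance, hNF, AdjoinRoot.root f,
    (AdjoinRoot.powerBasis hfne).basis.reindex (finCongr hdim), hrank, by rw [hB]; simp,
    by rw [hB]; simp, by rw [hB]; simp, hF⟩

end Fermat.Agent.Cor.BSD.F43
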