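import Fermat.Agent.Corollaries.BSD.Field43

/-!
# The cubic field of discriminant `-364` has class number one

`K` a cubic field with a power basis `1, ζ, ζ²`, `ζ³ + 4ζ + 2 = 0`: `𝓞 K` is a principal ideal
domain (`isPrincipalIdealRing`), and `N(x - yζ) = x³ + 4xy² + 2y³` (`norm_lin`). It is the field of
the points of order two of the curve `y² + y = x³ + x` of conductor `91`.
-/

set_option autoImplicit false

open Polynomial NumberField Module

namespace Fermat.Agent.Cor.BSD.F91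

section field

variable {K : Type*} [Field K] [NumberField K] {ζ : K}

theorem norm_lin (B : Basis (Fin 3) ℚ K) (hB0 : B 0 = 1) (hB1 : B 1 = ζ) (hB2 : B 2 = ζ ^ 2)
    (hζ : ζ ^ 3 + 4 * ζ + 2 = 0) (x y : ℚ) :
    Algebra.norm ℚ (algebraMap ℚ K x - algebraMap ℚ K y * ζ) = x ^ 3 + 4 * x * y ^ 2 + 2 * y ^ 3 := by
  have a0 : (algebraMap ℚ K x - algebraMap ℚ K y * ζ) * B 0 = x • B 0 + (-y) • B 1 := by
    rw [hB0, hB1, Algebra.smul_def, Algebra.smul_def, map_neg]; ring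
  have a1 : (algebraMap ℚ K x - algebraMap ℚ K y * ζ) * B 1 = x • B 1 + (-y) • B 2 := by
    rw [hB1, hB2, Algebra.smul_def, Algebra.smul_def, map_neg]; ring
  have a2 : (algebraMap ℚ K x - algebraMap ℚ K y * ζ) * B 2 =
      x • B 2 + (4 * y) • B 1 + (2 * y) • B 0 := by
    rw [hB0, hB1, hB2, Algebra.smul_def, Algebra.smul_def, Algebra.smul_def, map_mul, map_mul,
      map_ofNat, map_ofNat]
    linear_combination (-algebraMap ℚ K y) * hζ
  rw [Algebra.norm_eq_matrix_det B, Matrix.det_fin_three]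
  simp only [Algebra.leftMulMatrix_eq_repr_mul, a0, a1, a2]
  simp
  ring

theorem norm_lin_int (B : Basis (Fin 3) ℚ K) (hB0 : B 0 = 1) (hB1 : B 1 = ζ) (hB2 : B 2 = ζ ^ 2)
    (hζ : ζ ^ 3 + 4 * ζ + 2 = 0) {z : 𝓞 K} (hz : (z : K) = ζ) (x y : ℤ) :
    Algebra.norm ℤ ((x : 𝓞 K) - (y : 𝓞 K) * z) = x ^ 3 + 4 * x * y ^ 2 + 2 * y ^ 3 := by
  have h := norm_lin B hB0 hB1 hB2 hζ x y
  have h1 : algebraMap (𝓞 K) K ((x : 𝓞 K) - (y : 𝓞 K) * z) =
      algebraMap ℚ K x - algebraMap ℚ K y * ζ := by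
    rw [map_sub, map_mul, map_intCast, map_intCast, map_intCast, map_intCast, ← hz]
  have h2 := Algebra.coe_norm_int ((x : 𝓞 K) - (y : 𝓞 K) * z)
  rw [← h1] at h
  have h3 := h2.trans h
  exact_mod_cast h3

theorem isPrincipalIdealRing (hrank : finrank ℚ K = 3) (B : Basis (Fin 3) ℚ K) (hB0 : B 0 = 1)
    (hB1 : B 1 = ζ) (hB2 : B 2 = ζ ^ 2) (hζ : ζ ^ 3 + 4 * ζ + 2 = 0) :
    IsPrincipalIdealRing (𝓞 K) := by
  have hint : IsIntegral ℤ ζ := by
    refine ⟨X ^ 3 + C 4 * X + C 2, ?_, ?_⟩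
    · monicity!
    · simp only [eval₂_add, eval₂_mul, eval₂_pow, eval₂_X, eval₂_C]
      simpa using hζ
  obtain ⟨z, hz⟩ : ∃ z : 𝓞 K, (z : K) = ζ := ⟨⟨ζ, hint⟩, rfl⟩
  have hz3 : z ^ 3 + 4 * z + 2 = 0 := by
    have h : algebraMap (𝓞 K) K (z ^ 3 + 4 * z + 2) = 0 := by
      have hz' : algebraMap (𝓞 K) K z = ζ := hz
      rw [map_add, map_add, map_mul, map_pow, map_ofNat, map_ofNat, hz', hζ]
    exact (map_eq_zero_iff _ RingOfIntegers.coe_injective).mp h
  have hdisc : |discr K| ≤ 364 := by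
    have h := F43.abs_discr_le_disc hrank B hB0 hB1 hB2 (a := 1) (b := 0) (c := 4) (d := 2)
      (by norm_num) (by push_cast; linear_combination hζ) (by norm_num)
    norm_num at h
    exact h
  have hN : ∀ x y : ℤ, Ideal.absNorm (Ideal.span {(x : 𝓞 K) - (y : 𝓞 K) * z}) =
      (x ^ 3 + 4 * x * y ^ 2 + 2 * y ^ 3).natAbs := by
    intro x y
    rw [Ideal.absNorm_span_singleton, norm_lin_int B hB0 hB1 hB2 hζ hz]
  apply RingOfIntegers.isPrincipalIdealRing_of_isPrincipal_of_norm_le_of_isPrime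
  rintro ⟨P, hP0⟩ hP hn
  simp only at hP hn ⊢
  have hP0' : P ≠ ⊥ := nonZeroDivisors.ne_zero hP0
  -- the norm is less than six
  have hlt : Ideal.absNorm P < 6 := by
    have hr : InfinitePlace.nrComplexPlaces K ≤ 1 := by
      have := InfinitePlace.card_add_two_mul_card_eq_rank K
      omega
    have h1 : (4 / Real.pi) ^ InfinitePlace.nrComplexPlaces K ≤ 4 / 3.14 := by
      have hpi := Real.pi_gt_d2
      have hpi4 := Real.pi_lt_four
      have h4 : 1 ≤ 4 / Real.pi := by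
        rw [le_div_iff₀ (by linarith)]
        linarith
      calc (4 / Real.pi) ^ InfinitePlace.nrComplexPlaces K ≤ (4 / Real.pi) ^ 1 :=
            pow_le_pow_right₀ h4 hr
        _ ≤ 4 / 3.14 := by
            rw [pow_one]
            exact div_le_div_of_nonneg_left (by norm_num) (by norm_num) hpi.le
    have h2 : √(|discr K| : ℝ) ≤ 19.08 := by
      rw [Real.sqrt_le_left (by norm_num)]
      have : ((|discr K| : ℤ) : ℝ) ≤ 364 := by exact_mod_cast hdisc
      push_cast at this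
      refine this.trans (by norm_num)
    have h3 : (Ideal.absNorm P : ℝ) < 6 := by
      refine lt_of_le_of_lt hn ?_
      rw [hrank]
      have h5 : (0 : ℝ) ≤ √(|discr K| : ℝ) := Real.sqrt_nonneg _
      calc (4 / Real.pi) ^ InfinitePlace.nrComplexPlaces K *
            (((Nat.factorial 3 : ℕ) : ℝ) / ((3 : ℕ) : ℝ) ^ 3 * √(|discr K| : ℝ))
          ≤ 4 / 3.14 * (((Nat.factorial 3 : ℕ) : ℝ) / ((3 : ℕ) : ℝ) ^ 3 * 19.08) := by
            gcongr
        _ < 6 := by
            norm_num [Nat.factorial]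
    exact_mod_cast h3
  have hne0 : Ideal.absNorm P ≠ 0 := by
    rw [Ne, Ideal.absNorm_eq_zero_iff]
    exact hP0'
  have hne1 : Ideal.absNorm P ≠ 1 := by
    rw [Ne, Ideal.absNorm_eq_one_iff]
    exact hP.ne_top
  -- an element of `P` whose norm is that of `P` generates it
  have hgen : ∀ w : 𝓞 K, w ∈ P → Ideal.absNorm (Ideal.span {w}) = Ideal.absNorm P →
      Submodule.IsPrincipal P := by
    intro w hw hnw
    obtain ⟨J, hJ⟩ := Ideal.dvd_iff_le.mpr ((Ideal.span_singleton_le_iff_mem P).mpr hw)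
    have h1 : Ideal.absNorm P * Ideal.absNorm J = Ideal.absNorm P * 1 := by
      rw [← map_mul, ← hJ, hnw, mul_one]
    have h2 := Nat.eq_of_mul_eq_mul_left (Nat.pos_of_ne_zero hne0) h1
    rw [Ideal.absNorm_eq_one_iff] at h2
    rw [h2, Ideal.mul_top] at hJ
    exact ⟨w, hJ.symm⟩
  have hmem := Ideal.absNorm_mem P
  have hmax : P.IsMaximal := hP.isMaximal hP0'
  -- the norm of `ζ` is two
  have hNz : Ideal.absNorm (Ideal.span {(0 : 𝓞 K) - (-1) * z}) = 2 := by
    have := hN 0 (-1)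
    norm_num at this ⊢
    exact this
  have hz2 : ((2 : ℕ) : 𝓞 K) ∈ P → (0 : 𝓞 K) - (-1) * z ∈ P := by
    intro h2
    have hzP : z ∈ P := by
      apply hP.mem_of_pow_mem 3
      have : z ^ 3 = (-(2 * z + 1)) * ((2 : ℕ) : 𝓞 K) := by
        push_cast
        linear_combination hz3
      rw [this]
      exact P.mul_mem_left _ h2
    simpa using hzP
  -- the values of a polynomial function modulo `P`
  have hpow : ∀ p : ℕ, Ideal.absNorm P = p → z ^ p - z ∈ P := by
    intro p hp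
    let : Field (𝓞 K ⧸ P) := Ideal.Quotient.field P
    have hcard : Nat.card (𝓞 K ⧸ P) = p := by
      rw [← hp, Ideal.absNorm_apply, Submodule.cardQuot_apply]
    have : Finite (𝓞 K ⧸ P) := Nat.finite_of_card_ne_zero (by omega)
    let : Fintype (𝓞 K ⧸ P) := Fintype.ofFinite _
    have hpow : (Ideal.Quotient.mk P z) ^ p = Ideal.Quotient.mk P z := by
      have := FiniteField.pow_card (Ideal.Quotient.mk P z)
      rwa [← Nat.card_eq_fintype_card, hcard] at this
    rw [← Ideal.Quotient.eq_zero_iff_mem, map_sub, map_pow, hpow, sub_self]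
  have h2345 : Ideal.absNorm P = 2 ∨ Ideal.absNorm P = 3 ∨ Ideal.absNorm P = 4 ∨
      Ideal.absNorm P = 5 := by omega
  rcases h2345 with h | h | h | h
  · rw [h] at hmem
    exact hgen _ (hz2 hmem) (by rw [h, hNz])
  · have hmem2 := hpow 3 h
    rw [h] at hmem
    have hz1 : z + 1 ∈ P := by
      have h1 : z + 1 = (z ^ 3 - z) + (2 * z + 1) * ((3 : ℕ) : 𝓞 K) := by
        push_cast
        linear_combination (-1 : 𝓞 K) * hz3
      rw [h1]
      exact P.add_mem hmem2 (P.mul_mem_left _ hmem)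
    refine hgen (1 - (-1) * z) (by simpa [add_comm] using hz1) ?_
    have := hN 1 (-1)
    norm_num at this
    rw [h]
    norm_num
    exact this
  · exfalso
    rw [h] at hmem
    have h2 : ((2 : ℕ) : 𝓞 K) ∈ P := by
      apply hP.mem_of_pow_mem 2
      have : ((2 : ℕ) : 𝓞 K) ^ 2 = ((4 : ℕ) : 𝓞 K) := by norm_num
      rw [this]
      exact hmem
    have h3 : Ideal.absNorm P ∣ Ideal.absNorm (Ideal.span {(0 : 𝓞 K) - (-1) * z}) :=
      Ideal.absNorm_dvd_absNorm_of_le ((Ideal.span_singleton_le_iff_mem P).mpr (hz2 h2))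
    rw [h, hNz] at h3
    norm_num at h3
  · exfalso
    have hmem2 := hpow 5 h
    rw [h] at hmem
    -- `1` is a combination of `ζ⁵ - ζ`, `ζ³ + 4ζ + 2` and `5`
    apply hP.ne_top
    rw [Ideal.eq_top_iff_one]
    have h1 : (1 : 𝓞 K) = (1 + 2 * z + 2 * z ^ 2) * (z ^ 5 - z) +
        (-(12 * z ^ 2 - 13 * z - 9)) * ((5 : ℕ) : 𝓞 K) := by
      push_cast
      linear_combination (-(2 * z ^ 4 + 2 * z ^ 3 - 7 * z ^ 2 - 12 * z + 22)) * hz3
    rw [h1]
    exact P.add_mem (P.mul_mem_left _ hmem2) (P.mul_mem_left _ hmem)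

end field

/-- The field `ℚ(ζ)`, `ζ³ + 4ζ + 2 = 0`. -/
theorem exists_field : ∃ (K : Type) (_ : Field K) (_ : NumberField K) (ζ : K)
    (B : Basis (Fin 3) ℚ K), finrank ℚ K = 3 ∧ B 0 = 1 ∧ B 1 = ζ ∧ B 2 = ζ ^ 2 ∧
      ζ ^ 3 + 4 * ζ + 2 = 0 := by
  obtain ⟨f, hf⟩ : ∃ f : ℚ[X], f = C (1 : ℚ) * X ^ 3 + C (0 : ℚ) * X ^ 2 + C (4 : ℚ) * X +
    C (2 : ℚ) := ⟨_, rfl⟩
  have hdeg : f.natDegree = 3 := by rw [hf]; exact natDegree_cubic one_ne_zero
  have hfne : f ≠ 0 := by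
    intro h
    rw [h, natDegree_zero] at hdeg
    omega
  have hev : ∀ {R : Type} [CommRing R] (φ : ℚ →+* R) (θ : R),
      f.eval₂ φ θ = θ ^ 3 + 4 * θ + 2 := by
    intro R _ φ θ
    rw [hf]
    have e2 : φ 2 = 2 := map_ofNat φ 2
    have e4 : φ 4 = 4 := map_ofNat φ 4
    simp only [eval₂_add, eval₂_mul, eval₂_pow, eval₂_X, eval₂_C]
    rw [e2, e4, map_one, map_zero]
    ring
  have hirr : Irreducible f := by
    rw [irreducible_iff_roots_eq_zero_of_degree_le_three (by omega) (by omega),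
      Multiset.eq_zero_iff_forall_notMem]
    intro x hx
    rw [mem_roots hfne, IsRoot.def] at hx
    have h1 : x ^ 3 + 4 * x + 2 = 0 := by
      rw [hf] at hx
      simpa using hx
    -- no rational root
    have hn : x.num ^ 3 + 4 * x.num * (x.den : ℤ) ^ 2 + 2 * (x.den : ℤ) ^ 3 = 0 := by
      have hd : (x.den : ℚ) ≠ 0 := by exact_mod_cast x.den_nz
      have h2 : (x.num : ℚ) = x * x.den := by rw [Rat.mul_den_eq_num]
      have h3 : (x.num : ℚ) ^ 3 + 4 * x.num * (x.den : ℚ) ^ 2 + 2 * (x.den : ℚ) ^ 3 = 0 := by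
        rw [h2]
        linear_combination (x.den : ℚ) ^ 3 * h1
      exact_mod_cast h3
    have e1 : (2 : ℤ) ∣ x.num := by
      apply Int.prime_two.dvd_of_dvd_pow (n := 3)
      exact ⟨-(2 * x.num * (x.den : ℤ) ^ 2 + (x.den : ℤ) ^ 3), by linear_combination hn⟩
    obtain ⟨k, hk⟩ := e1
    have e2 : (2 : ℤ) ∣ x.den := by
      apply Int.prime_two.dvd_of_dvd_pow (n := 3)
      refine ⟨-(2 * k ^ 3 + 2 * k * (x.den : ℤ) ^ 2), ?_⟩
      rw [hk] at hn
      have : 2 * ((x.den : ℤ) ^ 3 + 2 * (2 * k ^ 3 + 2 * k * (x.den : ℤ) ^ 2)) = 0 := by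
        linear_combination hn
      have h4 : (x.den : ℤ) ^ 3 + 2 * (2 * k ^ 3 + 2 * k * (x.den : ℤ) ^ 2) = 0 := by omega
      linear_combination h4
    have hc := x.reduced
    have e3 : 2 ∣ x.num.natAbs := by omega
    have e4 : 2 ∣ x.den := by omega
    have := Nat.dvd_gcd e3 e4
    rw [hc] at this
    omega
  have : Fact (Irreducible f) := ⟨hirr⟩
  have hdim : (AdjoinRoot.powerBasis hfne).dim = 3 := by rw [AdjoinRoot.powerBasis_dim, hdeg]
  have hfin : Module.Finite ℚ (AdjoinRoot f) := (AdjoinRoot.powerBasis hfne).finite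
  have hchar : CharZero (AdjoinRoot f) := algebraRat.charZero _
  have hNF : NumberField (AdjoinRoot f) := ⟨⟩
  have hrank : finrank ℚ (AdjoinRoot f) = 3 := by
    rw [(AdjoinRoot.powerBasis hfne).finrank, hdim]
  have hF : AdjoinRoot.root f ^ 3 + 4 * AdjoinRoot.root f + 2 = 0 := by
    have h : f.eval₂ (AdjoinRoot.of f) (AdjoinRoot.root f) = 0 := AdjoinRoot.eval₂_root f
    rw [← hev (AdjoinRoot.of f) (AdjoinRoot.root f), h]
  have hB : ∀ i : Fin 3, ((AdjoinRoot.powerBasis hfne).basis.reindex (finCongr hdim)) i =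
      AdjoinRoot.root f ^ (i : ℕ) := by
    intro i
    rw [Basis.reindex_apply, PowerBasis.basis_eq_pow, AdjoinRoot.powerBasis_gen]
    rfl
  exact ⟨AdjoinRoot f, inferInstance, hNF, AdjoinRoot.root f,
    (AdjoinRoot.powerBasis hfne).basis.reindex (finCongr hdim), hrank, by rw [hB]; simp,
    by rw [hB]; simp, by rw [hB]; simp, hF⟩

end Fermat.Agent.Cor.BSD.F91
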