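import Fermat.Agent.Corollaries.BSD.Analytic
import Fermat.Agent.Corollaries.K4.Small.Desc15

/-!
# The rank part of the conjecture of Birch and Swinnerton-Dyer for the modular curve `X₁(15)`

`E : y² + xy + y = x³ + x²`, the elliptic curve of conductor `15` and discriminant `-15`. Its group
of rational points is cyclic of order `4`, generated by `(0, 0)`; in particular the rank is `0`,
the order of vanishing of its `L`-function at `s = 1`.
-/

set_option autoImplicit false

noncomputable section

namespace Fermat.Agent.Cor.BSD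

open Fermat.Agent.Cor.HW WeierstrassCurve

/-- The rational solutions of `y² + xy + y = x³ + x²`. -/
theorem solutions_X15 {x y : ℚ} (h : y ^ 2 + x * y + y = x ^ 3 + x ^ 2) :
    (x = 0 ∧ y = 0) ∨ (x = 0 ∧ y = -1) ∨ (x = -1 ∧ y = 0) := by
  rcases eq_or_ne y 0 with rfl | hy
  · have h1 : x ^ 2 * (x + 1) = 0 := by linear_combination -h
    rcases mul_eq_zero.mp h1 with h2 | h2
    · exact Or.inl ⟨pow_eq_zero_iff (two_ne_zero) |>.mp h2, rfl⟩
    · exact Or.inr (Or.inr ⟨by linarith, rfl⟩)
  · have h1 : ((x / y) ^ 2 + 3 * (x / y) + 1) * ((x / y) ^ 2 - x / y + 1) =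
        ((y ^ 2 + x * y + 2 * y - x ^ 2) / y ^ 2) ^ 2 := by
      field_simp
      linear_combination (-(4 * y)) * h
    have h2 := Small.no_sq15 h1
    have hx : x = 0 := by
      rcases div_eq_zero_iff.mp h2 with h3 | h3
      · exact h3
      · exact absurd h3 hy
    subst hx
    have h3 : y * (y + 1) = 0 := by linear_combination h
    rcases mul_eq_zero.mp h3 with h4 | h4
    · exact absurd h4 hy
    · exact Or.inr (Or.inl ⟨rfl, by linarith⟩)

/-- The curve `X₁(15)` over `ℚ`. -/
abbrev E15 : WeierstrassCurve ℚ := X15.map (Int.castRingHom ℚ)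

theorem equation_E15 (x y : ℚ) :
    E15.toAffine.Equation x y ↔ y ^ 2 + x * y + y = x ^ 3 + x ^ 2 := by
  rw [Affine.equation_iff]
  simp [E15, X15]

theorem Δ_E15 : E15.Δ = -15 := by
  rw [map_Δ, show X15.Δ = -15 from by decide]
  norm_num

instance : E15.IsElliptic := by
  rw [isElliptic_iff, Δ_E15]
  norm_num

theorem nonsing15 {x y : ℚ} (h : y ^ 2 + x * y + y = x ^ 3 + x ^ 2) :
    E15.toAffine.Nonsingular x y :=
  (Affine.equation_iff_nonsingular ..).mp ((equation_E15 x y).mpr h)

/-- The four points `O`, `(0, 0)`, `(-1, 0)`, `(0, -1)`. -/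
def pt15 : Fin 4 → E15.toAffine.Point :=
  ![0, .some 0 0 (nonsing15 (by norm_num)), .some (-1) 0 (nonsing15 (by norm_num)),
    .some 0 (-1) (nonsing15 (by norm_num))]

theorem pt15_surjective : Function.Surjective pt15 := by
  intro P
  cases P with
  | zero => exact ⟨0, rfl⟩
  | some x y h =>
    rcases solutions_X15 ((equation_E15 x y).mp h.1) with ⟨rfl, rfl⟩ | ⟨rfl, rfl⟩ | ⟨rfl, rfl⟩
    · exact ⟨1, rfl⟩
    · exact ⟨3, rfl⟩
    · exact ⟨2, rfl⟩

theorem pt15_injective : Function.Injective pt15 := by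
  intro i j h
  fin_cases i <;> fin_cases j <;> first
    | rfl
    | (exfalso; revert h; simp [pt15, Affine.Point.zero_def])

instance : Finite E15.toAffine.Point := Finite.of_surjective _ pt15_surjective

/-- `E(ℚ)` has four elements. -/
theorem card_E15 : Nat.card E15.toAffine.Point = 4 := by
  rw [← Nat.card_eq_of_bijective pt15 ⟨pt15_injective, pt15_surjective⟩, Nat.card_fin]

/-- The point `(0, 0)` has order four. -/
theorem addOrderOf_pt15 : addOrderOf (pt15 1) = 4 := by
  have h4 : 4 • pt15 1 = 0 := by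
    have h := card_nsmul_eq_zero' (x := pt15 1)
    rwa [card_E15] at h
  have h2 : ¬ 2 • pt15 1 = 0 := by
    intro h
    rw [two_nsmul, add_eq_zero_iff_eq_neg] at h
    change Affine.Point.some _ _ _ = -Affine.Point.some _ _ _ at h
    rw [Affine.Point.neg_some, Affine.Point.some.injEq] at h
    have h6 := h.2
    simp [X15, Affine.negY] at h6
  have h5 := addOrderOf_eq_prime_pow (p := 2) (n := 1) (x := pt15 1) (by rwa [pow_one])
    (by norm_num; exact h4)
  rw [h5]
  norm_num

/-- **`E(ℚ)` is cyclic of order `4`**, generated by `(0, 0)`. -/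
theorem mem_zmultiples (P : E15.toAffine.Point) : P ∈ AddSubgroup.zmultiples (pt15 1) := by
  have h : AddSubgroup.zmultiples (pt15 1) = ⊤ := by
    apply AddSubgroup.eq_top_of_card_eq
    rw [Nat.card_zmultiples, addOrderOf_pt15, card_E15]
  rw [h]
  exact AddSubgroup.mem_top P

theorem isAddCyclic_E15 : IsAddCyclic E15.toAffine.Point := ⟨pt15 1, mem_zmultiples⟩

/-- The rank of `E(ℚ)` is `0`. -/
theorem finrank_E15 : Module.finrank ℤ E15.toAffine.Point = 0 := by
  rw [Module.finrank_eq_zero_iff_isTorsion]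
  intro P
  refine ⟨⟨4, by norm_num⟩, ?_⟩
  have h := card_nsmul_eq_zero' (x := P)
  rw [card_E15] at h
  exact_mod_cast h

/-- **The rank part of the conjecture of Birch and Swinnerton-Dyer for `X₁(15)`**:
the order of vanishing of `L(E, s)` at `s = 1` is the rank of `E(ℚ)` (both are `0`). -/
theorem bsd_X15 {L : ℂ → ℂ} (hL : IsHasseWeil X15 L) :
    analyticOrderNatAt L 1 = Module.finrank ℤ (X15.map (Int.castRingHom ℚ)).toAffine.Point := by
  rw [(analyticX15 hL).1]
  exact finrank_E15.symm

end Fermat.Agent.Cor.BSD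

end
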