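import Fermat.Agent.Corollaries.BSD.Sylvester
import Fermat.Agent.Corollaries.BSD.Short
import Fermat.Agent.Corollaries.Table.Nineteen

/-!
# The rational points of the curves of conductor `19`

The rational points of `y² + 2xy + y = x³` come from the rational points of Sylvester's cubic
`X³ + Y³ + Z³ = 2XYZ`; the two other curves of conductor `19` are mapped to it by isogenies of
degree three.
-/

set_option autoImplicit false

namespace Fermat.Agent.Cor.BSD

open WeierstrassCurve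

namespace Nineteen

/-- Three pairwise coprime integers whose product is a cube. -/
theorem exists_cubes {D Y W X : ℤ} (h1 : IsCoprime D Y) (h2 : IsCoprime D W) (h3 : IsCoprime Y W)
    (h : D * Y * W = X ^ 3) : ∃ d t w : ℤ, D = d ^ 3 ∧ Y = t ^ 3 ∧ W = w ^ 3 := by
  have hodd : Odd 3 := by decide
  obtain ⟨w, hw⟩ := Int.eq_pow_of_mul_eq_pow_odd_right (h2.mul_left h3) hodd h
  obtain ⟨t, ht⟩ := Int.eq_pow_of_mul_eq_pow_odd_right (h1.mul_left h3.symm) hodd
    (show D * W * Y = X ^ 3 by rw [← h]; ring)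
  obtain ⟨d, hd⟩ := Int.eq_pow_of_mul_eq_pow_odd_right (h1.symm.mul_left h2.symm) hodd
    (show Y * W * D = X ^ 3 by rw [← h]; ring)
  exact ⟨d, t, w, hd, ht, hw⟩

/-- An integral solution of `y² z + 2 x y z + y z² = x³`. -/
theorem x_eq_int {X Y D : ℤ} (hD : D ≠ 0) (hco : ∀ ℓ : ℤ, Prime ℓ → ℓ ∣ X → ℓ ∣ Y → ℓ ∣ D → False)
    (h : D * Y * (Y + 2 * X + D) = X ^ 3) : X = 0 := by
  have key : ∀ {a b : ℤ}, (∀ ℓ : ℤ, Prime ℓ → ℓ ∣ a → ℓ ∣ b → False) → IsCoprime a b := by
    intro a b hab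
    rw [Int.isCoprime_iff_gcd_eq_one]
    by_contra hg
    obtain ⟨ℓ, hℓ, hd⟩ := Nat.exists_prime_and_dvd hg
    exact hab ℓ (Nat.prime_iff_prime_int.mp hℓ)
      ((Int.natCast_dvd_natCast.mpr hd).trans (Int.gcd_dvd_left ..))
      ((Int.natCast_dvd_natCast.mpr hd).trans (Int.gcd_dvd_right ..))
  have h1 : IsCoprime D Y := key fun ℓ hℓ ha hb => by
    have hX : ℓ ∣ X := hℓ.dvd_of_dvd_pow (n := 3) (by rw [← h]; exact (ha.mul_right Y).mul_right _)
    exact hco ℓ hℓ hX hb ha
  have h2 : IsCoprime D (Y + 2 * X + D) := key fun ℓ hℓ ha hb => by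
    have hX : ℓ ∣ X := hℓ.dvd_of_dvd_pow (n := 3) (by rw [← h]; exact (ha.mul_right Y).mul_right _)
    have hY : ℓ ∣ Y := by
      have := dvd_sub (dvd_sub hb ha) (hX.mul_left 2)
      have e : Y + 2 * X + D - D - 2 * X = Y := by ring
      rwa [e] at this
    exact hco ℓ hℓ hX hY ha
  have h3 : IsCoprime Y (Y + 2 * X + D) := key fun ℓ hℓ ha hb => by
    have hX : ℓ ∣ X := hℓ.dvd_of_dvd_pow (n := 3) (by rw [← h]; exact (ha.mul_left D).mul_right _)
    have hD : ℓ ∣ D := by
      have := dvd_sub (dvd_sub hb ha) (hX.mul_left 2)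
      have e : Y + 2 * X + D - Y - 2 * X = D := by ring
      rwa [e] at this
    exact hco ℓ hℓ hX ha hD
  obtain ⟨d, t, w, hd, ht, hw⟩ := exists_cubes h1 h2 h3 h
  have hX : X = d * t * w := by
    have h4 : (d * t * w) ^ 3 = X ^ 3 := by
      rw [← h, hd, ht] at *
      rw [hw]
      ring
    exact ((Odd.strictMono_pow (by decide : Odd 3)).injective h4).symm
  have h5 : w ^ 3 + (-t) ^ 3 + (-d) ^ 3 = 2 * w * (-t) * (-d) := by
    rw [← hw, hX, hd, ht]
    ring
  rcases sylvester h5 with h6 | h6 | h6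
  · rw [hX, h6, mul_zero]
  · rw [hX, neg_eq_zero.mp h6, mul_zero, zero_mul]
  · exfalso
    apply hD
    rw [hd, neg_eq_zero.mp h6]
    norm_num

/-- `y² + 2xy + y = x³` has no rational point with `x ≠ 0`. -/
theorem x_eq {x y : ℚ} (h : y ^ 2 + 2 * x * y + y = x ^ 3) : x = 0 := by
  -- common denominator
  obtain ⟨X, Y, D, hD, hx, hy, hco⟩ : ∃ X Y D : ℤ, D ≠ 0 ∧ x = X / D ∧ y = Y / D ∧
      ∀ ℓ : ℤ, Prime ℓ → ℓ ∣ X → ℓ ∣ Y → ℓ ∣ D → False := by
    classical
    have hex : ∃ n : ℕ, 0 < n ∧ ∃ X Y : ℤ, x * n = X ∧ y * n = Y := by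
      refine ⟨x.den * y.den, Nat.mul_pos x.den_pos y.den_pos, x.num * y.den, y.num * x.den, ?_, ?_⟩
      · have := Rat.mul_den_eq_num x
        push_cast
        rw [← this]
        ring
      · have := Rat.mul_den_eq_num y
        push_cast
        rw [← this]
        ring
    obtain ⟨hn, X, Y, hX, hY⟩ := Nat.find_spec hex
    set n := Nat.find hex with hndef
    have hn' : ((n : ℕ) : ℚ) ≠ 0 := by exact_mod_cast hn.ne'
    refine ⟨X, Y, n, by exact_mod_cast hn.ne', ?_, ?_, ?_⟩
    · rw [Int.cast_natCast, eq_div_iff hn', hX]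
    · rw [Int.cast_natCast, eq_div_iff hn', hY]
    · rintro ℓ hℓ ⟨X', rfl⟩ ⟨Y', rfl⟩ ⟨m, hm⟩
      have hℓ0 : (ℓ : ℚ) ≠ 0 := by exact_mod_cast hℓ.ne_zero
      have hm1 : n = ℓ.natAbs * m.natAbs := by
        rw [← Int.natAbs_mul, ← hm, Int.natAbs_natCast]
      have hm0 : 0 < m.natAbs := by
        rcases Nat.eq_zero_or_pos m.natAbs with h0 | h0
        · rw [h0, mul_zero] at hm1
          omega
        · exact h0
      have hℓ2 : 2 ≤ ℓ.natAbs := (Int.prime_iff_natAbs_prime.mp hℓ).two_le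
      have hlt : m.natAbs < n := by
        rw [hm1]
        nlinarith
      have hnm : (n : ℚ) = ℓ * m := by exact_mod_cast hm
      rw [hnm] at hX hY
      push_cast at hX hY
      have hX2 : x * m = X' := mul_left_cancel₀ hℓ0 (by linear_combination hX)
      have hY2 : y * m = Y' := mul_left_cancel₀ hℓ0 (by linear_combination hY)
      refine Nat.find_min hex hlt ⟨hm0, ?_⟩
      rcases Int.natAbs_eq m with h0 | h0
      · have e : ((m.natAbs : ℕ) : ℚ) = m := by rw [← Int.cast_natCast, ← h0]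
        exact ⟨X', Y', by rw [e, hX2], by rw [e, hY2]⟩
      · have e' : ((m.natAbs : ℕ) : ℤ) = -m := by omega
        have e : ((m.natAbs : ℕ) : ℚ) = -m := by rw [← Int.cast_natCast, e', Int.cast_neg]
        refine ⟨-X', -Y', ?_, ?_⟩
        · rw [e]
          push_cast
          rw [← hX2]
          ring
        · rw [e]
          push_cast
          rw [← hY2]
          ring
  have hD' : (D : ℚ) ≠ 0 := by exact_mod_cast hD
  have h1 : (D : ℚ) * Y * (Y + 2 * X + D) = X ^ 3 := by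
    rw [hx, hy] at h
    field_simp at h
    linear_combination h
  have h2 : D * Y * (Y + 2 * X + D) = X ^ 3 := by exact_mod_cast h1
  rw [hx, x_eq_int hD hco h2]
  simp

open Short

/-- The curve `19a3`. -/
theorem finite_S_19a3 : (S 864 (-432)).Finite := by
  refine (Set.toFinite {12}).subset ?_
  rintro u ⟨v, hv⟩
  have h : ((v / 108 - 2 * ((u - 12) / 36) - 1) / 2) ^ 2 + 2 * ((u - 12) / 36) *
      ((v / 108 - 2 * ((u - 12) / 36) - 1) / 2) + (v / 108 - 2 * ((u - 12) / 36) - 1) / 2 =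
      ((u - 12) / 36) ^ 3 := by
    linear_combination (-1 / 46656) * hv
  have h0 := x_eq h
  rw [Set.mem_singleton_iff]
  linarith

/-- The curve `19a1`. -/
theorem finite_S_19a1 : (S (-12096) (-544752)).Finite := by
  refine finite_of_cubic (k := 3) (by norm_num) 36 72 (-15120) (-1214784)
    (fun u => u ^ 3 + 108 * u ^ 2 + 20304 * u + 1885248) ?_ finite_S_19a3
  intro u
  ring

/-- The curve `19a2`. -/
theorem finite_S_19a2 : (S (-997056) (-383201712)).Finite := by
  refine finite_of_cubic (k := 3) (by norm_num) 576 1152 328320 (-1992384)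
    (fun u => u ^ 3 + 1728 * u ^ 2 + 998784 * u + 193097088) ?_ finite_S_19a1
  intro u
  ring

end Nineteen

open Fermat.Agent.Cor.BSD.Nineteen Fermat.Agent.Cor.BSD.Short in
/-- **A semistable elliptic curve of conductor `19` has only finitely many rational points.** -/
theorem finite_nineteen {W : WeierstrassCurve ℤ} (hΔ : W.Δ ≠ 0) (hW : W.IsSemistableModel)
    (hN : W.conductorLevel = 19) : Finite (W.map (Int.castRingHom ℚ)).toAffine.Point := by
  obtain ⟨E, hE, r, s, t, h⟩ := Table.exists_iso_nineteen hΔ hW hN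
  have h4 : W.c₄ = E.c₄ := by rw [← h, WeierstrassCurve.variableChange_c₄]; simp
  have h6 : W.c₆ = E.c₆ := by rw [← h, WeierstrassCurve.variableChange_c₆]; simp
  refine finite_of_S ?_
  rw [WeierstrassCurve.map_c₄, WeierstrassCurve.map_c₆, h4, h6]
  rcases hE with rfl | rfl | rfl
  · rw [Table.E19a1_inv.1, Table.E19a1_inv.2.1]
    norm_num
    exact finite_S_19a1
  · rw [Table.E19a2_inv.1, Table.E19a2_inv.2.1]
    norm_num
    exact finite_S_19a2
  · rw [Table.E19a3_inv.1, Table.E19a3_inv.2.1]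
    norm_num
    exact finite_S_19a3

end Fermat.Agent.Cor.BSD
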