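import Mathlib

/-!
# Finiteness of the group of rational points depends only on `c₄`, `c₆`

If `c₄(W) = u⁴ c₄(W')` and `c₆(W) = u⁶ c₆(W')` and `W'(ℚ)` is finite, so is `W(ℚ)`.
-/

set_option autoImplicit false

namespace Fermat.Agent.Cor.BSD

open WeierstrassCurve

/-- The abscissas of the rational points of `Y² = X³ - 27 c₄ X - 54 c₆`. -/
def U (c d : ℚ) : Set ℚ := {X | IsSquare (X ^ 3 - 27 * c * X - 54 * d)}

theorem finite_quad' (p q : ℚ) : {x : ℚ | x ^ 2 + p * x + q = 0}.Finite := by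
  by_cases h : ∃ x₀ : ℚ, x₀ ^ 2 + p * x₀ + q = 0
  · obtain ⟨x₀, h0⟩ := h
    refine (Set.toFinite {x₀, -p - x₀}).subset ?_
    intro x hx
    have hx' : x ^ 2 + p * x + q = 0 := hx
    have h1 : (x - x₀) * (x + p + x₀) = 0 := by linear_combination hx' - h0
    rcases mul_eq_zero.1 h1 with h2 | h2
    · left
      linear_combination h2
    · right
      show x = -p - x₀
      linear_combination h2
  · refine Set.Finite.subset Set.finite_empty ?_
    intro x hx
    exact h ⟨x, hx⟩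

variable {W W' : WeierstrassCurve ℚ}

theorem eq_short (W : WeierstrassCurve ℚ) (x : ℚ) :
    11664 * (4 * x ^ 3 + W.b₂ * x ^ 2 + 2 * W.b₄ * x + W.b₆) =
      (36 * x + 3 * W.b₂) ^ 3 - 27 * W.c₄ * (36 * x + 3 * W.b₂) - 54 * W.c₆ := by
  rw [c₄, c₆]
  ring

theorem finite_of_U (h : (U W.c₄ W.c₆).Finite) : Finite W.toAffine.Point := by
  have hS : {p : ℚ × ℚ | W.toAffine.Equation p.1 p.2}.Finite := by
    refine (h.biUnion (t := fun X => (fun y => ((X - 3 * W.b₂) / 36, y)) ''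
      {y : ℚ | y ^ 2 + (W.a₁ * ((X - 3 * W.b₂) / 36) + W.a₃) * y +
        -(((X - 3 * W.b₂) / 36) ^ 3 + W.a₂ * ((X - 3 * W.b₂) / 36) ^ 2 +
          W.a₄ * ((X - 3 * W.b₂) / 36) + W.a₆) = 0})
      fun X _ => (finite_quad' _ _).image _).subset ?_
    rintro ⟨x, y⟩ hxy
    have hE : W.toAffine.Equation x y := hxy
    rw [Affine.equation_iff] at hE
    have hx : (36 * x + 3 * W.b₂ - 3 * W.b₂) / 36 = x := by ring
    refine Set.mem_biUnion (x := 36 * x + 3 * W.b₂) ?_ ?_
    · refine ⟨108 * (2 * y + W.a₁ * x + W.a₃), ?_⟩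
      rw [← eq_short, b₂, b₄, b₆]
      linear_combination -46656 * hE
    · refine ⟨y, ?_, ?_⟩
      · rw [Set.mem_ofPred_eq, hx]
        linear_combination hE
      · rw [hx]
  have : Finite {p : ℚ × ℚ | W.toAffine.Equation p.1 p.2} := hS
  let f : W.toAffine.Point → Option {p : ℚ × ℚ | W.toAffine.Equation p.1 p.2} := fun P =>
    match P with
    | .zero => none
    | .some x y h => some ⟨(x, y), h.1⟩
  refine Finite.of_injective f ?_
  intro P Q hPQ
  cases P with
  | zero =>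
    cases Q with
    | zero => rfl
    | some x y h => simp [f] at hPQ
  | some x y h =>
    cases Q with
    | zero => simp [f] at hPQ
    | some x' y' h' =>
      simp only [f, Option.some.injEq, Subtype.mk.injEq, Prod.mk.injEq] at hPQ
      obtain ⟨rfl, rfl⟩ := hPQ
      rfl

theorem U_of_finite [W.IsElliptic] (h : Finite W.toAffine.Point) : (U W.c₄ W.c₆).Finite := by
  let g : W.toAffine.Point → ℚ := fun P =>
    match P with
    | .zero => 0
    | .some x _ _ => 36 * x + 3 * W.b₂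
  refine (Set.finite_range g).subset ?_
  intro X hX
  obtain ⟨Y, hY⟩ := hX
  set x : ℚ := (X - 3 * W.b₂) / 36 with hx
  have hX' : X = 36 * x + 3 * W.b₂ := by rw [hx]; ring
  have h1 := eq_short W x
  rw [← hX', hY, b₂, b₄, b₆] at h1
  have hE : W.toAffine.Equation x ((Y / 108 - W.a₁ * x - W.a₃) / 2) := by
    rw [Affine.equation_iff]
    linear_combination (-1 / 46656 : ℚ) * h1
  exact ⟨.some _ _ ((Affine.equation_iff_nonsingular_of_Δ_ne_zero W.isUnit_Δ.ne_zero).1 hE),
    hX'.symm⟩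

/-- **Finiteness depends only on `c₄`, `c₆` up to scaling.** -/
theorem finite_of_c [W'.IsElliptic] (h : Finite W'.toAffine.Point) (u : ℚ) (hu : u ≠ 0)
    (h4 : W.c₄ = u ^ 4 * W'.c₄) (h6 : W.c₆ = u ^ 6 * W'.c₆) : Finite W.toAffine.Point := by
  refine finite_of_U (((U_of_finite h).image fun x => u ^ 2 * x).subset ?_)
  intro X hX
  obtain ⟨Y, hY⟩ := hX
  rw [h4, h6] at hY
  refine ⟨X / u ^ 2, ⟨Y / u ^ 3, ?_⟩, ?_⟩
  · field_simp
    linear_combination hY
  · field_simp

/-- The integral form: two Weierstrass equations over `ℤ` with the same `c₄`, `c₆`. -/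
theorem finite_of_c_int {V V' : WeierstrassCurve ℤ} (hV' : V'.Δ ≠ 0)
    (h : Finite (V'.map (Int.castRingHom ℚ)).toAffine.Point) (h4 : V.c₄ = V'.c₄)
    (h6 : V.c₆ = V'.c₆) : Finite (V.map (Int.castRingHom ℚ)).toAffine.Point := by
  have : (V'.map (Int.castRingHom ℚ)).IsElliptic := ⟨by
    rw [map_Δ, eq_intCast]
    exact isUnit_iff_ne_zero.2 (by exact_mod_cast hV')⟩
  refine finite_of_c h 1 one_ne_zero ?_ ?_
  · rw [map_c₄, map_c₄, h4]
    ring
  · rw [map_c₆, map_c₆, h6]
    ring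

end Fermat.Agent.Cor.BSD
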