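import Mathlib
import Fermat.Agent.Corollaries.BSD.All
import Fermat.Agent.Corollaries.BSD.Eleven
import Fermat.Agent.Corollaries.BSD.Nineteen
import Fermat.Agent.Corollaries.BSD.Transport

/-!
# The rank part of the conjecture of Birch and Swinnerton-Dyer for all semistable elliptic curves of
# conductor at most `21`

There are `30` such curves over `ℚ`. For each of them `L(E, 1) ≠ 0` and the group of rational points
is finite.
-/

set_option autoImplicit false

noncomputable section

namespace Fermat.Agent.Cor.BSD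

open WeierstrassCurve Fermat.Agent.Cor.HW
open Fermat.Agent.Cor.Table (curves curves_facts level level_le)

/-- **A semistable elliptic curve over `ℚ` of conductor at most `21` has only finitely many rational
points.** -/
theorem finite_points_of_le {W : WeierstrassCurve ℤ} (hΔ : W.Δ ≠ 0) (hW : W.IsSemistableModel)
    (hN : W.conductorLevel ≤ 21) : Finite (W.map (Int.castRingHom ℚ)).toAffine.Point := by
  by_cases h11 : W.conductorLevel = 11
  · exact finite_eleven hΔ hW h11
  by_cases h19 : W.conductorLevel = 19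
  · exact finite_nineteen hΔ hW h19
  exact finite_points_of_conductor hΔ hW hN h11 h19

/-- **The conjecture of Birch and Swinnerton-Dyer (rank part) for all semistable elliptic curves
over `ℚ` of conductor at most `21`**: the `L`-function exists and is unique, it does not vanish at
`s = 1`, the group of rational points is finite, and the order of vanishing at `s = 1` is the
rank. -/
theorem bsd_all {W : WeierstrassCurve ℤ} (hΔ : W.Δ ≠ 0) (hW : W.IsSemistableModel)
    (hN : W.conductorLevel ≤ 21) :
    Finite (W.map (Int.castRingHom ℚ)).toAffine.Point ∧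
    ∃ L : ℂ → ℂ, IsHasseWeil W L ∧ (∀ L' : ℂ → ℂ, IsHasseWeil W L' → L' = L) ∧ L 1 ≠ 0 ∧
      analyticOrderNatAt L 1 = Module.finrank ℤ (W.map (Int.castRingHom ℚ)).toAffine.Point := by
  have hfin := finite_points_of_le hΔ hW hN
  exact ⟨hfin, exists_L hΔ hW (hN.trans (by norm_num)) (rootNumber_of_conductor hΔ hW hN) hfin⟩

/-- A semistable elliptic curve over `ℚ` with infinitely many rational points has conductor greater
than `21`. -/
theorem lt_conductorLevel_of_infinite {W : WeierstrassCurve ℤ} (hΔ : W.Δ ≠ 0)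
    (hW : W.IsSemistableModel) (h : Infinite (W.map (Int.castRingHom ℚ)).toAffine.Point) :
    21 < W.conductorLevel := by
  by_contra hcon
  have := finite_points_of_le hΔ hW (not_lt.1 hcon)
  exact not_finite (W.map (Int.castRingHom ℚ)).toAffine.Point

/-- The thirty curves of the table have finitely many rational points. -/
theorem finite_curves (i : Fin 30) : Finite ((curves i).map (Int.castRingHom ℚ)).toAffine.Point :=
  finite_points_of_le (curves_facts i).1 (curves_facts i).2.1
    (by rw [(curves_facts i).2.2]; exact level_le i)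

/-- The theorem for an arbitrary equation over `ℚ`. -/
theorem bsd_all_rat {E : WeierstrassCurve ℚ} {W : WeierstrassCurve ℤ} (hE : W.IsIntegralModelOf E)
    (hΔ : W.Δ ≠ 0) (hW : W.IsSemistableModel) (hN : W.conductorLevel ≤ 21) :
    Finite E.toAffine.Point ∧
    ∃ L : ℂ → ℂ, IsHasseWeil W L ∧ (∀ L' : ℂ → ℂ, IsHasseWeil W L' → L' = L) ∧ L 1 ≠ 0 ∧
      analyticOrderNatAt L 1 = Module.finrank ℤ E.toAffine.Point := by
  have hfinW := finite_points_of_le hΔ hW hN
  have hell : (W.map (Int.castRingHom ℚ)).IsElliptic := ⟨by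
    rw [map_Δ, eq_intCast]
    exact isUnit_iff_ne_zero.2 (by exact_mod_cast hΔ)⟩
  obtain ⟨C, hC⟩ := hE
  have hu : (C.u : ℚ) ≠ 0 := C.u.ne_zero
  have hu' : ((C.u⁻¹ : ℚˣ) : ℚ) = (C.u : ℚ)⁻¹ := by simp
  have e4 : E.c₄ = (C.u : ℚ) ^ 4 * (W.map (Int.castRingHom ℚ)).c₄ := by
    rw [← hC, variableChange_c₄, hu']
    field_simp
  have e6 : E.c₆ = (C.u : ℚ) ^ 6 * (W.map (Int.castRingHom ℚ)).c₆ := by
    rw [← hC, variableChange_c₆, hu']
    field_simp
  have hfin : Finite E.toAffine.Point := finite_of_c hfinW (C.u : ℚ) hu e4 e6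
  refine ⟨hfin, ?_⟩
  obtain ⟨L, hL, hun⟩ := existsUnique_isHasseWeil hΔ hW
  have h50 : W.conductorLevel ≤ 50 := hN.trans (by norm_num)
  have hw := rootNumber_of_conductor hΔ hW hN
  refine ⟨L, hL, hun, (L_one_ne_zero_iff hΔ hW hL h50).2 hw, ?_⟩
  rw [analyticOrderNatAt_eq hΔ hW hL h50, if_pos hw, finrank_eq_zero]

end Fermat.Agent.Cor.BSD
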