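import Fermat.Agent.Corollaries.KumE.Indiv37
import Fermat.Agent.Corollaries.HW.LOne

/-!
# `E(ℚ) = ℤ · (0, 0)` for the curve `37a : y² + y = x³ - x`, and the theorem of Mordell (1963)

The rank is one (`BSD/Rank37`), there is no torsion and `(0, 0)` is not divisible (`KumE/Indiv37`), so the
group of rational points is generated by `P = (0, 0)`. If `m P`, `m ≠ 0`, is integral, so is `d P` for
every divisor `d` of `m`; for odd `m` the point lies on the bounded component, and `m = ± 1, ± 3`; `8 P` and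
`12 P` are not integral. Hence the integer solutions of `y (y + 1) = (x - 1) x (x + 1)`, a product
of two and of three consecutive integers, are the ten with `x = -1, 0, 1, 2, 6`.
-/

set_option autoImplicit false

noncomputable section

open WeierstrassCurve WeierstrassCurve.Affine WeierstrassCurve.Affine.Point
open Fermat.Agent.ECRed Fermat.Agent.Cor.LN Fermat.Agent.Cor.KumE Fermat.Agent.Cor.InvGal

namespace Fermat.Agent.Cor.BSD.Gen37

/-- A torsion-free group of rank one is generated by every element which is not divisible. -/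
theorem exists_zsmul_of_finrank {G : Type*} [AddCommGroup G] [Module.Finite ℤ G]
    (htf : ∀ x : G, IsOfFinAddOrder x → x = 0) (h1 : Module.finrank ℤ G = 1) {g : G} (hg0 : g ≠ 0)
    (hg : ∀ n : ℕ, 2 ≤ n → ¬ ∃ r : G, n • r = g) (x : G) : ∃ m : ℤ, x = m • g := by
  have hT : Module.IsTorsionFree ℤ G := by
    rw [Module.isTorsionFree_iff_smul_eq_zero]
    intro n x hn
    by_cases h0 : n = 0
    · exact Or.inl h0
    · exact Or.inr (htf x (isOfFinAddOrder_iff_zsmul_eq_zero.mpr ⟨n, h0, hn⟩))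
  have hfree : Module.Free ℤ G := Module.free_of_finite_type_torsion_free'
  obtain ⟨v, -, hv⟩ := finrank_eq_one_iff'.mp h1
  obtain ⟨n, hgn⟩ := hv g
  have hn1 : n.natAbs = 1 := by
    by_contra hne
    have hn0 : n ≠ 0 := by
      rintro rfl
      rw [zero_smul] at hgn
      exact hg0 hgn.symm
    have h2 : 2 ≤ n.natAbs := by
      have := Int.natAbs_pos.mpr hn0
      omega
    rcases Int.natAbs_eq n with h3 | h3
    · apply hg _ h2
      refine ⟨v, ?_⟩
      rw [← hgn]
      conv_rhs => rw [h3]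
      rw [natCast_zsmul]
    · apply hg _ h2
      refine ⟨-v, ?_⟩
      rw [← hgn]
      conv_rhs => rw [h3]
      rw [neg_smul, natCast_zsmul, smul_neg]
  have hn2 : n * n = 1 := by
    rcases Int.natAbs_eq n with h3 | h3 <;> rw [hn1] at h3 <;> rw [h3] <;> norm_num
  obtain ⟨k, rfl⟩ := hv x
  refine ⟨k * n, ?_⟩
  rw [← hgn, smul_smul, mul_assoc, hn2, mul_one]

/-! ### Small multiples of `P = (0, 0)` -/

/-- The group of rational points of `37a`. -/
abbrev G37 : Type := (EQQ W37).Point

theorem nonsingular_four : (EQQ W37).Nonsingular 2 (-3) := by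
  rw [Affine.nonsingular_iff, Affine.equation_iff]
  norm_num [W37]

theorem nonsingular_six : (EQQ W37).Nonsingular 6 14 := by
  rw [Affine.nonsingular_iff, Affine.equation_iff]
  norm_num [W37]

theorem nonsingular_eight : (EQQ W37).Nonsingular (21 / 25) (-69 / 125) := by
  rw [Affine.nonsingular_iff, Affine.equation_iff]
  norm_num [W37]

theorem nonsingular_twelve : (EQQ W37).Nonsingular (1357 / 841) (28888 / 24389) := by
  rw [Affine.nonsingular_iff, Affine.equation_iff]
  norm_num [W37]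

theorem double_one : (Point.some 1 0 nonsingular37_one : G37) + Point.some 1 0 nonsingular37_one =
    Point.some 2 (-3) nonsingular_four := by
  have hy : (0 : ℚ) ≠ (EQQ W37).negY 1 0 := by norm_num [negY, W37]
  have hs : (EQQ W37).slope 1 1 0 0 = 2 := by
    rw [slope_of_Y_ne rfl hy]
    norm_num [negY, W37]
  rw [Point.add_self_of_Y_ne hy, Point.some.injEq, hs]
  constructor <;> norm_num [addX, addY, negAddY, negY, W37]

theorem double_two : (Point.some 2 (-3) nonsingular_four : G37) + Point.some 2 (-3) nonsingular_four =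
    Point.some (21 / 25) (-69 / 125) nonsingular_eight := by
  have hy : (-3 : ℚ) ≠ (EQQ W37).negY 2 (-3) := by norm_num [negY, W37]
  have hs : (EQQ W37).slope 2 2 (-3) (-3) = -11 / 5 := by
    rw [slope_of_Y_ne rfl hy]
    norm_num [negY, W37]
  rw [Point.add_self_of_Y_ne hy, Point.some.injEq, hs]
  constructor <;> norm_num [addX, addY, negAddY, negY, W37]

theorem double_neg_one : (Point.some (-1) (-1) nonsingular37_three : G37) +
    Point.some (-1) (-1) nonsingular37_three = Point.some 6 14 nonsingular_six := by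
  have hy : (-1 : ℚ) ≠ (EQQ W37).negY (-1) (-1) := by norm_num [negY, W37]
  have hs : (EQQ W37).slope (-1) (-1) (-1) (-1) = -2 := by
    rw [slope_of_Y_ne rfl hy]
    norm_num [negY, W37]
  rw [Point.add_self_of_Y_ne hy, Point.some.injEq, hs]
  constructor <;> norm_num [addX, addY, negAddY, negY, W37]

theorem double_six : (Point.some 6 14 nonsingular_six : G37) + Point.some 6 14 nonsingular_six =
    Point.some (1357 / 841) (28888 / 24389) nonsingular_twelve := by
  have hy : (14 : ℚ) ≠ (EQQ W37).negY 6 14 := by norm_num [negY, W37]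
  have hs : (EQQ W37).slope 6 6 14 14 = 107 / 29 := by
    rw [slope_of_Y_ne rfl hy]
    norm_num [negY, W37]
  rw [Point.add_self_of_Y_ne hy, Point.some.injEq, hs]
  constructor <;> norm_num [addX, addY, negAddY, negY, W37]

theorem nsmul_one : (1 : ℕ) • (P37 : G37) = Point.some 0 0 nonsingular37 := by rw [one_nsmul]; rfl

theorem nsmul_two : (2 : ℕ) • (P37 : G37) = Point.some 1 0 nonsingular37_one := by
  rw [two_nsmul, two_P37]

theorem nsmul_three : (3 : ℕ) • (P37 : G37) = Point.some (-1) (-1) nonsingular37_three := by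
  rw [← three_P37, show (3 : ℕ) = 1 + 1 + 1 by norm_num, add_nsmul, add_nsmul, one_nsmul]

theorem nsmul_four : (4 : ℕ) • (P37 : G37) = Point.some 2 (-3) nonsingular_four := by
  rw [show (4 : ℕ) = 2 + 2 by norm_num, add_nsmul, nsmul_two, double_one]

theorem nsmul_six : (6 : ℕ) • (P37 : G37) = Point.some 6 14 nonsingular_six := by
  rw [show (6 : ℕ) = 3 + 3 by norm_num, add_nsmul, nsmul_three, double_neg_one]

theorem nsmul_eight : (8 : ℕ) • (P37 : G37) = Point.some (21 / 25) (-69 / 125) nonsingular_eight := by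
  rw [show (8 : ℕ) = 4 + 4 by norm_num, add_nsmul, nsmul_four, double_two]

theorem nsmul_twelve : (12 : ℕ) • (P37 : G37) =
    Point.some (1357 / 841) (28888 / 24389) nonsingular_twelve := by
  rw [show (12 : ℕ) = 6 + 6 by norm_num, add_nsmul, nsmul_six, double_six]

/-! ### Integral multiples -/

theorem nsmul_ne_zero {m : ℕ} (hm : m ≠ 0) : m • (P37 : G37) ≠ 0 := by
  intro h
  refine P37_ne_zero (isOfFinAddOrder37_iff.1 ?_)
  rw [isOfFinAddOrder_iff_nsmul_eq_zero]
  exact ⟨m, Nat.pos_of_ne_zero hm, h⟩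

/-- If `m P` is integral, so is `d P` for `d ∣ m`. -/
theorem exists_int_of_dvd {m d : ℕ} (hm : m ≠ 0) (hd : d ∣ m) {a : ℤ}
    (h : xc (m • (P37 : G37)) = a) : ∃ b c : ℤ, xc (d • (P37 : G37)) = b ∧ yc (d • (P37 : G37)) = c := by
  obtain ⟨n, rfl⟩ := hd
  have e : n • (d • (P37 : G37)) = (d * n) • (P37 : G37) := by rw [smul_smul, mul_comm]
  exact exists_int_xc_of_nsmul (n := n) (by rw [e]; exact nsmul_ne_zero hm) (a := a) (by rw [e]; exact h)

theorem egg_P37 : Egg (P37 : G37) := (egg_some nonsingular37).2 (by norm_num)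

theorem egg_nsmul_iff (m : ℕ) : Egg (m • (P37 : G37)) ↔ Odd m := by
  induction m with
  | zero =>
    rw [zero_nsmul]
    exact ⟨fun h => absurd h not_egg_zero, fun h => absurd h (by decide)⟩
  | succ m ih =>
    rw [succ_nsmul, egg_add, ih, Nat.odd_add_one]
    have := egg_P37
    tauto

theorem not_int_eight : ¬ ∃ b c : ℤ, xc ((8 : ℕ) • (P37 : G37)) = b ∧ yc ((8 : ℕ) • (P37 : G37)) = c := by
  rintro ⟨b, -, h, -⟩
  rw [nsmul_eight, xc_some] at h
  have h1 : (25 : ℚ) * b = 21 := by rw [← h]; norm_num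
  have h2 : (25 : ℤ) * b = 21 := by exact_mod_cast h1
  omega

theorem not_int_twelve :
    ¬ ∃ b c : ℤ, xc ((12 : ℕ) • (P37 : G37)) = b ∧ yc ((12 : ℕ) • (P37 : G37)) = c := by
  rintro ⟨b, -, h, -⟩
  rw [nsmul_twelve, xc_some] at h
  have h1 : (841 : ℚ) * b = 1357 := by rw [← h]; norm_num
  have h2 : (841 : ℤ) * b = 1357 := by exact_mod_cast h1
  omega

/-- The integral multiples of `(0, 0)`. -/
theorem mem_of_int {m : ℕ} (hm : m ≠ 0) {a : ℤ} (h : xc (m • (P37 : G37)) = a) :
    m = 1 ∨ m = 2 ∨ m = 3 ∨ m = 4 ∨ m = 6 := by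
  obtain ⟨k, m', hodd, rfl⟩ := Nat.exists_eq_two_pow_mul_odd hm
  obtain ⟨b, c, hb, hc⟩ := exists_int_of_dvd hm (Dvd.intro_left _ rfl) h
  obtain ⟨n, hn, hmn⟩ := eq_zsmul_of_int ((egg_nsmul_iff m').mpr hodd) hb hc
  have hm' : (m' : ℤ) = n := by
    by_contra hne
    refine P37_ne_zero (isOfFinAddOrder37_iff.1 ?_)
    rw [isOfFinAddOrder_iff_zsmul_eq_zero]
    exact ⟨m' - n, sub_ne_zero.mpr hne, by rw [sub_smul, natCast_zsmul, hmn, sub_self]⟩
  have h8 : ¬ 8 ∣ 2 ^ k * m' := fun hd => not_int_eight (exists_int_of_dvd hm hd h)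
  have h12 : ¬ 12 ∣ 2 ^ k * m' := fun hd => not_int_twelve (exists_int_of_dvd hm hd h)
  have hk : k ≤ 2 := by
    by_contra hk
    exact h8 ((pow_dvd_pow 2 (by omega : 3 ≤ k)).mul_right m')
  have h13 : m' = 1 ∨ m' = 3 := by omega
  clear h hb hc hn hmn hm' h8 hodd hm
  interval_cases k <;> rcases h13 with rfl | rfl
  · norm_num
  · norm_num
  · norm_num
  · norm_num
  · norm_num
  · exact absurd (by norm_num) h12

/-- The integral points, if `P` generates. -/
theorem x_of_int (hgen : ∀ R : G37, ∃ m : ℤ, R = m • (P37 : G37)) {x y : ℤ}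
    (h : y ^ 2 + y = x ^ 3 - x) : x = 0 ∨ x = 1 ∨ x = -1 ∨ x = 2 ∨ x = 6 := by
  have hΔ : (W37.map (Int.castRingHom ℚ)).Δ ≠ 0 := by
    rw [WeierstrassCurve.map_Δ, W37_Δ]
    norm_num
  have hns : (EQQ W37).Nonsingular (x : ℚ) (y : ℚ) := by
    refine (Affine.equation_iff_nonsingular_of_Δ_ne_zero hΔ).mp ?_
    rw [Affine.equation_iff]
    have h1 : (y : ℚ) ^ 2 + y = x ^ 3 - x := by exact_mod_cast h
    simp [W37]
    linear_combination h1
  obtain ⟨m, hm⟩ := hgen (Point.some (x : ℚ) (y : ℚ) hns)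
  have hm0 : m ≠ 0 := by
    rintro rfl
    exact Point.some_ne_zero _ (hm.trans (zero_zsmul _))
  have hx : xc (m.natAbs • (P37 : G37)) = x := by
    rcases Int.natAbs_eq m with h3 | h3
    · have h4 : m.natAbs • (P37 : G37) = Point.some (x : ℚ) (y : ℚ) hns := by
        rw [hm, ← natCast_zsmul, ← h3]
      rw [h4, xc_some]
    · have h4 : m.natAbs • (P37 : G37) = -Point.some (x : ℚ) (y : ℚ) hns := by
        rw [hm, ← natCast_zsmul, ← neg_smul]
        congr 1
        omega
      rw [h4, Point.neg_some, xc_some]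
  have hcases := mem_of_int (Int.natAbs_ne_zero.mpr hm0) hx
  rcases hcases with h5 | h5 | h5 | h5 | h5 <;> rw [h5] at hx
  · rw [nsmul_one, xc_some] at hx
    exact Or.inl (by exact_mod_cast hx.symm)
  · rw [nsmul_two, xc_some] at hx
    exact Or.inr (Or.inl (by exact_mod_cast hx.symm))
  · rw [nsmul_three, xc_some] at hx
    exact Or.inr (Or.inr (Or.inl (by exact_mod_cast hx.symm)))
  · rw [nsmul_four, xc_some] at hx
    exact Or.inr (Or.inr (Or.inr (Or.inl (by exact_mod_cast hx.symm))))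
  · rw [nsmul_six, xc_some] at hx
    exact Or.inr (Or.inr (Or.inr (Or.inr (by exact_mod_cast hx.symm))))

/-- The ten integral points, if `P` generates. -/
theorem mordell_of_gen (hgen : ∀ R : G37, ∃ m : ℤ, R = m • (P37 : G37)) (x y : ℤ) :
    y * (y + 1) = (x - 1) * x * (x + 1) ↔
      ((x = -1 ∨ x = 0 ∨ x = 1) ∧ (y = 0 ∨ y = -1)) ∨ (x = 2 ∧ (y = 2 ∨ y = -3)) ∨
        (x = 6 ∧ (y = 14 ∨ y = -15)) := by
  constructor
  · intro h
    have h1 : y ^ 2 + y = x ^ 3 - x := by linear_combination h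
    rcases x_of_int hgen h1 with rfl | rfl | rfl | rfl | rfl
    · have h2 : y * (y + 1) = 0 := by linear_combination h
      rcases mul_eq_zero.mp h2 with h3 | h3
      · exact Or.inl ⟨by norm_num, Or.inl h3⟩
      · exact Or.inl ⟨by norm_num, Or.inr (by omega)⟩
    · have h2 : y * (y + 1) = 0 := by linear_combination h
      rcases mul_eq_zero.mp h2 with h3 | h3
      · exact Or.inl ⟨by norm_num, Or.inl h3⟩
      · exact Or.inl ⟨by norm_num, Or.inr (by omega)⟩
    · have h2 : y * (y + 1) = 0 := by linear_combination h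
      rcases mul_eq_zero.mp h2 with h3 | h3
      · exact Or.inl ⟨by norm_num, Or.inl h3⟩
      · exact Or.inl ⟨by norm_num, Or.inr (by omega)⟩
    · have h2 : (y - 2) * (y + 3) = 0 := by linear_combination h
      rcases mul_eq_zero.mp h2 with h3 | h3
      · exact Or.inr (Or.inl ⟨rfl, Or.inl (by omega)⟩)
      · exact Or.inr (Or.inl ⟨rfl, Or.inr (by omega)⟩)
    · have h2 : (y - 14) * (y + 15) = 0 := by linear_combination h
      rcases mul_eq_zero.mp h2 with h3 | h3
      · exact Or.inr (Or.inr ⟨rfl, Or.inl (by omega)⟩)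
      · exact Or.inr (Or.inr ⟨rfl, Or.inr (by omega)⟩)
  · rintro (⟨rfl | rfl | rfl, rfl | rfl⟩ | ⟨rfl, rfl | rfl⟩ | ⟨rfl, rfl | rfl⟩) <;> norm_num

end Fermat.Agent.Cor.BSD.Gen37
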