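import Fermat.Agent.Corollaries.BSD.Inf43
import Fermat.Agent.Corollaries.LN.Red
import Fermat.Agent.Corollaries.InvGal.Curve37

/-!
# The curves `37a` and `43a` have no rational torsion

`equiv_int`: a finitely generated abelian group of rank one without torsion is `ℤ`.
`card_torsion37`, `card_torsion43`: the number of torsion points divides `7` and `8`, resp. `6`,
`10` and `9` (points over `𝔽₃`, `𝔽₅`, resp. `𝔽₃`, `𝔽₅`, `𝔽₁₁`).
-/

set_option autoImplicit false

open WeierstrassCurve Module

namespace Fermat.Agent.Cor.BSD.Tors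

open Fermat.Agent.Cor.HW

/-- A finitely generated abelian group of rank one without torsion is infinite cyclic. -/
theorem equiv_int {M : Type*} [AddCommGroup M] (hfg : AddGroup.FG M) (h1 : finrank ℤ M = 1)
    (ht : Nat.card (AddCommGroup.torsion M) = 1) : Nonempty (M ≃+ ℤ) := by
  have hfin : Module.Finite ℤ M := Module.Finite.iff_addGroup_fg.mpr hfg
  have htf : Module.IsTorsionFree ℤ M := by
    have hsub : Subsingleton (AddCommGroup.torsion M) := (Nat.card_eq_one_iff_unique.mp ht).1
    rw [Module.isTorsionFree_iff_smul_eq_zero]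
    intro n x hnx
    by_contra hcon
    push Not at hcon
    obtain ⟨hn, hx⟩ := hcon
    have hfo : IsOfFinAddOrder x := by
      rw [isOfFinAddOrder_iff_nsmul_eq_zero]
      refine ⟨n.natAbs, by omega, ?_⟩
      rcases Int.natAbs_eq n with h | h
      · rw [h] at hnx
        rwa [natCast_zsmul] at hnx
      · rw [h, neg_smul, neg_eq_zero, natCast_zsmul] at hnx
        exact hnx
    have h0 : (⟨x, hfo⟩ : AddCommGroup.torsion M) = 0 := Subsingleton.elim _ _
    exact hx (congrArg Subtype.val h0)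
  have hfree : Module.Free ℤ M := inferInstance
  exact ⟨(LinearEquiv.ofFinrankEq M ℤ (by rw [h1, finrank_self])).toAddEquiv⟩

theorem card_torsion_dvd {E : WeierstrassCurve ℤ} {ℓ : ℕ} [NeZero ℓ] (hℓ : ℓ.Prime)
    (hℓ2 : ℓ ≠ 2) (hgood : ¬ (ℓ : ℤ) ∣ E.Δ) {n : ℕ} (hn : InvGal.cnt E ℓ + 1 = n) :
    Nat.card (AddCommGroup.torsion (E.map (Int.castRingHom ℚ)).toAffine.Point) ∣ n := by
  have hF : Fact ℓ.Prime := ⟨hℓ⟩
  have h1 := LN.card_torsion_dvd_apOfModel (W := E) hℓ2 hgood
  rw [InvGal.apOfModel_eq E hℓ hgood] at h1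
  have h2 : (ℓ : ℤ) + 1 - (ℓ - InvGal.cnt E ℓ) = (n : ℤ) := by
    rw [← hn]
    push_cast
    ring
  rw [h2] at h1
  exact_mod_cast h1

theorem card_torsion37 :
    Nat.card (AddCommGroup.torsion (E37.map (Int.castRingHom ℚ)).toAffine.Point) = 1 := by
  have h3 : Nat.card (AddCommGroup.torsion (E37.map (Int.castRingHom ℚ)).toAffine.Point) ∣ 7 :=
    card_torsion_dvd (ℓ := 3) (by norm_num) (by norm_num) (by decide) (by decide)
  have h5 : Nat.card (AddCommGroup.torsion (E37.map (Int.castRingHom ℚ)).toAffine.Point) ∣ 8 :=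
    card_torsion_dvd (ℓ := 5) (by norm_num) (by norm_num) (by decide) (by decide)
  exact Nat.dvd_one.mp (Nat.dvd_gcd h3 h5)

theorem card_torsion43 :
    Nat.card (AddCommGroup.torsion (E43.map (Int.castRingHom ℚ)).toAffine.Point) = 1 := by
  have h5 : Nat.card (AddCommGroup.torsion (E43.map (Int.castRingHom ℚ)).toAffine.Point) ∣ 10 :=
    card_torsion_dvd (ℓ := 5) (by norm_num) (by norm_num) (by decide) (by decide)
  have h11 : Nat.card (AddCommGroup.torsion (E43.map (Int.castRingHom ℚ)).toAffine.Point) ∣ 9 :=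
    card_torsion_dvd (ℓ := 11) (by norm_num) (by norm_num) (by decide) (by decide +kernel)
  exact Nat.dvd_one.mp (Nat.dvd_gcd h5 h11)

end Fermat.Agent.Cor.BSD.Tors
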