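import Fermat.Agent.Corollaries.BSD.Rank43
import Fermat.Agent.Corollaries.BSD.TorsFree

/-!
# The rational points of `y² + y = x³ + x²` (the curve `43a`) are the multiples of `(0, 0)`

`E(ℚ)` is infinite cyclic (rank one, no torsion). Let `P = (0, 0) = n R`. Then `2P = (-1, -1)` is
`(2n) R` and `n (2R)`, so `R` and `2R` are integral points (`exists_int_xc_of_nsmul`, helper62). With
`R = (b, c)`, `D = 2c + 1`: `D² = 4b³ + 4b² + 1` and `D ∣ 3b² + 2b`, so `D ∣ 43`, and `b = 0` or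
`b = -1`, i.e. `R = ± P` or `± 2P`; so `n = 1`.
-/

set_option autoImplicit false

noncomputable section

open WeierstrassCurve WeierstrassCurve.Affine WeierstrassCurve.Affine.Point
open Fermat.Agent.ECRed Fermat.Agent.Cor.LN

namespace Fermat.Agent.Cor.BSD.Gen43

section Integral

variable {W : WeierstrassCurve ℤ} {q : ℕ} [hq : Fact q.Prime]

/-- **Integrality** (helper62).  If `n R ≠ 0` has a `q`-integral `x`-coordinate, so has `R`. -/
theorem norm_xc_le_of_nsmul {R : (EQQ W).Point} {n : ℕ} (h0 : n • R ≠ 0)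
    (h : ‖((xc (n • R) : ℚ) : ℚ_[q])‖ ≤ 1) : ‖((xc R : ℚ) : ℚ_[q])‖ ≤ 1 := by
  classical
  by_contra hcon
  rw [not_le] at hcon
  have h1 : ptMap (EQQ W) (Rat.castHom ℚ_[q]) R ∈ E1 (redCurveQ (q := q) W) (isPlace q) := by
    rw [mem_E1_iff]
    right
    rw [xc_ptMap]
    exact hcon
  have h2 := (E1 (redCurveQ (q := q) W) (isPlace q)).nsmul_mem h1 n
  rw [← map_nsmul, mem_E1_iff] at h2
  rcases h2 with h2 | h2
  · exact h0 (ptMap_injective (h2.trans (_root_.map_zero _).symm))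
  · rw [xc_ptMap] at h2
    exact absurd h (not_le.2 h2)

/-- the same at all primes (helper62) -/
theorem exists_int_xc_of_nsmul {R : (EQQ W).Point} {n : ℕ} (h0 : n • R ≠ 0) {a : ℤ}
    (h : xc (n • R) = a) : ∃ b c : ℤ, xc R = b ∧ yc R = c := by
  have h1 : ∀ (q : ℕ) [Fact q.Prime], ‖((xc R : ℚ) : ℚ_[q])‖ ≤ 1 := by
    intro q hq
    refine norm_xc_le_of_nsmul h0 ?_
    rw [h]
    exact_mod_cast norm_intCast_le_one q a
  obtain ⟨b, hb⟩ := exists_int_of_norm_le_one h1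
  obtain ⟨c, hc⟩ := exists_int_of_norm_le_one (fun q hq => norm_yc_le (h1 q))
  exact ⟨b, c, hb, hc⟩

end Integral

open Fermat.Agent.Cor.HW

/-- The integers `b`, `c` with `c² + c = b³ + b²` and `2c + 1 ∣ 3b² + 2b`. -/
theorem int_cases {b c : ℤ} (h : c ^ 2 + c = b ^ 3 + b ^ 2) (hd : 2 * c + 1 ∣ 3 * b ^ 2 + 2 * b) :
    (b = 0 ∨ b = -1) ∧ (c = 0 ∨ c = -1) := by
  have hD : (2 * c + 1) ^ 2 = 4 * b ^ 3 + 4 * b ^ 2 + 1 := by linear_combination 4 * h
  have hco : IsCoprime (2 * c + 1) b :=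
    ⟨2 * c + 1, -(4 * b ^ 2 + 4 * b), by linear_combination hD⟩
  have hd1 : 2 * c + 1 ∣ 3 * b + 2 := by
    have h1 : 2 * c + 1 ∣ b * (3 * b + 2) := by
      have : b * (3 * b + 2) = 3 * b ^ 2 + 2 * b := by ring
      rwa [this]
    exact hco.dvd_of_dvd_mul_left h1
  have hd2 : 2 * c + 1 ∣ 43 := by
    have h1 : (43 : ℤ) = 27 * (2 * c + 1) * (2 * c + 1) - (3 * b + 2) * (36 * b ^ 2 + 12 * b - 8) := by
      linear_combination (-27 : ℤ) * hD
    rw [h1]
    exact dvd_sub (dvd_mul_left _ _) (hd1.mul_right _)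
  have hp : Nat.Prime 43 := by norm_num
  have h43 : (2 * c + 1).natAbs ∣ 43 := by
    have := Int.natAbs_dvd_natAbs.mpr hd2
    simpa using this
  have hc : c = 0 ∨ c = -1 ∨ c = 21 ∨ c = -22 := by
    rcases (Nat.dvd_prime hp).mp h43 with h1 | h1 <;> omega
  have hb0 : c = 0 ∨ c = -1 → b = 0 ∨ b = -1 := by
    intro hc
    have h0 : b ^ 2 * (b + 1) = 0 := by
      rcases hc with rfl | rfl <;> linear_combination -h
    rcases mul_eq_zero.mp h0 with h1 | h1
    · exact Or.inl (pow_eq_zero_iff (by norm_num) |>.mp h1)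
    · exact Or.inr (by omega)
  have hno : ¬ (c = 21 ∨ c = -22) := by
    intro hc
    have h0 : b ^ 2 * (b + 1) = 462 := by
      rcases hc with rfl | rfl <;> linear_combination -h
    have hb1 : 0 ≤ b := by
      by_contra hneg
      have : b + 1 ≤ 0 := by omega
      nlinarith [sq_nonneg b]
    have hb2 : b ≤ 7 := by
      by_contra hbig
      have : 8 ≤ b := by omega
      nlinarith [mul_self_le_mul_self (by norm_num : (0 : ℤ) ≤ 8) this]
    interval_cases b <;> omega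
  have hc' : c = 0 ∨ c = -1 := by
    rcases hc with h1 | h1 | h1 | h1
    · exact Or.inl h1
    · exact Or.inr h1
    · exact absurd (Or.inl h1) hno
    · exact absurd (Or.inr h1) hno
  exact ⟨hb0 hc', hc'⟩

/-- `(0, 0)` is not divisible. -/
theorem eq_one {n : ℕ} {R : (EQQ E43).Point} (h : n • R = Inf.G43) : n = 1 := by
  have a1 : (E43.map (Int.castRingHom ℚ)).a₁ = 0 := R43.a1
  have a2 : (E43.map (Int.castRingHom ℚ)).a₂ = 1 := R43.a2
  have a3 : (E43.map (Int.castRingHom ℚ)).a₃ = 1 := R43.a3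
  have a4 : (E43.map (Int.castRingHom ℚ)).a₄ = 0 := R43.a4
  have h0 : (EQQ E43).Nonsingular 0 0 := Inf.nonsing43 (by norm_num)
  obtain ⟨h2, e2⟩ := Inf.add_self_eq a1 a3 (X := -1) (Y := -1) h0 (by norm_num) 0
    (by rw [a4]; norm_num) (by rw [a2]; norm_num) (by norm_num)
  have e2' : Inf.G43 + Inf.G43 = Point.some (-1) (-1) h2 := e2
  have hR0 : (2 * n) • R = Point.some (-1) (-1) h2 := by
    rw [mul_nsmul', h, two_nsmul, e2']
  have hRR : n • (R + R) = Point.some (-1) (-1) h2 := by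
    rw [nsmul_add, h, e2']
  obtain ⟨b, c, hb, hc⟩ := exists_int_xc_of_nsmul (R := R) (n := 2 * n) (a := -1)
    (by rw [hR0]; exact Point.some_ne_zero _) (by rw [hR0]; push_cast; rfl)
  obtain ⟨b', -, hb', -⟩ := exists_int_xc_of_nsmul (R := R + R) (n := n) (a := -1)
    (by rw [hRR]; exact Point.some_ne_zero _) (by rw [hRR]; push_cast; rfl)
  have hG0 : Inf.G43 ≠ 0 := Point.some_ne_zero _
  rcases R with _ | ⟨x, y, hR⟩
  · exfalso
    apply hG0
    rw [← h]
    exact nsmul_zero n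
  have hx : x = b := hb
  have hy : y = c := hc
  have heq := R43.eqn hR
  subst hx hy
  have heqZ : c ^ 2 + c = b ^ 3 + b ^ 2 := by exact_mod_cast heq
  have hD0 : (2 * (c : ℚ) + 1) ≠ 0 := by
    intro h1
    have h2 : (2 * c + 1 : ℤ) = 0 := by exact_mod_cast h1
    omega
  obtain ⟨h3, e3⟩ := Inf.add_self_eq a1 a3
    (X := ((3 * (b : ℚ) ^ 2 + 2 * b) / (2 * c + 1)) ^ 2 - 1 - 2 * b) hR hD0
    ((3 * (b : ℚ) ^ 2 + 2 * b) / (2 * c + 1)) (by rw [a2, a4]; field_simp; ring) (by rw [a2]) rfl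
  have hX : ((3 * (b : ℚ) ^ 2 + 2 * b) / (2 * c + 1)) ^ 2 - 1 - 2 * b = b' := by
    rw [← hb', e3]
    rfl
  have hsq : (2 * c + 1) ^ 2 ∣ (3 * b ^ 2 + 2 * b) ^ 2 := by
    refine ⟨b' + 1 + 2 * b, ?_⟩
    have h4 : (3 * (b : ℚ) ^ 2 + 2 * b) ^ 2 = (2 * c + 1) ^ 2 * (b' + 1 + 2 * b) := by
      rw [← hX]
      field_simp
      ring
    exact_mod_cast h4
  have hd : 2 * c + 1 ∣ 3 * b ^ 2 + 2 * b := (Int.pow_dvd_pow_iff (by norm_num)).mp hsq
  obtain ⟨hbb, hcc⟩ := int_cases heqZ hd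
  have hm : ∃ m : ℤ, (m = 1 ∨ m = -1 ∨ m = 2 ∨ m = -2) ∧
      (Point.some (b : ℚ) (c : ℚ) hR : (EQQ E43).Point) = m • Inf.G43 := by
    have g2 : (2 : ℤ) • Inf.G43 = Point.some (-1) (-1) h2 := by
      rw [two_zsmul, e2']
    rcases hbb with rfl | rfl <;> rcases hcc with rfl | rfl
    · refine ⟨1, Or.inl rfl, ?_⟩
      rw [one_smul, Inf.G43, Point.some.injEq]
      norm_num
    · refine ⟨-1, Or.inr (Or.inl rfl), ?_⟩
      rw [neg_smul, one_smul, Inf.G43, Point.neg_some, Point.some.injEq, negY, a1, a3]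
      norm_num
    · refine ⟨-2, Or.inr (Or.inr (Or.inr rfl)), ?_⟩
      rw [neg_smul, g2, Point.neg_some, Point.some.injEq, negY, a1, a3]
      norm_num
    · refine ⟨2, Or.inr (Or.inr (Or.inl rfl)), ?_⟩
      rw [g2, Point.some.injEq]
      norm_num
  obtain ⟨m, hm1, hm2⟩ := hm
  rw [hm2] at h
  have h5 : ((n : ℤ) * m - 1) • Inf.G43 = 0 := by
    rw [sub_smul, one_smul, mul_smul, natCast_zsmul, h, sub_self]
  have h6 : (n : ℤ) * m - 1 = 0 := by
    by_contra h7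
    exact Inf.not_torsion_G43 (isOfFinAddOrder_iff_zsmul_eq_zero.mpr ⟨_, h7, h5⟩)
  rcases hm1 with rfl | rfl | rfl | rfl <;> omega

/-- **Every rational point of the curve `43a`: `y² + y = x³ + x²` is a multiple of `(0, 0)`.** -/
theorem gen43 (P : (E43.map (Int.castRingHom ℚ)).toAffine.Point) : ∃ n : ℤ, P = n • Inf.G43 := by
  obtain ⟨e⟩ : Nonempty ((E43.map (Int.castRingHom ℚ)).toAffine.Point ≃+ ℤ) :=
    Tors.equiv_int (MordellWeil.mordell_weil ℚ (E43.map (Int.castRingHom ℚ))) R43.finrank_E43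
      Tors.card_torsion43
  have hsm : ∀ Q : (E43.map (Int.castRingHom ℚ)).toAffine.Point, Q = e Q • e.symm 1 := by
    intro Q
    apply e.injective
    rw [map_zsmul, AddEquiv.apply_symm_apply, smul_eq_mul, mul_one]
  obtain ⟨k, hk⟩ : ∃ k : ℤ, k = e Inf.G43 := ⟨_, rfl⟩
  have h1 : Inf.G43 = k • e.symm 1 := by rw [hk]; exact hsm _
  have hk1 : k = 1 ∨ k = -1 := by
    rcases Int.natAbs_eq k with h2 | h2
    · left
      have : k.natAbs • e.symm 1 = Inf.G43 := by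
        rw [← natCast_zsmul, ← h2, ← h1]
      rw [eq_one this] at h2
      exact h2
    · right
      have : k.natAbs • (-e.symm 1) = Inf.G43 := by
        rw [← natCast_zsmul, zsmul_neg, ← neg_zsmul, ← h2, ← h1]
      rw [eq_one this] at h2
      exact h2
  have h3 : e.symm 1 = k • Inf.G43 := by
    rw [h1, smul_smul]
    rcases hk1 with rfl | rfl <;> simp
  exact ⟨e P * k, by rw [mul_smul, ← h3]; exact hsm P⟩

end Fermat.Agent.Cor.BSD.Gen43
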