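import Fermat.Agent.Corollaries.BSD.SixtyFive
import Fermat.Agent.Corollaries.HW.LOne
import Fermat.Agent.Corollaries.HW.Legendre
import Fermat.Agent.Corollaries.InvGal.Curve37

/-!
# The rank part of the conjecture of Birch and Swinnerton-Dyer for `65a` (rank one)

* `analyticOrderNatAt_eq_of_two` : the analytic rank of a semistable elliptic curve with `|a₂| ≤ 1`
  and conductor at most `82` is `0` or `1` according to the root number;
* `bsd65` : for `y² + x y = x³ - x` the order of vanishing of the `L`-function at `s = 1` and the rank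
  of the group of rational points are both `1`.
-/

set_option autoImplicit false

noncomputable section

namespace Fermat.Agent.Cor.BSD.One

open WeierstrassCurve CongruenceSubgroup ModularFormClass
open Fermat.Agent.Cor.HW
open scoped MatrixGroups

/-! ### The analytic rank for conductors at most `82` -/

section tail

variable {N : ℕ} [NeZero N]

omit [NeZero N] in
theorem tailS_le_of_two {f : CuspForm (Gamma0 N) 2} (hf : f.IsNormalizedEigenform)
    (hH : IsHasse f) (h2 : ‖qCoeff f 2‖ ≤ 1) {q : ℝ} (hq : Real.exp (-xpar N) ≤ q) (hq1 : q < 1) :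
    tailS f ≤ 0.5 * q + 1.1548 * q ^ 2 + 1.5 * q ^ 3 + 2 * q ^ 4 / (1 - q) := by
  have hq0 : 0 ≤ q := (Real.exp_nonneg _).trans hq
  have hB : HasSum (fun n : ℕ => (bcoef n - if n = 0 then 0.9143 else 0) * q ^ (n + 1))
      (0.5 * q + 1.1548 * q ^ 2 + 1.5 * q ^ 3 + 2 * q ^ 4 / (1 - q)) := by
    have h1 := (hasSum_bcoef hq0 hq1).sub
      (hasSum_single (f := fun n : ℕ => (if n = 0 then (0.9143 : ℝ) else 0) * q ^ (n + 1)) 0
        (fun n hn => by rw [if_neg hn, zero_mul]))
    have h3 : 0.5 * q + 1.1548 * q ^ 2 + 1.5 * q ^ 3 + 2 * q ^ 4 / (1 - q) =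
        (1.4143 * q + 1.1548 * q ^ 2 + 1.5 * q ^ 3 + 2 * q ^ 4 / (1 - q)) -
          (if (0 : ℕ) = 0 then (0.9143 : ℝ) else 0) * q ^ (0 + 1) := by
      rw [if_pos rfl, zero_add, pow_one]
      ring
    rw [h3]
    exact h1.congr_fun fun n => by ring
  have hle : ∀ n : ℕ, ‖qCoeff f (n + 2)‖ / ((n + 2 : ℕ) : ℝ) *
      Real.exp (-((n + 1 : ℕ) * xpar N)) ≤
        (bcoef n - if n = 0 then 0.9143 else 0) * q ^ (n + 1) := by
    intro n
    have h1 : Real.exp (-((n + 1 : ℕ) * xpar N)) = Real.exp (-xpar N) ^ (n + 1) := by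
      rw [← Real.exp_nat_mul]
      congr 1
      ring
    rw [h1]
    have h3 : ‖qCoeff f (n + 2)‖ / ((n + 2 : ℕ) : ℝ) ≤ bcoef n - if n = 0 then 0.9143 else 0 := by
      rcases Nat.eq_zero_or_pos n with rfl | hn
      · rw [if_pos rfl, show bcoef 0 = 1.4143 by simp [bcoef], zero_add]
        norm_num
        linarith
      · rw [if_neg hn.ne', sub_zero]
        exact norm_qCoeff_div_le hf hH n
    exact mul_le_mul h3 (pow_le_pow_left₀ (Real.exp_nonneg _) hq _) (by positivity)
      (le_trans (by positivity) h3)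
  have hs : Summable fun n : ℕ => ‖qCoeff f (n + 2)‖ / ((n + 2 : ℕ) : ℝ) *
      Real.exp (-((n + 1 : ℕ) * xpar N)) :=
    Summable.of_nonneg_of_le (fun n => by positivity) hle hB.summable
  exact (hs.tsum_le_tsum hle hB.summable).trans hB.tsum_eq.le

theorem exp_neg_xpar_le_half (hN : N ≤ 82) : Real.exp (-xpar N) ≤ 0.5 := by
  have hN0 := sqrt_pos_of_neZero (N := N)
  have h1 : √(N : ℝ) ≤ 9.0554 := by
    rw [Real.sqrt_le_left (by norm_num)]
    have h0 : (N : ℝ) ≤ 82 := by exact_mod_cast hN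
    exact h0.trans (by norm_num)
  have h2 : Real.log 2 ≤ xpar N := by
    refine (Real.log_two_lt_d9.le.trans ?_ : Real.log 2 ≤ xpar N)
    rw [xpar, le_div_iff₀ hN0]
    have := Real.pi_gt_d4
    norm_num at this h1 ⊢
    nlinarith
  calc Real.exp (-xpar N) ≤ Real.exp (-Real.log 2) := Real.exp_le_exp.mpr (by linarith)
    _ = 0.5 := by
      rw [Real.exp_neg, Real.exp_log (by norm_num)]
      norm_num

theorem tailS_lt_one_of_two {f : CuspForm (Gamma0 N) 2} (hf : f.IsNormalizedEigenform)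
    (hH : IsHasse f) (h2 : ‖qCoeff f 2‖ ≤ 1) (hN : N ≤ 82) : tailS f < 1 := by
  refine (tailS_le_of_two hf hH h2 (exp_neg_xpar_le_half hN) (by norm_num)).trans_lt ?_
  norm_num

end tail

section

variable {W : WeierstrassCurve ℤ} (hΔ : W.Δ ≠ 0) (hW : W.IsSemistableModel) {L : ℂ → ℂ}
  (hL : IsHasseWeil W L) (h2 : |ap W 2| ≤ 1) (hN : W.conductorLevel ≤ 82)

include hΔ hW hL h2 hN

/-- **The analytic rank of a semistable elliptic curve with `|a₂| ≤ 1` and conductor at most `82` is
at most one.** -/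
theorem analyticOrderNatAt_le_one_of_two : analyticOrderNatAt L 1 ≤ 1 := by
  obtain ⟨f, ⟨hf, ha⟩, -⟩ := existsUnique_newform_ap hΔ hW
  have hL' : L = ModularForm.L two_pos f := hL.unique (isHasseWeil hΔ hf ha)
  have hsl := slash_frickeMat hΔ hf ha
  have hw := rootNumber_eq_one_or hΔ ha hf
  have hwR : ((rootNumber W : ℤ) : ℝ) = 1 ∨ ((rootNumber W : ℤ) : ℝ) = -1 := by
    rcases hw with h | h <;> rw [h] <;> norm_num
  have h3 : ‖qCoeff f 2‖ ≤ 1 := by
    rw [ha 2 Nat.prime_two, Complex.norm_intCast]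
    exact_mod_cast h2
  have hle := analyticOrderAt_LamN_le_one (frickeMat_val W) hwR hsl hf.1.qCoeff_one
    (tailS_lt_one_of_two hf.1 (isHasse hΔ hf ha) h3 hN)
  rw [analyticOrderAt_LamN, ← hL'] at hle
  rw [analyticOrderNatAt]
  exact ENat.toNat_le_of_le_natCast hle

/-- **The analytic rank** is `0` if the root number is `1`, and `1` if the root number is `-1`. -/
theorem analyticOrderNatAt_eq_of_two :
    analyticOrderNatAt L 1 = if rootNumber W = 1 then 0 else 1 := by
  have h1 := analyticOrderNatAt_le_one_of_two hΔ hW hL h2 hN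
  obtain ⟨L', -, hL', -, -, -, hw, -, hpar⟩ := hasseWeil hΔ hW
  rw [← hL.unique hL'] at hpar
  split_ifs with h
  · rw [h] at hpar
    interval_cases hr : analyticOrderNatAt L 1
    · rfl
    · norm_num at hpar
  · have h2 : rootNumber W = -1 := hw.resolve_left h
    rw [h2] at hpar
    interval_cases hr : analyticOrderNatAt L 1
    · norm_num at hpar
    · rfl

end

/-! ### The curve `65a` -/

theorem primeFactors65 : W65.Δ.natAbs.primeFactors = {5, 13} := by
  rw [Δ_W65, show (65 : ℤ).natAbs = 5 * 13 by rfl, Nat.primeFactors_mul (by norm_num) (by norm_num),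
    Nat.prime_five.primeFactors, Nat.Prime.primeFactors (by norm_num)]
  rfl

theorem Δ_W65_ne : W65.Δ ≠ 0 := by
  rw [Δ_W65]
  norm_num

theorem isSemistable65 : W65.IsSemistableModel := by
  intro p hp hd hc
  have h1 : p ∈ W65.Δ.natAbs.primeFactors :=
    Nat.mem_primeFactors.mpr ⟨hp, Int.natCast_dvd.mp hd, Int.natAbs_ne_zero.mpr Δ_W65_ne⟩
  rw [primeFactors65] at h1
  simp only [Finset.mem_insert, Finset.mem_singleton] at h1
  have hc4 : W65.c₄ = 49 := by decide
  rw [hc4] at hc
  rcases h1 with rfl | rfl <;> revert hc <;> decide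

theorem conductorLevel65 : W65.conductorLevel = 65 := by
  rw [conductorLevel, Nat.radical_eq_prod_primeFactors, primeFactors65]
  rfl

theorem rootNumber65 : rootNumber W65 = -1 := by
  have h5 : Fact (Nat.Prime 5) := ⟨Nat.prime_five⟩
  have h13 : Fact (Nat.Prime 13) := ⟨by norm_num⟩
  have hap : ∀ q : ℕ, [Fact q.Prime] → (q : ℤ) ∣ W65.Δ → q ≠ 2 →
      ap W65 q = legendreSym q (-W65.c₆) := by
    intro q hq hd hq2
    rw [ap, if_pos hd, apOfModel_eq_legendreSym ⟨hq.out, hd, isSemistable65 q hq.out hd, Δ_W65_ne⟩ hq2]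
  rw [rootNumber, primeFactors65, Finset.prod_insert (by decide), Finset.prod_singleton,
    hap 5 (by decide) (by norm_num), hap 13 (by decide) (by norm_num),
    show -W65.c₆ = 73 from by decide]
  norm_num

theorem ap65_two : ap W65 2 = -1 := by
  have hg : W65.IsGoodPrimeFor 2 := by
    rw [IsGoodPrimeFor, Δ_W65]
    decide
  rw [ap, if_neg hg, InvGal.apOfModel_eq W65 Nat.prime_two hg]
  decide +kernel

/-- **The rank part of the conjecture of Birch and Swinnerton-Dyer for `65a`**: the `L`-function of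
`y² + x y = x³ - x` has a simple zero at `s = 1`, and the group of rational points has rank `1`. -/
theorem bsd65 : ∃ L : ℂ → ℂ, IsHasseWeil W65 L ∧ (∀ L' : ℂ → ℂ, IsHasseWeil W65 L' → L' = L) ∧
    analyticOrderNatAt L 1 = 1 ∧
    analyticOrderNatAt L 1 = Module.finrank ℤ (W65.map (Int.castRingHom ℚ)).toAffine.Point := by
  obtain ⟨L, hL, hu⟩ := existsUnique_isHasseWeil Δ_W65_ne isSemistable65
  have h1 : analyticOrderNatAt L 1 = 1 := by
    rw [analyticOrderNatAt_eq_of_two Δ_W65_ne isSemistable65 hL (by rw [ap65_two]; norm_num)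
      (by rw [conductorLevel65]; norm_num), rootNumber65]
    norm_num
  refine ⟨L, hL, hu, h1, ?_⟩
  rw [h1]
  exact finrank_E65.symm

end Fermat.Agent.Cor.BSD.One
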