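import Fermat.Agent.Corollaries.BSD.EggTwo
import Fermat.Agent.Corollaries.BSD.RankOne
import Fermat.Agent.Corollaries.BSD.TorsFree
import Fermat.Agent.Corollaries.KumE.Indiv37

/-!
# The group of the rational points of `65a`: `y² + x y = x³ - x`

Every rational point is `n (-1, 0)` or `n (-1, 0) + (0, 0)` (`eq_zsmul_or`); the points of finite
order are `0` and `(0, 0)` (`eq_of_torsion`).
-/

set_option autoImplicit false

noncomputable section

namespace Fermat.Agent.Cor.BSD.Gen65

open WeierstrassCurve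
open Fermat.Agent.Cor.BSD.One

theorem hc65 : 4 * (1 / 2 : ℚ) ^ 3 + E65.b₂ * (1 / 2) ^ 2 + 2 * E65.b₄ * (1 / 2) + E65.b₆ < 0 := by
  unfold WeierstrassCurve.b₂ WeierstrassCurve.b₄ WeierstrassCurve.b₆
  rw [a₁_E65, a₂_E65, a₃_E65, a₄_E65, a₆_E65]
  norm_num

theorem card_torsion65 :
    Nat.card (AddCommGroup.torsion (W65.map (Int.castRingHom ℚ)).toAffine.Point) ∣ 2 := by
  have h3 : Nat.card (AddCommGroup.torsion (W65.map (Int.castRingHom ℚ)).toAffine.Point) ∣ 6 :=
    Tors.card_torsion_dvd (ℓ := 3) (by norm_num) (by norm_num) (by decide) (by decide)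
  have h11 : Nat.card (AddCommGroup.torsion (W65.map (Int.castRingHom ℚ)).toAffine.Point) ∣ 10 :=
    Tors.card_torsion_dvd (ℓ := 11) (by norm_num) (by norm_num) (by decide) (by decide +kernel)
  exact Nat.dvd_gcd h3 h11

/-- The point `(-1, 0)`. -/
def H65 : E65.toAffine.Point := Affine.Point.some (-1) 0 (nonsingular65 (by norm_num))

/-- The torsion points. -/
theorem eq_of_torsion {P : E65.toAffine.Point} (h : IsOfFinAddOrder P) : P = 0 ∨ P = T65 := by
  have h2 : P + P = 0 := by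
    have h3 : (⟨P, h⟩ : AddCommGroup.torsion E65.toAffine.Point) ∈
        (⊤ : AddSubgroup (AddCommGroup.torsion E65.toAffine.Point)) := trivial
    obtain ⟨k, hk⟩ := card_torsion65
    have h4 : 2 • (⟨P, h⟩ : AddCommGroup.torsion E65.toAffine.Point) = 0 := by
      have h5 : Nat.card (AddCommGroup.torsion E65.toAffine.Point) •
          (⟨P, h⟩ : AddCommGroup.torsion E65.toAffine.Point) = 0 := card_nsmul_eq_zero'
      rw [hk, mul_comm, mul_nsmul]
      have h6 : Nat.card (AddCommGroup.torsion (W65.map (Int.castRingHom ℚ)).toAffine.Point) •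
          (⟨P, h⟩ : AddCommGroup.torsion E65.toAffine.Point) = 0 := h5
      rw [mul_comm] at hk
      rw [nsmul_left_comm, h6, smul_zero]
    have h7 := congrArg Subtype.val h4
    rw [two_nsmul] at h7
    exact h7
  rcases P with _ | ⟨x, y, hP⟩
  · exact Or.inl rfl
  · right
    have hy : y = E65.toAffine.negY x y := by
      by_contra hne
      rw [Affine.Point.add_self_of_Y_ne hne] at h2
      simp at h2
    change y = -y - E65.a₁ * x - E65.a₃ at hy
    rw [a₁_E65, a₃_E65] at hy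
    have h1 := equation_iff65.mp hP.1
    have hyx : y = -x / 2 := by linarith
    rw [hyx] at h1
    have h4 : x * (4 * x ^ 2 + x - 4) = 0 := by linear_combination -4 * h1
    have hx : x = 0 := by
      rcases mul_eq_zero.mp h4 with h5 | h5
      · exact h5
      · exact absurd ⟨8 * x + 1, by linear_combination -16 * h5⟩ isSquare_65
    subst hx
    exact eq_T65 hP

theorem not_fin_H65 : ¬ IsOfFinAddOrder H65 := by
  intro h
  rcases eq_of_torsion h with h1 | h1
  · simp [H65] at h1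
  · simp only [H65, T65, Affine.Point.some.injEq] at h1
    norm_num at h1

theorem egg_H65 : Egg (1 / 2 : ℚ) H65 := by
  change (-1 : ℚ) < 1 / 2
  norm_num

theorem nsmul_T65 {n : ℕ} (hn : Odd n) : n • T65 = T65 := by
  obtain ⟨k, rfl⟩ := hn
  rw [add_nsmul, one_nsmul, mul_comm, mul_nsmul, two_nsmul, ← add_nsmul, ← two_mul, mul_nsmul,
    two_nsmul, T65_add, nsmul_zero, zero_add]

/-- `(-1, 0)` is not divisible by an odd number. -/
theorem not_odd {n : ℕ} (hn : Odd n) (hn2 : 2 ≤ n) (R : E65.toAffine.Point) : n • R ≠ H65 := by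
  intro hR
  have hegg : Egg (1 / 2 : ℚ) R := egg_of_nsmul hc65 (n := n) (by rw [hR]; exact egg_H65)
  have hH0 : H65 ≠ 0 := fun h => not_fin_H65 (by rw [h]; exact IsOfFinAddOrder.zero)
  obtain ⟨a, b, ha, hb⟩ := KumE.exists_int_xc_of_nsmul (W := W65) (R := R) (n := n) (a := -1)
    (by rw [show (n • R : (LN.EQQ W65).Point) = H65 from hR]; exact hH0)
    (by rw [show (n • R : (LN.EQQ W65).Point) = H65 from hR]; push_cast; rfl)
  rcases R with _ | ⟨x, y, h⟩
  · exact hegg
  have hx : x = a := ha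
  have hy : y = b := hb
  have hlt : x < 1 / 2 := hegg
  have h1 := equation_iff65.mp h.1
  have ha0 : a ≤ 0 := by
    rw [hx] at hlt
    by_contra hcon
    push Not at hcon
    have : (1 : ℚ) ≤ a := by exact_mod_cast hcon
    linarith
  have h1' : b ^ 2 + a * b = a ^ 3 - a := by
    rw [hx, hy] at h1
    exact_mod_cast h1
  have ha1 : -1 ≤ a := by
    by_contra hcon
    push Not at hcon
    have h3 : 0 < 4 * a ^ 2 + a - 4 := by nlinarith
    nlinarith [sq_nonneg (2 * b + a), mul_neg_of_neg_of_pos (show a < 0 by omega) h3]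
  have hcase : a = 0 ∨ a = -1 := by omega
  rcases hcase with h2 | h2
  · have hx0 : x = 0 := by rw [hx, h2]; simp
    subst hx0
    rw [eq_T65 h, nsmul_T65 hn] at hR
    simp only [H65, T65, Affine.Point.some.injEq] at hR
    norm_num at hR
  · have hb2 : b = 0 ∨ b = 1 := by
      rw [h2] at h1'
      have h3 : b * (b - 1) = 0 := by linear_combination h1'
      rcases mul_eq_zero.mp h3 with h4 | h4
      · exact Or.inl h4
      · exact Or.inr (by omega)
    have hx1 : x = -1 := by rw [hx, h2]; push_cast; ring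
    subst hx1
    apply not_fin_H65
    rcases hb2 with h3 | h3
    · have hy0 : y = 0 := by rw [hy, h3]; simp
      subst hy0
      have h4 : n • H65 = H65 := hR
      refine isOfFinAddOrder_iff_nsmul_eq_zero.mpr ⟨n - 1, by omega, ?_⟩
      have h5 : (n - 1 + 1) • H65 = H65 := by
        rw [Nat.sub_add_cancel (by omega)]
        exact h4
      rw [succ_nsmul] at h5
      exact add_eq_right.mp h5
    · have hy1 : y = 1 := by rw [hy, h3]; simp
      subst hy1
      have h6 : Affine.Point.some (-1) 1 h = -H65 := by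
        rw [H65, Affine.Point.neg_some]
        simp only [Affine.Point.some.injEq, true_and]
        change (1 : ℚ) = -0 - E65.a₁ * (-1) - E65.a₃
        rw [a₁_E65, a₃_E65]
        norm_num
      rw [h6] at hR
      refine isOfFinAddOrder_iff_nsmul_eq_zero.mpr ⟨n + 1, by omega, ?_⟩
      rw [succ_nsmul]
      nth_rewrite 2 [← hR]
      rw [← nsmul_add, add_neg_cancel, nsmul_zero]

/-- `(-1, 0) + (0, 0)` has `x = 1`. -/
theorem exists_HT : ∃ (y : ℚ) (h : E65.toAffine.Nonsingular 1 y),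
    H65 + T65 = Affine.Point.some 1 y h := by
  have h3 : (-1 : ℚ) ≠ 0 := by norm_num
  have hX : E65.toAffine.addX (-1) 0 (E65.toAffine.slope (-1) 0 0 0) = 1 := by
    rw [Affine.slope_of_X_ne h3]
    change ((0 - 0 : ℚ) / (-1 - 0)) ^ 2 + E65.a₁ * ((0 - 0) / (-1 - 0)) - E65.a₂ - (-1) - 0 = 1
    rw [a₁_E65, a₂_E65]
    norm_num
  have hns2 := Affine.nonsingular_add (nonsingular65 (x := -1) (y := 0) (by norm_num))
    (nonsingular65 (x := 0) (y := 0) (by norm_num)) (fun h => h3 h.1)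
  have h4 : H65 + T65 = Affine.Point.some _ _ hns2 := by
    rw [H65, T65]
    exact Affine.Point.add_some fun h => h3 h.1
  rw [hX] at hns2
  refine ⟨_, hns2, ?_⟩
  rw [h4]
  simp only [Affine.Point.some.injEq, and_true]
  exact hX

/-- `(-1, 0) + (0, 0)` is not a double. -/
theorem not_double (Q : E65.toAffine.Point) : Q + Q ≠ H65 + T65 := by
  intro hQ
  obtain ⟨Y, hY, hHT⟩ := exists_HT
  rw [hHT] at hQ
  have h2Q : (2 • Q : (LN.EQQ W65).Point) = Affine.Point.some 1 Y hY := by
    rw [two_nsmul]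
    exact hQ
  obtain ⟨a, b, ha, hb⟩ := KumE.exists_int_xc_of_nsmul (W := W65) (R := Q) (n := 2) (a := 1)
    (by rw [h2Q]; simp) (by rw [h2Q]; push_cast; rfl)
  rcases Q with _ | ⟨x, y, h⟩
  · have h0 : (0 : E65.toAffine.Point) + 0 = Affine.Point.some 1 Y hY := hQ
    rw [add_zero] at h0
    simp at h0
  have hx : x = a := ha
  have h1 := equation_iff65.mp h.1
  have hne : y ≠ E65.toAffine.negY x y := by
    intro h3
    rw [Affine.Point.add_self_of_Y_eq h3] at hQ
    simp at hQ
  rw [Affine.Point.add_self_of_Y_ne hne] at hQ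
  simp only [Affine.Point.some.injEq] at hQ
  have h4 := hQ.1
  rw [Affine.slope_of_Y_ne rfl hne] at h4
  change ((3 * x ^ 2 + 2 * E65.a₂ * x + E65.a₄ - E65.a₁ * y) / (y - (-y - E65.a₁ * x - E65.a₃))) ^ 2
    + E65.a₁ * ((3 * x ^ 2 + 2 * E65.a₂ * x + E65.a₄ - E65.a₁ * y) /
      (y - (-y - E65.a₁ * x - E65.a₃))) - E65.a₂ - x - x = 1 at h4
  have hne' : y - (-y - E65.a₁ * x - E65.a₃) ≠ 0 := sub_ne_zero.mpr hne
  rw [a₁_E65, a₂_E65, a₃_E65, a₄_E65] at h4
  rw [a₁_E65, a₃_E65] at hne'
  have hD : 2 * y + x ≠ 0 := by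
    intro h5
    apply hne'
    linarith
  have h5 : (3 * x ^ 2 - 1 - y) ^ 2 + (3 * x ^ 2 - 1 - y) * (2 * y + x) -
      (2 * x + 1) * (2 * y + x) ^ 2 = 0 := by
    have e1 : y - (-y - 1 * x - 0) = 2 * y + x := by ring
    have e2 : 3 * x ^ 2 + 2 * 0 * x + -1 - 1 * y = 3 * x ^ 2 - 1 - y := by ring
    rw [e1, e2] at h4
    set q := (3 * x ^ 2 - 1 - y) / (2 * y + x) with hqd
    have hq : q * (2 * y + x) = 3 * x ^ 2 - 1 - y := div_mul_cancel₀ _ hD
    have h4' : q ^ 2 + q - 2 * x = 1 := by linear_combination h4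
    linear_combination (2 * y + x) ^ 2 * h4' -
      ((3 * x ^ 2 - 1 - y) + q * (2 * y + x) + (2 * y + x)) * hq
  have h6 : x ^ 4 - 4 * x ^ 3 + x ^ 2 + 4 * x + 1 = 0 := by
    linear_combination h5 + (8 * x + 5) * h1
  have h7 : a ^ 4 - 4 * a ^ 3 + a ^ 2 + 4 * a + 1 = 0 := by
    rw [hx] at h6
    exact_mod_cast h6
  rcases Int.even_or_odd' a with ⟨k, hk | hk⟩
  · rw [hk] at h7
    ring_nf at h7
    omega
  · rw [hk] at h7
    ring_nf at h7
    omega

/-- **`E65(ℚ)` is generated by `(-1, 0)` and `(0, 0)`.** -/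
theorem eq_zsmul_or (P : E65.toAffine.Point) : ∃ n : ℤ, P = n • H65 ∨ P = n • H65 + T65 := by
  obtain ⟨r, T', hT, hTfin, ⟨e⟩⟩ := MordellWeil.exists_equiv ℚ E65
  have hr : r = 1 := by rw [← finrank_eq_of_equiv e, finrank_E65]
  subst hr
  refine exists_zsmul_or e (fun P hP => eq_of_torsion hP) not_fin_H65 (fun n hn R => ?_) P
  rcases Nat.even_or_odd n with he | ho
  · obtain ⟨m, rfl⟩ := he
    rw [add_nsmul]
    refine ⟨fun h => ?_, not_double _⟩
    exact not_egg_double hc65 (m • R) (by rw [h]; exact egg_H65)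
  · refine ⟨not_odd ho hn R, fun h => ?_⟩
    refine not_odd ho hn (R + T65) ?_
    rw [nsmul_add, nsmul_T65 ho, h, add_assoc, T65_add, add_zero]

end Fermat.Agent.Cor.BSD.Gen65
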