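import Fermat.Agent.Corollaries.BSD.Rank91
import Fermat.Agent.Corollaries.BSD.Gen43

/-!
# The rational points of `y² + y = x³ + x` (the curve `91a`) are the multiples of `(0, 0)`

As for `43a` (`BSD/Gen43`, helper89): let `P = (0, 0) = n R`. Then `2P = (1, -2)` is `(2n) R` and
`n (2R)`, so `R` and `2R` are integral points. With `R = (b, c)`, `D = 2c + 1`:
`D² = 4b³ + 4b + 1` and `D ∣ 3b² + 1`, so `D ∣ 91`, and `b = 0`, i.e. `R = ± P`; so `n = 1`.
-/

set_option autoImplicit false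

noncomputable section

open WeierstrassCurve WeierstrassCurve.Affine WeierstrassCurve.Affine.Point
open Fermat.Agent.ECRed Fermat.Agent.Cor.LN

namespace Fermat.Agent.Cor.BSD.Gen91

open R91 (E91)

/-- The integers `b`, `c` with `c² + c = b³ + b` and `2c + 1 ∣ 3b² + 1`. -/
theorem int_cases {b c : ℤ} (h : c ^ 2 + c = b ^ 3 + b) (hd : 2 * c + 1 ∣ 3 * b ^ 2 + 1) :
    b = 0 ∧ (c = 0 ∨ c = -1) := by
  have hD : (2 * c + 1) ^ 2 = 4 * b ^ 3 + 4 * b + 1 := by linear_combination 4 * h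
  have hd2 : 2 * c + 1 ∣ 91 := by
    have h1 : (91 : ℤ) = (3 * b ^ 2 + 1) * (96 * b ^ 2 - 36 * b + 64) -
        (72 * b - 27) * (2 * c + 1) * (2 * c + 1) := by
      linear_combination (72 * b - 27) * hD
    rw [h1]
    exact dvd_sub (hd.mul_right _) (dvd_mul_left _ _)
  have h91 : (2 * c + 1).natAbs ∈ Nat.divisors 91 := by
    rw [Nat.mem_divisors]
    have := Int.natAbs_dvd_natAbs.mpr hd2
    exact ⟨by simpa using this, by norm_num⟩
  have hdiv : Nat.divisors 91 = {1, 7, 13, 91} := by decide +kernel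
  rw [hdiv] at h91
  simp only [Finset.mem_insert, Finset.mem_singleton] at h91
  have hp : b * (b ^ 2 + 1) = c * (c + 1) := by linear_combination -h
  have hv : (c = 0 ∨ c = -1) ∨ c * (c + 1) = 12 ∨ c * (c + 1) = 42 ∨ c * (c + 1) = 2070 := by
    have hc : c = 0 ∨ c = -1 ∨ c = 3 ∨ c = -4 ∨ c = 6 ∨ c = -7 ∨ c = 45 ∨ c = -46 := by omega
    rcases hc with rfl | rfl | rfl | rfl | rfl | rfl | rfl | rfl <;> norm_num
  have hno : ¬ (c * (c + 1) = 12 ∨ c * (c + 1) = 42 ∨ c * (c + 1) = 2070) := by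
    intro hc
    have hb1 : 0 ≤ b := by
      by_contra hneg
      have : b + 1 ≤ 0 := by omega
      rcases hc with h1 | h1 | h1 <;> rw [h1] at hp <;> nlinarith [sq_nonneg b]
    have hb2 : b ≤ 13 := by
      by_contra hbig
      have h14 : 14 ≤ b := by omega
      rcases hc with h1 | h1 | h1 <;> rw [h1] at hp <;>
        nlinarith [mul_self_le_mul_self (by norm_num : (0 : ℤ) ≤ 14) h14]
    interval_cases b <;> omega
  have hc' : c = 0 ∨ c = -1 := hv.resolve_right hno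
  refine ⟨?_, hc'⟩
  have h0 : b * (b ^ 2 + 1) = 0 := by
    rw [hp]
    rcases hc' with rfl | rfl <;> norm_num
  rcases mul_eq_zero.mp h0 with h1 | h1
  · exact h1
  · nlinarith [sq_nonneg b]

theorem a1 : (E91.map (Int.castRingHom ℚ)).a₁ = 0 := by simp
theorem a2 : (E91.map (Int.castRingHom ℚ)).a₂ = 0 := by simp
theorem a3 : (E91.map (Int.castRingHom ℚ)).a₃ = 1 := by simp
theorem a4 : (E91.map (Int.castRingHom ℚ)).a₄ = 1 := by simp
theorem a6 : (E91.map (Int.castRingHom ℚ)).a₆ = 0 := by simp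

/-- The point `(0, 0)`. -/
def G91 : (E91.map (Int.castRingHom ℚ)).toAffine.Point := Point.some 0 0 R91.nonsingular_zero

/-- `(0, 0)` is not divisible. -/
theorem eq_one {n : ℕ} {R : (EQQ E91).Point} (h : n • R = G91) : n = 1 := by
  have h0 : (EQQ E91).Nonsingular 0 0 := R91.nonsingular_zero
  obtain ⟨h2, e2⟩ := Inf.add_self_eq a1 a3 (X := 1) (Y := -2) h0 (by norm_num) 1
    (by rw [a4]; norm_num) (by rw [a2]; norm_num) (by norm_num)
  have e2' : G91 + G91 = Point.some 1 (-2) h2 := e2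
  have hR0 : (2 * n) • R = Point.some 1 (-2) h2 := by
    rw [mul_nsmul', h, two_nsmul, e2']
  have hRR : n • (R + R) = Point.some 1 (-2) h2 := by
    rw [nsmul_add, h, e2']
  obtain ⟨b, c, hb, hc⟩ := Gen43.exists_int_xc_of_nsmul (R := R) (n := 2 * n) (a := 1)
    (by rw [hR0]; exact Point.some_ne_zero _) (by rw [hR0]; push_cast; rfl)
  obtain ⟨b', -, hb', -⟩ := Gen43.exists_int_xc_of_nsmul (R := R + R) (n := n) (a := 1)
    (by rw [hRR]; exact Point.some_ne_zero _) (by rw [hRR]; push_cast; rfl)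
  have hG0 : G91 ≠ 0 := Point.some_ne_zero _
  rcases R with _ | ⟨x, y, hR⟩
  · exfalso
    apply hG0
    rw [← h]
    exact nsmul_zero n
  have hx : x = b := hb
  have hy : y = c := hc
  have heq : y ^ 2 + y = x ^ 3 + x := by
    have h1 := hR.1
    rw [Affine.equation_iff, a1, a2, a3, a4, a6] at h1
    linear_combination h1
  subst hx hy
  have heqZ : c ^ 2 + c = b ^ 3 + b := by exact_mod_cast heq
  have hD0 : (2 * (c : ℚ) + 1) ≠ 0 := by
    intro h1
    have h2 : (2 * c + 1 : ℤ) = 0 := by exact_mod_cast h1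
    omega
  obtain ⟨h3, e3⟩ := Inf.add_self_eq a1 a3
    (X := ((3 * (b : ℚ) ^ 2 + 1) / (2 * c + 1)) ^ 2 - 2 * b) hR hD0
    ((3 * (b : ℚ) ^ 2 + 1) / (2 * c + 1)) (by rw [a2, a4]; field_simp; ring)
    (by rw [a2]; ring) rfl
  have hX : ((3 * (b : ℚ) ^ 2 + 1) / (2 * c + 1)) ^ 2 - 2 * b = b' := by
    rw [← hb', e3]
    rfl
  have hsq : (2 * c + 1) ^ 2 ∣ (3 * b ^ 2 + 1) ^ 2 := by
    refine ⟨b' + 2 * b, ?_⟩
    have h4 : (3 * (b : ℚ) ^ 2 + 1) ^ 2 = (2 * c + 1) ^ 2 * (b' + 2 * b) := by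
      rw [← hX]
      field_simp
      ring
    exact_mod_cast h4
  have hd : 2 * c + 1 ∣ 3 * b ^ 2 + 1 := (Int.pow_dvd_pow_iff (by norm_num)).mp hsq
  obtain ⟨rfl, hcc⟩ := int_cases heqZ hd
  have hm : ∃ m : ℤ, (m = 1 ∨ m = -1) ∧
      (Point.some ((0 : ℤ) : ℚ) (c : ℚ) hR : (EQQ E91).Point) = m • G91 := by
    rcases hcc with rfl | rfl
    · refine ⟨1, Or.inl rfl, ?_⟩
      rw [one_smul, G91, Point.some.injEq]
      norm_num
    · refine ⟨-1, Or.inr rfl, ?_⟩
      rw [neg_smul, one_smul, G91, Point.neg_some, Point.some.injEq, negY, a1, a3]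
      norm_num
  obtain ⟨m, hm1, hm2⟩ := hm
  rw [hm2] at h
  have h5 : ((n : ℤ) * m - 1) • G91 = 0 := by
    rw [sub_smul, one_smul, mul_smul, natCast_zsmul, h, sub_self]
  have h6 : (n : ℤ) * m - 1 = 0 := by
    by_contra h7
    have h8 : IsOfFinAddOrder G91 := isOfFinAddOrder_iff_zsmul_eq_zero.mpr ⟨_, h7, h5⟩
    obtain ⟨k, hk, hk2⟩ := isOfFinAddOrder_iff_nsmul_eq_zero.mp h8
    exact R91.nsmul_ne_zero91 (by omega) hk2
  rcases hm1 with rfl | rfl <;> omega

/-- **Every rational point of the curve `91a`: `y² + y = x³ + x` is a multiple of `(0, 0)`.** -/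
theorem gen91 (P : (E91.map (Int.castRingHom ℚ)).toAffine.Point) : ∃ n : ℤ, P = n • G91 := by
  obtain ⟨e⟩ := R91.equiv_int91
  have hsm : ∀ Q : (E91.map (Int.castRingHom ℚ)).toAffine.Point, Q = e Q • e.symm 1 := by
    intro Q
    apply e.injective
    rw [map_zsmul, AddEquiv.apply_symm_apply, smul_eq_mul, mul_one]
  obtain ⟨k, hk⟩ : ∃ k : ℤ, k = e G91 := ⟨_, rfl⟩
  have h1 : G91 = k • e.symm 1 := by rw [hk]; exact hsm _
  have hk1 : k = 1 ∨ k = -1 := by
    rcases Int.natAbs_eq k with h2 | h2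
    · left
      have : k.natAbs • e.symm 1 = G91 := by
        rw [← natCast_zsmul, ← h2, ← h1]
      rw [eq_one this] at h2
      exact h2
    · right
      have : k.natAbs • (-e.symm 1) = G91 := by
        rw [← natCast_zsmul, zsmul_neg, ← neg_zsmul, ← h2, ← h1]
      rw [eq_one this] at h2
      exact h2
  have h3 : e.symm 1 = k • G91 := by
    rw [h1, smul_smul]
    rcases hk1 with rfl | rfl <;> simp
  exact ⟨e P * k, by rw [mul_smul, ← h3]; exact hsm P⟩

end Fermat.Agent.Cor.BSD.Gen91
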