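import Mathlib
import Fermat.Agent.Corollaries.MordellWeil.Halve

/-!
# Halving a point with the cubic algebra of the points of order two

`W` is a Weierstrass curve over a field `F`, `2 ≠ 0`, and `K / F` is an extension of degree three
generated by a root `θ` of `4 X³ + b₂ X² + 2 b₄ X + b₆`. If `x(P) - θ` is a square in `K`, then
`P = 2 Q` with `Q ∈ W(F)`.
-/

set_option autoImplicit false

namespace Fermat.Agent.Cor.BSD.Sym

open WeierstrassCurve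
open Fermat.Agent.Cor.MordellWeil (eta two_eta four_ne four_eta_sq)

variable {F : Type*} [Field F]

theorem coeffs (h2 : (2 : F) ≠ 0) {W : WeierstrassCurve F} {x y σ₁ σ₂ σ₃ : F}
    (h : W.toAffine.Equation x y)
    (k1 : 12 * x + W.b₂ = 4 * (σ₁ ^ 2 - 2 * σ₂))
    (k2 : 6 * x ^ 2 + W.b₂ * x + W.b₄ = 2 * (σ₂ ^ 2 - 2 * σ₁ * σ₃)) (k3 : eta W x y = σ₃) :
    ∃ α γ : F, W.a₁ = 2 * α ∧ W.a₃ = 2 * γ ∧ y = σ₃ - α * x - γ ∧
      W.a₂ = σ₁ ^ 2 - 2 * σ₂ - 3 * x - α ^ 2 ∧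
      W.a₄ = (σ₂ ^ 2 - 2 * σ₁ * σ₃) + 3 * x ^ 2 - 2 * (σ₁ ^ 2 - 2 * σ₂) * x - 2 * α * γ ∧
      W.a₆ = σ₃ ^ 2 - x ^ 3 + (σ₁ ^ 2 - 2 * σ₂) * x ^ 2 - (σ₂ ^ 2 - 2 * σ₁ * σ₃) * x - γ ^ 2 := by
  have h1 : W.a₁ = 2 * (W.a₁ / 2) := by field_simp
  have h3 : W.a₃ = 2 * (W.a₃ / 2) := by field_simp
  have h4 := four_ne h2
  set α := W.a₁ / 2 with hα
  set γ := W.a₃ / 2 with hγ
  have hy : y = σ₃ - α * x - γ := by
    have h5 := two_eta h2 W x y
    rw [k3, h1, h3] at h5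
    refine mul_left_cancel₀ h2 ?_
    linear_combination -h5
  have hb2 : W.b₂ = W.a₁ ^ 2 + 4 * W.a₂ := rfl
  have hb4 : W.b₄ = 2 * W.a₄ + W.a₁ * W.a₃ := rfl
  have ha2 : W.a₂ = σ₁ ^ 2 - 2 * σ₂ - 3 * x - α ^ 2 := by
    refine mul_left_cancel₀ h4 ?_
    rw [hb2, h1] at k1
    linear_combination k1
  have ha4 : W.a₄ = (σ₂ ^ 2 - 2 * σ₁ * σ₃) + 3 * x ^ 2 - 2 * (σ₁ ^ 2 - 2 * σ₂) * x -
      2 * α * γ := by
    refine mul_left_cancel₀ h2 ?_
    rw [hb2, hb4, h1, h3, ha2] at k2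
    linear_combination k2
  refine ⟨α, γ, h1, h3, hy, ha2, ha4, ?_⟩
  rw [Affine.equation_iff] at h
  rw [h1, h3, ha2, ha4, hy] at h
  linear_combination -h

theorem v_ne_zero (h2 : (2 : F) ≠ 0) {W : WeierstrassCurve F} (hΔ : W.Δ ≠ 0)
    {x y σ₁ σ₂ σ₃ : F} (h : W.toAffine.Equation x y)
    (k1 : 12 * x + W.b₂ = 4 * (σ₁ ^ 2 - 2 * σ₂))
    (k2 : 6 * x ^ 2 + W.b₂ * x + W.b₄ = 2 * (σ₂ ^ 2 - 2 * σ₁ * σ₃)) (k3 : eta W x y = σ₃) :
    σ₁ * σ₂ - σ₃ ≠ 0 := by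
  obtain ⟨α, γ, ha1, ha3, hy, ha2, ha4, ha6⟩ := coeffs h2 h k1 k2 k3
  intro hv
  apply hΔ
  have h3 : σ₃ = σ₁ * σ₂ := by linear_combination -hv
  simp only [WeierstrassCurve.Δ, b₂, b₄, b₆, b₈]
  rw [ha1, ha2, ha3, ha4, ha6, h3]
  ring

variable [DecidableEq F]

/-- **Halving with symmetric functions.** -/
theorem exists_half_sym (h2 : (2 : F) ≠ 0) {W : WeierstrassCurve F} (hΔ : W.Δ ≠ 0) {x y : F}
    (h : W.toAffine.Nonsingular x y) {σ₁ σ₂ σ₃ : F}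
    (k1 : 12 * x + W.b₂ = 4 * (σ₁ ^ 2 - 2 * σ₂))
    (k2 : 6 * x ^ 2 + W.b₂ * x + W.b₄ = 2 * (σ₂ ^ 2 - 2 * σ₁ * σ₃)) (k3 : eta W x y = σ₃) :
    ∃ Q : W.toAffine.Point, Q + Q = Affine.Point.some x y h := by
  have hv0 := v_ne_zero h2 hΔ h.1 k1 k2 k3
  obtain ⟨α, γ, ha1, ha3, hy, ha2, ha4, ha6⟩ := coeffs h2 h.1 k1 k2 k3
  set q : F := x + σ₂ with hq
  set v : F := σ₁ * σ₂ - σ₃ with hv
  set z : F := v - α * q - γ with hz
  have heq : W.toAffine.Equation q z := by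
    rw [Affine.equation_iff]
    change z ^ 2 + W.a₁ * q * z + W.a₃ * z = q ^ 3 + W.a₂ * q ^ 2 + W.a₄ * q + W.a₆
    rw [ha1, ha2, ha3, ha4, ha6, hz, hv, hq]
    ring
  have hns : W.toAffine.Nonsingular q z :=
    (Affine.equation_iff_nonsingular_of_Δ_ne_zero hΔ).1 heq
  have hneg : z - W.toAffine.negY q z = 2 * v := by
    change z - (-z - W.a₁ * q - W.a₃) = 2 * v
    rw [ha1, ha3, hz]
    ring
  have hne : z ≠ W.toAffine.negY q z := by
    intro h0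
    rw [← sub_eq_zero, hneg] at h0
    exact mul_ne_zero h2 hv0 h0
  have hsl : W.toAffine.slope q q z z = σ₁ - α := by
    rw [Affine.slope_of_Y_ne rfl hne, hneg]
    rw [div_eq_iff (mul_ne_zero h2 hv0)]
    change 3 * q ^ 2 + 2 * W.a₂ * q + W.a₄ - W.a₁ * z = _
    rw [ha1, ha2, ha4, hz, hv, hq]
    ring
  have hX : W.toAffine.addX q q (W.toAffine.slope q q z z) = x := by
    rw [hsl]
    change (σ₁ - α) ^ 2 + W.a₁ * (σ₁ - α) - W.a₂ - q - q = x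
    rw [ha1, ha2, hq]
    ring
  have hY : W.toAffine.addY q q z (W.toAffine.slope q q z z) = y := by
    unfold Affine.addY Affine.negAddY
    rw [hX, hsl]
    change -((σ₁ - α) * (x - q) + z) - W.a₁ * x - W.a₃ = y
    rw [ha1, ha3, hy, hz, hv, hq]
    ring
  refine ⟨Affine.Point.some q z hns, ?_⟩
  rw [Affine.Point.add_self_of_Y_ne hne]
  simp only [Affine.Point.some.injEq]
  exact ⟨hX, hY⟩

section Cubic

variable {K : Type*} [Field K] [Algebra F K]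

omit [DecidableEq F] in
/-- Every element of a cubic extension satisfies a cubic equation. -/
theorem exists_cubic (hdeg : Module.finrank F K = 3) (r : K) :
    ∃ σ₁ σ₂ σ₃ : F, r ^ 3 - algebraMap F K σ₁ * r ^ 2 + algebraMap F K σ₂ * r -
      algebraMap F K σ₃ = 0 := by
  have hfd : FiniteDimensional F K := FiniteDimensional.of_finrank_pos (by rw [hdeg]; norm_num)
  set p := (Algebra.lmul F K r).charpoly with hp
  have hmon : p.Monic := LinearMap.charpoly_monic _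
  have hnat : p.natDegree = 3 := by rw [hp, LinearMap.charpoly_natDegree, hdeg]
  have h0 : Polynomial.aeval (Algebra.lmul F K r) p = 0 := LinearMap.aeval_self_charpoly _
  have h1 : Polynomial.aeval r p = 0 := by
    have h2 : Algebra.lmul F K (Polynomial.aeval r p) = 0 := by
      rw [← Polynomial.aeval_algHom_apply, h0]
    have h3 := LinearMap.congr_fun h2 1
    simpa using h3
  refine ⟨-p.coeff 2, p.coeff 1, -p.coeff 0, ?_⟩
  rw [Polynomial.aeval_eq_sum_range, hnat, Finset.sum_range_succ, Finset.sum_range_succ,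
    Finset.sum_range_succ, Finset.sum_range_succ, Finset.sum_range_zero] at h1
  have hc3 : p.coeff 3 = 1 := by
    have := hmon.coeff_natDegree
    rwa [hnat] at this
  rw [hc3] at h1
  simp only [Algebra.smul_def, map_one, pow_zero, pow_one, mul_one, one_mul, zero_add] at h1
  rw [map_neg, map_neg]
  linear_combination h1

/-- **If `x(P) - θ` is a square in the cubic field, then `P` is a double.** -/
theorem exists_half_of_isSquare (h2 : (2 : F) ≠ 0) {W : WeierstrassCurve F} (hΔ : W.Δ ≠ 0)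
    (hdeg : Module.finrank F K = 3) {θ : K}
    (hθ : 4 * θ ^ 3 + algebraMap F K W.b₂ * θ ^ 2 + 2 * algebraMap F K W.b₄ * θ +
      algebraMap F K W.b₆ = 0)
    (hli : ∀ a b c : F, algebraMap F K a + algebraMap F K b * θ + algebraMap F K c * θ ^ 2 = 0 →
      a = 0 ∧ b = 0 ∧ c = 0)
    {x y : F} (h : W.toAffine.Nonsingular x y) (hsq : IsSquare (algebraMap F K x - θ)) :
    ∃ Q : W.toAffine.Point, Q + Q = Affine.Point.some x y h := by
  obtain ⟨r, hr⟩ := hsq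
  obtain ⟨σ₁, σ₂, σ₃, hσ⟩ := exists_cubic (F := F) hdeg r
  have h4 := four_ne h2
  have hθr : θ = algebraMap F K x - r ^ 2 := by rw [sq, ← hr]; ring
  have hηE := four_eta_sq h2 W h.1
  -- the cubic equation of `r²`
  have e1 : (r ^ 2) ^ 3 + (2 * algebraMap F K σ₂ - algebraMap F K σ₁ ^ 2) * (r ^ 2) ^ 2 +
      (algebraMap F K σ₂ ^ 2 - 2 * algebraMap F K σ₁ * algebraMap F K σ₃) * r ^ 2 -
      algebraMap F K σ₃ ^ 2 = 0 := by
    linear_combination (r ^ 3 + algebraMap F K σ₁ * r ^ 2 + algebraMap F K σ₂ * r +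
      algebraMap F K σ₃) * hσ
  have hr2 : r ^ 2 = algebraMap F K x - θ := by rw [hθr]; ring
  rw [hr2] at e1
  -- `4 e1 + hθ` is a quadratic relation for `θ`
  have e2 := hli
    (4 * (x ^ 3 + (2 * σ₂ - σ₁ ^ 2) * x ^ 2 + (σ₂ ^ 2 - 2 * σ₁ * σ₃) * x - σ₃ ^ 2) + W.b₆)
    (-(12 * x ^ 2 + 8 * (2 * σ₂ - σ₁ ^ 2) * x + 4 * (σ₂ ^ 2 - 2 * σ₁ * σ₃)) + 2 * W.b₄)
    (12 * x + 4 * (2 * σ₂ - σ₁ ^ 2) + W.b₂) (by
      simp only [map_add, map_sub, map_mul, map_pow, map_neg, map_ofNat]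
      linear_combination 4 * e1 + hθ)
  obtain ⟨g0, g1, g2⟩ := e2
  have k1 : 12 * x + W.b₂ = 4 * (σ₁ ^ 2 - 2 * σ₂) := by linear_combination g2
  have k2 : 6 * x ^ 2 + W.b₂ * x + W.b₄ = 2 * (σ₂ ^ 2 - 2 * σ₁ * σ₃) := by
    refine mul_left_cancel₀ h2 ?_
    linear_combination g1 + 2 * x * g2
  have k3 : eta W x y ^ 2 = σ₃ ^ 2 := by
    refine mul_left_cancel₀ h4 ?_
    rw [hηE]
    linear_combination g0 + x * g1 + x ^ 2 * g2
  rcases sq_eq_sq_iff_eq_or_eq_neg.1 k3 with k | k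
  · exact exists_half_sym h2 hΔ h k1 k2 k
  · refine exists_half_sym h2 hΔ h (σ₁ := -σ₁) (σ₂ := σ₂) (σ₃ := -σ₃) ?_ ?_ k
    · rw [k1]
      ring
    · rw [k2]
      ring

end Cubic

end Fermat.Agent.Cor.BSD.Sym
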