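import Fermat.Agent.Corollaries.BSD.HesseCube

/-!
# The equation `X³ + Y³ + Z³ = a X Y Z` for `a = 2` and `a = 4`

There is no solution in integers with `X Y Z ≠ 0`: a complete descent by the isogeny of degree three,
in two steps. Put `ℓ = 3 X + 3 Y + a Z`. On the curve `ℓ · N(3 (X - Y) + (a Z - 3 Y) ω) = (a³ - 27) Z³`
and `a³ - 27 = -19`, `37` is a prime `q` up to sign; `q` divides one of the three
cyclic conjugates of `ℓ`. If `q ∣ ℓ` then `ℓ = q c³` and `3 (X - Y) + (a Z - 3 Y) ω = ω L³`, which gives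
integers with `u v w = t³`, `u + v + w = a t`, `|t| = |c|`; after division by common factors `u`, `v`, `w` are cubes.
-/

set_option autoImplicit false

namespace Fermat.Agent.Cor.BSD.Hesse

/-- A prime dividing a cube. -/
theorem dvd_of_dvd_cube {r x : ℤ} (hr : Prime r) (h : r ∣ x ^ 3) : r ∣ x := hr.dvd_of_dvd_pow h

/-! ### First step: `u v w = t³`, `u + v + w = a t` -/

/-- Integers with `u v w = t³`, `u + v + w = a t`, `t ≠ 0` come from a solution of
`X³ + Y³ + Z³ = a X Y Z` with `X Y Z` dividing `t`. -/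
theorem exists_of_mul_eq_cube {a : ℤ} (n : ℕ) : ∀ {u v w t : ℤ}, t.natAbs ≤ n → t ≠ 0 →
    u * v * w = t ^ 3 → u + v + w = a * t →
    ∃ X Y Z : ℤ, X ^ 3 + Y ^ 3 + Z ^ 3 = a * (X * Y * Z) ∧ X * Y * Z ≠ 0 ∧
      (X * Y * Z).natAbs ≤ t.natAbs := by
  induction n with
  | zero =>
    intro u v w t hn ht
    exact absurd (Int.natAbs_eq_zero.mp (Nat.le_zero.mp hn)) ht
  | succ n ih =>
    intro u v w t hn ht huvw hs
    have hu : u ≠ 0 := by rintro rfl; apply ht; apply pow_eq_zero_iff (n := 3) (by norm_num) |>.mp; rw [← huvw]; ring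
    have hv : v ≠ 0 := by rintro rfl; apply ht; apply pow_eq_zero_iff (n := 3) (by norm_num) |>.mp; rw [← huvw]; ring
    have hw : w ≠ 0 := by rintro rfl; apply ht; apply pow_eq_zero_iff (n := 3) (by norm_num) |>.mp; rw [← huvw]; ring
    -- division by a common prime factor
    have hdiv : ∀ r : ℤ, Prime r → r ∣ u → r ∣ v → r ∣ w → r ∣ t →
        ∃ X Y Z : ℤ, X ^ 3 + Y ^ 3 + Z ^ 3 = a * (X * Y * Z) ∧ X * Y * Z ≠ 0 ∧
          (X * Y * Z).natAbs ≤ t.natAbs := by
      rintro r hr ⟨u', rfl⟩ ⟨v', rfl⟩ ⟨w', rfl⟩ ⟨t', rfl⟩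
      have ht' : t' ≠ 0 := right_ne_zero_of_mul ht
      have hr1 : 1 < r.natAbs := by
        have h1 := Int.natAbs_pos.mpr hr.ne_zero
        have h2 : r.natAbs ≠ 1 := fun h => hr.not_isUnit (Int.isUnit_iff_natAbs_eq.mpr h)
        omega
      have hlt : t'.natAbs < (r * t').natAbs := by
        rw [Int.natAbs_mul]
        have h3 := Int.natAbs_pos.mpr ht'
        nlinarith
      have h4 : u' * v' * w' = t' ^ 3 := by
        apply mul_left_cancel₀ (pow_ne_zero 3 hr.ne_zero)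
        linear_combination huvw
      have h5 : u' + v' + w' = a * t' := by
        apply mul_left_cancel₀ hr.ne_zero
        linear_combination hs
      obtain ⟨X, Y, Z, h6, h7, h8⟩ := ih (by omega) ht' h4 h5
      exact ⟨X, Y, Z, h6, h7, by omega⟩
    by_cases hcop : IsCoprime u v ∧ IsCoprime v w ∧ IsCoprime u w
    · obtain ⟨huv, hvw, huw⟩ := hcop
      have hodd : Odd 3 := by decide
      obtain ⟨X, hX⟩ := Int.eq_pow_of_mul_eq_pow_odd_left (a := u) (b := v * w) (c := t)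
        (huv.mul_right huw) hodd (by rw [← huvw]; ring)
      obtain ⟨Y, hY⟩ := Int.eq_pow_of_mul_eq_pow_odd_left (a := v) (b := u * w) (c := t)
        (huv.symm.mul_right hvw) hodd (by rw [← huvw]; ring)
      obtain ⟨Z, hZ⟩ := Int.eq_pow_of_mul_eq_pow_odd_left (a := w) (b := u * v) (c := t)
        (huw.symm.mul_right hvw.symm) hodd (by rw [← huvw]; ring)
      have ht3 : X * Y * Z = t := by
        apply hodd.strictMono_pow.injective
        change (X * Y * Z) ^ 3 = t ^ 3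
        rw [← huvw, hX, hY, hZ]
        ring
      refine ⟨X, Y, Z, ?_, ?_, ?_⟩
      · rw [ht3, ← hs, hX, hY, hZ]
      · rw [ht3]; exact ht
      · rw [ht3]
    · -- two of them have a common prime factor
      have key : ∀ x y z : ℤ, x ≠ 0 → x * y * z = t ^ 3 → x + y + z = a * t → ¬ IsCoprime x y →
          ∃ r : ℤ, Prime r ∧ r ∣ x ∧ r ∣ y ∧ r ∣ z ∧ r ∣ t := by
        intro x y z hx h1 h2 h3
        by_contra hno
        push Not at hno
        refine h3 (isCoprime_of_prime_dvd (fun h => hx h.1) fun r hr hrx hry => ?_)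
        have hrt : r ∣ t := by
          apply dvd_of_dvd_cube hr
          rw [← h1, mul_assoc]
          exact hrx.mul_right _
        have hrz : r ∣ z := by
          have h4 : z = a * t - x - y := by linear_combination h2
          rw [h4]
          exact ((hrt.mul_left a).sub hrx).sub hry
        exact hno r hr hrx hry hrz hrt
      rw [not_and_or, not_and_or] at hcop
      rcases hcop with h | h | h
      · obtain ⟨r, hr, h1, h2, h3, h4⟩ := key u v w hu huvw hs h
        exact hdiv r hr h1 h2 h3 h4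
      · obtain ⟨r, hr, h1, h2, h3, h4⟩ := key v w u hv (by rw [← huvw]; ring)
          (by rw [← hs]; ring) h
        exact hdiv r hr h3 h1 h2 h4
      · obtain ⟨r, hr, h1, h2, h3, h4⟩ := key u w v hu (by rw [← huvw]; ring)
          (by rw [← hs]; ring) h
        exact hdiv r hr h1 h3 h2 h4

/-! ### Second step -/

/-- From `3 (X - Y) + (a Z - 3 Y) ω = ω L³` and `3 X + 3 Y + a Z = q c³`, `c d = e Z` where `e = a - 3 = ± 1`, to a point of
`u v w = t³`, `u + v + w = a t`. -/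
theorem exists_uvw {a e q p r c d X Y Z : ℤ} (he : e ^ 2 = 1) (hae : a - 3 = e)
    (hq : q = a ^ 2 + 3 * a + 9) (hd : p ^ 2 - p * r + r ^ 2 = d) (hcd : c * d = e * Z)
    (h1 : 3 * (X - Y) = -3 * cB p r) (h2 : a * Z - 3 * Y = cA p r - 3 * cB p r)
    (h3 : 3 * X + 3 * Y + a * Z = q * c ^ 3) :
    ∃ u v w : ℤ, u * v * w = (e * c) ^ 3 ∧ u + v + w = a * (e * c) := by
  -- the trace relation
  have hZ : Z = e * (c * d) := by rw [hcd, ← mul_assoc, ← pow_two, he, one_mul]
  have htr : 2 * cA p r - 3 * cB p r = 3 * a * d * (e * c) - e * q * (e * c) ^ 3 := by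
    have h4 : q * c ^ 3 = 3 * a * Z - 2 * cA p r + 3 * cB p r := by linear_combination -h3 + h1 - 2 * h2
    have h5 : e * q * (e * c) ^ 3 = q * c ^ 3 := by
      have : e * q * (e * c) ^ 3 = (e ^ 2) ^ 2 * (q * c ^ 3) := by ring
      rw [this, he]; ring
    rw [h5, h4, hZ]
    ring
  set t := e * c with ht
  have hUVW : (a * t + 2 * p - r) * (a * t - p + 2 * r) * (a * t - p - r) = 27 * t ^ 3 := by
    have h6 : (a * t + 2 * p - r) * (a * t - p + 2 * r) * (a * t - p - r) =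
        (a * t) ^ 3 - 3 * (p ^ 2 - p * r + r ^ 2) * (a * t) + (2 * cA p r - 3 * cB p r) := by
      simp only [cA, cB]; ring
    have h7 : a ^ 3 - 27 = e * q := by rw [hq, ← hae]; ring
    rw [h6, htr, hd]
    linear_combination t ^ 3 * h7
  have h3dvd : (3 : ℤ) ∣ a * t - p - r := by
    have h8 : (3 : ℤ) ∣ (a * t - p - r) ^ 3 := by
      have h9 : (3 : ℤ) ∣ (a * t + 2 * p - r) * (a * t - p + 2 * r) * (a * t - p - r) := by
        rw [hUVW]; exact ⟨9 * t ^ 3, by ring⟩
      have h10 : (a * t - p - r) ^ 3 = (a * t + 2 * p - r) * (a * t - p + 2 * r) * (a * t - p - r) -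
          3 * ((p * (a * t - p + 2 * r) + (a * t - p - r) * r) * (a * t - p - r)) := by ring
      rw [h10]
      exact dvd_sub h9 (dvd_mul_right _ _)
    exact Int.prime_three.dvd_of_dvd_pow h8
  obtain ⟨w, hw⟩ := h3dvd
  refine ⟨w + p, w + r, w, ?_, ?_⟩
  · have h11 : 27 * ((w + p) * (w + r) * w) = 27 * t ^ 3 := by
      rw [← hUVW, hw]
      have h12 : a * t + 2 * p - r = 3 * (w + p) := by linear_combination hw
      have h13 : a * t - p + 2 * r = 3 * (w + r) := by linear_combination hw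
      rw [h12, h13]
      ring
    linarith
  · linarith

/-- The form of the factor `3 (X - Y) + (a Z - 3 Y) ω`. -/
theorem exists_form {a e q X Y Z : ℤ} (ha : ¬ (3 : ℤ) ∣ a) (he : e ^ 2 = 1) (hae : a - 3 = e)
    (hq : q = a ^ 2 + 3 * a + 9) (hXY : IsCoprime X Y) (hYZ : IsCoprime Y Z) (hXZ : IsCoprime X Z)
    (hZ : Z ≠ 0) (h : X ^ 3 + Y ^ 3 + Z ^ 3 = a * (X * Y * Z)) (hdiv : q ∣ 3 * X + 3 * Y + a * Z) :
    ∃ p r c d : ℤ, p ^ 2 - p * r + r ^ 2 = d ∧ c * d = e * Z ∧ 3 * (X - Y) = -3 * cB p r ∧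
      a * Z - 3 * Y = cA p r - 3 * cB p r ∧ 3 * X + 3 * Y + a * Z = q * c ^ 3 := by
  have hodd : Odd 3 := by decide
  have hinj : ∀ {x y : ℤ}, x ^ 3 = y ^ 3 → x = y := fun h => hodd.strictMono_pow.injective h
  have hq0 : q ≠ 0 := by rw [hq]; nlinarith [sq_nonneg (2 * a + 3)]
  have he0 : e ≠ 0 := by rintro rfl; norm_num at he
  obtain ⟨k, hk⟩ := hdiv
  set N : ℤ := (3 * (X - Y)) ^ 2 - 3 * (X - Y) * (a * Z - 3 * Y) + (a * Z - 3 * Y) ^ 2 with hN
  have hkN : k * N = e * Z ^ 3 := by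
    apply mul_left_cancel₀ hq0
    have h1 : a ^ 3 - 27 = e * q := by rw [hq, ← hae]; ring
    have h2 : (3 * X + 3 * Y + a * Z) * N =
        27 * (X ^ 3 + Y ^ 3 + Z ^ 3 - a * (X * Y * Z)) + (a ^ 3 - 27) * Z ^ 3 := by
      rw [hN]; ring
    rw [hk, h, h1] at h2
    linear_combination h2
  have heZ : e * Z ^ 3 = (e * Z) ^ 3 := by
    have : (e * Z) ^ 3 = e ^ 2 * (e * Z ^ 3) := by ring
    rw [this, he, one_mul]
  -- primes dividing `k`, `N` and `Z`
  have hbad : ∀ ρ : ℤ, Prime ρ → ¬ ρ ∣ 3 → ρ ∣ k → ρ ∣ N → ρ ∣ Z → False := by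
    intro ρ hρ h3 h1 h2 hρZ
    have h4 : ρ ∣ 3 * (X + Y) := by
      have : 3 * (X + Y) = q * k - a * Z := by rw [← hk]; ring
      rw [this]
      exact dvd_sub (h1.mul_left q) (hρZ.mul_left a)
    have h5 : ρ ∣ X + Y := (hρ.dvd_or_dvd h4).resolve_left h3
    have h6 : ρ ∣ 3 * (3 * (3 * (X * Y))) := by
      have : 3 * (3 * (3 * (X * Y))) = -N + 9 * (X + Y) * (X + Y) +
          Z * (a ^ 2 * Z - 3 * a * Y - 3 * a * X) := by rw [hN]; ring
      rw [this]
      exact dvd_add (dvd_add (dvd_neg.mpr h2) (h5.mul_left _)) (hρZ.mul_right _)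
    have h7 : ρ ∣ X * Y := (hρ.dvd_or_dvd ((hρ.dvd_or_dvd ((hρ.dvd_or_dvd h6).resolve_left
      h3)).resolve_left h3)).resolve_left h3
    rcases hρ.dvd_or_dvd h7 with h8 | h8
    · exact hρ.not_isUnit (hXZ.isUnit_of_dvd' h8 hρZ)
    · exact hρ.not_isUnit (hYZ.isUnit_of_dvd' h8 hρZ)
  have h3of : ∀ ρ : ℤ, Prime ρ → ρ ∣ 3 → ∀ x : ℤ, ρ ∣ x → (3 : ℤ) ∣ x := by
    intro ρ hρ h1 x h2
    exact ((hρ.dvd_prime_iff_associated Int.prime_three).mp h1).symm.dvd.trans h2
  by_cases h3Z : (3 : ℤ) ∣ Z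
  · -- `3 ∣ Z`
    have h3X : ¬ (3 : ℤ) ∣ X := fun hx =>
      Int.prime_three.not_isUnit (hXZ.isUnit_of_dvd' hx h3Z)
    have h3Y : ¬ (3 : ℤ) ∣ Y := fun hy =>
      Int.prime_three.not_isUnit (hYZ.isUnit_of_dvd' hy h3Z)
    obtain ⟨Z1, hZ1⟩ := h3Z
    have h1 : (3 : ℤ) ∣ X + Y := by
      apply Int.prime_three.dvd_of_dvd_pow (n := 3)
      have : (X + Y) ^ 3 = 3 * (X * Y * (X + Y)) + (a * X * Y - Z ^ 2) * Z := by
        linear_combination h
      rw [this, hZ1]
      exact ⟨X * Y * (X + Y) + (a * X * Y - (3 * Z1) ^ 2) * Z1, by ring⟩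
    obtain ⟨s, hs⟩ := h1
    have h2 : (3 : ℤ) ∣ Z1 := by
      have h4 : (3 : ℤ) ∣ Z1 * (a * (X * Y) - Z ^ 2) := by
        have h5 : 3 * (Z1 * (a * (X * Y) - Z ^ 2)) = 3 * (3 * (3 * s ^ 3 - X * Y * s)) := by
          have h6 : (X + Y) ^ 3 - 3 * (X * Y) * (X + Y) = Z * (a * (X * Y) - Z ^ 2) := by
            linear_combination h
          rw [hs] at h6
          rw [show 3 * (Z1 * (a * (X * Y) - Z ^ 2)) = (3 * Z1) * (a * (X * Y) - Z ^ 2) by ring,
            ← hZ1, ← h6]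
          ring
        exact ⟨3 * s ^ 3 - X * Y * s, by linarith⟩
      rcases Int.prime_three.dvd_or_dvd h4 with h5 | h5
      · exact h5
      · exfalso
        have h6 : (3 : ℤ) ∣ a * (X * Y) := by
          have : a * (X * Y) = (a * (X * Y) - Z ^ 2) + Z * Z := by ring
          rw [this]
          exact dvd_add h5 ((Dvd.intro Z1 hZ1.symm).mul_right Z)
        rcases Int.prime_three.dvd_or_dvd h6 with h7 | h7
        · exact ha h7
        · rcases Int.prime_three.dvd_or_dvd h7 with h8 | h8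
          · exact h3X h8
          · exact h3Y h8
    obtain ⟨Z2, hZ2⟩ := h2
    subst hZ2
    obtain rfl : X = 3 * s - Y := by linarith
    set m : ℤ := 2 * a * Z2 - s with hm
    set n : ℤ := a * Z2 + Y - 2 * s with hn
    have hN' : N = 27 * (m ^ 2 - m * n + n ^ 2) := by
      rw [hN, hZ1, hm, hn]; ring
    have h3N' : ¬ (3 : ℤ) ∣ m ^ 2 - m * n + n ^ 2 := by
      intro h4
      have h5 : (3 : ℤ) ∣ Y ^ 2 := by
        have : Y ^ 2 = (m ^ 2 - m * n + n ^ 2) + 3 * (m * n - 3 * (a * Z2 - s) ^ 2 -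
            2 * (a * Z2 - s) * Y) := by rw [hm, hn]; ring
        rw [this]
        exact dvd_add h4 (dvd_mul_right _ _)
      exact h3Y (Int.prime_three.dvd_of_dvd_pow h5)
    set N' : ℤ := m ^ 2 - m * n + n ^ 2 with hN'def
    have hkN' : k * N' = (e * (3 * Z2)) ^ 3 := by
      have h4 : (27 : ℤ) * (k * N') = 27 * (e * (3 * Z2)) ^ 3 := by
        have h5 : (27 : ℤ) * (k * N') = k * N := by rw [hN']; ring
        rw [h5, hkN, heZ, hZ1]; ring
      linarith
    have h27 : (27 : ℤ) ∣ k := by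
      have h4 : IsCoprime (27 : ℤ) N' := by
        have : (27 : ℤ) = 3 ^ 3 := by norm_num
        rw [this]
        exact (Int.prime_three.coprime_iff_not_dvd.mpr h3N').pow_left
      apply h4.dvd_of_dvd_mul_right
      rw [hkN']
      exact ⟨(e * Z2) ^ 3, by ring⟩
    obtain ⟨k', hk'⟩ := h27
    have hm3 : (3 : ℤ) ∣ m := by
      refine ⟨a * Z2 - q * k', ?_⟩
      rw [hm]
      rw [hk', hZ1] at hk
      linarith
    have hρZ : ∀ ρ : ℤ, Prime ρ → ρ ∣ k * N' → ρ ∣ Z := by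
      intro ρ hρ h4
      rw [hkN'] at h4
      have h5 := hρ.dvd_of_dvd_pow h4
      have h6 : ρ ∣ e * Z := by
        rw [hZ1]
        have : e * (3 * (3 * Z2)) = 3 * (e * (3 * Z2)) := by ring
        rw [this]
        exact h5.mul_left 3
      have h7 : Z = e * (e * Z) := by rw [← mul_assoc, ← pow_two, he, one_mul]
      rw [h7]
      exact h6.mul_left e
    have hcop : IsCoprime k N' := by
      refine isCoprime_of_prime_dvd (fun h4 => hZ ?_) fun ρ hρ h4 h5 => ?_
      · have h6 := hkN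
        rw [h4.1, zero_mul] at h6
        exact pow_eq_zero_iff (n := 3) (by norm_num) |>.mp
          ((mul_eq_zero.mp h6.symm).resolve_left he0)
      · refine hbad ρ hρ (fun h6 => h3N' (h3of ρ hρ h6 _ h5)) h4 ?_ (hρZ ρ hρ (h4.mul_right _))
        rw [hN']
        exact h5.mul_left 27
    obtain ⟨⟨c, hc⟩, ⟨d, hd⟩⟩ := Int.eq_pow_of_mul_eq_pow_odd hcop hodd hkN'
    have hcd : c * d = e * (3 * Z2) := by
      apply hinj
      rw [mul_pow, ← hc, ← hd, hkN']
    have h3d : IsCoprime (3 : ℤ) d := by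
      rw [Int.prime_three.coprime_iff_not_dvd]
      intro h4
      exact h3N' (by rw [hd]; exact dvd_pow h4 (by norm_num))
    have hmn : IsCoprime m n := by
      refine isCoprime_of_prime_dvd (fun h4 => h3N' ?_) fun ρ hρ h4 h5 => ?_
      · rw [hN'def, h4.1, h4.2]; norm_num
      · have h6 : ρ ∣ N' := by
          rw [hN'def]
          exact dvd_add (dvd_sub (dvd_pow h4 (by norm_num)) (h4.mul_right _))
            (dvd_pow h5 (by norm_num))
        have h7 : ¬ ρ ∣ 3 := fun h8 => h3N' (h3of ρ hρ h8 _ h6)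
        have h8 : ρ ∣ Z := hρZ ρ hρ (h6.mul_left _)
        have h9 : ρ ∣ 3 * Y := by
          have : 3 * Y = a * Z - 3 * (2 * m - n) := by rw [hZ1, hm, hn]; ring
          rw [this]
          exact dvd_sub (h8.mul_left a) (((h4.mul_left 2).sub h5).mul_left 3)
        have h10 : ρ ∣ Y := (hρ.dvd_or_dvd h9).resolve_left h7
        exact hρ.not_isUnit (hYZ.isUnit_of_dvd' h10 h8)
    have h3n : ¬ (3 : ℤ) ∣ n := by
      intro h4
      apply h3N'
      rw [hN'def]
      exact dvd_add (dvd_sub (dvd_pow hm3 (by norm_num)) (hm3.mul_right _))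
        (dvd_pow h4 (by norm_num))
    obtain ⟨p, r, hpd, hcase⟩ := exists_cube hmn h3d (hN'def.symm.trans hd)
    rcases hcase with ⟨h4, h5⟩ | ⟨h4, h5⟩ | ⟨h4, h5⟩
    · exact absurd ⟨cB p r, h5⟩ h3n
    · refine ⟨2 * r - p, r - 2 * p, c, 3 * d, ?_, ?_, ?_, ?_, ?_⟩
      · rw [← hpd]; ring
      · rw [hZ1, show c * (3 * d) = 3 * (c * d) by ring, hcd]; ring
      · have h6 : 3 * (3 * s - Y - Y) = 3 * (m - 2 * n) := by rw [hm, hn]; ring
        rw [h6, h4, h5]
        simp only [cA, cB]; ring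
      · have h6 : a * Z - 3 * Y = 3 * (2 * m - n) := by rw [hZ1, hm, hn]; ring
        rw [h6, h4, h5]
        simp only [cA, cB]; ring
      · rw [hk, hc]
    · exfalso
      apply h3n
      rw [h5]
      have h6 : cA p r = 3 * cB p r - m := by linarith
      rw [h6]
      exact dvd_neg.mpr (dvd_sub (dvd_mul_right _ _) hm3)
  · -- `3 ∤ Z`
    have h3aZ : ¬ (3 : ℤ) ∣ a * Z - 3 * Y := by
      intro h1
      have h2 : (3 : ℤ) ∣ a * Z := by
        have : a * Z = (a * Z - 3 * Y) + 3 * Y := by ring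
        rw [this]
        exact dvd_add h1 (dvd_mul_right _ _)
      exact (Int.prime_three.dvd_or_dvd h2).elim ha h3Z
    have h3N : ¬ (3 : ℤ) ∣ N := by
      intro h1
      have h2 : (3 : ℤ) ∣ (a * Z - 3 * Y) ^ 2 := by
        have : (a * Z - 3 * Y) ^ 2 = N - 3 * ((X - Y) * (3 * (X - Y) - (a * Z - 3 * Y))) := by
          rw [hN]; ring
        rw [this]
        exact dvd_sub h1 (dvd_mul_right _ _)
      exact h3aZ (Int.prime_three.dvd_of_dvd_pow h2)
    have hρZ : ∀ ρ : ℤ, Prime ρ → ρ ∣ k * N → ρ ∣ Z := by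
      intro ρ hρ h4
      rw [hkN, heZ] at h4
      have h5 := hρ.dvd_of_dvd_pow h4
      have h7 : Z = e * (e * Z) := by rw [← mul_assoc, ← pow_two, he, one_mul]
      rw [h7]
      exact h5.mul_left e
    have hcop : IsCoprime k N := by
      refine isCoprime_of_prime_dvd (fun h4 => hZ ?_) fun ρ hρ h4 h5 => ?_
      · have h6 := hkN
        rw [h4.1, zero_mul] at h6
        exact pow_eq_zero_iff (n := 3) (by norm_num) |>.mp
          ((mul_eq_zero.mp h6.symm).resolve_left he0)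
      · exact hbad ρ hρ (fun h6 => h3N (h3of ρ hρ h6 _ h5)) h4 h5 (hρZ ρ hρ (h4.mul_right _))
    obtain ⟨⟨c, hc⟩, ⟨d, hd⟩⟩ := Int.eq_pow_of_mul_eq_pow_odd hcop hodd (hkN.trans heZ)
    have hcd : c * d = e * Z := by
      apply hinj
      rw [mul_pow, ← hc, ← hd, hkN, heZ]
    have h3d : IsCoprime (3 : ℤ) d := by
      rw [Int.prime_three.coprime_iff_not_dvd]
      intro h4
      exact h3N (by rw [hd]; exact dvd_pow h4 (by norm_num))
    have hmn : IsCoprime (3 * (X - Y)) (a * Z - 3 * Y) := by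
      refine isCoprime_of_prime_dvd (fun h4 => h3aZ (by rw [h4.2]; exact dvd_zero _))
        fun ρ hρ h4 h5 => ?_
      have h7 : ¬ ρ ∣ 3 := fun h8 => h3aZ (h3of ρ hρ h8 _ h5)
      have h6 : ρ ∣ N := by
        rw [hN]
        exact dvd_add (dvd_sub (dvd_pow h4 (by norm_num)) (h5.mul_left _))
          (dvd_pow h5 (by norm_num))
      have h8 : ρ ∣ Z := hρZ ρ hρ (h6.mul_left _)
      have h9 : ρ ∣ 3 * Y := by
        have : 3 * Y = a * Z - (a * Z - 3 * Y) := by ring
        rw [this]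
        exact dvd_sub (h8.mul_left a) h5
      have h10 : ρ ∣ Y := (hρ.dvd_or_dvd h9).resolve_left h7
      exact hρ.not_isUnit (hYZ.isUnit_of_dvd' h10 h8)
    obtain ⟨p, r, hpd, hcase⟩ := exists_cube hmn h3d (hN.symm.trans hd)
    rcases hcase with ⟨h4, h5⟩ | ⟨h4, h5⟩ | ⟨h4, h5⟩
    · exact absurd ⟨cB p r, h5⟩ h3aZ
    · exact ⟨p, r, c, d, hpd, hcd, h4, h5, by rw [hk, hc]⟩
    · exfalso
      apply h3aZ
      rw [h5]
      have h6 : cA p r = 3 * cB p r - 3 * (X - Y) := by linarith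
      rw [h6]
      exact dvd_neg.mpr (dvd_sub (dvd_mul_right _ _) (dvd_mul_right _ _))

/-! ### The descent -/

theorem not_one_one {a X Y Z : ℤ} (ha : a = 2 ∨ a = 4) (hX : X.natAbs = 1) (hY : Y.natAbs = 1)
    (hZ : Z ≠ 0) : X ^ 3 + Y ^ 3 + Z ^ 3 ≠ a * (X * Y * Z) := by
  intro h
  have hX' : X = 1 ∨ X = -1 := by omega
  have hY' : Y = 1 ∨ Y = -1 := by omega
  have key : ∀ b : ℤ, Z ^ 3 - b * Z = 2 ∨ Z ^ 3 - b * Z = -2 → (b = 2 ∨ b = 4) → False := by
    intro b hb hb2
    have hdvd : Z ∣ 2 := by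
      rcases hb with hb | hb
      · exact ⟨Z ^ 2 - b, by linear_combination -hb⟩
      · exact ⟨-(Z ^ 2 - b), by linear_combination hb⟩
    have h1 : Z ≤ 2 := Int.le_of_dvd (by norm_num) hdvd
    have h2 : -Z ≤ 2 := Int.le_of_dvd (by norm_num) (neg_dvd.mpr hdvd)
    have h3 : -2 ≤ Z := by omega
    rcases hb2 with rfl | rfl <;> interval_cases Z <;> omega
  have key2 : Z ^ 3 + a * Z = 0 → False := by
    intro h1
    have h2 : Z * (Z ^ 2 + a) = 0 := by linear_combination h1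
    rcases mul_eq_zero.mp h2 with h3 | h3
    · exact hZ h3
    · rcases ha with rfl | rfl <;> nlinarith [sq_nonneg Z]
  rcases hX' with rfl | rfl <;> rcases hY' with rfl | rfl
  · exact key a (Or.inr (by linear_combination h)) ha
  · exact key2 (by linear_combination h)
  · exact key2 (by linear_combination h)
  · exact key a (Or.inl (by linear_combination h)) ha

/-- One step of the descent. -/
theorem exists_smaller {a X Y Z : ℤ} (ha : a = 2 ∨ a = 4) (hXY : IsCoprime X Y)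
    (hYZ : IsCoprime Y Z) (hXZ : IsCoprime X Z) (hXYZ : X * Y * Z ≠ 0)
    (h : X ^ 3 + Y ^ 3 + Z ^ 3 = a * (X * Y * Z))
    (hdiv : a ^ 2 + 3 * a + 9 ∣ 3 * X + 3 * Y + a * Z) :
    ∃ X' Y' Z' : ℤ, X' ^ 3 + Y' ^ 3 + Z' ^ 3 = a * (X' * Y' * Z') ∧ X' * Y' * Z' ≠ 0 ∧
      (X' * Y' * Z').natAbs < (X * Y * Z).natAbs := by
  have hZ : Z ≠ 0 := right_ne_zero_of_mul hXYZ
  have hX : X ≠ 0 := left_ne_zero_of_mul (left_ne_zero_of_mul hXYZ)
  have hY : Y ≠ 0 := right_ne_zero_of_mul (left_ne_zero_of_mul hXYZ)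
  have ha3 : ¬ (3 : ℤ) ∣ a := by rcases ha with rfl | rfl <;> decide
  have he : (a - 3) ^ 2 = 1 := by rcases ha with rfl | rfl <;> norm_num
  have he0 : a - 3 ≠ 0 := by intro h0; rw [h0] at he; norm_num at he
  obtain ⟨p, r, c, d, h1, h2, h3, h4, h5⟩ := exists_form ha3 he rfl rfl hXY hYZ hXZ hZ h hdiv
  obtain ⟨u, v, w, h6, h7⟩ := exists_uvw he rfl rfl h1 h2 h3 h4 h5
  have hc : c ≠ 0 := by
    rintro rfl
    rw [zero_mul] at h2
    exact (mul_ne_zero he0 hZ) h2.symm
  obtain ⟨X', Y', Z', h8, h9, h10⟩ := exists_of_mul_eq_cube _ le_rfl (mul_ne_zero he0 hc) h6 h7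
  refine ⟨X', Y', Z', h8, h9, h10.trans_lt ?_⟩
  have he1 : (a - 3).natAbs = 1 := by rcases ha with rfl | rfl <;> decide
  rw [Int.natAbs_mul, he1, one_mul]
  have hcZ : c.natAbs ≤ Z.natAbs := by
    have h11 : c.natAbs * d.natAbs = Z.natAbs := by
      rw [← Int.natAbs_mul, h2, Int.natAbs_mul, he1, one_mul]
    have h12 : 0 < Z.natAbs := Int.natAbs_pos.mpr hZ
    exact Nat.le_of_dvd h12 ⟨_, h11.symm⟩
  have hX1 := Int.natAbs_pos.mpr hX
  have hY1 := Int.natAbs_pos.mpr hY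
  have hZ1 := Int.natAbs_pos.mpr hZ
  have hXY2 : 2 ≤ X.natAbs * Y.natAbs := by
    by_contra hlt
    have h13 : X.natAbs = 1 ∧ Y.natAbs = 1 := by
      constructor <;> nlinarith
    exact not_one_one ha h13.1 h13.2 hZ h
  rw [Int.natAbs_mul, Int.natAbs_mul]
  nlinarith

/-- **There is no solution of `X³ + Y³ + Z³ = a X Y Z` with `X Y Z ≠ 0` for `a = 2` and `a = 4`.** -/
theorem mul_eq_zero_of_sum_cubes {a : ℤ} (ha : a = 2 ∨ a = 4) {X Y Z : ℤ}
    (h : X ^ 3 + Y ^ 3 + Z ^ 3 = a * (X * Y * Z)) : X * Y * Z = 0 := by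
  have main : ∀ n : ℕ, ∀ X Y Z : ℤ, (X * Y * Z).natAbs ≤ n → X * Y * Z ≠ 0 →
      X ^ 3 + Y ^ 3 + Z ^ 3 = a * (X * Y * Z) → False := by
    intro n
    induction n with
    | zero =>
      intro X Y Z hn h0 _
      exact h0 (Int.natAbs_eq_zero.mp (Nat.le_zero.mp hn))
    | succ n ih =>
      intro X Y Z hn h0 h
      have hZ : Z ≠ 0 := right_ne_zero_of_mul h0
      have hX : X ≠ 0 := left_ne_zero_of_mul (left_ne_zero_of_mul h0)
      have hY : Y ≠ 0 := right_ne_zero_of_mul (left_ne_zero_of_mul h0)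
      have hdiv : ∀ r : ℤ, Prime r → r ∣ X → r ∣ Y → r ∣ Z → False := by
        rintro r hr ⟨X', rfl⟩ ⟨Y', rfl⟩ ⟨Z', rfl⟩
        have hr1 : 1 < r.natAbs := by
          have h1 := Int.natAbs_pos.mpr hr.ne_zero
          have h2 : r.natAbs ≠ 1 := fun h => hr.not_isUnit (Int.isUnit_iff_natAbs_eq.mpr h)
          omega
        have h1 : r * X' * (r * Y') * (r * Z') = r ^ 3 * (X' * Y' * Z') := by ring
        have h2 : X' * Y' * Z' ≠ 0 := by
          intro h3
          rw [h1, h3, mul_zero] at h0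
          exact h0 rfl
        have h3 : (X' * Y' * Z').natAbs < (r * X' * (r * Y') * (r * Z')).natAbs := by
          rw [h1, Int.natAbs_mul (r ^ 3), Int.natAbs_pow]
          have h4 := Int.natAbs_pos.mpr h2
          have h5 : 1 < r.natAbs ^ 3 := Nat.one_lt_pow (by norm_num) hr1
          nlinarith
        refine ih X' Y' Z' (by omega) h2 ?_
        apply mul_left_cancel₀ (pow_ne_zero 3 hr.ne_zero)
        linear_combination h
      -- pairwise coprime
      have key : ∀ x y z : ℤ, x ≠ 0 → x ^ 3 + y ^ 3 + z ^ 3 = a * (x * y * z) →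
          (∀ r : ℤ, Prime r → r ∣ x → r ∣ y → r ∣ z → False) → IsCoprime x y := by
        intro x y z hx h1 h2
        refine isCoprime_of_prime_dvd (fun h3 => hx h3.1) fun r hr h4 h5 => ?_
        refine h2 r hr h4 h5 (dvd_of_dvd_cube hr ?_)
        have h6 : z ^ 3 = x * (a * y * z) - x * x ^ 2 - y * y ^ 2 := by linear_combination h1
        rw [h6]
        exact dvd_sub (dvd_sub (h4.mul_right _) (h4.mul_right _)) (h5.mul_right _)
      have hXY : IsCoprime X Y := key X Y Z hX h hdiv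
      have hYZ : IsCoprime Y Z := key Y Z X hY (by linear_combination h)
        fun r hr h1 h2 h3 => hdiv r hr h3 h1 h2
      have hXZ : IsCoprime X Z := key X Z Y hX (by linear_combination h)
        fun r hr h1 h2 h3 => hdiv r hr h1 h3 h2
      have hfin : ∀ x y z : ℤ, IsCoprime x y → IsCoprime y z → IsCoprime x z → x * y * z ≠ 0 →
          (x * y * z).natAbs = (X * Y * Z).natAbs → x ^ 3 + y ^ 3 + z ^ 3 = a * (x * y * z) →
          a ^ 2 + 3 * a + 9 ∣ 3 * x + 3 * y + a * z → False := by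
        intro x y z h1 h2 h3 h4 h5 h6 h7
        obtain ⟨X', Y', Z', h8, h9, h10⟩ := exists_smaller ha h1 h2 h3 h4 h6 h7
        exact ih X' Y' Z' (by omega) h9 h8
      -- one of the three conjugates is divisible by `q`
      have hprod : a ^ 2 + 3 * a + 9 ∣
          (3 * X + 3 * Y + a * Z) * ((3 * Y + 3 * Z + a * X) * (3 * Z + 3 * X + a * Y)) := by
        refine ⟨(a + 6) * (X * Y * Z) + 3 * (X ^ 2 * Y + X * Y ^ 2 + Y ^ 2 * Z + Y * Z ^ 2 +
          Z ^ 2 * X + Z * X ^ 2), ?_⟩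
        linear_combination 9 * a * h
      have hq : Prime (a ^ 2 + 3 * a + 9) := by
        rcases ha with rfl | rfl
        · have : Prime ((19 : ℕ) : ℤ) := Nat.prime_iff_prime_int.mp (by norm_num)
          simpa using this
        · have : Prime ((37 : ℕ) : ℤ) := Nat.prime_iff_prime_int.mp (by norm_num)
          simpa using this
      rcases hq.dvd_or_dvd hprod with h1 | h1
      · exact hfin X Y Z hXY hYZ hXZ h0 rfl h h1
      · rcases hq.dvd_or_dvd h1 with h2 | h2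
        · have e : Y * Z * X = X * Y * Z := by ring
          exact hfin Y Z X hYZ hXZ.symm hXY.symm (by rw [e]; exact h0) (by rw [e])
            (by linear_combination h) h2
        · have e : Z * X * Y = X * Y * Z := by ring
          exact hfin Z X Y hXZ.symm hXY hYZ.symm (by rw [e]; exact h0) (by rw [e])
            (by linear_combination h) h2
  by_contra h0
  exact main _ X Y Z le_rfl h0 h

end Fermat.Agent.Cor.BSD.Hesse
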