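import Mathlib
import Fermat.Agent.LT.EisK

/-!
# Cubes which are norms from the Eisenstein integers

If `x² - x y + y² = d³` with `x, y` coprime and `3 ∤ d`, then `x + y ω = ω^i (p + q ω)³` with
`p² - p q + q² = d`.
-/

set_option autoImplicit false

noncomputable section

open NumberField

namespace Fermat.Agent.Cor.BSD.Hesse

open Fermat.Agent.LT.EisK

attribute [local instance] starO

/-- The rational part of the cube `(p + q ω)³ = A + 3 B ω`. -/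
def cA (p q : ℤ) : ℤ := p ^ 3 + q ^ 3 - 3 * p * q ^ 2

/-- The coefficient `B` of `(p + q ω)³ = A + 3 B ω`. -/
def cB (p q : ℤ) : ℤ := p * q * (p - q)

theorem isCoprime_conj {K : Type} [Field K] [NumberField K] [IsCyclotomicExtension {3} ℚ K]
    {ω : 𝓞 K} (hω : ω ^ 2 + ω + 1 = 0) {x y d : ℤ} (hc : IsCoprime x y)
    (h3 : IsCoprime (3 : ℤ) d) (h : x ^ 2 - x * y + y ^ 2 = d ^ 3) :
    IsCoprime ((x : 𝓞 K) + y * ω) (star ((x : 𝓞 K) + y * ω)) := by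
  obtain ⟨u, v, huv⟩ := hc
  obtain ⟨m, n, hmn⟩ : IsCoprime (3 : ℤ) (d ^ 3) := h3.pow_right
  rw [star_coord hω]
  have h1 : (u : 𝓞 K) * x + v * y = 1 := by exact_mod_cast huv
  have h2 : (m : 𝓞 K) * 3 + n * (x ^ 2 - x * y + y ^ 2) = 1 := by
    have h4 : m * 3 + n * (x ^ 2 - x * y + y ^ 2) = 1 := by rw [h]; exact hmn
    exact_mod_cast h4
  refine ⟨-m * (1 + 2 * ω) * (u * (1 + ω) + v) + n * (x - y - y * ω),
    -m * (1 + 2 * ω) * (u * ω - v), ?_⟩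
  push_cast
  linear_combination 3 * (m : 𝓞 K) * h1 + h2 + (-4 * (m : 𝓞 K) * (u * x + v * y) - n * y ^ 2) * hω

/-- The elements of norm one. -/
theorem unit_cases {a b : ℤ} (h : a ^ 2 - a * b + b ^ 2 = 1) :
    (b = 0 ∧ (a = 1 ∨ a = -1)) ∨ (a = 0 ∧ (b = 1 ∨ b = -1)) ∨ (a = b ∧ (b = 1 ∨ b = -1)) := by
  have hb : b ^ 2 ≤ 1 := by nlinarith [sq_nonneg (2 * a - b)]
  have ha : a ^ 2 ≤ 1 := by nlinarith [sq_nonneg (2 * b - a)]
  have hb1 : -1 ≤ b := by nlinarith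
  have hb2 : b ≤ 1 := by nlinarith
  have ha1 : -1 ≤ a := by nlinarith
  have ha2 : a ≤ 1 := by nlinarith
  interval_cases a <;> interval_cases b <;> simp_all

theorem exists_cube_aux (K : Type) [Field K] [NumberField K] [IsCyclotomicExtension {3} ℚ K]
    {x y d : ℤ} (hc : IsCoprime x y) (h3 : IsCoprime (3 : ℤ) d)
    (h : x ^ 2 - x * y + y ^ 2 = d ^ 3) :
    ∃ p q : ℤ, p ^ 2 - p * q + q ^ 2 = d ∧
      ((x = cA p q ∧ y = 3 * cB p q) ∨ (x = -3 * cB p q ∧ y = cA p q - 3 * cB p q) ∨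
        (x = 3 * cB p q - cA p q ∧ y = -cA p q)) := by
  have hpid : IsPrincipalIdealRing (𝓞 K) := isPrincipalIdealRing K
  obtain ⟨ω, hω⟩ := exists_omega' (K := K)
  have hcop := isCoprime_conj hω hc h3 h
  have hmul : ((x : 𝓞 K) + y * ω) * star ((x : 𝓞 K) + y * ω) = (d : 𝓞 K) ^ 3 := by
    rw [← nrm_eq, nrm_coord hω, h]
    push_cast
    ring
  obtain ⟨L, u, hL⟩ := exists_associated_pow_of_mul_eq_pow' hcop hmul
  obtain ⟨p, q, rfl⟩ := exists_coord hω L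
  obtain ⟨a, b, hu⟩ := exists_coord hω (u : 𝓞 K)
  have hu1 : nrm (u : 𝓞 K) = 1 := nrm_eq_one_iff.mpr u.isUnit
  rw [hu, nrm_coord hω] at hu1
  rw [hu] at hL
  -- the norm
  have hN : p ^ 2 - p * q + q ^ 2 = d := by
    have h5 := congrArg nrm hL
    rw [nrm_mul, nrm_coord hω, nrm_coord hω, hu1, mul_one, h, pow_succ, pow_two, nrm_mul, nrm_mul,
      nrm_coord hω] at h5
    have h6 : (p ^ 2 - p * q + q ^ 2) ^ 3 = d ^ 3 := by rw [← h5]; ring
    exact (Odd.strictMono_pow (by decide : Odd 3)).injective h6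
  -- the cube
  have hcube : ∀ p q : ℤ, ((p : 𝓞 K) + q * ω) ^ 3 = (cA p q : 𝓞 K) + ((3 * cB p q : ℤ) : 𝓞 K) * ω := by
    intro p q
    simp only [cA, cB]
    push_cast
    linear_combination ((q : 𝓞 K) ^ 3 * (ω - 1) + 3 * p * q ^ 2) * hω
  have key : ∀ {x y x' y' : ℤ}, (x : 𝓞 K) + y * ω = x' + y' * ω → x = x' ∧ y = y' := by
    intro x y x' y' h7
    have h8 := indep hω (x - x') (y - y') (by push_cast; linear_combination h7)
    exact ⟨by omega, by omega⟩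
  rw [hcube] at hL
  have hneg : cA (-p) (-q) = -cA p q ∧ cB (-p) (-q) = -cB p q := by
    simp only [cA, cB]
    constructor <;> ring
  have hneg2 : (-p) ^ 2 - (-p) * (-q) + (-q) ^ 2 = d := by rw [← hN]; ring
  rcases unit_cases hu1 with ⟨rfl, rfl | rfl⟩ | ⟨rfl, rfl | rfl⟩ | ⟨rfl, rfl | rfl⟩
  · obtain ⟨h8, h9⟩ := key (x := cA p q) (y := 3 * cB p q) (x' := x) (y' := y)
      (by rw [← hL]; push_cast; ring)
    exact ⟨p, q, hN, Or.inl ⟨h8.symm, h9.symm⟩⟩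
  · obtain ⟨h8, h9⟩ := key (x := -cA p q) (y := -3 * cB p q) (x' := x) (y' := y)
      (by rw [← hL]; push_cast; ring)
    refine ⟨-p, -q, hneg2, Or.inl ⟨?_, ?_⟩⟩
    · rw [hneg.1]; exact h8.symm
    · rw [hneg.2, ← h9]; ring
  · obtain ⟨h8, h9⟩ := key (x := -3 * cB p q) (y := cA p q - 3 * cB p q) (x' := x) (y' := y)
      (by rw [← hL]; push_cast; linear_combination (-3 * (cB p q : 𝓞 K)) * hω)
    exact ⟨p, q, hN, Or.inr (Or.inl ⟨h8.symm, h9.symm⟩)⟩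
  · obtain ⟨h8, h9⟩ := key (x := 3 * cB p q) (y := -cA p q + 3 * cB p q) (x' := x) (y' := y)
      (by rw [← hL]; push_cast; linear_combination (3 * (cB p q : 𝓞 K)) * hω)
    refine ⟨-p, -q, hneg2, Or.inr (Or.inl ⟨?_, ?_⟩)⟩
    · rw [hneg.2, ← h8]; ring
    · rw [hneg.1, hneg.2, ← h9]; ring
  · obtain ⟨h8, h9⟩ := key (x := cA p q - 3 * cB p q) (y := cA p q) (x' := x) (y' := y)
      (by rw [← hL]; push_cast; linear_combination (-3 * (cB p q : 𝓞 K)) * hω)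
    refine ⟨-p, -q, hneg2, Or.inr (Or.inr ⟨?_, ?_⟩)⟩
    · rw [hneg.1, hneg.2, ← h8]; ring
    · rw [hneg.1, ← h9]; ring
  · obtain ⟨h8, h9⟩ := key (x := -cA p q + 3 * cB p q) (y := -cA p q) (x' := x) (y' := y)
      (by rw [← hL]; push_cast; linear_combination (3 * (cB p q : 𝓞 K)) * hω)
    refine ⟨p, q, hN, Or.inr (Or.inr ⟨?_, ?_⟩)⟩
    · rw [← h8]; ring
    · rw [← h9]

/-- **Cubes of norms.** -/
theorem exists_cube {x y d : ℤ} (hc : IsCoprime x y) (h3 : IsCoprime (3 : ℤ) d)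
    (h : x ^ 2 - x * y + y ^ 2 = d ^ 3) :
    ∃ p q : ℤ, p ^ 2 - p * q + q ^ 2 = d ∧
      ((x = cA p q ∧ y = 3 * cB p q) ∨ (x = -3 * cB p q ∧ y = cA p q - 3 * cB p q) ∨
        (x = 3 * cB p q - cA p q ∧ y = -cA p q)) := by
  have h0 : NeZero ((3 : ℕ) : ℚ) := ⟨by norm_num⟩
  have h1 : IsCyclotomicExtension {3} ℚ (CyclotomicField 3 ℚ) :=
    CyclotomicField.isCyclotomicExtension 3 ℚ
  exact exists_cube_aux (CyclotomicField 3 ℚ) hc h3 h

end Fermat.Agent.Cor.BSD.Hesse
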