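import Fermat.Agent.Corollaries.LN.Integral
import Fermat.Agent.Corollaries.HW.LOne

/-!
# The point `(0, 0)` has infinite order on `y² + y = x³ + x²` and on `y² + y = x³ - x`

The curves `43a` and `37a`; `5 (0, 0)` is `(-3/4, 1/8)` and `(1/4, -5/8)` (Nagell - Lutz).
-/

set_option autoImplicit false

noncomputable section

namespace Fermat.Agent.Cor.BSD.Inf

open WeierstrassCurve Fermat.Agent.Cor.HW

section

variable {W : WeierstrassCurve ℚ} (h1 : W.a₁ = 0) (h3 : W.a₃ = 1)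

include h1 h3 in
/-- Doubling. -/
theorem add_self_eq {x y X Y : ℚ} (h : W.toAffine.Nonsingular x y) (hy : 2 * y + 1 ≠ 0) (l : ℚ)
    (hl : l * (2 * y + 1) = 3 * x ^ 2 + 2 * W.a₂ * x + W.a₄) (hX : X = l ^ 2 - W.a₂ - 2 * x)
    (hY : Y = -(l * (X - x) + y) - 1) : ∃ h' : W.toAffine.Nonsingular X Y,
      Affine.Point.some x y h + Affine.Point.some x y h = Affine.Point.some X Y h' := by
  have hne : y ≠ W.toAffine.negY x y := by
    rw [Affine.negY, h1, h3]
    intro h4
    apply hy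
    linarith
  have hsl : W.toAffine.slope x x y y = l := by
    rw [Affine.slope_of_Y_ne rfl hne, Affine.negY, h1, h3, div_eq_iff]
    · linear_combination -hl
    · intro h4
      apply hy
      linarith
  have hX' : W.toAffine.addX x x l = X := by
    rw [Affine.addX, h1, hX]
    ring
  have hY' : W.toAffine.addY x x y l = Y := by
    rw [Affine.addY, Affine.negAddY, hX', Affine.negY, h1, h3, hY]
    ring
  have h5 : W.toAffine.Nonsingular (W.toAffine.addX x x (W.toAffine.slope x x y y))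
      (W.toAffine.addY x x y (W.toAffine.slope x x y y)) :=
    Affine.nonsingular_add h h fun h => hne h.2
  have h6 := Affine.Point.add_self_of_Y_ne (h₁ := h) hne
  simp only [hsl, hX', hY'] at h5 h6
  exact ⟨h5, h6⟩

include h1 h3 in
/-- Addition. -/
theorem add_eq {x₁ y₁ x₂ y₂ X Y : ℚ} (ha : W.toAffine.Nonsingular x₁ y₁)
    (hb : W.toAffine.Nonsingular x₂ y₂) (hx : x₁ ≠ x₂) (l : ℚ) (hl : l * (x₁ - x₂) = y₁ - y₂)
    (hX : X = l ^ 2 - W.a₂ - x₁ - x₂) (hY : Y = -(l * (X - x₁) + y₁) - 1) :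
    ∃ h' : W.toAffine.Nonsingular X Y,
      Affine.Point.some x₁ y₁ ha + Affine.Point.some x₂ y₂ hb = Affine.Point.some X Y h' := by
  have hsl : W.toAffine.slope x₁ x₂ y₁ y₂ = l := by
    rw [Affine.slope_of_X_ne hx, div_eq_iff (sub_ne_zero.mpr hx)]
    exact hl.symm
  have hX' : W.toAffine.addX x₁ x₂ l = X := by
    rw [Affine.addX, h1, hX]
    ring
  have hY' : W.toAffine.addY x₁ x₂ y₁ l = Y := by
    rw [Affine.addY, Affine.negAddY, hX', Affine.negY, h1, h3, hY]
    ring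
  have h5 : W.toAffine.Nonsingular (W.toAffine.addX x₁ x₂ (W.toAffine.slope x₁ x₂ y₁ y₂))
      (W.toAffine.addY x₁ x₂ y₁ (W.toAffine.slope x₁ x₂ y₁ y₂)) :=
    Affine.nonsingular_add ha hb fun h => hx h.1
  have h6 := Affine.Point.add_some (h₁ := ha) (h₂ := hb) (fun h => hx h.1)
  simp only [hsl, hX', hY'] at h5 h6
  exact ⟨h5, h6⟩

end

/-- A multiple of a point of finite order has finite order. -/
theorem fin_of_eq {A : Type*} [AddCommGroup A] {P P2 P4 P5 : A} (h : IsOfFinAddOrder P)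
    (h2 : P + P = P2) (h4 : P2 + P2 = P4) (h5 : P4 + P = P5) : IsOfFinAddOrder P5 := by
  rw [← h5, ← h4, ← h2]
  exact ((h.add h).add (h.add h)).add h

/-- A point whose abscissa is not an integer and which has not order two is of infinite order. -/
theorem not_fin {W : WeierstrassCurve ℤ} (h1 : (W.map (Int.castRingHom ℚ)).a₁ = 0)
    (h3 : (W.map (Int.castRingHom ℚ)).a₃ = 1) {X Y : ℚ}
    (h : (LN.EQQ W).Nonsingular X Y) (hY : 2 * Y + 1 ≠ 0) (hX : ∀ a : ℤ, X ≠ a) :
    ¬ IsOfFinAddOrder (Affine.Point.some X Y h : (LN.EQQ W).Point) := by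
  intro hfin
  have h2 : 2 • (Affine.Point.some X Y h : (LN.EQQ W).Point) ≠ 0 := by
    intro h0
    rw [two_nsmul, add_eq_zero_iff_eq_neg, Affine.Point.neg_some,
      Affine.Point.some.injEq] at h0
    have h4 := h0.2
    rw [Affine.negY, h1, h3] at h4
    apply hY
    linarith
  obtain ⟨a, -, ha, -⟩ := LN.exists_int_of_torsion hfin h2
  exact hX a ha

/-! ### `43a` -/

theorem equation43 (x y : ℚ) :
    (LN.EQQ E43).Equation x y ↔ y ^ 2 + y = x ^ 3 + x ^ 2 := by
  rw [Affine.equation_iff]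
  simp [E43]

theorem Δ43 : (E43.map (Int.castRingHom ℚ)).Δ = -43 := by
  rw [map_Δ, show E43.Δ = -43 from by decide]
  norm_num

instance : (E43.map (Int.castRingHom ℚ)).IsElliptic := by
  rw [isElliptic_iff, Δ43]
  norm_num

theorem nonsing43 {x y : ℚ} (h : y ^ 2 + y = x ^ 3 + x ^ 2) : (LN.EQQ E43).Nonsingular x y :=
  (Affine.equation_iff_nonsingular ..).mp ((equation43 x y).mpr h)

/-- The point `(0, 0)` of `y² + y = x³ + x²`. -/
def G43 : (LN.EQQ E43).Point := .some 0 0 (nonsing43 (by norm_num))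

/-- **`(0, 0)` has infinite order on `y² + y = x³ + x²`.** -/
theorem not_torsion_G43 : ¬ IsOfFinAddOrder G43 := by
  intro hfin
  have a1 : (E43.map (Int.castRingHom ℚ)).a₁ = 0 := by simp [E43]
  have a2 : (E43.map (Int.castRingHom ℚ)).a₂ = 1 := by simp [E43]
  have a3 : (E43.map (Int.castRingHom ℚ)).a₃ = 1 := by simp [E43]
  have a4 : (E43.map (Int.castRingHom ℚ)).a₄ = 0 := by simp [E43]
  have h0 : (LN.EQQ E43).Nonsingular 0 0 := nonsing43 (by norm_num)
  obtain ⟨h2, e2⟩ := add_self_eq a1 a3 (X := -1) (Y := -1) h0 (by norm_num) 0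
    (by rw [a4]; norm_num) (by rw [a2]; norm_num) (by norm_num)
  obtain ⟨h4, e4⟩ := add_self_eq a1 a3 (X := 2) (Y := 3) h2 (by norm_num) (-1)
    (by rw [a2, a4]; norm_num) (by rw [a2]; norm_num) (by norm_num)
  obtain ⟨h5, e5⟩ := add_eq a1 a3 (X := -3 / 4) (Y := 1 / 8) h4 h0 (by norm_num) (3 / 2)
    (by norm_num) (by rw [a2]; norm_num) (by norm_num)
  refine not_fin a1 a3 h5 (by norm_num) (fun a ha => ?_) (fin_of_eq hfin e2 e4 e5)
  have h6 : ((-3 : ℤ) : ℚ) = ((4 * a : ℤ) : ℚ) := by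
    push_cast
    linarith
  have h7 : (-3 : ℤ) = 4 * a := by exact_mod_cast h6
  omega

/-! ### `37a` -/

theorem equation37 (x y : ℚ) :
    (LN.EQQ E37).Equation x y ↔ y ^ 2 + y = x ^ 3 - x := by
  rw [Affine.equation_iff]
  simp [E37]
  ring_nf

theorem Δ37 : (E37.map (Int.castRingHom ℚ)).Δ = 37 := by
  rw [map_Δ, show E37.Δ = 37 from by decide]
  norm_num

instance : (E37.map (Int.castRingHom ℚ)).IsElliptic := by
  rw [isElliptic_iff, Δ37]
  norm_num

theorem nonsing37 {x y : ℚ} (h : y ^ 2 + y = x ^ 3 - x) : (LN.EQQ E37).Nonsingular x y :=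
  (Affine.equation_iff_nonsingular ..).mp ((equation37 x y).mpr h)

/-- The point `(0, 0)` of `y² + y = x³ - x`. -/
def G37 : (LN.EQQ E37).Point := .some 0 0 (nonsing37 (by norm_num))

/-- **`(0, 0)` has infinite order on `y² + y = x³ - x`.** -/
theorem not_torsion_G37 : ¬ IsOfFinAddOrder G37 := by
  intro hfin
  have a1 : (E37.map (Int.castRingHom ℚ)).a₁ = 0 := by simp [E37]
  have a2 : (E37.map (Int.castRingHom ℚ)).a₂ = 0 := by simp [E37]
  have a3 : (E37.map (Int.castRingHom ℚ)).a₃ = 1 := by simp [E37]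
  have a4 : (E37.map (Int.castRingHom ℚ)).a₄ = -1 := by simp [E37]
  have h0 : (LN.EQQ E37).Nonsingular 0 0 := nonsing37 (by norm_num)
  obtain ⟨h2, e2⟩ := add_self_eq a1 a3 (X := 1) (Y := 0) h0 (by norm_num) (-1)
    (by rw [a4]; norm_num) (by rw [a2]; norm_num) (by norm_num)
  obtain ⟨h4, e4⟩ := add_self_eq a1 a3 (X := 2) (Y := -3) h2 (by norm_num) 2
    (by rw [a2, a4]; norm_num) (by rw [a2]; norm_num) (by norm_num)
  obtain ⟨h5, e5⟩ := add_eq a1 a3 (X := 1 / 4) (Y := -5 / 8) h4 h0 (by norm_num) (-3 / 2)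
    (by norm_num) (by rw [a2]; norm_num) (by norm_num)
  refine not_fin a1 a3 h5 (by norm_num) (fun a ha => ?_) (fin_of_eq hfin e2 e4 e5)
  have h6 : ((1 : ℤ) : ℚ) = ((4 * a : ℤ) : ℚ) := by
    push_cast
    linarith
  have h7 : (1 : ℤ) = 4 * a := by exact_mod_cast h6
  omega

end Fermat.Agent.Cor.BSD.Inf

end
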