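import Fermat.Agent.Corollaries.BSD.TwoIsog

/-!
# Three collinear points and a root of the 2-torsion polynomial in an extension

`W` over a field `F`, `f : F → K`, `θ ∈ K` a root of `4 θ³ + b₂ θ² + 2 b₄ θ + b₆`, `P₁ + P₂ = P₃`
points over `F`: `(x₁ - θ) (x₂ - θ) (x₃ - θ)` is a square in `K`.
-/

set_option autoImplicit false

noncomputable section

namespace Fermat.Agent.Cor.BSD.LineK

open WeierstrassCurve
open Fermat.Agent.Cor.MordellWeil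

variable {F K : Type*} [Field F] [Field K] [DecidableEq F]

/-- The line, over an extension. -/
theorem isSquare_line_map (f : F →+* K) (h2 : (2 : F) ≠ 0) {W : WeierstrassCurve F} {θ : K}
    (hθ : 4 * θ ^ 3 + f W.b₂ * θ ^ 2 + 2 * f W.b₄ * θ + f W.b₆ = 0) {x₁ x₂ y₁ y₂ : F}
    (h₁ : W.toAffine.Equation x₁ y₁) (h₂ : W.toAffine.Equation x₂ y₂)
    (hxy : ¬(x₁ = x₂ ∧ y₁ = W.toAffine.negY x₂ y₂)) :
    IsSquare ((f x₁ - θ) * (f x₂ - θ) *
      (f (W.toAffine.addX x₁ x₂ (W.toAffine.slope x₁ x₂ y₁ y₂)) - θ)) := by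
  classical
  have h2' : (2 : K) ≠ 0 := by
    have := (map_ne_zero f).mpr h2
    rwa [map_ofNat] at this
  have hθ' : 4 * θ ^ 3 + (W.map f).b₂ * θ ^ 2 + 2 * (W.map f).b₄ * θ + (W.map f).b₆ = 0 := by
    rw [map_b₂, map_b₄, map_b₆]
    exact hθ
  have hxy' : ¬(f x₁ = f x₂ ∧ f y₁ = (W.map f).toAffine.negY (f x₂) (f y₂)) := by
    rintro ⟨h3, h4⟩
    rw [Affine.map_negY] at h4
    exact hxy ⟨f.injective h3, f.injective h4⟩
  have h := isSquare_line h2' hθ' ((Affine.map_equation W.toAffine f.injective x₁ y₁).mpr h₁)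
    ((Affine.map_equation W.toAffine f.injective x₂ y₂).mpr h₂) hxy'
  rwa [Affine.map_slope, Affine.map_addX] at h

/-- **`P₁ + P₂ = P₃` over `F`: `(x₁ - θ) (x₂ - θ) (x₃ - θ)` is a square in `K`.** -/
theorem isSquare_of_add_map (f : F →+* K) (h2 : (2 : F) ≠ 0) {W : WeierstrassCurve F} {θ : K}
    (hθ : 4 * θ ^ 3 + f W.b₂ * θ ^ 2 + 2 * f W.b₄ * θ + f W.b₆ = 0) {x₁ x₂ x₃ y₁ y₂ y₃ : F}
    {h₁ : W.toAffine.Nonsingular x₁ y₁} {h₂ : W.toAffine.Nonsingular x₂ y₂}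
    {h₃ : W.toAffine.Nonsingular x₃ y₃}
    (h : Affine.Point.some x₁ y₁ h₁ + Affine.Point.some x₂ y₂ h₂ = Affine.Point.some x₃ y₃ h₃) :
    IsSquare ((f x₁ - θ) * (f x₂ - θ) * (f x₃ - θ)) := by
  by_cases hxy : x₁ = x₂ ∧ y₁ = W.toAffine.negY x₂ y₂
  · rw [Affine.Point.add_of_Y_eq hxy.1 hxy.2] at h
    exact absurd h.symm (by simp)
  · rw [Affine.Point.add_some hxy] at h
    simp only [Affine.Point.some.injEq] at h
    rw [← h.1]
    exact isSquare_line_map f h2 hθ h₁.1 h₂.1 hxy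

/-- The same with `algebraMap`. -/
theorem isSquare_of_add_algebraMap [Algebra F K] (h2 : (2 : F) ≠ 0) {W : WeierstrassCurve F} {θ : K}
    (hθ : 4 * θ ^ 3 + algebraMap F K W.b₂ * θ ^ 2 + 2 * algebraMap F K W.b₄ * θ +
      algebraMap F K W.b₆ = 0) {x₁ x₂ x₃ y₁ y₂ y₃ : F}
    {h₁ : W.toAffine.Nonsingular x₁ y₁} {h₂ : W.toAffine.Nonsingular x₂ y₂}
    {h₃ : W.toAffine.Nonsingular x₃ y₃}
    (h : Affine.Point.some x₁ y₁ h₁ + Affine.Point.some x₂ y₂ h₂ = Affine.Point.some x₃ y₃ h₃) :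
    IsSquare ((algebraMap F K x₁ - θ) * (algebraMap F K x₂ - θ) * (algebraMap F K x₃ - θ)) :=
  isSquare_of_add_map (algebraMap F K) h2 hθ h

/-- Two points in the same class: if `(x₁ - θ) (x₂ - θ)` is a square then so is `x₃ - θ`, for
`θ` not in the image of `F`. -/
theorem isSquare_third (f : F →+* K) (h2 : (2 : F) ≠ 0) {W : WeierstrassCurve F} {θ : K}
    (hθ : 4 * θ ^ 3 + f W.b₂ * θ ^ 2 + 2 * f W.b₄ * θ + f W.b₆ = 0) (hθF : ∀ x : F, f x ≠ θ)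
    {x₁ x₂ x₃ y₁ y₂ y₃ : F} {h₁ : W.toAffine.Nonsingular x₁ y₁}
    {h₂ : W.toAffine.Nonsingular x₂ y₂} {h₃ : W.toAffine.Nonsingular x₃ y₃}
    (h : Affine.Point.some x₁ y₁ h₁ + Affine.Point.some x₂ y₂ h₂ = Affine.Point.some x₃ y₃ h₃)
    (h12 : IsSquare ((f x₁ - θ) * (f x₂ - θ))) : IsSquare (f x₃ - θ) := by
  have h3 := isSquare_of_add_map f h2 hθ h
  have hne : (f x₁ - θ) * (f x₂ - θ) ≠ 0 :=
    mul_ne_zero (sub_ne_zero.mpr (hθF x₁)) (sub_ne_zero.mpr (hθF x₂))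
  have h4 := h3.div h12
  rwa [mul_div_cancel_left₀ _ hne] at h4

end Fermat.Agent.Cor.BSD.LineK
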