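import Fermat.Agent.Corollaries.BSD.Inf43
import Fermat.Agent.Corollaries.MordellWeil.Main

/-!
# One half of the rank part of Birch - Swinnerton-Dyer for `37a` and `43a`

For `y² + y = x³ - x` and `y² + y = x³ + x²` the order of vanishing of `L(E, s)` at `s = 1` is `1`
and the rank of `E(ℚ)` is at least `1`.
-/

set_option autoImplicit false

noncomputable section

namespace Fermat.Agent.Cor.BSD.Inf

open WeierstrassCurve Fermat.Agent.Cor.HW
open Fermat.Agent.Cor.MordellWeil (mordell_weil)

/-- A finitely generated abelian group with an element of infinite order has rank at least one. -/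
theorem one_le_finrank {A : Type*} [AddCommGroup A] (hfg : AddGroup.FG A) {P : A}
    (hP : ¬ IsOfFinAddOrder P) : 1 ≤ Module.finrank ℤ A := by
  have hfin : Module.Finite ℤ A := Module.Finite.iff_addGroup_fg.mpr hfg
  by_contra hcon
  have h0 : Module.finrank ℤ A = 0 := by omega
  rw [Module.finrank_eq_zero_iff] at h0
  obtain ⟨a, ha, h⟩ := h0 P
  refine hP (isOfFinAddOrder_iff_nsmul_eq_zero.mpr ⟨a.natAbs, by omega, ?_⟩)
  rcases Int.natAbs_eq a with h1 | h1
  · rw [h1] at h
    rwa [natCast_zsmul] at h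
  · rw [h1, neg_smul, neg_eq_zero, natCast_zsmul] at h
    exact h

/-- The rank of `y² + y = x³ + x²` over `ℚ` is at least one. -/
theorem one_le_finrank_43 :
    1 ≤ Module.finrank ℤ (E43.map (Int.castRingHom ℚ)).toAffine.Point :=
  one_le_finrank (mordell_weil ℚ (E43.map (Int.castRingHom ℚ))) not_torsion_G43

/-- The rank of `y² + y = x³ - x` over `ℚ` is at least one. -/
theorem one_le_finrank_37 :
    1 ≤ Module.finrank ℤ (E37.map (Int.castRingHom ℚ)).toAffine.Point :=
  one_le_finrank (mordell_weil ℚ (E37.map (Int.castRingHom ℚ))) not_torsion_G37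

/-- `ord_{s = 1} L(E, s) = 1 ≤ rank E(ℚ)` for `y² + y = x³ + x²` (conductor `43`). -/
theorem order_le_rank_43 {L : ℂ → ℂ} (hL : IsHasseWeil E43 L) :
    analyticOrderNatAt L 1 = 1 ∧
      analyticOrderNatAt L 1 ≤ Module.finrank ℤ (E43.map (Int.castRingHom ℚ)).toAffine.Point :=
  ⟨order_43a hL, by rw [order_43a hL]; exact one_le_finrank_43⟩

/-- `ord_{s = 1} L(E, s) = 1 ≤ rank E(ℚ)` for `y² + y = x³ - x` (conductor `37`). -/
theorem order_le_rank_37 {L : ℂ → ℂ} (hL : IsHasseWeil E37 L) :
    analyticOrderNatAt L 1 = 1 ∧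
      analyticOrderNatAt L 1 ≤ Module.finrank ℤ (E37.map (Int.castRingHom ℚ)).toAffine.Point :=
  ⟨order_37a hL, by rw [order_37a hL]; exact one_le_finrank_37⟩

end Fermat.Agent.Cor.BSD.Inf

end
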