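import Mathlib

/-!
# The cubic field of discriminant `148`: the real place where `x(P) - θ` is positive

`ζ³ - 4 ζ + 2 = 0`, `θ = ζ / 2` an abscissa of a point of order two on `37a : y² + y = x³ - x`. There is a
real embedding `σ` with `σ(ζ) < -2` (the smallest root), for every rational point `(x, y)` the number
`x - θ` is positive there, and `ζ - 1` is a unit of norm `1` which is negative there.
-/

set_option autoImplicit false

open NumberField Module Polynomial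

namespace Fermat.Agent.Cor.BSD.Sign37

variable {K : Type*} [Field K] [NumberField K] {ζ : K}

/-- `N(x - y ζ)`. -/
theorem norm_lin (B : Basis (Fin 3) ℚ K) (hB0 : B 0 = 1) (hB1 : B 1 = ζ) (hB2 : B 2 = ζ ^ 2)
    (hζ : ζ ^ 3 - 4 * ζ + 2 = 0) (x y : ℚ) :
    Algebra.norm ℚ (algebraMap ℚ K x - algebraMap ℚ K y * ζ) =
      x ^ 3 - 4 * x * y ^ 2 + 2 * y ^ 3 := by
  have a0 : (algebraMap ℚ K x - algebraMap ℚ K y * ζ) * B 0 = x • B 0 + (-y) • B 1 := by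
    rw [hB0, hB1, Algebra.smul_def, Algebra.smul_def, map_neg]; ring
  have a1 : (algebraMap ℚ K x - algebraMap ℚ K y * ζ) * B 1 = x • B 1 + (-y) • B 2 := by
    rw [hB1, hB2, Algebra.smul_def, Algebra.smul_def, map_neg]; ring
  have a2 : (algebraMap ℚ K x - algebraMap ℚ K y * ζ) * B 2 =
      x • B 2 + (2 * y) • B 0 + (-4 * y) • B 1 := by
    rw [hB0, hB1, hB2, Algebra.smul_def, Algebra.smul_def, Algebra.smul_def]
    simp only [map_mul, map_neg, map_ofNat]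
    linear_combination (-(algebraMap ℚ K y)) * hζ
  have hM : Algebra.leftMulMatrix B (algebraMap ℚ K x - algebraMap ℚ K y * ζ) =
      !![x, 0, 2 * y; -y, x, -4 * y; 0, -y, x] := by
    ext i j
    rw [Algebra.leftMulMatrix_eq_repr_mul]
    fin_cases j
    · simp only [Fin.zero_eta]
      rw [a0]
      fin_cases i <;> simp
    · simp only [Fin.mk_one]
      rw [a1]
      fin_cases i <;> simp
    · simp only [Fin.reduceFinMk]
      rw [a2]
      fin_cases i <;> simp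
  rw [Algebra.norm_eq_matrix_det B, hM, Matrix.det_fin_three]
  simp
  ring

/-- The power basis. -/
noncomputable def pb (B : Basis (Fin 3) ℚ K) (hB0 : B 0 = 1) (hB1 : B 1 = ζ) (hB2 : B 2 = ζ ^ 2) :
    PowerBasis ℚ K where
  gen := ζ
  dim := 3
  basis := B
  basis_eq_pow i := by
    fin_cases i
    · simpa using hB0
    · simpa using hB1
    · simpa using hB2

theorem minpoly_eq (B : Basis (Fin 3) ℚ K) (hB0 : B 0 = 1) (hB1 : B 1 = ζ) (hB2 : B 2 = ζ ^ 2)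
    (hζ : ζ ^ 3 - 4 * ζ + 2 = 0) : minpoly ℚ ζ = X ^ 3 - C 4 * X + C 2 := by
  have hmonic : (X ^ 3 - C 4 * X + C 2 : ℚ[X]).Monic := by monicity!
  have hdeg : (X ^ 3 - C 4 * X + C 2 : ℚ[X]).natDegree = 3 := by compute_degree!
  have hint : IsIntegral ℚ ζ := Algebra.IsIntegral.isIntegral ζ
  have hnd : (minpoly ℚ ζ).natDegree = 3 := (pb B hB0 hB1 hB2).natDegree_minpoly
  have hdvd : minpoly ℚ ζ ∣ X ^ 3 - C 4 * X + C 2 := by
    apply minpoly.dvd
    simp only [map_add, map_sub, map_mul, map_pow, aeval_X, map_ofNat]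
    exact hζ
  exact (eq_of_monic_of_dvd_of_natDegree_le (minpoly.monic hint) hmonic hdvd
    (by rw [hdeg, hnd])).symm

/-- The smallest root. -/
theorem exists_root : ∃ z : ℝ, z < -2 ∧ z ^ 3 - 4 * z + 2 = 0 := by
  have hcont : ContinuousOn (fun z : ℝ => z ^ 3 - 4 * z + 2) (Set.Icc (-3) (-2)) := by fun_prop
  have h := intermediate_value_Icc (by norm_num : (-3 : ℝ) ≤ -2) hcont
  obtain ⟨z, hz, hz0⟩ := h (show (0 : ℝ) ∈ Set.Icc _ _ by constructor <;> norm_num)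
  refine ⟨z, lt_of_le_of_ne hz.2 ?_, hz0⟩
  rintro rfl
  norm_num at hz0

/-- **The real embedding** with `σ(ζ) < -2`. -/
theorem exists_sigma (B : Basis (Fin 3) ℚ K) (hB0 : B 0 = 1) (hB1 : B 1 = ζ) (hB2 : B 2 = ζ ^ 2)
    (hζ : ζ ^ 3 - 4 * ζ + 2 = 0) : ∃ σ : K →+* ℝ, σ ζ < -2 := by
  obtain ⟨z, hz, hz0⟩ := exists_root
  have haz : aeval z (minpoly ℚ (pb B hB0 hB1 hB2).gen) = 0 := by
    change aeval z (minpoly ℚ ζ) = 0
    rw [minpoly_eq B hB0 hB1 hB2 hζ]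
    simp only [map_add, map_sub, map_mul, map_pow, aeval_X, map_ofNat]
    exact hz0
  refine ⟨((pb B hB0 hB1 hB2).lift z haz).toRingHom, ?_⟩
  have h1 : (pb B hB0 hB1 hB2).lift z haz ζ = z := (pb B hB0 hB1 hB2).lift_gen z haz
  change (pb B hB0 hB1 hB2).lift z haz ζ < -2
  rw [h1]
  exact hz

/-- `ζ` is not rational. -/
theorem ne_rat (B : Basis (Fin 3) ℚ K) (hB0 : B 0 = 1) (hB1 : B 1 = ζ) (x : ℚ) :
    ζ ≠ algebraMap ℚ K x := by
  intro h
  have h1 : x • B 0 + (-1 : ℚ) • B 1 = 0 := by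
    rw [hB0, hB1, Algebra.smul_def, neg_smul, one_smul, mul_one, h]
    ring
  have g1 := DFunLike.congr_fun (congrArg B.repr h1) 1
  simp at g1

/-- **`x(P) - θ` is positive at the smallest root.** -/
theorem sub_pos (B : Basis (Fin 3) ℚ K) (hB0 : B 0 = 1) (hB1 : B 1 = ζ)
    (hζ : ζ ^ 3 - 4 * ζ + 2 = 0) {σ : K →+* ℝ} (hσ : σ ζ < -2) {x y : ℚ}
    (h : y ^ 2 + y = x ^ 3 - x) : 0 < σ (algebraMap ℚ K x - ζ / 2) := by
  have hz0 : σ ζ ^ 3 - 4 * σ ζ + 2 = 0 := by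
    have h1 := congrArg σ hζ
    rwa [map_add, map_sub, map_pow, map_mul, map_zero, map_ofNat, map_ofNat] at h1
  have hx : σ (algebraMap ℚ K x) = (x : ℝ) := by
    rw [eq_ratCast, map_ratCast]
  rw [map_sub, map_div₀, hx, map_ofNat]
  have hreal : ((y : ℝ)) ^ 2 + y = x ^ 3 - x := by exact_mod_cast h
  have hne : (2 * x : ℝ) ≠ σ ζ := by
    intro h1
    apply ne_rat B hB0 hB1 (2 * x)
    apply σ.injective
    rw [← h1, eq_ratCast, map_ratCast]
    push_cast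
    ring
  by_contra hle
  have hle' : (2 * x : ℝ) < σ ζ := lt_of_le_of_ne (by linarith) hne
  have h2 : 0 ≤ (2 * (x : ℝ)) ^ 3 - 4 * (2 * x) + 2 := by
    have h3 : (2 * (x : ℝ)) ^ 3 - 4 * (2 * x) + 2 = 2 * (2 * (y : ℝ) + 1) ^ 2 := by
      linear_combination -8 * hreal
    rw [h3]
    positivity
  generalize σ ζ = z at hσ hz0 hle' 
  generalize (2 * (x : ℝ)) = w at hle' h2
  have h4 : w ^ 3 - 4 * w + 2 = (w - z) * (w ^ 2 + w * z + z ^ 2 - 4) := by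
    linear_combination hz0
  have h5 : 0 < w ^ 2 + w * z + z ^ 2 - 4 := by nlinarith
  rw [h4] at h2
  nlinarith

/-- **The unit `ζ - 1`.** -/
theorem exists_unit (B : Basis (Fin 3) ℚ K) (hB0 : B 0 = 1) (hB1 : B 1 = ζ) (hB2 : B 2 = ζ ^ 2)
    (hζ : ζ ^ 3 - 4 * ζ + 2 = 0) : ∃ η : (𝓞 K)ˣ, ((η : 𝓞 K) : K) = ζ - 1 ∧
      Algebra.norm ℚ ((η : 𝓞 K) : K) = 1 := by
  have hint : IsIntegral ℤ ζ := by
    refine ⟨X ^ 3 - C 4 * X + C 2, by monicity!, ?_⟩
    simp only [eval₂_add, eval₂_sub, eval₂_mul, eval₂_pow, eval₂_X, eval₂_C]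
    simpa using hζ
  obtain ⟨z, hz⟩ : ∃ z : 𝓞 K, algebraMap (𝓞 K) K z = ζ := ⟨⟨ζ, hint⟩, rfl⟩
  have h1 : (z - 1) * (z ^ 2 + z - 3) = 1 := by
    apply RingOfIntegers.coe_injective
    rw [map_mul, map_sub, map_sub, map_add, map_pow, map_one, map_ofNat, hz]
    linear_combination hζ
  have hcoe : (((Units.mkOfMulEqOne _ _ h1 : (𝓞 K)ˣ) : 𝓞 K) : K) = ζ - 1 := by
    rw [Units.val_mkOfMulEqOne]
    change algebraMap (𝓞 K) K (z - 1) = ζ - 1
    rw [map_sub, map_one, hz]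
  refine ⟨Units.mkOfMulEqOne _ _ h1, hcoe, ?_⟩
  rw [hcoe]
  have h2 := norm_lin B hB0 hB1 hB2 hζ (-1) (-1)
  have h3 : algebraMap ℚ K (-1) - algebraMap ℚ K (-1) * ζ = ζ - 1 := by
    rw [map_neg, map_one]
    ring
  rw [h3] at h2
  rw [h2]
  norm_num

/-- The norm of `x(P) - θ` is a square. -/
theorem norm_sub (B : Basis (Fin 3) ℚ K) (hB0 : B 0 = 1) (hB1 : B 1 = ζ) (hB2 : B 2 = ζ ^ 2)
    (hζ : ζ ^ 3 - 4 * ζ + 2 = 0) {x y : ℚ} (h : y ^ 2 + y = x ^ 3 - x) :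
    Algebra.norm ℚ (algebraMap ℚ K x - ζ / 2) = (y + 1 / 2) ^ 2 := by
  have h1 := norm_lin B hB0 hB1 hB2 hζ x (1 / 2)
  have h2 : algebraMap ℚ K x - algebraMap ℚ K (1 / 2) * ζ = algebraMap ℚ K x - ζ / 2 := by
    rw [map_div₀, map_one, map_ofNat]
    ring
  rw [h2] at h1
  rw [h1]
  linear_combination -h

end Fermat.Agent.Cor.BSD.Sign37
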