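import Mathlib

/-!
# Elements with even valuations in a field of class number one

`K` a number field of class number one, `α ∈ K`, `α ≠ 0`, all the valuations of `α` are squares (of
the value group): `α` is a unit times a square.
-/

set_option autoImplicit false

noncomputable section

namespace Fermat.Agent.Cor.BSD

open IsDedekindDomain NumberField

namespace SqUnit

variable {R : Type*} [CommRing R] [IsDedekindDomain R] [IsPrincipalIdealRing R]
variable {K : Type*} [Field K] [Algebra R K] [IsFractionRing R K]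

omit [IsPrincipalIdealRing R] in
theorem sq_dvd {p c : R} (hp : Prime p) (hc : c ≠ 0) (hpc : p ∣ c)
    (h : ∀ v : HeightOneSpectrum R, IsSquare (v.valuation K (algebraMap R K c))) : p ^ 2 ∣ c := by
  let v : HeightOneSpectrum R :=
    ⟨Ideal.span {p}, (Ideal.span_singleton_prime hp.ne_zero).mpr hp,
      fun h => hp.ne_zero (Ideal.span_singleton_eq_bot.mp h)⟩
  have h1 : v.intValuation c ≤ WithZero.exp (-((1 : ℕ) : ℤ)) := by
    rw [v.intValuation_le_pow_iff_mem, pow_one]
    exact Ideal.mem_span_singleton.mpr hpc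
  obtain ⟨w, hw⟩ := h v
  rw [v.valuation_of_algebraMap] at hw
  have hc0 : v.intValuation c ≠ 0 := v.intValuation_ne_zero _ hc
  have hw0 : w ≠ 0 := by
    rintro rfl
    rw [mul_zero] at hw
    exact hc0 hw
  obtain ⟨k, rfl⟩ : ∃ k : ℤ, w = WithZero.exp k := ⟨WithZero.log w, (WithZero.exp_log hw0).symm⟩
  rw [← WithZero.exp_add] at hw
  rw [hw, WithZero.exp_le_exp] at h1
  have h2 : v.intValuation c ≤ WithZero.exp (-((2 : ℕ) : ℤ)) := by
    rw [hw, WithZero.exp_le_exp]
    push_cast at h1 ⊢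
    omega
  rw [v.intValuation_le_pow_iff_mem] at h2
  have h3 : c ∈ Ideal.span {p} ^ 2 := h2
  rw [Ideal.span_singleton_pow] at h3
  exact Ideal.mem_span_singleton.mp h3

theorem exists_int (c : R) : c ≠ 0 →
    (∀ v : HeightOneSpectrum R, IsSquare (v.valuation K (algebraMap R K c))) →
    ∃ (u : Rˣ) (d : R), c = u * d ^ 2 := by
  refine IsWellFounded.induction (DvdNotUnit : R → R → Prop)
    (motive := fun c => c ≠ 0 →
      (∀ v : HeightOneSpectrum R, IsSquare (v.valuation K (algebraMap R K c))) →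
        ∃ (u : Rˣ) (d : R), c = u * d ^ 2) c ?_
  intro c ih hc h
  by_cases hu : IsUnit c
  · obtain ⟨u, rfl⟩ := hu
    exact ⟨u, 1, by ring⟩
  · obtain ⟨p, hp, hpc⟩ := WfDvdMonoid.exists_irreducible_factor hu hc
    have hp' : Prime p := hp.prime
    obtain ⟨c', hc'⟩ := sq_dvd (K := K) hp' hc hpc h
    have hc'0 : c' ≠ 0 := by
      rintro rfl
      exact hc (by rw [hc', mul_zero])
    obtain ⟨u, d, hd⟩ := ih c' ⟨hc'0, p ^ 2, fun h => hp'.not_isUnit (isUnit_pow_iff two_ne_zero |>.mp h),
      by rw [hc']; ring⟩ hc'0 (fun v => by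
        have h1 := h v
        rw [hc', map_mul, map_mul, map_pow, map_pow] at h1
        have hv : v.valuation K (algebraMap R K p) ≠ 0 := by
          rw [ne_eq, map_eq_zero, FaithfulSMul.algebraMap_eq_zero_iff]
          exact hp'.ne_zero
        have h2 := h1.div (IsSquare.mul_self (v.valuation K (algebraMap R K p)))
        rwa [← sq, mul_div_cancel_left₀ _ (pow_ne_zero 2 hv)] at h2)
    exact ⟨u, p * d, by rw [hc', hd]; ring⟩

end SqUnit

/-- **Even valuations, class number one: a unit times a square.** -/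
theorem exists_unit_mul_sq {K : Type*} [Field K] [NumberField K] [IsPrincipalIdealRing (𝓞 K)]
    {α : K} (hα : α ≠ 0) (h : ∀ v : HeightOneSpectrum (𝓞 K), IsSquare (v.valuation K α)) :
    ∃ (u : (𝓞 K)ˣ) (β : K), β ≠ 0 ∧ α = (u : K) * β ^ 2 := by
  obtain ⟨a, b, hb, rfl⟩ := IsFractionRing.div_surjective (A := 𝓞 K) α
  have hb0 : b ≠ 0 := nonZeroDivisors.ne_zero hb
  have hbK : algebraMap (𝓞 K) K b ≠ 0 := by
    rwa [ne_eq, FaithfulSMul.algebraMap_eq_zero_iff]
  have ha0 : a ≠ 0 := by
    rintro rfl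
    exact hα (by rw [map_zero, zero_div])
  obtain ⟨u, d, hd⟩ := SqUnit.exists_int (K := K) (a * b) (mul_ne_zero ha0 hb0) (fun v => by
    have h1 := (h v).mul (IsSquare.mul_self (v.valuation K (algebraMap (𝓞 K) K b)))
    rwa [← map_mul, ← map_mul, div_mul_eq_mul_div, mul_div_assoc, mul_div_cancel_left₀ _ hbK,
      ← map_mul] at h1)
  have hdK : algebraMap (𝓞 K) K d ≠ 0 := by
    rw [ne_eq, FaithfulSMul.algebraMap_eq_zero_iff]
    rintro rfl
    rw [zero_pow two_ne_zero, mul_zero] at hd
    exact mul_ne_zero ha0 hb0 hd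
  refine ⟨u, algebraMap (𝓞 K) K d / algebraMap (𝓞 K) K b, div_ne_zero hdK hbK, ?_⟩
  have h2 := congrArg (algebraMap (𝓞 K) K) hd
  rw [map_mul, map_mul, map_pow] at h2
  rw [div_pow, div_eq_iff hbK]
  field_simp
  linear_combination h2

end Fermat.Agent.Cor.BSD
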