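import Fermat.Agent.Corollaries.BSD.Unit11

/-!
# Units of a cubic field modulo squares, with signs

`K` a number field of degree `3`, `σ` a real embedding. If there is a unit of positive norm which is negative at `σ`,
then the units of positive norm which are positive at `σ` are, modulo squares, generated by one unit.
-/

set_option autoImplicit false

open NumberField NumberField.Units NumberField.InfinitePlace Module

namespace Fermat.Agent.Cor.BSD.Unit30

open Unit11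

variable {K : Type*} [Field K] [NumberField K]

theorem rank_le_two (h3 : finrank ℚ K = 3) : Units.rank K = 1 ∨ Units.rank K = 2 := by
  have h := card_add_two_mul_card_eq_rank K
  rw [h3] at h
  rw [Units.rank, card_eq_nrRealPlaces_add_nrComplexPlaces]
  omega

/-- Units are `± f ^ a g ^ b`. -/
theorem exists_two (h3 : finrank ℚ K = 3) :
    ∃ f g : (𝓞 K)ˣ, ∀ u : (𝓞 K)ˣ, ∃ a b : ℤ, u = f ^ a * g ^ b ∨ u = -(f ^ a * g ^ b) := by
  rcases rank_le_two h3 with hr | hr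
  · have i0 : Fin (Units.rank K) := ⟨0, by rw [hr]; exact one_pos⟩
    refine ⟨fundSystem K i0, 1, fun u => ?_⟩
    obtain ⟨⟨x, e⟩, hxu, -⟩ := exist_unique_eq_mul_prod K u
    refine ⟨e i0, 0, ?_⟩
    have hprod : ∏ i, fundSystem K i ^ e i = fundSystem K i0 ^ e i0 := by
      refine Fintype.prod_eq_single i0 fun j hj => absurd ?_ hj
      exact Fin.ext (by have := j.isLt; have := i0.isLt; omega)
    simp only [hprod] at hxu
    rw [zpow_zero, mul_one]
    rcases torsion_eq_one_or_neg_one_of_odd_finrank (by rw [h3]; decide) x with h | h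
    · left; rw [hxu, h, one_mul]
    · right; rw [hxu, h, neg_one_mul]
  · obtain ⟨i0, hi0⟩ : ∃ i : Fin (Units.rank K), (i : ℕ) = 0 := ⟨⟨0, by rw [hr]; exact two_pos⟩, rfl⟩
    obtain ⟨i1, hi1⟩ : ∃ i : Fin (Units.rank K), (i : ℕ) = 1 := ⟨⟨1, by rw [hr]; exact one_lt_two⟩, rfl⟩
    refine ⟨fundSystem K i0, fundSystem K i1, fun u => ?_⟩
    obtain ⟨⟨x, e⟩, hxu, -⟩ := exist_unique_eq_mul_prod K u
    refine ⟨e i0, e i1, ?_⟩
    have hprod : ∏ i, fundSystem K i ^ e i = fundSystem K i0 ^ e i0 * fundSystem K i1 ^ e i1 := by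
      refine Fintype.prod_eq_mul i0 i1 ?_ ?_
      · intro h
        rw [h, hi1] at hi0
        exact one_ne_zero hi0
      · rintro j ⟨hj0, hj1⟩
        exfalso
        have h1 := j.isLt
        have h2 : (j : ℕ) ≠ 0 := fun h => hj0 (Fin.ext (by rw [h, hi0]))
        have h3 : (j : ℕ) ≠ 1 := fun h => hj1 (Fin.ext (by rw [h, hi1]))
        omega
    simp only [hprod] at hxu
    rcases torsion_eq_one_or_neg_one_of_odd_finrank (by rw [h3]; decide) x with h | h
    · left; rw [hxu, h, one_mul]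
    · right; rw [hxu, h, neg_one_mul]

theorem neg_zpow_cases (f : (𝓞 K)ˣ) (a : ℤ) : f ^ a = (-f) ^ a ∨ f ^ a = -(-f) ^ a := by
  rcases Int.even_or_odd a with he | ho
  · left; rw [he.neg_zpow]
  · right; rw [ho.neg_zpow, neg_neg]

/-- The generators of norm one. -/
theorem exists_two_one (h3 : finrank ℚ K = 3) :
    ∃ f g : (𝓞 K)ˣ, Algebra.norm ℚ (f : K) = 1 ∧ Algebra.norm ℚ (g : K) = 1 ∧
      ∀ u : (𝓞 K)ˣ, ∃ a b : ℤ, u = f ^ a * g ^ b ∨ u = -(f ^ a * g ^ b) := by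
  obtain ⟨f, g, h⟩ := exists_two (K := K) h3
  have key : ∀ f : (𝓞 K)ˣ, ∃ f' : (𝓞 K)ˣ, Algebra.norm ℚ (f' : K) = 1 ∧
      ∀ a : ℤ, f ^ a = f' ^ a ∨ f ^ a = -f' ^ a := by
    intro f
    rcases norm_cases f with h1 | h1
    · exact ⟨f, h1, fun a => Or.inl rfl⟩
    · exact ⟨-f, by rw [norm_neg' h3, h1]; norm_num, neg_zpow_cases f⟩
  obtain ⟨f', hf', hf⟩ := key f
  obtain ⟨g', hg', hg⟩ := key g
  refine ⟨f', g', hf', hg', fun u => ?_⟩
  obtain ⟨a, b, hu⟩ := h u
  refine ⟨a, b, ?_⟩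
  rcases hf a with e1 | e1 <;> rcases hg b with e2 | e2 <;> rw [e1, e2] at hu
  · exact hu
  · rw [mul_neg, neg_neg] at hu
    exact hu.symm
  · rw [neg_mul, neg_neg] at hu
    exact hu.symm
  · rw [neg_mul_neg] at hu
    exact hu

theorem norm_mul' {u v : (𝓞 K)ˣ} (hu : Algebra.norm ℚ (u : K) = 1) (hv : Algebra.norm ℚ (v : K) = 1) :
    Algebra.norm ℚ (((u * v : (𝓞 K)ˣ) : 𝓞 K) : K) = 1 := by
  have h : (((u * v : (𝓞 K)ˣ) : 𝓞 K) : K) = (u : K) * (v : K) := by
    rw [Units.val_mul]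
    exact map_mul (algebraMap (𝓞 K) K) _ _
  rw [h, map_mul, hu, hv, one_mul]

/-- The sign of a unit at `σ`, as a homomorphism to the real numbers. -/
noncomputable def val (σ : K →+* ℝ) : (𝓞 K)ˣ →* ℝˣ :=
  Units.map ((σ.comp (algebraMap (𝓞 K) K) : 𝓞 K →+* ℝ) : 𝓞 K →* ℝ)

theorem coe_val (σ : K →+* ℝ) (u : (𝓞 K)ˣ) : ((val σ u : ℝˣ) : ℝ) = σ (u : K) := rfl

/-- The case of a negative first generator and a positive second generator. -/
theorem square_of_signs {σ : K →+* ℝ} {f g : (𝓞 K)ˣ} (hf : σ (f : K) < 0) (hg : 0 < σ (g : K)) {a b : ℤ}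
    (h : 0 < σ ((f ^ a * g ^ b : (𝓞 K)ˣ) : K)) :
    IsSquare (f ^ a * g ^ b) ∨ IsSquare (g * (f ^ a * g ^ b)) := by
  rw [← coe_val, map_mul, map_zpow, map_zpow, Units.val_mul, Units.val_zpow_eq_zpow_val,
    Units.val_zpow_eq_zpow_val, coe_val, coe_val] at h
  have hgb : 0 < σ (g : K) ^ b := zpow_pos hg b
  have ha : Even a := by
    by_contra hodd
    rw [Int.not_even_iff_odd] at hodd
    have h1 : σ (f : K) ^ a < 0 := hodd.zpow_neg hf
    exact absurd h (not_lt.2 (mul_nonpos_of_nonpos_of_nonneg h1.le hgb.le))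
  obtain ⟨a', ha'⟩ := ha
  rcases Int.even_or_odd b with ⟨b', hb'⟩ | ⟨b', hb'⟩
  · left
    refine ⟨f ^ a' * g ^ b', ?_⟩
    rw [ha', hb', zpow_add, zpow_add]
    exact mul_mul_mul_comm _ _ _ _
  · right
    refine ⟨f ^ a' * g ^ (b' + 1), ?_⟩
    rw [ha', hb']
    have e1 : g * (f ^ (a' + a') * g ^ (2 * b' + 1)) = f ^ (a' + a') * g ^ (1 + (2 * b' + 1)) := by
      rw [zpow_one_add]
      exact mul_left_comm _ _ _
    rw [e1, zpow_add, show 1 + (2 * b' + 1) = (b' + 1) + (b' + 1) by ring, zpow_add g]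
    exact mul_mul_mul_comm _ _ _ _

end Fermat.Agent.Cor.BSD.Unit30

namespace Fermat.Agent.Cor.BSD

open Unit11 Unit30

/-- **Units modulo squares with signs**: `K` a cubic number field, `σ` a real embedding, `η` a unit of positive norm
with `σ(η) < 0`. Then the units of positive norm which are positive at `σ` are, modulo squares, `1` and one more. -/
theorem exists_unit_sq_pos {K : Type*} [Field K] [NumberField K] (h3 : finrank ℚ K = 3) (σ : K →+* ℝ)
    {η : (𝓞 K)ˣ} (hη : 0 < Algebra.norm ℚ (η : K)) (hση : σ (η : K) < 0) :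
    ∃ ε : (𝓞 K)ˣ, ∀ u : (𝓞 K)ˣ, 0 < Algebra.norm ℚ (u : K) → 0 < σ (u : K) →
      IsSquare u ∨ IsSquare (ε * u) := by
  obtain ⟨f, g, hf, hg, hgen⟩ := exists_two_one (K := K) h3
  have hgen' : ∀ u : (𝓞 K)ˣ, 0 < Algebra.norm ℚ (u : K) → ∃ a b : ℤ, u = f ^ a * g ^ b := by
    intro u hu
    obtain ⟨a, b, h | h⟩ := hgen u
    · exact ⟨a, b, h⟩
    · exfalso
      rw [h, norm_neg' h3, norm_mul' (norm_zpow hf a) (norm_zpow hg b)] at hu
      norm_num at hu
  have hne : ∀ u : (𝓞 K)ˣ, σ (u : K) ≠ 0 := fun u h0 => (val σ u).ne_zero (by rw [coe_val, h0])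
  have hmul : ∀ u v : (𝓞 K)ˣ, σ ((u * v : (𝓞 K)ˣ) : K) = σ (u : K) * σ (v : K) := fun u v => by
    rw [← coe_val, map_mul, Units.val_mul, coe_val, coe_val]
  rcases lt_or_gt_of_ne (hne f) with h1 | h1
  · rcases lt_or_gt_of_ne (hne g) with h2 | h2
    · -- both negative
      refine ⟨f * g, fun u hu hσ => ?_⟩
      obtain ⟨a, b, rfl⟩ := hgen' u hu
      have e1 : f ^ a * g ^ b = f ^ (a - b) * (f * g) ^ b := by
        rw [mul_zpow, ← mul_assoc, ← zpow_add, sub_add_cancel]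
      rw [e1] at hσ ⊢
      exact square_of_signs h1 (by rw [hmul]; exact mul_pos_of_neg_of_neg h1 h2) hσ
    · refine ⟨g, fun u hu hσ => ?_⟩
      obtain ⟨a, b, rfl⟩ := hgen' u hu
      exact square_of_signs h1 h2 hσ
  · rcases lt_or_gt_of_ne (hne g) with h2 | h2
    · refine ⟨f, fun u hu hσ => ?_⟩
      obtain ⟨a, b, rfl⟩ := hgen' u hu
      rw [mul_comm (f ^ a)] at hσ ⊢
      exact square_of_signs h2 h1 hσ
    · -- both positive: impossible
      exfalso
      obtain ⟨a, b, rfl⟩ := hgen' η hη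
      rw [hmul] at hση
      have h4 : ∀ (w : (𝓞 K)ˣ) (n : ℤ), σ ((w ^ n : (𝓞 K)ˣ) : K) = σ (w : K) ^ n := fun w n => by
        rw [← coe_val, map_zpow, Units.val_zpow_eq_zpow_val, coe_val]
      rw [h4, h4] at hση
      exact absurd hση (not_lt.2 (mul_pos (zpow_pos h1 a) (zpow_pos h2 b)).le)

end Fermat.Agent.Cor.BSD
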