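import Fermat.Agent.Corollaries.BSD.Gen37
import Fermat.Agent.Corollaries.BSD.Rank37

/-!
# `E(ℚ) = ℤ · (0, 0)` for `37a : y² + y = x³ - x`, and the theorem of Mordell (1963)

The only integers which are at the same time a product of two consecutive integers and a product of
three consecutive integers are `0`, `6 = 2 · 3 = 1 · 2 · 3` and `210 = 14 · 15 = 5 · 6 · 7`.
-/

set_option autoImplicit false

noncomputable section

open WeierstrassCurve WeierstrassCurve.Affine WeierstrassCurve.Affine.Point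
open Fermat.Agent.ECRed Fermat.Agent.Cor.LN Fermat.Agent.Cor.KumE Fermat.Agent.Cor.InvGal

namespace Fermat.Agent.Cor.BSD.Gen37

theorem hgen (R : G37) : ∃ m : ℤ, R = m • (P37 : G37) := by
  have hfg : AddGroup.FG (HW.E37.map (Int.castRingHom ℚ)).toAffine.Point :=
    MordellWeil.mordell_weil ℚ (HW.E37.map (Int.castRingHom ℚ))
  have hfin : Module.Finite ℤ G37 := Module.Finite.iff_addGroup_fg.mpr hfg
  exact exists_zsmul_of_finrank (fun _ h => isOfFinAddOrder37_iff.mp h) R37.finrank_E37 P37_ne_zero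
    (fun _ hn => not_exists_nsmul37 hn) R

end Fermat.Agent.Cor.BSD.Gen37

namespace Fermat.Agent.Cor.BSD

/-- The point `(0, 0)` of `37a : y² + y = x³ - x`. -/
theorem nonsingular_zero37 : (HW.E37.map (Int.castRingHom ℚ)).toAffine.Nonsingular 0 0 :=
  nonsingular37

/-- **The rational points of `y² + y = x³ - x` are the multiples of `(0, 0)`.** -/
theorem E37_eq_zmultiples (R : (HW.E37.map (Int.castRingHom ℚ)).toAffine.Point) :
    ∃! m : ℤ, R = m • (Affine.Point.some 0 0 nonsingular_zero37) := by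
  obtain ⟨m, hm⟩ := Gen37.hgen R
  refine ⟨m, hm, fun n hn => ?_⟩
  by_contra hne
  refine P37_ne_zero (isOfFinAddOrder37_iff.1 ?_)
  rw [isOfFinAddOrder_iff_zsmul_eq_zero]
  refine ⟨m - n, sub_ne_zero.mpr (Ne.symm hne), ?_⟩
  have h1 : m • (P37 : Gen37.G37) = n • (P37 : Gen37.G37) := hm.symm.trans hn
  rw [sub_zsmul, h1, add_neg_cancel]

/-- **The group of the rational points of `37a` is infinite cyclic.** -/
theorem nonempty_addEquiv_E37 :
    Nonempty (ℤ ≃+ (HW.E37.map (Int.castRingHom ℚ)).toAffine.Point) := by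
  refine ⟨AddEquiv.ofBijective (zmultiplesHom _ (Affine.Point.some 0 0 nonsingular_zero37))
    ⟨fun m n h => ?_, fun R => ?_⟩⟩
  · obtain ⟨k, -, hk⟩ := E37_eq_zmultiples (m • Affine.Point.some 0 0 nonsingular_zero37)
    rw [zmultiplesHom_apply, zmultiplesHom_apply] at h
    rw [hk m rfl, hk n h]
  · obtain ⟨k, hk, -⟩ := E37_eq_zmultiples R
    exact ⟨k, hk.symm⟩

/-- **Mordell (1963)**: the integer solutions of `y (y + 1) = (x - 1) x (x + 1)`. -/
theorem mordell37 (x y : ℤ) :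
    y * (y + 1) = (x - 1) * x * (x + 1) ↔
      ((x = -1 ∨ x = 0 ∨ x = 1) ∧ (y = 0 ∨ y = -1)) ∨ (x = 2 ∧ (y = 2 ∨ y = -3)) ∨
        (x = 6 ∧ (y = 14 ∨ y = -15)) :=
  Gen37.mordell_of_gen Gen37.hgen x y

/-- **The products of two consecutive integers which are products of three consecutive integers are `0`,
`6 = 2 · 3 = 1 · 2 · 3` and `210 = 14 · 15 = 5 · 6 · 7`.** -/
theorem two_three_consecutive (n : ℤ) :
    ((∃ y : ℤ, n = y * (y + 1)) ∧ ∃ x : ℤ, n = x * (x + 1) * (x + 2)) ↔ n = 0 ∨ n = 6 ∨ n = 210 := by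
  constructor
  · rintro ⟨⟨y, rfl⟩, ⟨x, hx⟩⟩
    have h := (mordell37 (x + 1) y).mp (by rw [hx]; ring)
    rcases h with ⟨-, rfl | rfl⟩ | ⟨-, rfl | rfl⟩ | ⟨-, rfl | rfl⟩ <;> norm_num
  · rintro (rfl | rfl | rfl)
    · exact ⟨⟨0, by norm_num⟩, ⟨0, by norm_num⟩⟩
    · exact ⟨⟨2, by norm_num⟩, ⟨1, by norm_num⟩⟩
    · exact ⟨⟨14, by norm_num⟩, ⟨5, by norm_num⟩⟩

end Fermat.Agent.Cor.BSD
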