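import Mathlib

/-!
# Elements with even valuations in a field of odd class number

`exists_unit_mul_sq_of_odd`: `K` a number field of odd class number, `α ≠ 0` an element of `K` whose
valuation at every prime is a square (i.e. even): then `α = u β²` with a unit `u` of `𝓞 K`.
-/

set_option autoImplicit false

open NumberField IsDedekindDomain nonZeroDivisors

namespace Fermat.Agent.Cor.BSD.OddClass

variable {K : Type*} [Field K] [NumberField K]

/-- An ideal which every prime divides to an even power is a square. -/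
theorem exists_sq (I : Ideal (𝓞 K)) (hI : I ≠ ⊥)
    (h : ∀ (v : HeightOneSpectrum (𝓞 K)) (n : ℕ), v.asIdeal ^ (2 * n + 1) ∣ I →
      v.asIdeal ^ (2 * n + 2) ∣ I) : ∃ J : Ideal (𝓞 K), I = J ^ 2 := by
  induction hn : Ideal.absNorm I using Nat.strong_induction_on generalizing I with
  | _ n ih =>
    by_cases ht : I = ⊤
    · exact ⟨⊤, by rw [ht, Ideal.top_pow]⟩
    · obtain ⟨M, hM, hIM⟩ := Ideal.exists_le_maximal I ht
      have hM0 : M ≠ ⊥ := by
        rintro rfl
        exact hI (le_bot_iff.mp hIM)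
      let v : HeightOneSpectrum (𝓞 K) := ⟨M, hM.isPrime, hM0⟩
      have hv : v.asIdeal = M := rfl
      obtain ⟨I', rfl⟩ : M ^ 2 ∣ I := by
        have h1 := h v 0 (by simpa [hv] using Ideal.dvd_iff_le.mpr hIM)
        simpa [hv] using h1
      have hI' : I' ≠ ⊥ := by
        rintro rfl
        exact hI (Ideal.mul_bot _)
      have hN : Ideal.absNorm (M ^ 2 * I') = Ideal.absNorm M ^ 2 * Ideal.absNorm I' := by
        rw [map_mul, map_pow]
      have h0 : Ideal.absNorm M ≠ 0 := by rwa [Ne, Ideal.absNorm_eq_zero_iff]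
      have h1 : Ideal.absNorm M ≠ 1 := by
        rw [Ne, Ideal.absNorm_eq_one_iff]
        exact hM.ne_top
      have h2 : Ideal.absNorm I' ≠ 0 := by rwa [Ne, Ideal.absNorm_eq_zero_iff]
      have hlt : Ideal.absNorm I' < n := by
        rw [← hn, hN]
        have h4 : 1 < Ideal.absNorm M ^ 2 := Nat.one_lt_pow (by norm_num) (by omega)
        nlinarith [Nat.pos_of_ne_zero h2]
      have hM2 : M ^ 2 ≠ 0 := pow_ne_zero 2 hM0
      obtain ⟨J, hJ⟩ := ih _ hlt I' hI' (fun w k hw => by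
        by_cases hwv : w.asIdeal = M
        · rw [hwv] at hw ⊢
          have h5 : v.asIdeal ^ (2 * (k + 1) + 2) ∣ M ^ 2 * I' := by
            apply h v (k + 1)
            rw [hv, show 2 * (k + 1) + 1 = 2 + (2 * k + 1) by ring, pow_add]
            exact mul_dvd_mul_left _ hw
          rw [hv, show 2 * (k + 1) + 2 = 2 + (2 * k + 2) by ring, pow_add] at h5
          exact (mul_dvd_mul_iff_left hM2).mp h5
        · have h5 := h w k (hw.trans (Dvd.intro_left _ rfl))
          have hco : IsCoprime (w.asIdeal ^ (2 * k + 2)) (M ^ 2) := by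
            apply IsCoprime.pow
            rw [Ideal.isCoprime_iff_sup_eq]
            exact Ideal.IsMaximal.coprime_of_ne w.isMaximal hM hwv
          exact hco.dvd_of_dvd_mul_left h5) rfl
      exact ⟨M * J, by rw [hJ]; ring⟩

theorem exists_of_int (c : 𝓞 K) (hc : c ≠ 0)
    (h : ∀ v : HeightOneSpectrum (𝓞 K), IsSquare (v.valuation K (algebraMap (𝓞 K) K c))) :
    ∃ (u : (𝓞 K)ˣ) (t : 𝓞 K), c ^ classNumber K = u * t ^ 2 := by
  have hI : Ideal.span {c} ≠ ⊥ := by
    rw [Ne, Ideal.span_singleton_eq_bot]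
    exact hc
  obtain ⟨J, hJ⟩ := exists_sq (Ideal.span {c}) hI (fun v n hdvd => by
    obtain ⟨g, hg⟩ := h v
    rw [HeightOneSpectrum.valuation_of_algebraMap] at hg
    have hne : v.intValuation c ≠ 0 := v.intValuation_ne_zero c hc
    have hg0 : g ≠ 0 := by
      rintro rfl
      rw [mul_zero] at hg
      exact hne hg
    obtain ⟨m, hm⟩ : ∃ m : ℤ, g = WithZero.exp m := ⟨WithZero.log g, (WithZero.exp_log hg0).symm⟩
    have h1 := (HeightOneSpectrum.intValuation_le_pow_iff_dvd v c (2 * n + 1)).mpr hdvd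
    rw [hg, hm, ← WithZero.exp_add, WithZero.exp_le_exp] at h1
    rw [← HeightOneSpectrum.intValuation_le_pow_iff_dvd, hg, hm, ← WithZero.exp_add,
      WithZero.exp_le_exp]
    push_cast at h1 ⊢
    omega)
  have hJ0 : J ≠ ⊥ := by
    rintro rfl
    apply hI
    rw [hJ]
    rw [← Ideal.zero_eq_bot]
    ring
  let J' : (Ideal (𝓞 K))⁰ := ⟨J, mem_nonZeroDivisors_of_ne_zero hJ0⟩
  have hprin : (J ^ classNumber K).IsPrincipal := by
    have h1 : (ClassGroup.mk0 J') ^ classNumber K = 1 := pow_card_eq_one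
    rw [← map_pow] at h1
    have h2 := (ClassGroup.mk0_eq_one_iff (J' ^ classNumber K).2).mp h1
    exact h2
  obtain ⟨γ, hγ⟩ := hprin
  rw [Ideal.submodule_span_eq] at hγ
  have h1 : Ideal.span {c ^ classNumber K} = Ideal.span {γ ^ 2} := by
    rw [← Ideal.span_singleton_pow, hJ, ← pow_mul, mul_comm, pow_mul, hγ, Ideal.span_singleton_pow]
  obtain ⟨u, hu⟩ := Ideal.span_singleton_eq_span_singleton.mp h1
  refine ⟨u⁻¹, γ, ?_⟩
  rw [← hu]
  rw [mul_comm (c ^ classNumber K), ← mul_assoc, Units.inv_mul, one_mul]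

/-- **Odd class number and even valuations: unit times square.** -/
theorem exists_unit_mul_sq_of_odd (hodd : Odd (classNumber K)) {α : K} (hα : α ≠ 0)
    (h : ∀ v : HeightOneSpectrum (𝓞 K), IsSquare (v.valuation K α)) :
    ∃ (u : (𝓞 K)ˣ) (β : K), β ≠ 0 ∧ α = ((u : 𝓞 K) : K) * β ^ 2 := by
  obtain ⟨a, b, hb, hab⟩ := IsFractionRing.div_surjective (A := 𝓞 K) α
  have hb0 : algebraMap (𝓞 K) K b ≠ 0 := by
    simpa using nonZeroDivisors.ne_zero hb
  have ha0 : algebraMap (𝓞 K) K a ≠ 0 := by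
    intro h0
    rw [h0, zero_div] at hab
    exact hα hab.symm
  have hab0 : a * b ≠ 0 := by
    intro h0
    have := congrArg (algebraMap (𝓞 K) K) h0
    rw [map_mul, map_zero] at this
    exact (mul_ne_zero ha0 hb0) this
  have hc : algebraMap (𝓞 K) K (a * b) = α * (algebraMap (𝓞 K) K b) ^ 2 := by
    rw [← hab, map_mul]
    field_simp
  obtain ⟨u, t, ht⟩ := exists_of_int (a * b) hab0 fun v => by
    rw [hc, map_mul, map_pow]
    exact (h v).mul (IsSquare.sq _)
  obtain ⟨m, hm⟩ := hodd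
  have h1 := congrArg (algebraMap (𝓞 K) K) ht
  rw [map_pow, hc, map_mul, map_pow, hm] at h1
  have hβ : α = algebraMap (𝓞 K) K u *
      (algebraMap (𝓞 K) K t / (algebraMap (𝓞 K) K b * (α * (algebraMap (𝓞 K) K b) ^ 2) ^ m)) ^ 2 := by
    have h2 : (α * (algebraMap (𝓞 K) K b) ^ 2) ≠ 0 := mul_ne_zero hα (pow_ne_zero 2 hb0)
    rw [div_pow, mul_div_assoc', ← h1, eq_div_iff (pow_ne_zero 2 (mul_ne_zero hb0 (pow_ne_zero m h2)))]
    ring
  refine ⟨u, _, ?_, hβ⟩
  intro h0
  rw [h0] at hβ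
  apply hα
  rw [hβ]
  ring

end Fermat.Agent.Cor.BSD.OddClass
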