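import Fermat.Agent.Corollaries.BSD.TateBound
import Fermat.Agent.Corollaries.LN.Integral

/-!
# The curves `y² = x³ + p x`

`p` a prime: the rank of `y² = x³ + p x` over `ℚ` is `0` for `p ≡ 7, 11 mod 16`
(`finrank_px_eq_zero`), at most `1` for `p ≡ 3, 5, 13, 15 mod 16` (`finrank_px_le_one`), and at most
`2` in all the cases (`finrank_px_le_two`); a rational point of finite order is `0` or `(0, 0)`
(`eq_of_torsion_px`). So for `p ≡ 7, 11 mod 16` the only rational solution is `(0, 0)`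
(`solutions_px`), `m⁴ + p n⁴` is a square only for `n = 0` (`quartic_px`), and for
`p ≡ 3, 5, 13, 15 mod 16` the rank is `1` as soon as there is a solution with `x ≠ 0`
(`finrank_px_eq_one`).
-/

set_option autoImplicit false

noncomputable section

namespace Fermat.Agent.Cor.BSD.One

open WeierstrassCurve
open Fermat.Agent.Cor.MordellWeil

section labels

variable {a b : ℤ}

/-- Two labels with `D c c'` a square are equivalent. -/
theorem be_congr (H : Gen a b) {P : (Eab a b).toAffine.Point} {c c' : ℤ} (hc : c ≠ 0)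
    (h : IsSquare ((a ^ 2 - 4 * b) * (c * c'))) (hP : Be P c) : Be P c' := by
  have hc0 : (c : ℚ) ≠ 0 := by exact_mod_cast hc
  have hD := H.D_ne
  have h' : IsSquare (((a : ℚ) ^ 2 - 4 * b) * (c * c')) := by
    have := (Rat.isSquare_intCast_iff (z := (a ^ 2 - 4 * b) * (c * c'))).mpr h
    push_cast at this
    exact this
  have hcls : ∀ {v : ℚ}, (IsSquare (v * c) ∨ IsSquare (((a : ℚ) ^ 2 - 4 * b) * (v * c))) →
      (IsSquare (v * c') ∨ IsSquare (((a : ℚ) ^ 2 - 4 * b) * (v * c'))) := by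
    intro v hv
    rcases hv with hv | hv
    · right
      exact isSquare_of_eq_div (w := (c : ℚ)) hc0 (by ring) (hv.mul h')
    · left
      exact isSquare_of_eq_div (w := ((a : ℚ) ^ 2 - 4 * b) * c) (mul_ne_zero hD hc0) (by ring)
        (hv.mul h')
  rcases P with _ | ⟨x, y, hP'⟩
  · have h1 := hcls (v := 1) (by simpa [Be] using hP)
    change IsSquare (c' : ℚ) ∨ IsSquare (((a : ℚ) ^ 2 - 4 * b) * c')
    simpa using h1
  · obtain ⟨r, s, h1, h2, h3, h4⟩ := hP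
    exact ⟨r, s, h1, h2, h3, hcls h4⟩

/-- The count with given sets of labels. -/
theorem finrank_le_of_labels (H : Gen a b) (σ : Prop)
    (hσ : σ → 0 < b ∧ ∀ x y : ℚ, y ^ 2 = x ^ 3 + a * x ^ 2 + b * x → 0 ≤ x) {S U : Finset ℤ}
    (hS0 : ∀ d ∈ S, d ≠ 0) (hS : ∀ d, Squarefree d → d ∣ b → (σ → 0 < d) → d ∈ S)
    (hU0 : ∀ c ∈ U, c ≠ 0) (hU1 : (1 : ℤ) ∈ U)
    (hU : ∀ r s : ℚ, (r ^ 2) ^ 2 + a * r ^ 2 + b = s ^ 2 →
      ∃ c ∈ U, IsSquare ((2 * r ^ 2 + a + 2 * s) * c) ∨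
        IsSquare (((a : ℚ) ^ 2 - 4 * b) * ((2 * r ^ 2 + a + 2 * s) * c)))
    (hU' : ∀ c ∈ U, ∃ c' ∈ U, IsSquare ((a ^ 2 - 4 * b) * (c * c')) ∧ c' ≠ c) {k : ℕ}
    (hk : S.card * U.card ≤ 2 ^ (k + 2)) :
    Module.finrank ℤ (Eab a b).toAffine.Point ≤ k := by
  have hell := H.isElliptic
  obtain ⟨r, T, hT, hTfin, ⟨e⟩⟩ := exists_equiv ℚ (Eab a b)
  have hr := finrank_le_of_equiv e
  obtain ⟨hfin, hle⟩ := card_le_of_labels (dbl (Eab a b).toAffine.Point) S U Al Be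
    (fun P => by
      obtain ⟨d, ⟨h1, h2, h3⟩, h4⟩ := exists_al H σ hσ P
      exact ⟨d, hS d h1 h2 h3, h4⟩)
    (fun P Q d hd hP hQ => by
      rw [sub_eq_add_neg]
      exact al_add H (hS0 d hd) hP (al_neg hQ))
    (fun R hR => by
      rcases R with _ | ⟨x, y, h⟩
      · exact ⟨1, hU1, Or.inl (by simp)⟩
      · obtain ⟨r, s, h1, h2, h3⟩ := exists_rs hR
        obtain ⟨c, hc, h4⟩ := hU r s (by rw [← h1]; exact h2)
        exact ⟨c, hc, r, s, h1, h2, h3, by rw [h1]; exact h4⟩)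
    (fun R c hc hR => by
      obtain ⟨c', h1, h2, h3⟩ := hU' c hc
      exact ⟨c', h1, be_congr H (hU0 c hc) h2 hR, h3⟩)
    (fun R R' c hc hR hR' => by
      rw [sub_eq_add_neg]
      exact be_add H (hU0 c hc) hR (be_neg hR'))
  have h2 := two_pow_le_card e H.T_add H.T_ne
  have h3 : 2 ^ (r + 1) * 2 ≤ 2 ^ (k + 1) * 2 := by
    calc 2 ^ (r + 1) * 2 ≤
        Nat.card ((Eab a b).toAffine.Point ⧸ dbl (Eab a b).toAffine.Point) * 2 :=
          Nat.mul_le_mul_right _ h2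
      _ ≤ 2 ^ (k + 2) := by rw [mul_comm]; exact hle.trans hk
      _ = _ := by ring
  have h4 : r + 1 ≤ k + 1 :=
    (Nat.pow_le_pow_iff_right (by norm_num)).mp (Nat.le_of_mul_le_mul_right h3 (by norm_num))
  omega

end labels

/-! ### The equation `m⁴ + p n⁴ = S²` -/

section arith

variable {p : ℕ}

theorem isCoprime_of_eq (hp : p.Prime) {m n S : ℤ} (hmn : IsCoprime m n)
    (h : m ^ 4 + p * n ^ 4 = S ^ 2) : IsCoprime m S := by
  rw [Int.isCoprime_iff_gcd_eq_one]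
  by_contra hcon
  obtain ⟨q, hq, hqd⟩ := Nat.exists_prime_and_dvd hcon
  have hqm : (q : ℤ) ∣ m := (Int.natCast_dvd_natCast.mpr hqd).trans (Int.gcd_dvd_left ..)
  have hqS : (q : ℤ) ∣ S := (Int.natCast_dvd_natCast.mpr hqd).trans (Int.gcd_dvd_right ..)
  have hq' : Prime (q : ℤ) := Nat.prime_iff_prime_int.mp hq
  have hqn : ¬ (q : ℤ) ∣ n := fun h1 => hq'.not_isUnit (hmn.isUnit_of_dvd' hqm h1)
  obtain ⟨m', rfl⟩ := hqm
  obtain ⟨S', rfl⟩ := hqS
  have h1 : (q : ℤ) ^ 2 ∣ p * n ^ 4 := ⟨S' ^ 2 - q ^ 2 * m' ^ 4, by linear_combination h⟩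
  have h2 : (q : ℤ) ^ 2 ∣ p :=
    (IsCoprime.pow (hq'.coprime_iff_not_dvd.mpr hqn)).dvd_of_dvd_mul_right h1
  have h3 : q ^ 2 ∣ p := by exact_mod_cast h2
  have h4 := (Nat.squarefree_iff_prime_squarefree.mp hp.squarefree) q hq
  exact h4 (by rwa [← sq])

/-- Coprime positive factors of `p` times a square. -/
theorem factors (hp : p.Prime) {A B w : ℤ} (hA : 0 < A) (hB : 0 < B) (hAB : IsCoprime A B)
    (h : A * B = p * w ^ 2) :
    (∃ f g, A = p * g ^ 2 ∧ B = f ^ 2) ∨ ∃ f g, A = f ^ 2 ∧ B = p * g ^ 2 := by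
  have hp0 : (0 : ℤ) < p := by exact_mod_cast hp.pos
  have key : ∀ {A B : ℤ}, 0 < A → 0 < B → IsCoprime A B → A * B = p * w ^ 2 → (p : ℤ) ∣ A →
      ∃ f g, A = p * g ^ 2 ∧ B = f ^ 2 := by
    rintro A B hA hB hAB h ⟨A', rfl⟩
    have h1 : A' * B = w ^ 2 := by
      have : (p : ℤ) * (A' * B) = p * w ^ 2 := by linear_combination h
      exact mul_left_cancel₀ hp0.ne' this
    have hA' : 0 < A' := by
      by_contra hcon
      push Not at hcon
      nlinarith
    have hco : IsCoprime A' B := hAB.of_isCoprime_of_dvd_left (Dvd.intro_left _ rfl)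
    have hsq : ∀ {X Y : ℤ}, 0 < X → IsCoprime X Y → X * Y = w ^ 2 → ∃ f, X = f ^ 2 := by
      intro X Y hX hXY h2
      obtain ⟨f, hf | hf⟩ := Int.sq_of_isCoprime hXY h2
      · exact ⟨f, hf⟩
      · exfalso
        nlinarith [sq_nonneg f]
    obtain ⟨g, hg⟩ := hsq hA' hco h1
    obtain ⟨f, hf⟩ := hsq hB hco.symm (by rw [mul_comm]; exact h1)
    exact ⟨f, g, by rw [hg], hf⟩
  have hdvd : (p : ℤ) ∣ A * B := ⟨w ^ 2, h⟩
  rcases (Nat.prime_iff_prime_int.mp hp).dvd_or_dvd hdvd with h1 | h1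
  · exact Or.inl (key hA hB hAB h h1)
  · obtain ⟨f, g, h2, h3⟩ := key hB hA hAB.symm (by rw [mul_comm]; exact h) h1
    exact Or.inr ⟨f, g, h3, h2⟩

/-- `n` even. -/
theorem form_even (hp : p.Prime) {m n S : ℤ} (hmn : IsCoprime m n) (hn : n ≠ 0) (hS : 0 < S)
    (h : m ^ 4 + p * n ^ 4 = S ^ 2) (hne : Even n) :
    (∃ f, S + m ^ 2 = 2 * f ^ 2) ∨
      ∃ f g, S + m ^ 2 = 2 * (p * g ^ 2) ∧ S - m ^ 2 = 2 * f ^ 2 ∧ Odd m := by
  have hp0 : (0 : ℤ) < p := by exact_mod_cast hp.pos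
  have hmS := isCoprime_of_eq hp hmn h
  have hm : Odd m := by
    rw [← Int.not_even_iff_odd]
    intro he
    have := hmn.isUnit_of_dvd' he.two_dvd hne.two_dvd
    rw [Int.isUnit_iff] at this
    omega
  have hSodd : Odd S := by
    rw [← Int.not_even_iff_odd]
    intro he
    have h1 : Even (m ^ 4) := by
      have h2 : m ^ 4 = S ^ 2 - p * n ^ 4 := by linear_combination h
      rw [h2]
      exact (he.pow_of_ne_zero two_ne_zero).sub
        ((hne.pow_of_ne_zero (by norm_num)).mul_left _)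
    have h2 : Odd (m ^ 4) := hm.pow
    exact (Int.not_even_iff_odd.mpr h2) h1
  obtain ⟨k, hk⟩ := hne
  obtain ⟨i, hi⟩ := hm
  obtain ⟨j, hj⟩ := hSodd
  -- the halves
  obtain ⟨B, hB⟩ : ∃ B, S + m ^ 2 = 2 * B := ⟨j + 2 * i ^ 2 + 2 * i + 1, by rw [hi, hj]; ring⟩
  obtain ⟨A, hA⟩ : ∃ A, S - m ^ 2 = 2 * A := ⟨j - 2 * i ^ 2 - 2 * i, by rw [hi, hj]; ring⟩
  have hAB : A * B = p * (2 * k ^ 2) ^ 2 := by
    have h1 : 4 * (A * B) = 4 * (p * (2 * k ^ 2) ^ 2) := by
      have h2 : (2 * A) * (2 * B) = p * n ^ 4 := by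
        rw [← hA, ← hB]
        linear_combination -h
      rw [hk] at h2
      linear_combination h2
    linarith
  have hk0 : k ≠ 0 := by
    rintro rfl
    exact hn (by rw [hk]; ring)
  have hAB0 : 0 < A * B := by rw [hAB]; positivity
  have hB0 : 0 < B := by nlinarith [sq_nonneg m]
  have hA0 : 0 < A := by
    by_contra hcon
    push Not at hcon
    nlinarith
  have hco : IsCoprime A B := by
    obtain ⟨u, v, huv⟩ : IsCoprime (m ^ 2) S := hmS.pow_left
    refine ⟨v - u, v + u, ?_⟩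
    have h1 : m ^ 2 = B - A := by linarith
    have h2 : S = B + A := by linarith
    rw [h1, h2] at huv
    linear_combination huv
  rcases factors hp hA0 hB0 hco hAB with ⟨f, g, h1, h2⟩ | ⟨f, g, h1, h2⟩
  · exact Or.inl ⟨f, by rw [hB, h2]⟩
  · exact Or.inr ⟨f, g, by rw [hB, h2], by rw [hA, h1], ⟨i, hi⟩⟩

/-- `n` odd. -/
theorem form_odd (hp : p.Prime) (hp2 : p ≠ 2) {m n S : ℤ} (hmn : IsCoprime m n) (hS : 0 < S)
    (h : m ^ 4 + p * n ^ 4 = S ^ 2) (hno : Odd n) :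
    ∃ f g, Odd f ∧ Odd g ∧ ((S + m ^ 2 = f ^ 2 ∧ S - m ^ 2 = p * g ^ 2) ∨
      (S + m ^ 2 = p * g ^ 2 ∧ S - m ^ 2 = f ^ 2)) := by
  have hp0 : (0 : ℤ) < p := by exact_mod_cast hp.pos
  have hmS := isCoprime_of_eq hp hmn h
  have hpo : Odd (p : ℤ) := by exact_mod_cast hp.odd_of_ne_two hp2
  have hAB : (S - m ^ 2) * (S + m ^ 2) = p * (n ^ 2) ^ 2 := by linear_combination -h
  have hodd : Odd ((S - m ^ 2) * (S + m ^ 2)) := by
    rw [hAB]
    exact hpo.mul (hno.pow.pow)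
  rw [Int.odd_mul] at hodd
  have hn0 : n ≠ 0 := by
    rintro rfl
    simp at hno
  have hAB0 : 0 < (S - m ^ 2) * (S + m ^ 2) := by rw [hAB]; positivity
  have hB0 : 0 < S + m ^ 2 := by nlinarith [sq_nonneg m]
  have hA0 : 0 < S - m ^ 2 := by
    by_contra hcon
    push Not at hcon
    nlinarith
  have hco : IsCoprime (S - m ^ 2) (S + m ^ 2) := by
    obtain ⟨u, v, huv⟩ : IsCoprime (m ^ 2) S := hmS.pow_left
    obtain ⟨t, ht⟩ := hodd.1
    refine ⟨1 - t * (v - u), -(t * (u + v)), ?_⟩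
    linear_combination ht - 2 * t * huv
  have hsq : ∀ {X Y : ℤ}, Odd X → X = Y ^ 2 → Odd Y := by
    intro X Y hX hXY
    rw [hXY] at hX
    exact (Int.odd_pow' two_ne_zero).mp hX
  have hsq' : ∀ {X Y : ℤ}, Odd X → X = p * Y ^ 2 → Odd Y := by
    intro X Y hX hXY
    rw [hXY] at hX
    exact (Int.odd_pow' two_ne_zero).mp (Int.odd_mul.mp hX).2
  rcases factors hp hA0 hB0 hco hAB with ⟨f, g, h1, h2⟩ | ⟨f, g, h1, h2⟩
  · exact ⟨f, g, hsq hodd.2 h2, hsq' hodd.1 h1, Or.inl ⟨h2, h1⟩⟩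
  · exact ⟨f, g, hsq hodd.1 h1, hsq' hodd.2 h2, Or.inr ⟨h2, h1⟩⟩

theorem sq_mod_eight {f : ℤ} (hf : Odd f) : f ^ 2 % 8 = 1 := by
  obtain ⟨k, hk⟩ := hf
  have h : f % 8 = 1 ∨ f % 8 = 3 ∨ f % 8 = 5 ∨ f % 8 = 7 := by omega
  rcases h with h | h | h | h <;> simp [sq, Int.mul_emod, h]

theorem sq_mod_sixteen (S : ℤ) : S ^ 2 % 16 = 0 ∨ S ^ 2 % 16 = 1 ∨ S ^ 2 % 16 = 4 ∨
    S ^ 2 % 16 = 9 := by
  have h : S % 16 = 0 ∨ S % 16 = 1 ∨ S % 16 = 2 ∨ S % 16 = 3 ∨ S % 16 = 4 ∨ S % 16 = 5 ∨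
    S % 16 = 6 ∨ S % 16 = 7 ∨ S % 16 = 8 ∨ S % 16 = 9 ∨ S % 16 = 10 ∨ S % 16 = 11 ∨
    S % 16 = 12 ∨ S % 16 = 13 ∨ S % 16 = 14 ∨ S % 16 = 15 := by omega
  rcases h with h | h | h | h | h | h | h | h | h | h | h | h | h | h | h | h <;>
    simp [sq, Int.mul_emod, h]

theorem four_mod_sixteen (m : ℤ) : m ^ 4 % 16 = 0 ∨ m ^ 4 % 16 = 1 := by
  rw [show m ^ 4 = (m ^ 2) * (m ^ 2) by ring, Int.mul_emod]
  rcases sq_mod_sixteen m with h | h | h | h <;> rw [h] <;> norm_num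

theorem four_mod_sixteen_odd {m : ℤ} (hm : Odd m) : m ^ 4 % 16 = 1 := by
  rcases four_mod_sixteen m with h | h
  · exfalso
    have h1 : Odd (m ^ 4) := hm.pow
    obtain ⟨k, hk⟩ := h1
    omega
  · exact h

/-- For `p ≡ 5, 7, 11, 13 mod 16` the denominator is even. -/
theorem even_of_mod (h16 : p % 16 = 5 ∨ p % 16 = 7 ∨ p % 16 = 11 ∨ p % 16 = 13) {m n S : ℤ}
    (h : m ^ 4 + p * n ^ 4 = S ^ 2) : Even n := by
  rw [← Int.not_odd_iff_even]
  intro hno
  have h1 := four_mod_sixteen_odd hno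
  have h2 := four_mod_sixteen m
  have h3 := sq_mod_sixteen S
  have h4 : ((p : ℤ) * n ^ 4) % 16 = p % 16 := by
    rw [Int.mul_emod, h1, mul_one, Int.emod_emod_of_dvd _ (dvd_refl 16)]
  have h5 : (m ^ 4 + p * n ^ 4) % 16 = S ^ 2 % 16 := by rw [h]
  have h16' : (p : ℤ) % 16 = 5 ∨ (p : ℤ) % 16 = 7 ∨ (p : ℤ) % 16 = 11 ∨ (p : ℤ) % 16 = 13 := by
    omega
  generalize (p : ℤ) * n ^ 4 = X at *
  generalize m ^ 4 = Y at *
  generalize S ^ 2 = Z at *
  omega

/-- The integral form of a rational point with a trivial first label. -/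
theorem exists_form {r s : ℚ} (h : (r ^ 2) ^ 2 + p = s ^ 2) (hs : 0 < s) :
    ∃ m n S : ℤ, n ≠ 0 ∧ IsCoprime m n ∧ 0 < S ∧ m ^ 4 + p * n ^ 4 = S ^ 2 ∧ r = m / n ∧
      s = S / n ^ 2 := by
  have hn : (r.den : ℤ) ≠ 0 := by exact_mod_cast r.den_nz
  have hnq : ((r.den : ℤ) : ℚ) ≠ 0 := by exact_mod_cast hn
  have hr : r = (r.num : ℚ) / (r.den : ℤ) := by
    push_cast
    exact (Rat.num_div_den r).symm
  have hq : ((1 : ℤ) : ℚ) * (s * (r.den : ℤ) ^ 2) ^ 2 = ((r.num ^ 4 + p * (r.den : ℤ) ^ 4 : ℤ) : ℚ) := by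
    have h1 : (r.num : ℚ) = r * (r.den : ℤ) := by
      rw [eq_comm, ← eq_div_iff hnq]
      exact hr
    push_cast at h1 ⊢
    rw [h1]
    linear_combination -(r.den : ℚ) ^ 4 * h
  obtain ⟨S, hS⟩ := exists_int_of_mul_sq squarefree_one hq
  refine ⟨r.num, r.den, S, hn, ?_, ?_, ?_, hr, ?_⟩
  · rw [Int.isCoprime_iff_gcd_eq_one]
    exact r.reduced
  · have h1 : (0 : ℚ) < S := by
      rw [← hS]
      positivity
    exact_mod_cast h1
  · rw [hS] at hq
    push_cast at hq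
    have h2 : ((r.num ^ 4 + p * (r.den : ℤ) ^ 4 : ℤ) : ℚ) = ((S ^ 2 : ℤ) : ℚ) := by
      push_cast
      linear_combination -hq
    exact_mod_cast h2
  · rw [eq_div_iff (pow_ne_zero 2 hnq)]
    exact hS

/-- The label `c` for `(r, s)`. -/
def Lab (p : ℕ) (r s : ℚ) (c : ℤ) : Prop :=
  IsSquare ((2 * r ^ 2 + 2 * s) * c) ∨ IsSquare ((-4 * p : ℚ) * ((2 * r ^ 2 + 2 * s) * c))

theorem lab_neg (hp : p.Prime) {r s : ℚ} (h : (r ^ 2) ^ 2 + p = s ^ 2) {c : ℤ}
    (hl : Lab p r (-s) c) : Lab p r s c := by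
  have hp0 : (p : ℚ) ≠ 0 := by exact_mod_cast hp.ne_zero
  have hprod : (2 * r ^ 2 + 2 * s) * (2 * r ^ 2 + 2 * -s) = -4 * p := by linear_combination 4 * h
  have hu : 2 * r ^ 2 + 2 * -s ≠ 0 := by
    intro h0
    rw [h0, mul_zero] at hprod
    apply hp0
    linarith
  rcases hl with h1 | h1
  · right
    refine isSquare_of_eq_div (w := 2 * r ^ 2 + 2 * -s) hu ?_
      (h1.mul (IsSquare.mul_self (-4 * p : ℚ)))
    linear_combination -(4 * p * c * (2 * r ^ 2 + 2 * -s)) * hprod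
  · left
    refine isSquare_of_eq_div (w := 2 * r ^ 2 + 2 * -s) hu ?_ h1
    linear_combination c * (2 * r ^ 2 + 2 * -s) * hprod

theorem exists_lab (hp : p.Prime) {U : Finset ℤ}
    (hU : ∀ r s : ℚ, 0 < s → (r ^ 2) ^ 2 + p = s ^ 2 → ∃ c ∈ U, Lab p r s c) (r s : ℚ)
    (h : (r ^ 2) ^ 2 + p = s ^ 2) : ∃ c ∈ U, Lab p r s c := by
  rcases lt_trichotomy s 0 with h1 | h1 | h1
  · obtain ⟨c, hc, hl⟩ := hU r (-s) (by linarith) (by rw [h]; ring)
    exact ⟨c, hc, lab_neg hp h hl⟩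
  · exfalso
    have hp0 : (0 : ℚ) < p := by exact_mod_cast hp.pos
    rw [h1] at h
    nlinarith [sq_nonneg (r ^ 2)]
  · exact hU r s h1 h

theorem lab_of {r s : ℚ} {m n S : ℤ} (hn : n ≠ 0) (hr : r = m / n) (hs : s = S / n ^ 2) {c w : ℤ}
    (h : 2 * (S + m ^ 2) * c = w ^ 2) : Lab p r s c := by
  left
  have hnq : (n : ℚ) ≠ 0 := by exact_mod_cast hn
  have hq : 2 * ((S : ℚ) + m ^ 2) * c = w ^ 2 := by exact_mod_cast h
  refine ⟨w / n, ?_⟩
  rw [hr, hs]
  field_simp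
  linear_combination hq

theorem eq_zero_of_sq {w : ℤ} (h : w ^ 2 = 0) : w = 0 := pow_eq_zero_iff two_ne_zero |>.mp h

/-- `p ≡ 7, 11 mod 16`: only the trivial label. -/
theorem lab_seven (hp : p.Prime) (h16 : p % 16 = 7 ∨ p % 16 = 11) {r s : ℚ} (hs : 0 < s)
    (h : (r ^ 2) ^ 2 + p = s ^ 2) : Lab p r s 1 := by
  obtain ⟨m, n, S, hn, hmn, hS, he, hr, hs'⟩ := exists_form h hs
  have hne := even_of_mod (by omega) he
  rcases form_even hp hmn hn hS he hne with ⟨f, h1⟩ | ⟨f, g, h1, h2, h3⟩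
  · exact lab_of (w := 2 * f) hn hr hs' (by rw [h1]; ring)
  · exfalso
    have h4 : m ^ 2 = p * g ^ 2 - f ^ 2 := by linarith
    have h5 : m ^ 2 % 8 = 1 := sq_mod_eight h3
    have h6 : ∀ x : ℤ, x ^ 2 % 4 = 0 ∨ x ^ 2 % 4 = 1 := by
      intro x
      have := Int.emod_two_eq_zero_or_one x
      rcases Int.even_or_odd' x with ⟨k, hk | hk⟩
      · left
        rw [hk, show (2 * k) ^ 2 = 4 * k ^ 2 by ring]
        omega
      · right
        rw [hk, show (2 * k + 1) ^ 2 = 4 * (k ^ 2 + k) + 1 by ring]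
        omega
    have h7 : ((p : ℤ) * g ^ 2) % 4 = 0 ∨ ((p : ℤ) * g ^ 2) % 4 = 3 := by
      have h8 : (p : ℤ) % 4 = 3 := by omega
      rw [Int.mul_emod, h8]
      rcases h6 g with h9 | h9 <;> rw [h9] <;> norm_num
    have h8 := h6 f
    generalize (p : ℤ) * g ^ 2 = X at *
    generalize f ^ 2 = Y at *
    generalize m ^ 2 = Z at *
    omega

/-- `p ≡ 5, 13 mod 16`: the labels `1`, `p`. -/
theorem lab_five (hp : p.Prime) (h16 : p % 16 = 5 ∨ p % 16 = 13) {r s : ℚ} (hs : 0 < s)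
    (h : (r ^ 2) ^ 2 + p = s ^ 2) : Lab p r s 1 ∨ Lab p r s p := by
  obtain ⟨m, n, S, hn, hmn, hS, he, hr, hs'⟩ := exists_form h hs
  have hne := even_of_mod (by omega) he
  rcases form_even hp hmn hn hS he hne with ⟨f, h1⟩ | ⟨f, g, h1, h2, h3⟩
  · exact Or.inl (lab_of (w := 2 * f) hn hr hs' (by rw [h1]; ring))
  · exact Or.inr (lab_of (w := 2 * p * g) hn hr hs' (by rw [h1]; ring))

theorem sq_mod_four (x : ℤ) : x ^ 2 % 4 = 0 ∨ x ^ 2 % 4 = 1 := by
  rcases Int.even_or_odd' x with ⟨k, hk | hk⟩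
  · left
    rw [hk, show (2 * k) ^ 2 = 4 * k ^ 2 by ring]
    omega
  · right
    rw [hk, show (2 * k + 1) ^ 2 = 4 * (k ^ 2 + k) + 1 by ring]
    omega

/-- `p ≡ 3 mod 4`, `n` even: the trivial label. -/
theorem lab_even (hp : p.Prime) (h4 : p % 4 = 3) {r s : ℚ} {m n S : ℤ} (hn : n ≠ 0)
    (hmn : IsCoprime m n) (hS : 0 < S) (he : m ^ 4 + p * n ^ 4 = S ^ 2) (hr : r = m / n)
    (hs' : s = S / n ^ 2) (hne : Even n) : Lab p r s 1 := by
  rcases form_even hp hmn hn hS he hne with ⟨f, h1⟩ | ⟨f, g, h1, h2, h3⟩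
  · exact lab_of (w := 2 * f) hn hr hs' (by rw [h1]; ring)
  · exfalso
    have h4' : m ^ 2 = p * g ^ 2 - f ^ 2 := by linarith
    have h5 : m ^ 2 % 8 = 1 := sq_mod_eight h3
    have h7 : ((p : ℤ) * g ^ 2) % 4 = 0 ∨ ((p : ℤ) * g ^ 2) % 4 = 3 := by
      have h8 : (p : ℤ) % 4 = 3 := by omega
      rw [Int.mul_emod, h8]
      rcases sq_mod_four g with h9 | h9 <;> rw [h9] <;> norm_num
    have h8 := sq_mod_four f
    generalize (p : ℤ) * g ^ 2 = X at *
    generalize f ^ 2 = Y at *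
    generalize m ^ 2 = Z at *
    omega

/-- `p ≡ 3 mod 16`: the labels `1`, `2 p`. -/
theorem lab_three (hp : p.Prime) (h16 : p % 16 = 3) {r s : ℚ} (hs : 0 < s)
    (h : (r ^ 2) ^ 2 + p = s ^ 2) : Lab p r s 1 ∨ Lab p r s (2 * p) := by
  obtain ⟨m, n, S, hn, hmn, hS, he, hr, hs'⟩ := exists_form h hs
  rcases Int.even_or_odd n with hne | hno
  · exact Or.inl (lab_even hp (by omega) hn hmn hS he hr hs' hne)
  · obtain ⟨f, g, hf, hg, ⟨h1, h2⟩ | ⟨h1, h2⟩⟩ := form_odd hp (by omega) hmn hS he hno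
    · exfalso
      have h3 : 2 * m ^ 2 = f ^ 2 - p * g ^ 2 := by linarith
      have h4 := sq_mod_eight hf
      have h5 : ((p : ℤ) * g ^ 2) % 8 = 3 := by
        rw [Int.mul_emod, sq_mod_eight hg]
        omega
      have h6 := sq_mod_four m
      generalize (p : ℤ) * g ^ 2 = X at *
      generalize f ^ 2 = Y at *
      generalize m ^ 2 = Z at *
      omega
    · exact Or.inr (lab_of (w := 2 * p * g) hn hr hs' (by rw [h1]; ring))

/-- `p ≡ 15 mod 16`: the labels `1`, `2`. -/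
theorem lab_fifteen (hp : p.Prime) (h16 : p % 16 = 15) {r s : ℚ} (hs : 0 < s)
    (h : (r ^ 2) ^ 2 + p = s ^ 2) : Lab p r s 1 ∨ Lab p r s 2 := by
  obtain ⟨m, n, S, hn, hmn, hS, he, hr, hs'⟩ := exists_form h hs
  rcases Int.even_or_odd n with hne | hno
  · exact Or.inl (lab_even hp (by omega) hn hmn hS he hr hs' hne)
  · obtain ⟨f, g, hf, hg, ⟨h1, h2⟩ | ⟨h1, h2⟩⟩ := form_odd hp (by omega) hmn hS he hno
    · exact Or.inr (lab_of (w := 2 * f) hn hr hs' (by rw [h1]; ring))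
    · exfalso
      have h3 : 2 * m ^ 2 = p * g ^ 2 - f ^ 2 := by linarith
      have h4 := sq_mod_eight hf
      have h5 : ((p : ℤ) * g ^ 2) % 8 = 7 := by
        rw [Int.mul_emod, sq_mod_eight hg]
        omega
      have h6 := sq_mod_four m
      generalize (p : ℤ) * g ^ 2 = X at *
      generalize f ^ 2 = Y at *
      generalize m ^ 2 = Z at *
      omega

/-! ### The ranks -/

theorem gen_px (hp : p.Prime) : Gen 0 p := by
  have hp0 : (0 : ℤ) < p := by exact_mod_cast hp.pos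
  refine ⟨hp0.ne', ?_⟩
  rintro ⟨w, hw⟩
  nlinarith [mul_self_nonneg w]

theorem finrank_px_le {p : ℕ} (hp : p.Prime) {U : Finset ℤ} (hU0 : ∀ c ∈ U, c ≠ 0)
    (hU1 : (1 : ℤ) ∈ U)
    (hU : ∀ r s : ℚ, 0 < s → (r ^ 2) ^ 2 + p = s ^ 2 → ∃ c ∈ U, Lab p r s c)
    (hU' : ∀ c ∈ U, ∃ c' ∈ U, IsSquare ((-4 * p : ℤ) * (c * c')) ∧ c' ≠ c) {k : ℕ}
    (hk : U.card ≤ 2 ^ (k + 1)) : Module.finrank ℤ (Eab 0 p).toAffine.Point ≤ k := by
  have hp0 : (0 : ℤ) < p := by exact_mod_cast hp.pos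
  have hp0' : (0 : ℚ) < p := by exact_mod_cast hp.pos
  have hcard : (posDiv (p : ℤ)).card = 2 := by
    rw [card_posDiv hp0.ne', omg, Int.natAbs_natCast, hp.primeFactors, Finset.card_singleton,
      pow_one]
  refine finrank_le_of_labels (gen_px hp) True (fun _ => ⟨hp0, fun x y h => ?_⟩)
    (S := posDiv p) (U := U) (fun d hd => ?_) (fun d h1 h2 h3 => ?_) hU0 hU1 (fun r s h => ?_)
    (fun c hc => ?_) ?_
  · by_contra hcon
    push Not at hcon
    push_cast at h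
    have h1 : 0 < x ^ 2 + p := by positivity
    nlinarith [sq_nonneg y, mul_pos_of_neg_of_neg hcon (show -(x ^ 2 + (p : ℚ)) < 0 by linarith)]
  · exact ((mem_posDiv hp0.ne').mp hd).1.ne_zero
  · exact (mem_posDiv hp0.ne').mpr ⟨h1, h2, h3 trivial⟩
  · push_cast at h
    obtain ⟨c, hc, hl⟩ := exists_lab hp hU r s (by linear_combination h)
    refine ⟨c, hc, ?_⟩
    push_cast
    have e1 : (2 * r ^ 2 + 0 + 2 * s) * (c : ℚ) = (2 * r ^ 2 + 2 * s) * c := by ring
    have e2 : ((0 : ℚ) ^ 2 - 4 * p) = -4 * p := by ring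
    rw [e1, e2]
    exact hl
  · obtain ⟨c', h1, h2, h3⟩ := hU' c hc
    refine ⟨c', h1, ?_, h3⟩
    rwa [show (0 : ℤ) ^ 2 - 4 * p = -4 * p by ring]
  · rw [hcard]
    calc 2 * U.card ≤ 2 * 2 ^ (k + 1) := Nat.mul_le_mul_left _ hk
      _ = _ := by ring

/-- **`y² = x³ + p x` has rank `0` for `p ≡ 7, 11 mod 16`.** -/
theorem finrank_px_eq_zero {p : ℕ} (hp : p.Prime) (h16 : p % 16 = 7 ∨ p % 16 = 11) :
    Module.finrank ℤ (Eab 0 p).toAffine.Point = 0 := by
  have hp0 : (0 : ℤ) < p := by exact_mod_cast hp.pos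
  refine Nat.le_zero.mp (finrank_px_le hp (U := {1, -(p : ℤ)}) ?_ (by simp)
    (fun r s hs h => ⟨1, by simp, lab_seven hp h16 hs h⟩) ?_ (Finset.card_le_two))
  · intro c hc
    rw [Finset.mem_insert, Finset.mem_singleton] at hc
    omega
  · intro c hc
    rw [Finset.mem_insert, Finset.mem_singleton] at hc
    rcases hc with rfl | rfl
    · exact ⟨-(p : ℤ), by simp, ⟨2 * p, by ring⟩, by omega⟩
    · exact ⟨1, by simp, ⟨2 * p, by ring⟩, by omega⟩

/-- The second kind of labels. -/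
theorem finrank_px_le_one_aux {p : ℕ} (hp : p.Prime) {c c' : ℤ} (hc : c ≠ 0) (hc' : c' ≠ 0)
    (hcc : c' ≠ c) (h : IsSquare ((-4 * p : ℤ) * (c * c')))
    (hl : ∀ r s : ℚ, 0 < s → (r ^ 2) ^ 2 + p = s ^ 2 → Lab p r s 1 ∨ Lab p r s c) :
    Module.finrank ℤ (Eab 0 p).toAffine.Point ≤ 1 := by
  have hp0 : (0 : ℤ) < p := by exact_mod_cast hp.pos
  refine finrank_px_le hp (U := {1, -(p : ℤ), c, c'}) ?_ (by simp) (fun r s hs h => ?_) ?_
    (Finset.card_le_four)
  · intro d hd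
    simp only [Finset.mem_insert, Finset.mem_singleton] at hd
    rcases hd with rfl | rfl | rfl | rfl
    · exact one_ne_zero
    · omega
    · exact hc
    · exact hc'
  · rcases hl r s hs h with h1 | h1
    · exact ⟨1, by simp, h1⟩
    · exact ⟨c, by simp, h1⟩
  · intro d hd
    simp only [Finset.mem_insert, Finset.mem_singleton] at hd
    rcases hd with rfl | rfl | rfl | rfl
    · exact ⟨-(p : ℤ), by simp, ⟨2 * p, by ring⟩, by omega⟩
    · exact ⟨1, by simp, ⟨2 * p, by ring⟩, by omega⟩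
    · exact ⟨c', by simp, h, hcc⟩
    · exact ⟨c, by simp, by rwa [mul_comm d c], hcc.symm⟩

/-- **`y² = x³ + p x` has rank at most `1` for `p ≡ 3, 5, 13, 15 mod 16`.** -/
theorem finrank_px_le_one {p : ℕ} (hp : p.Prime)
    (h16 : p % 16 = 3 ∨ p % 16 = 5 ∨ p % 16 = 13 ∨ p % 16 = 15) :
    Module.finrank ℤ (Eab 0 p).toAffine.Point ≤ 1 := by
  have hp0 : (0 : ℤ) < p := by exact_mod_cast hp.pos
  have h5 : (p % 16 = 5 ∨ p % 16 = 13) → Module.finrank ℤ (Eab 0 p).toAffine.Point ≤ 1 :=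
    fun h => finrank_px_le_one_aux hp (c := p) (c' := -1) (by omega) (by omega) (by omega)
      ⟨2 * p, by ring⟩ fun r s hs h' => lab_five hp h hs h'
  rcases h16 with h | h | h | h
  · exact finrank_px_le_one_aux hp (c := 2 * p) (c' := -2) (by omega) (by omega) (by omega)
      ⟨4 * p, by ring⟩ fun r s hs h' => lab_three hp h hs h'
  · exact h5 (Or.inl h)
  · exact h5 (Or.inr h)
  · exact finrank_px_le_one_aux hp (c := 2) (c' := -(2 * p)) (by omega) (by omega) (by omega)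
      ⟨4 * p, by ring⟩ fun r s hs h' => lab_fifteen hp h hs h'

/-- `y² = x³ + p x` has rank at most `2`. -/
theorem finrank_px_le_two {p : ℕ} (hp : p.Prime) :
    Module.finrank ℤ (Eab 0 p).toAffine.Point ≤ 2 := by
  have h := finrank_add_one_le (gen_px hp).hb (gen_px hp).hD
  have h1 : (p : ℤ).natAbs.primeFactors.card = 1 := by
    rw [Int.natAbs_natCast, hp.primeFactors, Finset.card_singleton]
  have h2 : ((0 : ℤ) ^ 2 - 4 * p).natAbs.primeFactors.card ≤ 2 := by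
    have e : ((0 : ℤ) ^ 2 - 4 * p).natAbs = 4 * p := by omega
    rw [e, Nat.primeFactors_mul (by norm_num) hp.ne_zero, hp.primeFactors]
    refine (Finset.card_union_le _ _).trans ?_
    rw [Finset.card_singleton, show (4 : ℕ) = 2 ^ 2 by norm_num,
      Nat.primeFactors_prime_pow two_ne_zero Nat.prime_two, Finset.card_singleton]
  omega

/-- `y² = x³ + x` has rank `0`. -/
theorem finrank_x_eq_zero : Module.finrank ℤ (Eab 0 1).toAffine.Point = 0 := by
  have h := finrank_add_one_le (a := 0) (b := 1) one_ne_zero (by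
    rintro ⟨w, hw⟩
    nlinarith [mul_self_nonneg w])
  have h1 : (1 : ℤ).natAbs.primeFactors.card = 0 := by simp
  have h2 : ((0 : ℤ) ^ 2 - 4 * 1).natAbs.primeFactors.card = 1 := by
    have e : ((0 : ℤ) ^ 2 - 4 * 1).natAbs = 2 ^ 2 := by decide
    rw [e, Nat.primeFactors_prime_pow two_ne_zero Nat.prime_two, Finset.card_singleton]
  omega

/-- For `p ≡ 7, 11 mod 16` the group of the rational points of `y² = x³ + p x` is finite. -/
theorem finite_px {p : ℕ} (hp : p.Prime) (h16 : p % 16 = 7 ∨ p % 16 = 11) :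
    Finite (Eab 0 p).toAffine.Point := by
  have hell := (gen_px hp).isElliptic
  have hfg : AddGroup.FG (Eab 0 p).toAffine.Point := mordell_weil ℚ (Eab 0 p)
  have hfin : Module.Finite ℤ (Eab 0 p).toAffine.Point := Module.Finite.iff_addGroup_fg.mpr hfg
  have h0 := finrank_px_eq_zero hp h16
  rw [Module.finrank_eq_zero_iff_isTorsion] at h0
  exact Module.finite_of_fg_torsion _ h0

/-! ### Torsion -/

theorem eab_eq (a b : ℤ) :
    Eab a b = (⟨0, a, 0, b, 0⟩ : WeierstrassCurve ℤ).map (Int.castRingHom ℚ) := by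
  refine WeierstrassCurve.ext ?_ ?_ ?_ ?_ ?_ <;> simp [Eab]

theorem int_of_torsion {W : WeierstrassCurve ℤ} {E : WeierstrassCurve ℚ}
    (hE : E = W.map (Int.castRingHom ℚ)) {x y : ℚ} {h : E.toAffine.Nonsingular x y}
    (hfin : IsOfFinAddOrder (Affine.Point.some x y h))
    (h2 : Affine.Point.some x y h + Affine.Point.some x y h ≠ 0) : ∃ a b : ℤ, x = a ∧ y = b := by
  subst hE
  obtain ⟨a, b, ha, hb⟩ := LN.exists_int_of_torsion hfin (by rwa [two_nsmul])
  exact ⟨a, b, ha, hb⟩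

theorem add_self_ab {a b : ℤ} {x y : ℚ} {h : (Eab a b).toAffine.Nonsingular x y} (hy : y ≠ 0) :
    ∃ y' h', Affine.Point.some x y h + Affine.Point.some x y h =
      Affine.Point.some (((3 * x ^ 2 + 2 * a * x + b) / (2 * y)) ^ 2 - a - 2 * x) y' h' := by
  have hne : y ≠ (Eab a b).toAffine.negY x y := by
    change y ≠ -y - 0 * x - 0
    intro h1
    apply hy
    linarith
  have hsl : (Eab a b).toAffine.slope x x y y = (3 * x ^ 2 + 2 * a * x + b) / (2 * y) := by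
    rw [Affine.slope_of_Y_ne rfl hne]
    change (3 * x ^ 2 + 2 * (a : ℚ) * x + b - 0 * y) / (y - (-y - 0 * x - 0)) = _
    ring_nf
  have hX : (Eab a b).toAffine.addX x x ((Eab a b).toAffine.slope x x y y) =
      ((3 * x ^ 2 + 2 * a * x + b) / (2 * y)) ^ 2 - a - 2 * x := by
    rw [hsl]
    change ((3 * x ^ 2 + 2 * a * x + b) / (2 * y)) ^ 2 +
      0 * ((3 * x ^ 2 + 2 * a * x + b) / (2 * y)) - a - x - x = _
    ring
  have hns := Affine.nonsingular_add h h (fun h' => hne h'.2)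
  have h4 : Affine.Point.some x y h + Affine.Point.some x y h = Affine.Point.some _ _ hns :=
    Affine.Point.add_self_of_Y_ne hne
  rw [hX] at hns
  refine ⟨_, hns, ?_⟩
  rw [h4]
  simp only [Affine.Point.some.injEq, and_true]
  exact hX

theorem y_ne_zero {a b : ℤ} {x y : ℚ} {h : (Eab a b).toAffine.Nonsingular x y}
    (h2 : Affine.Point.some x y h + Affine.Point.some x y h ≠ 0) : y ≠ 0 := by
  rintro rfl
  apply h2
  refine Affine.Point.add_of_Y_eq rfl ?_
  change (0 : ℚ) = -0 - 0 * x - 0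
  ring

theorem not_isSquare_prime {p : ℕ} (hp : p.Prime) : ¬ IsSquare (p : ℚ) := by
  intro h
  have h1 : IsSquare p := by
    have := Rat.isSquare_natCast_iff.mp h
    exact this
  exact hp.prime.irreducible.not_isSquare h1

/-- A double of finite order, not zero: its abscissa is `(p - 1) / 2`. -/
theorem x_of_double {p : ℕ} (hp : p.Prime) {P : (Eab 0 p).toAffine.Point} (hfin : IsOfFinAddOrder P)
    (h2 : P + P ≠ 0) :
    ∃ (k : ℤ) (y : ℚ) (h : (Eab 0 p).toAffine.Nonsingular (k : ℚ) y),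
      P + P = Affine.Point.some (k : ℚ) y h ∧ 1 ≤ k ∧ (p : ℤ) = 2 * k + 1 ∧
        (P + P) + (P + P) ≠ 0 := by
  have hp0 : (0 : ℤ) < p := by exact_mod_cast hp.pos
  have H := gen_px hp
  -- the first label of `P + P` is trivial
  have hal : Al (P + P) 1 := by
    obtain ⟨d, ⟨h1, -, -⟩, h4⟩ := exists_al H False False.elim P
    exact al_add H h1.ne_zero h4 h4
  have hfin2 : IsOfFinAddOrder (P + P) := hfin.add hfin
  rcases hPP : P + P with _ | ⟨x, y, h⟩
  · exact absurd hPP h2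
  rw [hPP] at hal hfin2
  have hx : x ≠ 0 := by
    intro hx
    have h3 := hal.1 hx
    apply not_isSquare_prime hp
    push_cast at h3
    rwa [mul_one] at h3
  have hne : Affine.Point.some x y h + Affine.Point.some x y h ≠ 0 := by
    intro h0
    obtain ⟨y', h', he⟩ := H.add_T h hx
    have hy : y = 0 := by
      by_contra hy
      obtain ⟨y', h', he⟩ := add_self_ab (h := h) hy
      rw [he] at h0
      simp at h0
    have h3 := eab_iff.mp h.1
    rw [hy] at h3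
    push_cast at h3
    have h4 : x * (x ^ 2 + p) = 0 := by linear_combination -h3
    rcases mul_eq_zero.mp h4 with h5 | h5
    · exact hx h5
    · have hp0' : (0 : ℚ) < p := by exact_mod_cast hp.pos
      nlinarith [sq_nonneg x]
  obtain ⟨u, v, hu, hv⟩ := int_of_torsion (eab_eq 0 p) hfin2 hne
  obtain ⟨r, s, hr, hs, hy⟩ := exists_rs hal
  obtain ⟨r', hr'⟩ := exists_int_of_mul_sq (d := 1) (c := u) squarefree_one (s := r) (by
    rw [← hr, ← hu]
    push_cast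
    ring)
  obtain ⟨s', hs'⟩ := exists_int_of_mul_sq (d := 1) (c := u ^ 2 + p) squarefree_one (s := s) (by
    rw [← hs, hu]
    push_cast
    ring)
  have e1 : u = r' ^ 2 := by
    rw [hr, hr'] at hu
    exact_mod_cast hu.symm
  have e2 : u ^ 2 + p = s' ^ 2 := by
    rw [hu, hs'] at hs
    push_cast at hs
    have h5 : ((u ^ 2 + p : ℤ) : ℚ) = ((s' ^ 2 : ℤ) : ℚ) := by
      push_cast
      linear_combination hs
    exact_mod_cast h5
  have hu0 : u ≠ 0 := by
    rintro rfl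
    exact hx (by rw [hu]; simp)
  have hupos : 1 ≤ u := by
    have : 0 ≤ u := by rw [e1]; exact sq_nonneg _
    omega
  subst hu
  refine ⟨u, y, h, rfl, hupos, ?_, hne⟩
  -- `(s' - u) (s' + u) = p`
  have hpos : ∀ t : ℤ, u ^ 2 + p = t ^ 2 → 0 ≤ t → (p : ℤ) = 2 * u + 1 := by
    intro t ht ht0
    have h5 : (t - u) * (t + u) = p := by linear_combination -ht
    have h6 : u < t := by nlinarith
    obtain ⟨α, hα⟩ : ∃ α : ℕ, (α : ℤ) = t - u := ⟨(t - u).toNat, by omega⟩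
    obtain ⟨β, hβ⟩ : ∃ β : ℕ, (β : ℤ) = t + u := ⟨(t + u).toNat, by omega⟩
    have h7 : α * β = p := by
      rw [← hα, ← hβ] at h5
      exact_mod_cast h5
    rcases (Nat.dvd_prime hp).mp (Dvd.intro _ h7) with h8 | h8
    · rw [h8, one_mul] at h7
      rw [← h7]
      omega
    · exfalso
      rw [h8] at h7
      have : β = 1 := by
        have h9 : p * β = p * 1 := by rw [h7, mul_one]
        exact Nat.eq_of_mul_eq_mul_left hp.pos h9
      omega
  rcases le_total 0 s' with h5 | h5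
  · exact hpos s' e2 h5
  · exact hpos (-s') (by rw [e2]; ring) (by omega)

/-- **The torsion of `y² = x³ + p x`** has order two. -/
theorem torsion_px {p : ℕ} (hp : p.Prime) {P : (Eab 0 p).toAffine.Point}
    (hfin : IsOfFinAddOrder P) : P + P = 0 := by
  by_contra h2
  obtain ⟨k, y, h, hP, hk, hpk, h4⟩ := x_of_double hp hfin h2
  obtain ⟨k', y', h', hP', hk', hpk', -⟩ := x_of_double hp (hfin.add hfin) h4
  have hkk : k' = k := by omega
  subst hkk
  rw [hP] at hP' h4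
  have hy := y_ne_zero h4
  obtain ⟨y'', h'', he⟩ := add_self_ab (h := h) hy
  rw [he] at hP'
  simp only [Affine.Point.some.injEq] at hP'
  have e := hP'.1
  have e0 := eab_iff.mp h.1
  have hpq : (p : ℚ) = 2 * k' + 1 := by exact_mod_cast hpk
  push_cast at e e0
  rw [div_pow, sub_zero, sub_eq_iff_eq_add, div_eq_iff (by positivity), hpq] at e
  rw [hpq] at e0
  have e3 : (3 : ℚ) * k' ^ 4 + 12 * k' ^ 3 + 2 * k' ^ 2 - 4 * k' - 1 = 0 := by
    linear_combination -12 * (k' : ℚ) * e0 - e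
  have e4 : 3 * k' ^ 4 + 12 * k' ^ 3 + 2 * k' ^ 2 - 4 * k' - 1 = 0 := by exact_mod_cast e3
  nlinarith [pow_pos (show 0 < k' by omega) 3, pow_pos (show 0 < k' by omega) 4,
    mul_nonneg (show 0 ≤ k' by omega) (show 0 ≤ k' - 1 by omega)]

/-- A torsion point is `0` or `(0, 0)`. -/
theorem eq_of_torsion_px {p : ℕ} (hp : p.Prime) {P : (Eab 0 p).toAffine.Point}
    (hfin : IsOfFinAddOrder P) : P = 0 ∨ P = (gen_px hp).T := by
  have h2 := torsion_px hp hfin
  rcases P with _ | ⟨x, y, h⟩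
  · exact Or.inl rfl
  · right
    have hy : y = 0 := by
      by_contra hy
      obtain ⟨y', h', he⟩ := add_self_ab (h := h) hy
      rw [he] at h2
      simp at h2
    have h3 := eab_iff.mp h.1
    rw [hy] at h3
    push_cast at h3
    have h4 : x * (x ^ 2 + p) = 0 := by linear_combination -h3
    have hp0' : (0 : ℚ) < p := by exact_mod_cast hp.pos
    have hx : x = 0 := by
      rcases mul_eq_zero.mp h4 with h5 | h5
      · exact h5
      · nlinarith [sq_nonneg x]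
    subst hx
    exact (gen_px hp).eq_T h

/-- **`p ≡ 7, 11 mod 16`: the only rational point of `y² = x³ + p x` is `(0, 0)`.** -/
theorem solutions_px {p : ℕ} (hp : p.Prime) (h16 : p % 16 = 7 ∨ p % 16 = 11) {x y : ℚ}
    (h : y ^ 2 = x ^ 3 + p * x) : x = 0 ∧ y = 0 := by
  have hfin := finite_px hp h16
  have hns := (gen_px hp).nonsingular (x := x) (y := y) (by push_cast; linear_combination h)
  rcases eq_of_torsion_px hp (isOfFinAddOrder_of_finite (Affine.Point.some x y hns)) with h1 | h1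
  · simp at h1
  · simp only [Gen.T, Affine.Point.some.injEq] at h1
    exact h1

/-- `p ≡ 7, 11 mod 16`: `m⁴ + p n⁴` is a square only for `n = 0`. -/
theorem quartic_px {p : ℕ} (hp : p.Prime) (h16 : p % 16 = 7 ∨ p % 16 = 11) {m n S : ℤ}
    (h : m ^ 4 + p * n ^ 4 = S ^ 2) : n = 0 := by
  by_contra hn
  have hnq : (n : ℚ) ≠ 0 := by exact_mod_cast hn
  have hq : (m : ℚ) ^ 4 + p * n ^ 4 = S ^ 2 := by exact_mod_cast h
  have h1 := solutions_px hp h16 (x := (m : ℚ) ^ 2 / n ^ 2) (y := m * S / n ^ 3) (by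
    field_simp
    linear_combination -(m : ℚ) ^ 2 * hq)
  have hm : (m : ℚ) = 0 := by
    have h2 := h1.1
    rw [div_eq_zero_iff] at h2
    rcases h2 with h2 | h2
    · exact pow_eq_zero_iff two_ne_zero |>.mp h2
    · exact absurd h2 (pow_ne_zero 2 hnq)
  apply not_isSquare_prime hp
  refine ⟨S / n ^ 2, ?_⟩
  rw [hm] at hq
  field_simp
  linear_combination hq

/-- **`p ≡ 3, 5, 13, 15 mod 16`: the rank of `y² = x³ + p x` is `1` as soon as there is a rational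
point with `x ≠ 0`.** -/
theorem finrank_px_eq_one {p : ℕ} (hp : p.Prime)
    (h16 : p % 16 = 3 ∨ p % 16 = 5 ∨ p % 16 = 13 ∨ p % 16 = 15) {x y : ℚ}
    (h : y ^ 2 = x ^ 3 + p * x) (hx : x ≠ 0) :
    Module.finrank ℤ (Eab 0 p).toAffine.Point = 1 := by
  refine le_antisymm (finrank_px_le_one hp h16) ?_
  have hell := (gen_px hp).isElliptic
  have hfg : AddGroup.FG (Eab 0 p).toAffine.Point := mordell_weil ℚ (Eab 0 p)
  have hfin : Module.Finite ℤ (Eab 0 p).toAffine.Point := Module.Finite.iff_addGroup_fg.mpr hfg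
  by_contra hcon
  have h0 : Module.finrank ℤ (Eab 0 p).toAffine.Point = 0 := by omega
  rw [Module.finrank_eq_zero_iff_isTorsion] at h0
  have hfinite : Finite (Eab 0 p).toAffine.Point := Module.finite_of_fg_torsion _ h0
  have hns := (gen_px hp).nonsingular (x := x) (y := y) (by push_cast; linear_combination h)
  rcases eq_of_torsion_px hp (isOfFinAddOrder_of_finite (Affine.Point.some x y hns)) with h1 | h1
  · simp at h1
  · simp only [Gen.T, Affine.Point.some.injEq] at h1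
    exact hx h1.1

/-- The rank of `y² = x³ + 3 x`, `y² = x³ + 5 x`, `y² = x³ + 13 x` is one. -/
theorem finrank_examples : Module.finrank ℤ (Eab 0 3).toAffine.Point = 1 ∧
    Module.finrank ℤ (Eab 0 5).toAffine.Point = 1 ∧
    Module.finrank ℤ (Eab 0 13).toAffine.Point = 1 :=
  ⟨finrank_px_eq_one (p := 3) (x := 1) (y := 2) (by norm_num) (by norm_num) (by norm_num)
      (by norm_num),
    finrank_px_eq_one (p := 5) (x := 20) (y := 90) (by norm_num) (by norm_num) (by norm_num)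
      (by norm_num),
    finrank_px_eq_one (p := 13) (x := 9 / 4) (y := 51 / 8) (by norm_num) (by norm_num)
      (by norm_num) (by norm_num)⟩

end arith

end Fermat.Agent.Cor.BSD.One
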