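import Mathlib

/-!
# Units of a cubic field with one real place

The units of positive norm of a number field of degree `3` with one real place are, modulo squares, generated by one
unit. The field of `ζ ^ 3 + 2 ζ ^ 2 + 2 = 0` has one real place.
-/

set_option autoImplicit false

open NumberField NumberField.Units NumberField.InfinitePlace Module

namespace Fermat.Agent.Cor.BSD.Unit11

variable {K : Type*} [Field K] [NumberField K]

theorem rank_eq_one (h3 : finrank ℚ K = 3) (h1 : nrRealPlaces K = 1) : Units.rank K = 1 := by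
  have h := card_add_two_mul_card_eq_rank K
  rw [h3, h1] at h
  have h2 : nrComplexPlaces K = 1 := by omega
  rw [Units.rank, card_eq_nrRealPlaces_add_nrComplexPlaces, h1, h2]

/-- Units are `± f ^ n`. -/
theorem exists_generator (h3 : finrank ℚ K = 3) (h1 : nrRealPlaces K = 1) :
    ∃ f : (𝓞 K)ˣ, ∀ u : (𝓞 K)ˣ, ∃ n : ℤ, u = f ^ n ∨ u = -f ^ n := by
  have hr := rank_eq_one h3 h1
  have i0 : Fin (Units.rank K) := ⟨0, by rw [hr]; exact one_pos⟩
  refine ⟨fundSystem K i0, fun u => ?_⟩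
  obtain ⟨⟨x, e⟩, hxu, -⟩ := exist_unique_eq_mul_prod K u
  refine ⟨e i0, ?_⟩
  have hprod : ∏ i, fundSystem K i ^ e i = fundSystem K i0 ^ e i0 := by
    refine Fintype.prod_eq_single i0 fun j hj => absurd ?_ hj
    exact Fin.ext (by have := j.isLt; have := i0.isLt; omega)
  simp only [hprod] at hxu
  rcases torsion_eq_one_or_neg_one_of_odd_finrank (by rw [h3]; decide) x with h | h
  · left; rw [hxu, h, one_mul]
  · right; rw [hxu, h, neg_one_mul]

theorem norm_cases (u : (𝓞 K)ˣ) : Algebra.norm ℚ (u : K) = 1 ∨ Algebra.norm ℚ (u : K) = -1 := by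
  have h := Units.norm K u
  rcases abs_choice (Algebra.norm ℚ (u : K)) with h1 | h1 <;> rw [h1] at h
  · exact Or.inl h
  · exact Or.inr (by linarith)

theorem norm_neg' (h3 : finrank ℚ K = 3) (u : (𝓞 K)ˣ) :
    Algebra.norm ℚ (((-u : (𝓞 K)ˣ) : 𝓞 K) : K) = -Algebra.norm ℚ (u : K) := by
  have h : (((-u : (𝓞 K)ˣ) : 𝓞 K) : K) = algebraMap ℚ K (-1) * (u : K) := by
    simp
  rw [h, map_mul, Algebra.norm_algebraMap, h3]
  ring

/-- The generator with norm one. -/
theorem exists_generator_one (h3 : finrank ℚ K = 3) (h1 : nrRealPlaces K = 1) :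
    ∃ g : (𝓞 K)ˣ, Algebra.norm ℚ (g : K) = 1 ∧ ∀ u : (𝓞 K)ˣ, ∃ n : ℤ, u = g ^ n ∨ u = -g ^ n := by
  obtain ⟨f, hf⟩ := exists_generator h3 h1
  rcases norm_cases f with h | h
  · exact ⟨f, h, hf⟩
  · refine ⟨-f, by rw [norm_neg' h3, h]; norm_num, fun u => ?_⟩
    obtain ⟨n, hn⟩ := hf u
    refine ⟨n, ?_⟩
    rcases Int.even_or_odd n with he | ho
    · rwa [he.neg_zpow]
    · rw [ho.neg_zpow, neg_neg]
      exact hn.symm

theorem norm_zpow {g : (𝓞 K)ˣ} (hg : Algebra.norm ℚ (g : K) = 1) (n : ℤ) :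
    Algebra.norm ℚ (((g ^ n : (𝓞 K)ˣ) : 𝓞 K) : K) = 1 := by
  have hc : ∀ (g : (𝓞 K)ˣ) (m : ℕ), (((g ^ m : (𝓞 K)ˣ) : 𝓞 K) : K) = ((g : 𝓞 K) : K) ^ m := fun g m => by
    rw [Units.val_pow_eq_pow_val]
    exact map_pow (algebraMap (𝓞 K) K) _ _
  have h : ∀ m : ℕ, Algebra.norm ℚ (((g ^ m : (𝓞 K)ˣ) : 𝓞 K) : K) = 1 := fun m => by
    rw [hc, map_pow, hg, one_pow]
  have hinv : Algebra.norm ℚ (((g⁻¹ : (𝓞 K)ˣ) : 𝓞 K) : K) = 1 := by
    have h2 : (((g⁻¹ : (𝓞 K)ˣ) : 𝓞 K) : K) * ((g : 𝓞 K) : K) = 1 := by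
      rw [← map_mul, ← Units.val_mul, inv_mul_cancel, Units.val_one, map_one]
    have h3 := congrArg (Algebra.norm ℚ) h2
    rw [map_mul, hg, mul_one, map_one] at h3
    exact h3
  obtain ⟨m, rfl | rfl⟩ := n.eq_nat_or_neg
  · rw [zpow_natCast]; exact h m
  · rw [zpow_neg, zpow_natCast, ← inv_pow, hc, map_pow, hinv, one_pow]

end Fermat.Agent.Cor.BSD.Unit11

namespace Fermat.Agent.Cor.BSD

open Unit11

/-- **Units of positive norm modulo squares** in a cubic field with one real place. -/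
theorem exists_unit_sq {K : Type*} [Field K] [NumberField K] (h3 : finrank ℚ K = 3) (h1 : nrRealPlaces K = 1) :
    ∃ ε : (𝓞 K)ˣ, ∀ u : (𝓞 K)ˣ, 0 < Algebra.norm ℚ (u : K) → IsSquare u ∨ IsSquare (ε * u) := by
  obtain ⟨g, hg, hgen⟩ := exists_generator_one h3 h1
  refine ⟨g, fun u hu => ?_⟩
  obtain ⟨n, hn⟩ := hgen u
  have hn' : u = g ^ n := by
    rcases hn with hn | hn
    · exact hn
    · exfalso
      rw [hn, norm_neg' h3, norm_zpow hg] at hu
      norm_num at hu
  rcases Int.even_or_odd n with ⟨m, hm⟩ | ⟨m, hm⟩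
  · left
    exact ⟨g ^ m, by rw [hn', hm, zpow_add]⟩
  · right
    refine ⟨g ^ (m + 1), ?_⟩
    rw [hn', hm, ← zpow_one_add, ← zpow_add]
    congr 1
    ring

/-- `ζ ^ 3 + 2 ζ ^ 2 + 2 = 0` has one real root. -/
theorem eq_of_cubic43 {x y : ℝ} (hx : x ^ 3 + 2 * x ^ 2 + 2 = 0) (hy : y ^ 3 + 2 * y ^ 2 + 2 = 0) : x = y := by
  have key : ∀ x : ℝ, x ^ 3 + 2 * x ^ 2 + 2 = 0 → x < -2 := fun x hx => by
    by_contra h
    push Not at h
    nlinarith [mul_nonneg (sq_nonneg x) (by linarith : (0 : ℝ) ≤ x + 2)]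
  have h1 := key x hx
  have h2 := key y hy
  by_contra hne
  have h3 : (x - y) * (x ^ 2 + x * y + y ^ 2 + 2 * (x + y)) = 0 := by linear_combination hx - hy
  rcases mul_eq_zero.1 h3 with h4 | h4
  · exact hne (by linarith)
  · nlinarith [mul_pos (by linarith : (0 : ℝ) < -2 - x) (by linarith : (0 : ℝ) < -2 - y),
      mul_pos (by linarith : (0 : ℝ) < -x) (by linarith : (0 : ℝ) < -2 - x),
      mul_pos (by linarith : (0 : ℝ) < -y) (by linarith : (0 : ℝ) < -2 - y)]

/-- **The field of `43a` has one real place.** -/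
theorem nrRealPlaces_eq_one {K : Type*} [Field K] [NumberField K] {ζ : K} (hζ : ζ ^ 3 + 2 * ζ ^ 2 + 2 = 0)
    (B : Basis (Fin 3) ℚ K) (hB0 : B 0 = 1) (hB1 : B 1 = ζ) (hB2 : B 2 = ζ ^ 2) : nrRealPlaces K = 1 := by
  have h3 : finrank ℚ K = 3 := by
    rw [finrank_eq_card_basis B, Fintype.card_fin]
  have hle : nrRealPlaces K ≤ 1 := by
    classical
    suffices hs : Subsingleton {w : InfinitePlace K // IsReal w} from
      Fintype.card_le_one_iff_subsingleton.2 hs
    refine ⟨?_⟩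
    rintro ⟨w, hw⟩ ⟨w', hw'⟩
    rw [Subtype.mk.injEq, ← mk_embedding w, ← mk_embedding w']
    congr 1
    have hval : w.embedding ζ = w'.embedding ζ := by
      rw [← embedding_of_isReal_apply hw, ← embedding_of_isReal_apply hw']
      congr 1
      refine eq_of_cubic43 ?_ ?_
      · have := congrArg (embedding_of_isReal hw) hζ
        rw [map_add, map_add, map_mul, map_pow, map_pow, map_zero, map_ofNat] at this
        exact this
      · have := congrArg (embedding_of_isReal hw') hζ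
        rw [map_add, map_add, map_mul, map_pow, map_pow, map_zero, map_ofNat] at this
        exact this
    have hlin : (w.embedding.toRatAlgHom : K →ₐ[ℚ] ℂ).toLinearMap = (w'.embedding.toRatAlgHom : K →ₐ[ℚ] ℂ).toLinearMap := by
      refine B.ext fun i => ?_
      fin_cases i
      · simp [hB0]
      · simpa [hB1] using hval
      · simp [hB2, hval]
    ext x
    exact congrArg (fun F => F x) hlin
  have h := card_add_two_mul_card_eq_rank K
  rw [h3] at h
  omega

end Fermat.Agent.Cor.BSD
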