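import Fermat.Agent.Corollaries.BSD.HalfSym
import Fermat.Agent.Corollaries.BSD.Field43
import Fermat.Agent.Corollaries.BSD.CountTwo
import Fermat.Agent.Corollaries.BSD.Even43
import Fermat.Agent.Corollaries.BSD.Inf43
import Fermat.Agent.Corollaries.BSD.SqUnit
import Fermat.Agent.Corollaries.BSD.Unit11

/-!
# The curve `43a`: `y² + y = x³ + x²` has rank one, and the rank part of the conjecture of Birch and
Swinnerton-Dyer holds for it

The two-division polynomial `4X³ + 4X² + 1` is irreducible, `K = ℚ(θ)` the cubic field of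
discriminant `-172`. Its class number is one (`BSD/Field43`), its units of positive norm have two
classes modulo squares (`BSD/Unit11`), and `x(P) - θ` has even valuation everywhere
(`BSD/Even43`). So `E(ℚ)/2E(ℚ)` has at most two elements (`BSD/HalfSym`, `BSD/LineK`).
-/

set_option autoImplicit false

open NumberField Module WeierstrassCurve IsDedekindDomain

namespace Fermat.Agent.Cor.BSD.R43

open Fermat.Agent.Cor.HW

local notation "W" => (E43.map (Int.castRingHom ℚ))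

theorem a1 : (W).a₁ = 0 := by simp [E43]
theorem a2 : (W).a₂ = 1 := by simp [E43]
theorem a3 : (W).a₃ = 1 := by simp [E43]
theorem a4 : (W).a₄ = 0 := by simp [E43]
theorem a6 : (W).a₆ = 0 := by simp [E43]
theorem b2 : (W).b₂ = 4 := by rw [WeierstrassCurve.b₂, a1, a2]; norm_num
theorem b4 : (W).b₄ = 0 := by rw [WeierstrassCurve.b₄, a1, a3, a4]; norm_num
theorem b6 : (W).b₆ = 1 := by rw [WeierstrassCurve.b₆, a3, a6]; norm_num

theorem Δne : (W).Δ ≠ 0 := by rw [Inf.Δ43]; norm_num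

theorem eqn {x y : ℚ} (h : (W).toAffine.Nonsingular x y) : y ^ 2 + y = x ^ 3 + x ^ 2 := by
  have h1 := h.1
  rw [Affine.equation_iff, a1, a2, a3, a4, a6] at h1
  linear_combination h1

section K

variable {K : Type*} [Field K] [NumberField K] {ζ : K}

theorem hθ (hζ : ζ ^ 3 + 2 * ζ ^ 2 + 2 = 0) :
    4 * (ζ / 2) ^ 3 + algebraMap ℚ K (W).b₂ * (ζ / 2) ^ 2 + 2 * algebraMap ℚ K (W).b₄ * (ζ / 2) +
      algebraMap ℚ K (W).b₆ = 0 := by
  rw [b2, b4, b6, map_ofNat, map_zero, map_one]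
  linear_combination (1 / 2 : K) * hζ

theorem hli (B : Basis (Fin 3) ℚ K) (hB0 : B 0 = 1) (hB1 : B 1 = ζ) (hB2 : B 2 = ζ ^ 2)
    (a b c : ℚ) (h : algebraMap ℚ K a + algebraMap ℚ K b * (ζ / 2) +
      algebraMap ℚ K c * (ζ / 2) ^ 2 = 0) : a = 0 ∧ b = 0 ∧ c = 0 := by
  have h1 : a • B 0 + (b / 2) • B 1 + (c / 4) • B 2 = 0 := by
    rw [hB0, hB1, hB2, Algebra.smul_def, Algebra.smul_def, Algebra.smul_def, map_div₀, map_div₀,
      map_ofNat, map_ofNat]
    linear_combination h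
  have h2 := congrArg B.repr h1
  have g0 := DFunLike.congr_fun h2 0
  have g1 := DFunLike.congr_fun h2 1
  have g2 := DFunLike.congr_fun h2 2
  simp at g0 g1 g2
  exact ⟨g0, g1, g2⟩

theorem ne_theta (B : Basis (Fin 3) ℚ K) (hB0 : B 0 = 1) (hB1 : B 1 = ζ) (hB2 : B 2 = ζ ^ 2)
    (x : ℚ) : algebraMap ℚ K x ≠ ζ / 2 := by
  intro h
  have := (hli B hB0 hB1 hB2 x (-1) 0 (by rw [h, map_neg, map_one, map_zero]; ring)).2.1
  norm_num at this

theorem norm_sub (B : Basis (Fin 3) ℚ K) (hB0 : B 0 = 1) (hB1 : B 1 = ζ) (hB2 : B 2 = ζ ^ 2)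
    (hζ : ζ ^ 3 + 2 * ζ ^ 2 + 2 = 0) {x y : ℚ} (h : y ^ 2 + y = x ^ 3 + x ^ 2) :
    Algebra.norm ℚ (algebraMap ℚ K x - ζ / 2) = (y + 1 / 2) ^ 2 := by
  have h1 := F43.norm_lin B hB0 hB1 hB2 hζ x (1 / 2)
  have h2 : algebraMap ℚ K x - algebraMap ℚ K (1 / 2) * ζ = algebraMap ℚ K x - ζ / 2 := by
    rw [map_div₀, map_one, map_ofNat]
    ring
  rw [h2] at h1
  rw [h1]
  linear_combination -h

/-- `x(P) - θ` is, up to squares, `1` or `ε`. -/
theorem cls (hrank : finrank ℚ K = 3) (B : Basis (Fin 3) ℚ K) (hB0 : B 0 = 1) (hB1 : B 1 = ζ)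
    (hB2 : B 2 = ζ ^ 2) (hζ : ζ ^ 3 + 2 * ζ ^ 2 + 2 = 0) {ε : (𝓞 K)ˣ}
    (hε : ∀ u : (𝓞 K)ˣ, 0 < Algebra.norm ℚ ((u : 𝓞 K) : K) → IsSquare u ∨ IsSquare (ε * u))
    {x y : ℚ} (h : y ^ 2 + y = x ^ 3 + x ^ 2) :
    IsSquare (algebraMap ℚ K x - ζ / 2) ∨
      IsSquare (((ε : 𝓞 K) : K) * (algebraMap ℚ K x - ζ / 2)) := by
  have hpid := F43.isPrincipalIdealRing hrank B hB0 hB1 hB2 hζ
  have hne : algebraMap ℚ K x - ζ / 2 ≠ 0 := sub_ne_zero.mpr (ne_theta B hB0 hB1 hB2 x)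
  obtain ⟨u, β, hβ, hu⟩ := exists_unit_mul_sq hne fun v => by
    have := even43 hζ h v
    simpa using this
  replace hu : algebraMap ℚ K x - ζ / 2 = ((u : 𝓞 K) : K) * β ^ 2 := hu
  have hN := norm_sub B hB0 hB1 hB2 hζ h
  have hN0 : Algebra.norm ℚ (algebraMap ℚ K x - ζ / 2) ≠ 0 := by
    rw [Ne, Algebra.norm_eq_zero_iff]
    exact hne
  have hpos : 0 < Algebra.norm ℚ ((u : 𝓞 K) : K) := by
    have h1 : Algebra.norm ℚ ((u : 𝓞 K) : K) * (Algebra.norm ℚ β) ^ 2 = (y + 1 / 2) ^ 2 := by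
      rw [← hN, hu, map_mul, map_pow]
    have h2 : 0 < (y + 1 / 2) ^ 2 := by
      rcases (sq_nonneg (y + 1 / 2)).lt_or_eq with h3 | h3
      · exact h3
      · rw [hN] at hN0
        exact absurd h3.symm hN0
    have h3 : 0 < (Algebra.norm ℚ β) ^ 2 := by
      have : Algebra.norm ℚ β ≠ 0 := by
        rw [Ne, Algebra.norm_eq_zero_iff]
        exact hβ
      positivity
    rw [← h1] at h2
    exact (mul_pos_iff_of_pos_right h3).mp h2
  rcases hε u hpos with ⟨t, ht⟩ | ⟨t, ht⟩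
  · left
    refine ⟨((t : 𝓞 K) : K) * β, ?_⟩
    have h1 : ((u : 𝓞 K) : K) = ((t : 𝓞 K) : K) * ((t : 𝓞 K) : K) := by
      rw [ht, Units.val_mul]
      exact map_mul (algebraMap (𝓞 K) K) _ _
    rw [hu, h1]
    ring
  · right
    refine ⟨((t : 𝓞 K) : K) * β, ?_⟩
    have h1 : ((ε : 𝓞 K) : K) * ((u : 𝓞 K) : K) = ((t : 𝓞 K) : K) * ((t : 𝓞 K) : K) := by
      have h2 : (ε : 𝓞 K) * (u : 𝓞 K) = (t : 𝓞 K) * (t : 𝓞 K) := by
        rw [← Units.val_mul, ← Units.val_mul, ht]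
      have h3 := congrArg (algebraMap (𝓞 K) K) h2
      rwa [map_mul, map_mul] at h3
    rw [hu]
    linear_combination β ^ 2 * h1

end K

/-- **The curve `43a` has rank one.** -/
theorem finrank_E43 : Module.finrank ℤ (W).toAffine.Point = 1 := by
  obtain ⟨K, _, _, ζ, B, hrank, hB0, hB1, hB2, hζ⟩ := F43.exists_field
  obtain ⟨ε, hε⟩ := exists_unit_sq hrank (nrRealPlaces_eq_one hζ B hB0 hB1 hB2)
  have hhalf : ∀ {x y : ℚ} (h : (W).toAffine.Nonsingular x y),
      IsSquare (algebraMap ℚ K x - ζ / 2) → ∃ Q : (W).toAffine.Point, Q + Q = Affine.Point.some x y h :=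
    fun h hsq => Sym.exists_half_of_isSquare two_ne_zero Δne hrank (hθ hζ)
      (hli B hB0 hB1 hB2) h hsq
  have hfg : AddGroup.FG (W).toAffine.Point := MordellWeil.mordell_weil ℚ W
  have hε0 : ((ε : 𝓞 K) : K) ≠ 0 := by
    have : (ε : 𝓞 K) ≠ 0 := ε.ne_zero
    exact fun h => this ((map_eq_zero_iff _ RingOfIntegers.coe_injective).mp h)
  refine le_antisymm ?_ ?_
  · exact LineK.finrank_le_one_of_classes (algebraMap ℚ K) two_ne_zero hfg (hθ hζ)
      (ne_theta B hB0 hB1 hB2) hε0 (fun x y h => cls hrank B hB0 hB1 hB2 hζ hε (eqn h))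
      fun x y h hsq => hhalf h hsq
  · by_contra hcon
    have h0 : Module.finrank ℤ (W).toAffine.Point = 0 := by omega
    have hfin : Module.Finite ℤ (W).toAffine.Point := Module.Finite.iff_addGroup_fg.mpr hfg
    rw [Module.finrank_eq_zero_iff] at h0
    obtain ⟨a, ha, h⟩ := h0 Inf.G43
    refine Inf.not_torsion_G43 (isOfFinAddOrder_iff_nsmul_eq_zero.mpr ⟨a.natAbs, by omega, ?_⟩)
    rcases Int.natAbs_eq a with h1 | h1
    · rw [h1] at h
      rwa [natCast_zsmul] at h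
    · rw [h1, neg_smul, neg_eq_zero, natCast_zsmul] at h
      exact h

theorem semistable43 : E43.IsSemistableModel := by
  have hq : Nat.Prime 43 := by norm_num
  have : Fact (Nat.Prime 43) := ⟨hq⟩
  exact isSemistableModel_of_prime hq (by decide) (by decide)

/-- **The rank part of the conjecture of Birch and Swinnerton-Dyer for the curve `43a`**: the
Hasse-Weil `L`-function exists, is unique, has a simple zero at `s = 1`, and the rank is one. -/
theorem bsd43 : ∃ L : ℂ → ℂ, IsHasseWeil E43 L ∧ (∀ L' : ℂ → ℂ, IsHasseWeil E43 L' → L' = L) ∧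
    analyticOrderNatAt L 1 = 1 ∧
    analyticOrderNatAt L 1 = Module.finrank ℤ (E43.map (Int.castRingHom ℚ)).toAffine.Point := by
  obtain ⟨L, hL, hu⟩ := existsUnique_isHasseWeil (by decide) semistable43
  have h1 := order_43a hL
  exact ⟨L, hL, hu, h1, by rw [h1, finrank_E43]⟩

end Fermat.Agent.Cor.BSD.R43
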