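import Fermat.Agent.Corollaries.BSD.RankOdd

/-!
# Rank at most one: negative squarefree discriminant and odd class number

A cubic polynomial of negative discriminant has one real root, so the hypothesis of `BSD/RankOdd` on
the real places is the negativity of the discriminant.
-/

set_option autoImplicit false

open NumberField Module WeierstrassCurve InfinitePlace

namespace Fermat.Agent.Cor.BSD.RankOdd

variable {a₂ a₄ a₆ : ℤ}

/-- A cubic polynomial of negative discriminant has one real root. -/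
theorem eq_of_cubic (hneg : (EE a₂ a₄ a₆).Δ < 0) {r s : ℝ}
    (hr : r ^ 3 + 2 * a₂ * r ^ 2 + 4 * a₄ * r + 2 * (1 + 4 * a₆) = 0)
    (hs : s ^ 3 + 2 * a₂ * s ^ 2 + 4 * a₄ * s + 2 * (1 + 4 * a₆) = 0) : r = s := by
  by_contra hne
  have hq : r ^ 2 + r * s + s ^ 2 + 2 * a₂ * (r + s) + 4 * a₄ = 0 := by
    have h1 : (r - s) * (r ^ 2 + r * s + s ^ 2 + 2 * a₂ * (r + s) + 4 * a₄) = 0 := by
      linear_combination hr - hs
    exact (mul_eq_zero.mp h1).resolve_left (sub_ne_zero.mpr hne)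
  obtain ⟨t, ht⟩ : ∃ t : ℝ, t = -2 * a₂ - r - s := ⟨_, rfl⟩
  have e2 : (a₂ : ℝ) = -(r + s + t) / 2 := by rw [ht]; ring
  have e4 : (a₄ : ℝ) = (r * s + s * t + t * r) / 4 := by
    rw [e2] at hq
    linear_combination hq / 4
  have e6 : (1 + 4 * (a₆ : ℝ)) = -(r * s * t) / 2 := by
    rw [e2, e4] at hr
    linear_combination hr / 2
  have hD : ((EE a₂ a₄ a₆).Δ : ℝ) < 0 := by exact_mod_cast hneg
  rw [Δ_EE] at hD
  push_cast at hD
  rw [e6, e2, e4] at hD
  have h2 : -16 * (-(r + s + t) / 2) ^ 2 * (-(r + s + t) / 2 * (-(r * s * t) / 2) -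
      ((r * s + s * t + t * r) / 4) ^ 2) - 64 * ((r * s + s * t + t * r) / 4) ^ 3 -
      27 * (-(r * s * t) / 2) ^ 2 + 72 * (-(r + s + t) / 2) * ((r * s + s * t + t * r) / 4) *
      (-(r * s * t) / 2) = ((r - s) * (s - t) * (t - r)) ^ 2 / 4 := by ring
  rw [h2] at hD
  have := sq_nonneg ((r - s) * (s - t) * (t - r))
  linarith

/-- The cubic field has one real place. -/
theorem nrRealPlaces_eq_one {K : Type*} [Field K] [NumberField K] {ζ : K}
    (B : Basis (Fin 3) ℚ K) (hB0 : B 0 = 1) (hB1 : B 1 = ζ) (hB2 : B 2 = ζ ^ 2)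
    (hζ : ζ ^ 3 + 2 * a₂ * ζ ^ 2 + 4 * a₄ * ζ + 2 * (1 + 4 * a₆) = 0)
    (hneg : (EE a₂ a₄ a₆).Δ < 0) : nrRealPlaces K = 1 := by
  have h3 : finrank ℚ K = 3 := by
    rw [finrank_eq_card_basis B, Fintype.card_fin]
  have hle : nrRealPlaces K ≤ 1 := by
    classical
    suffices hs : Subsingleton {w : InfinitePlace K // IsReal w} from
      Fintype.card_le_one_iff_subsingleton.2 hs
    refine ⟨?_⟩
    rintro ⟨w, hw⟩ ⟨w', hw'⟩
    rw [Subtype.mk.injEq, ← mk_embedding w, ← mk_embedding w']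
    congr 1
    have hval : w.embedding ζ = w'.embedding ζ := by
      rw [← embedding_of_isReal_apply hw, ← embedding_of_isReal_apply hw']
      congr 1
      refine eq_of_cubic hneg ?_ ?_
      · have := congrArg (embedding_of_isReal hw) hζ
        simpa only [map_add, map_mul, map_pow, map_zero, map_one, map_ofNat, map_intCast] using this
      · have := congrArg (embedding_of_isReal hw') hζ
        simpa only [map_add, map_mul, map_pow, map_zero, map_one, map_ofNat, map_intCast] using this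
    have hlin : (w.embedding.toRatAlgHom : K →ₐ[ℚ] ℂ).toLinearMap =
        (w'.embedding.toRatAlgHom : K →ₐ[ℚ] ℂ).toLinearMap := by
      refine B.ext fun i => ?_
      fin_cases i
      · simp [hB0]
      · simpa [hB1] using hval
      · simp [hB2, hval]
    ext x
    exact congrArg (fun F => F x) hlin
  have h := card_add_two_mul_card_eq_rank K
  rw [h3] at h
  omega

/-- **Rank at most one.** Let `E : y² + y = x³ + a₂x² + a₄x + a₆` have integral coefficients and
negative squarefree discriminant, and let the cubic field `K` with basis `1, ζ, ζ²`, where `ζ/2` is a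
root of the 2-division polynomial of `E`, have odd class number. Then the rank of `E(ℚ)` is at most
one. -/
theorem finrank_le_one_of_neg {K : Type*} [Field K] [NumberField K] {ζ : K}
    (B : Basis (Fin 3) ℚ K) (hB0 : B 0 = 1) (hB1 : B 1 = ζ) (hB2 : B 2 = ζ ^ 2)
    (hζ : ζ ^ 3 + 2 * a₂ * ζ ^ 2 + 4 * a₄ * ζ + 2 * (1 + 4 * a₆) = 0)
    (hodd : Odd (classNumber K)) (hneg : (EE a₂ a₄ a₆).Δ < 0)
    (hD : Squarefree (EE a₂ a₄ a₆).Δ) :
    finrank ℤ ((EE a₂ a₄ a₆).map (Int.castRingHom ℚ)).toAffine.Point ≤ 1 :=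
  finrank_le_one B hB0 hB1 hB2 hζ (nrRealPlaces_eq_one B hB0 hB1 hB2 hζ hneg) hodd hD

/-- Two rational points on such a curve are linearly dependent. -/
theorem exists_relation {K : Type*} [Field K] [NumberField K] {ζ : K}
    (B : Basis (Fin 3) ℚ K) (hB0 : B 0 = 1) (hB1 : B 1 = ζ) (hB2 : B 2 = ζ ^ 2)
    (hζ : ζ ^ 3 + 2 * a₂ * ζ ^ 2 + 4 * a₄ * ζ + 2 * (1 + 4 * a₆) = 0)
    (hodd : Odd (classNumber K)) (hneg : (EE a₂ a₄ a₆).Δ < 0)
    (hD : Squarefree (EE a₂ a₄ a₆).Δ)
    (P Q : ((EE a₂ a₄ a₆).map (Int.castRingHom ℚ)).toAffine.Point) :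
    ∃ m n : ℤ, (m ≠ 0 ∨ n ≠ 0) ∧ m • P + n • Q = 0 := by
  have h1 := finrank_le_one_of_neg B hB0 hB1 hB2 hζ hodd hneg hD
  have hΔ : ((EE a₂ a₄ a₆).map (Int.castRingHom ℚ)).Δ ≠ 0 := by
    rw [WeierstrassCurve.map_Δ, eq_intCast]
    exact_mod_cast hD.ne_zero
  have hell : ((EE a₂ a₄ a₆).map (Int.castRingHom ℚ)).IsElliptic := ⟨isUnit_iff_ne_zero.mpr hΔ⟩
  have hfg := MordellWeil.mordell_weil ℚ ((EE a₂ a₄ a₆).map (Int.castRingHom ℚ))
  have hfin : Module.Finite ℤ ((EE a₂ a₄ a₆).map (Int.castRingHom ℚ)).toAffine.Point :=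
    Module.Finite.iff_addGroup_fg.mpr hfg
  by_contra hcon
  push Not at hcon
  have hli : LinearIndependent ℤ ![P, Q] := by
    rw [LinearIndependent.pair_iff]
    intro s t hst
    by_contra h2
    have h3 : s ≠ 0 ∨ t ≠ 0 := by
      by_contra h4
      push Not at h4
      exact h2 h4
    exact hcon s t h3 hst
  have h2 := hli.fintype_card_le_finrank
  simp at h2
  omega

end Fermat.Agent.Cor.BSD.RankOdd
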