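import Fermat.Agent.Corollaries.BSD.Field91
import Fermat.Agent.Corollaries.BSD.RankNeg
import Fermat.Agent.Corollaries.BSD.TorsFree

/-!
# The curve `91a`: `y² + y = x³ + x` has `E(ℚ) ≅ ℤ`

Its discriminant is `-91`, and the cubic field of its points of order two has class number one
(`BSD/Field91`), so the rank is at most one (`BSD/RankNeg`). It has four points over `𝔽₃` and nine
points over `𝔽₅`, so there is no torsion, and `(0, 0)` has infinite order.
-/

set_option autoImplicit false

open NumberField Module WeierstrassCurve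

namespace Fermat.Agent.Cor.BSD.R91

open RankOdd Tors

/-- A finitely generated abelian group of rank at most one without torsion is `0` or `ℤ`. -/
theorem equiv_int_of_le {M : Type*} [AddCommGroup M] [Nontrivial M] (hfg : AddGroup.FG M)
    (h1 : finrank ℤ M ≤ 1) (ht : Nat.card (AddCommGroup.torsion M) = 1) : Nonempty (M ≃+ ℤ) := by
  refine equiv_int hfg (le_antisymm h1 ?_) ht
  by_contra hcon
  have h0 : finrank ℤ M = 0 := by omega
  have hfin : Module.Finite ℤ M := Module.Finite.iff_addGroup_fg.mpr hfg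
  have hsub : Subsingleton (AddCommGroup.torsion M) := (Nat.card_eq_one_iff_unique.mp ht).1
  rw [Module.finrank_eq_zero_iff_isTorsion] at h0
  obtain ⟨x, hx⟩ := exists_ne (0 : M)
  obtain ⟨⟨n, hn⟩, hnx⟩ := @h0 x
  have hn0 : n ≠ 0 := nonZeroDivisors.ne_zero hn
  have hnx' : n • x = 0 := hnx
  have hfo : IsOfFinAddOrder x := by
    rw [isOfFinAddOrder_iff_nsmul_eq_zero]
    refine ⟨n.natAbs, by omega, ?_⟩
    rcases Int.natAbs_eq n with h | h
    · rw [h] at hnx'
      rwa [natCast_zsmul] at hnx'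
    · rw [h, neg_smul, neg_eq_zero, natCast_zsmul] at hnx'
      exact hnx'
  have h2 : (⟨x, hfo⟩ : AddCommGroup.torsion M) = 0 := Subsingleton.elim _ _
  exact hx (congrArg Subtype.val h2)

/-- The curve `91a`. -/
abbrev E91 : WeierstrassCurve ℤ := ⟨0, 0, 1, 1, 0⟩

theorem Δ91 : E91.Δ = -91 := by
  simp only [WeierstrassCurve.Δ, WeierstrassCurve.b₂, WeierstrassCurve.b₄, WeierstrassCurve.b₆,
    WeierstrassCurve.b₈]
  norm_num

theorem squarefree_Δ91 : Squarefree E91.Δ := by
  rw [Δ91, ← Int.squarefree_natAbs]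
  have h : (-91 : ℤ).natAbs = 7 * 13 := rfl
  rw [h, Nat.squarefree_mul (by norm_num)]
  exact ⟨Irreducible.squarefree (by norm_num : Nat.Prime 7),
    Irreducible.squarefree (by norm_num : Nat.Prime 13)⟩

theorem finrank_le : finrank ℤ (E91.map (Int.castRingHom ℚ)).toAffine.Point ≤ 1 := by
  obtain ⟨K, _, _, ζ, B, hrank, hB0, hB1, hB2, hζ⟩ := F91.exists_field
  have hpid := F91.isPrincipalIdealRing hrank B hB0 hB1 hB2 hζ
  have hodd : Odd (classNumber K) := by
    rw [classNumber_eq_one_iff.mpr hpid]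
    exact odd_one
  exact finrank_le_one_of_neg (a₂ := 0) (a₄ := 1) (a₆ := 0) B hB0 hB1 hB2
    (by push_cast; linear_combination hζ) hodd (by rw [Δ91]; norm_num) squarefree_Δ91

theorem card_torsion91 :
    Nat.card (AddCommGroup.torsion (E91.map (Int.castRingHom ℚ)).toAffine.Point) = 1 := by
  have h3 : Nat.card (AddCommGroup.torsion (E91.map (Int.castRingHom ℚ)).toAffine.Point) ∣ 4 :=
    card_torsion_dvd (ℓ := 3) (by norm_num) (by norm_num) (by decide) (by decide)
  have h5 : Nat.card (AddCommGroup.torsion (E91.map (Int.castRingHom ℚ)).toAffine.Point) ∣ 9 :=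
    card_torsion_dvd (ℓ := 5) (by norm_num) (by norm_num) (by decide) (by decide)
  exact Nat.dvd_one.mp (Nat.dvd_gcd h3 h5)

theorem nonsingular_zero : (E91.map (Int.castRingHom ℚ)).toAffine.Nonsingular 0 0 := by
  rw [Affine.nonsingular_zero]
  simp

/-- **The curve `91a`: `E(ℚ) ≅ ℤ`.** -/
theorem equiv_int91 : Nonempty ((E91.map (Int.castRingHom ℚ)).toAffine.Point ≃+ ℤ) := by
  have hΔ : (E91.map (Int.castRingHom ℚ)).Δ ≠ 0 := by
    rw [WeierstrassCurve.map_Δ, Δ91, eq_intCast]
    norm_num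
  have hell : (E91.map (Int.castRingHom ℚ)).IsElliptic := ⟨isUnit_iff_ne_zero.mpr hΔ⟩
  have hnt : Nontrivial (E91.map (Int.castRingHom ℚ)).toAffine.Point :=
    ⟨⟨Affine.Point.some 0 0 nonsingular_zero, 0, Affine.Point.some_ne_zero _⟩⟩
  exact equiv_int_of_le (MordellWeil.mordell_weil ℚ (E91.map (Int.castRingHom ℚ))) finrank_le
    card_torsion91

/-- **The curve `91a` has rank one.** -/
theorem finrank_E91 : finrank ℤ (E91.map (Int.castRingHom ℚ)).toAffine.Point = 1 := by
  obtain ⟨e⟩ := equiv_int91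
  rw [e.toIntLinearEquiv.finrank_eq, finrank_self]

/-- The point `(0, 0)` of the curve `91a` has infinite order. -/
theorem nsmul_ne_zero91 {n : ℕ} (hn : n ≠ 0) :
    n • (Affine.Point.some 0 0 nonsingular_zero : (E91.map (Int.castRingHom ℚ)).toAffine.Point) ≠
      0 := by
  intro h
  obtain ⟨e⟩ := equiv_int91
  have h1 := congrArg e h
  rw [map_nsmul, map_zero, smul_eq_zero] at h1
  rcases h1 with h1 | h1
  · exact hn h1
  · exact Affine.Point.some_ne_zero nonsingular_zero ((map_eq_zero_iff e e.injective).mp h1)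

end Fermat.Agent.Cor.BSD.R91
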