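import Fermat.Agent.Corollaries.BSD.HalfSym
import Fermat.Agent.Corollaries.BSD.CountTwo
import Fermat.Agent.Corollaries.BSD.EvenVal
import Fermat.Agent.Corollaries.BSD.Unit11
import Fermat.Agent.Corollaries.BSD.OddClass
import Fermat.Agent.Corollaries.MordellWeil.Main

/-!
# Rank at most one from an odd class number

`E : y² + y = x³ + a₂x² + a₄x + a₆` with integral coefficients and squarefree discriminant, `K` the
cubic field of the 2-division polynomial (`ζ = 2θ`). If `K` has one real place and odd class number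
then `E(ℚ)` has rank at most one (`finrank_le_one`).
-/

set_option autoImplicit false

open NumberField Module WeierstrassCurve IsDedekindDomain InfinitePlace

namespace Fermat.Agent.Cor.BSD.RankOdd

/-- The curve `y² + y = x³ + a₂x² + a₄x + a₆` over `ℤ`. -/
abbrev EE (a₂ a₄ a₆ : ℤ) : WeierstrassCurve ℤ := ⟨0, a₂, 1, a₄, a₆⟩

variable {a₂ a₄ a₆ : ℤ}

theorem Δ_EE : (EE a₂ a₄ a₆).Δ = -16 * a₂ ^ 2 * (a₂ * (1 + 4 * a₆) - a₄ ^ 2) -
      64 * a₄ ^ 3 - 27 * (1 + 4 * a₆) ^ 2 + 72 * a₂ * a₄ * (1 + 4 * a₆) := by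
  simp only [WeierstrassCurve.Δ, WeierstrassCurve.b₂, WeierstrassCurve.b₄, WeierstrassCurve.b₆,
    WeierstrassCurve.b₈]
  ring

theorem a1 : ((EE a₂ a₄ a₆).map (Int.castRingHom ℚ)).a₁ = 0 := by simp
theorem a2 : ((EE a₂ a₄ a₆).map (Int.castRingHom ℚ)).a₂ = a₂ := by simp
theorem a3 : ((EE a₂ a₄ a₆).map (Int.castRingHom ℚ)).a₃ = 1 := by simp
theorem a4 : ((EE a₂ a₄ a₆).map (Int.castRingHom ℚ)).a₄ = a₄ := by simp
theorem a6 : ((EE a₂ a₄ a₆).map (Int.castRingHom ℚ)).a₆ = a₆ := by simp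
theorem b2 : ((EE a₂ a₄ a₆).map (Int.castRingHom ℚ)).b₂ = 4 * a₂ := by
  rw [WeierstrassCurve.b₂, a1, a2]; ring
theorem b4 : ((EE a₂ a₄ a₆).map (Int.castRingHom ℚ)).b₄ = 2 * a₄ := by
  rw [WeierstrassCurve.b₄, a1, a3, a4]; ring
theorem b6 : ((EE a₂ a₄ a₆).map (Int.castRingHom ℚ)).b₆ = 1 + 4 * a₆ := by
  rw [WeierstrassCurve.b₆, a3, a6]; ring

theorem eqn {x y : ℚ} (h : ((EE a₂ a₄ a₆).map (Int.castRingHom ℚ)).toAffine.Nonsingular x y) :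
    y ^ 2 + y = x ^ 3 + a₂ * x ^ 2 + a₄ * x + a₆ := by
  have h1 := h.1
  rw [Affine.equation_iff, a1, a2, a3, a4, a6] at h1
  linear_combination h1

section K

variable {K : Type*} [Field K] [NumberField K] {ζ : K}

theorem hθ (hζ : ζ ^ 3 + 2 * a₂ * ζ ^ 2 + 4 * a₄ * ζ + 2 * (1 + 4 * a₆) = 0) :
    4 * (ζ / 2) ^ 3 + algebraMap ℚ K ((EE a₂ a₄ a₆).map (Int.castRingHom ℚ)).b₂ * (ζ / 2) ^ 2 +
      2 * algebraMap ℚ K ((EE a₂ a₄ a₆).map (Int.castRingHom ℚ)).b₄ * (ζ / 2) +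
      algebraMap ℚ K ((EE a₂ a₄ a₆).map (Int.castRingHom ℚ)).b₆ = 0 := by
  rw [b2, b4, b6, map_mul, map_mul, map_add, map_mul, map_ofNat, map_ofNat, map_one,
    map_intCast, map_intCast, map_intCast]
  linear_combination (1 / 2 : K) * hζ

theorem hli (B : Basis (Fin 3) ℚ K) (hB0 : B 0 = 1) (hB1 : B 1 = ζ) (hB2 : B 2 = ζ ^ 2)
    (a b c : ℚ) (h : algebraMap ℚ K a + algebraMap ℚ K b * (ζ / 2) +
      algebraMap ℚ K c * (ζ / 2) ^ 2 = 0) : a = 0 ∧ b = 0 ∧ c = 0 := by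
  have h1 : a • B 0 + (b / 2) • B 1 + (c / 4) • B 2 = 0 := by
    rw [hB0, hB1, hB2, Algebra.smul_def, Algebra.smul_def, Algebra.smul_def, map_div₀, map_div₀,
      map_ofNat, map_ofNat]
    linear_combination h
  have h2 := congrArg B.repr h1
  have g0 := DFunLike.congr_fun h2 0
  have g1 := DFunLike.congr_fun h2 1
  have g2 := DFunLike.congr_fun h2 2
  simp at g0 g1 g2
  exact ⟨g0, g1, g2⟩

theorem ne_theta (B : Basis (Fin 3) ℚ K) (hB0 : B 0 = 1) (hB1 : B 1 = ζ) (hB2 : B 2 = ζ ^ 2)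
    (x : ℚ) : algebraMap ℚ K x ≠ ζ / 2 := by
  intro h
  have := (hli B hB0 hB1 hB2 x (-1) 0 (by rw [h, map_neg, map_one, map_zero]; ring)).2.1
  norm_num at this

theorem norm_lin (B : Basis (Fin 3) ℚ K) (hB0 : B 0 = 1) (hB1 : B 1 = ζ) (hB2 : B 2 = ζ ^ 2)
    (hζ : ζ ^ 3 + 2 * a₂ * ζ ^ 2 + 4 * a₄ * ζ + 2 * (1 + 4 * a₆) = 0) (x y : ℚ) :
    Algebra.norm ℚ (algebraMap ℚ K x - algebraMap ℚ K y * ζ) =
      x ^ 3 + 2 * a₂ * x ^ 2 * y + 4 * a₄ * x * y ^ 2 + 2 * (1 + 4 * a₆) * y ^ 3 := by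
  have m0 : (algebraMap ℚ K x - algebraMap ℚ K y * ζ) * B 0 = x • B 0 + (-y) • B 1 := by
    rw [hB0, hB1, Algebra.smul_def, Algebra.smul_def, map_neg]; ring
  have m1 : (algebraMap ℚ K x - algebraMap ℚ K y * ζ) * B 1 = x • B 1 + (-y) • B 2 := by
    rw [hB1, hB2, Algebra.smul_def, Algebra.smul_def, map_neg]; ring
  have m2 : (algebraMap ℚ K x - algebraMap ℚ K y * ζ) * B 2 =
      (x + 2 * a₂ * y) • B 2 + (4 * a₄ * y) • B 1 + (2 * (1 + 4 * a₆) * y) • B 0 := by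
    rw [hB0, hB1, hB2, Algebra.smul_def, Algebra.smul_def, Algebra.smul_def]
    simp only [map_add, map_mul, map_ofNat, map_one, map_intCast]
    linear_combination (-algebraMap ℚ K y) * hζ
  rw [Algebra.norm_eq_matrix_det B, Matrix.det_fin_three]
  simp only [Algebra.leftMulMatrix_eq_repr_mul, m0, m1, m2]
  simp
  ring

theorem norm_sub (B : Basis (Fin 3) ℚ K) (hB0 : B 0 = 1) (hB1 : B 1 = ζ) (hB2 : B 2 = ζ ^ 2)
    (hζ : ζ ^ 3 + 2 * a₂ * ζ ^ 2 + 4 * a₄ * ζ + 2 * (1 + 4 * a₆) = 0) {x y : ℚ}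
    (h : y ^ 2 + y = x ^ 3 + a₂ * x ^ 2 + a₄ * x + a₆) :
    Algebra.norm ℚ (algebraMap ℚ K x - ζ / 2) = (y + 1 / 2) ^ 2 := by
  have h1 := norm_lin B hB0 hB1 hB2 hζ x (1 / 2)
  have h2 : algebraMap ℚ K x - algebraMap ℚ K (1 / 2) * ζ = algebraMap ℚ K x - ζ / 2 := by
    rw [map_div₀, map_one, map_ofNat]
    ring
  rw [h2] at h1
  rw [h1]
  linear_combination -h

/-- `x(P) - θ` is, up to squares, `1` or `ε`. -/
theorem cls (B : Basis (Fin 3) ℚ K) (hB0 : B 0 = 1) (hB1 : B 1 = ζ)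
    (hB2 : B 2 = ζ ^ 2) (hζ : ζ ^ 3 + 2 * a₂ * ζ ^ 2 + 4 * a₄ * ζ + 2 * (1 + 4 * a₆) = 0)
    (hodd : Odd (classNumber K)) (hD : Squarefree (EE a₂ a₄ a₆).Δ) {ε : (𝓞 K)ˣ}
    (hε : ∀ u : (𝓞 K)ˣ, 0 < Algebra.norm ℚ ((u : 𝓞 K) : K) → IsSquare u ∨ IsSquare (ε * u))
    {x y : ℚ} (h : y ^ 2 + y = x ^ 3 + a₂ * x ^ 2 + a₄ * x + a₆) :
    IsSquare (algebraMap ℚ K x - ζ / 2) ∨
      IsSquare (((ε : 𝓞 K) : K) * (algebraMap ℚ K x - ζ / 2)) := by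
  have hne : algebraMap ℚ K x - ζ / 2 ≠ 0 := sub_ne_zero.mpr (ne_theta B hB0 hB1 hB2 x)
  rw [Δ_EE] at hD
  obtain ⟨u, β, hβ, hu⟩ := OddClass.exists_unit_mul_sq_of_odd hodd hne fun v => by
    obtain ⟨k, hk⟩ := Ev.even_val_field v hζ hD h
    refine ⟨WithZero.exp k, ?_⟩
    rw [← WithZero.exp_add, ← two_mul]
    simpa using hk
  have hN := norm_sub B hB0 hB1 hB2 hζ h
  have hN0 : Algebra.norm ℚ (algebraMap ℚ K x - ζ / 2) ≠ 0 := by
    rw [Ne, Algebra.norm_eq_zero_iff]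
    exact hne
  have hpos : 0 < Algebra.norm ℚ ((u : 𝓞 K) : K) := by
    have h1 : Algebra.norm ℚ ((u : 𝓞 K) : K) * (Algebra.norm ℚ β) ^ 2 = (y + 1 / 2) ^ 2 := by
      rw [← hN, hu, map_mul, map_pow]
    have h2 : 0 < (y + 1 / 2) ^ 2 := by
      rcases (sq_nonneg (y + 1 / 2)).lt_or_eq with h3 | h3
      · exact h3
      · rw [hN] at hN0
        exact absurd h3.symm hN0
    have h3 : 0 < (Algebra.norm ℚ β) ^ 2 := by
      have : Algebra.norm ℚ β ≠ 0 := by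
        rw [Ne, Algebra.norm_eq_zero_iff]
        exact hβ
      positivity
    rw [← h1] at h2
    exact (mul_pos_iff_of_pos_right h3).mp h2
  rcases hε u hpos with ⟨t, ht⟩ | ⟨t, ht⟩
  · left
    refine ⟨((t : 𝓞 K) : K) * β, ?_⟩
    have h1 : ((u : 𝓞 K) : K) = ((t : 𝓞 K) : K) * ((t : 𝓞 K) : K) := by
      rw [ht, Units.val_mul]
      exact map_mul (algebraMap (𝓞 K) K) _ _
    rw [hu, h1]
    ring
  · right
    refine ⟨((t : 𝓞 K) : K) * β, ?_⟩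
    have h1 : ((ε : 𝓞 K) : K) * ((u : 𝓞 K) : K) = ((t : 𝓞 K) : K) * ((t : 𝓞 K) : K) := by
      have h2 : (ε : 𝓞 K) * (u : 𝓞 K) = (t : 𝓞 K) * (t : 𝓞 K) := by
        rw [← Units.val_mul, ← Units.val_mul, ht]
      have h3 := congrArg (algebraMap (𝓞 K) K) h2
      rwa [map_mul, map_mul] at h3
    rw [hu]
    linear_combination β ^ 2 * h1

/-- **Rank at most one from an odd class number.** Let `E : y² + y = x³ + a₂x² + a₄x + a₆` have
integral coefficients and squarefree discriminant, and let the cubic field `K` with basis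
`1, ζ, ζ²`, where `ζ/2` is a root of the 2-division polynomial of `E`, have one real place and odd
class number. Then the rank of `E(ℚ)` is at most one. -/
theorem finrank_le_one (B : Basis (Fin 3) ℚ K) (hB0 : B 0 = 1) (hB1 : B 1 = ζ)
    (hB2 : B 2 = ζ ^ 2) (hζ : ζ ^ 3 + 2 * a₂ * ζ ^ 2 + 4 * a₄ * ζ + 2 * (1 + 4 * a₆) = 0)
    (hr : nrRealPlaces K = 1) (hodd : Odd (classNumber K))
    (hD : Squarefree (EE a₂ a₄ a₆).Δ) :
    finrank ℤ ((EE a₂ a₄ a₆).map (Int.castRingHom ℚ)).toAffine.Point ≤ 1 := by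
  have hrank : finrank ℚ K = 3 := by rw [finrank_eq_card_basis B, Fintype.card_fin]
  obtain ⟨ε, hε⟩ := exists_unit_sq hrank hr
  have hΔ : ((EE a₂ a₄ a₆).map (Int.castRingHom ℚ)).Δ ≠ 0 := by
    rw [WeierstrassCurve.map_Δ, eq_intCast]
    exact_mod_cast hD.ne_zero
  have hell : ((EE a₂ a₄ a₆).map (Int.castRingHom ℚ)).IsElliptic := ⟨isUnit_iff_ne_zero.mpr hΔ⟩
  have hfg := MordellWeil.mordell_weil ℚ ((EE a₂ a₄ a₆).map (Int.castRingHom ℚ))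
  have hε0 : ((ε : 𝓞 K) : K) ≠ 0 := by
    have : (ε : 𝓞 K) ≠ 0 := ε.ne_zero
    exact fun h => this ((map_eq_zero_iff _ RingOfIntegers.coe_injective).mp h)
  exact LineK.finrank_le_one_of_classes (algebraMap ℚ K) two_ne_zero hfg (hθ hζ)
    (ne_theta B hB0 hB1 hB2) hε0 (fun x y h => cls B hB0 hB1 hB2 hζ hodd hD hε (eqn h))
    fun x y h hsq => Sym.exists_half_of_isSquare two_ne_zero hΔ hrank (hθ hζ)
      (hli B hB0 hB1 hB2) h hsq

end K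

end Fermat.Agent.Cor.BSD.RankOdd
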