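import Fermat.Agent.Corollaries.BSD.Mordell37

/-!
# The integer points of `Y² = X³ - 16 X + 16`

This is the short model of `37a : y² + y = x³ - x`, with `X = 4 x`, `Y = 4 (2 y + 1)`. If `4 x(2 R)` is
an integer, then `x(R)` is an integer; the odd multiples of `(0, 0)` lie on the bounded component.
-/

set_option autoImplicit false

noncomputable section

open WeierstrassCurve WeierstrassCurve.Affine WeierstrassCurve.Affine.Point
open Fermat.Agent.ECRed Fermat.Agent.Cor.LN Fermat.Agent.Cor.KumE Fermat.Agent.Cor.InvGal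

namespace Fermat.Agent.Cor.BSD.Gen37

theorem den_eq_one {a d X : ℤ} (hc : IsCoprime a d) (hd : 0 < d)
    (e : X * d * (4 * a ^ 3 - 4 * a * d ^ 2 + d ^ 3) =
      4 * (a ^ 4 + 2 * a ^ 2 * d ^ 2 - 2 * a * d ^ 3 + d ^ 4)) : d = 1 := by
  have hdvd : d ∣ 4 * a ^ 4 := ⟨X * (4 * a ^ 3 - 4 * a * d ^ 2 + d ^ 3) -
    4 * (2 * a ^ 2 * d - 2 * a * d ^ 2 + d ^ 3), by linear_combination -e⟩
  have hd4 : d ∣ 4 := (hc.symm.pow_right (n := 4)).dvd_of_dvd_mul_right hdvd
  have hle : d ≤ 4 := Int.le_of_dvd (by norm_num) hd4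
  have key : ∀ c : ℤ, a ^ 4 = 2 * c → (2 : ℤ) ∣ d → False := by
    intro c h1 h2
    have h3 : (2 : ℤ) ∣ a := Int.prime_two.dvd_of_dvd_pow ⟨c, h1⟩
    have h4 := hc.isUnit_of_dvd' h3 h2
    rw [Int.isUnit_iff] at h4
    omega
  interval_cases d
  · rfl
  · exfalso
    refine key (X * (a ^ 3 - 4 * a + 2) - 4 * a ^ 2 + 8 * a - 8) ?_ (by norm_num)
    refine mul_left_cancel₀ (by norm_num : (4 : ℤ) ≠ 0) ?_
    linear_combination -e
  · omega
  · exfalso
    refine key (2 * X * (a ^ 3 - 16 * a + 16) - 16 * a ^ 2 + 64 * a - 128) ?_ (by norm_num)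
    refine mul_left_cancel₀ (by norm_num : (4 : ℤ) ≠ 0) ?_
    linear_combination -e

theorem exists_int_of_double {x : ℚ} {X : ℤ}
    (h : (X : ℚ) * (4 * x ^ 3 - 4 * x + 1) = 4 * (x ^ 4 + 2 * x ^ 2 - 2 * x + 1)) :
    ∃ a : ℤ, x = a := by
  have hx : x * ((x.den : ℤ) : ℚ) = (x.num : ℚ) := by exact_mod_cast Rat.mul_den_eq_num x
  have hc : IsCoprime x.num (x.den : ℤ) := by
    rw [Int.isCoprime_iff_gcd_eq_one]
    exact x.reduced
  have hd : (0 : ℤ) < x.den := by exact_mod_cast x.den_pos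
  have e : X * (x.den : ℤ) * (4 * x.num ^ 3 - 4 * x.num * (x.den : ℤ) ^ 2 + (x.den : ℤ) ^ 3) =
      4 * (x.num ^ 4 + 2 * x.num ^ 2 * (x.den : ℤ) ^ 2 - 2 * x.num * (x.den : ℤ) ^ 3 +
        (x.den : ℤ) ^ 4) := by
    have e1 : (X : ℚ) * ((x.den : ℤ) : ℚ) * (4 * (x.num : ℚ) ^ 3 -
        4 * (x.num : ℚ) * ((x.den : ℤ) : ℚ) ^ 2 + ((x.den : ℤ) : ℚ) ^ 3) =
        4 * ((x.num : ℚ) ^ 4 + 2 * (x.num : ℚ) ^ 2 * ((x.den : ℤ) : ℚ) ^ 2 -
          2 * (x.num : ℚ) * ((x.den : ℤ) : ℚ) ^ 3 + ((x.den : ℤ) : ℚ) ^ 4) := by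
      rw [← hx]
      linear_combination ((x.den : ℤ) : ℚ) ^ 4 * h
    exact_mod_cast e1
  have h1 := den_eq_one hc hd e
  refine ⟨x.num, ?_⟩
  rw [h1, Int.cast_one, mul_one] at hx
  exact hx

theorem double_formula {x y : ℚ} (h : (EQQ W37).Nonsingular x y)
    (h0 : (Point.some x y h : G37) + Point.some x y h ≠ 0) :
    xc ((Point.some x y h : G37) + Point.some x y h) * (4 * x ^ 3 - 4 * x + 1) =
      x ^ 4 + 2 * x ^ 2 - 2 * x + 1 := by
  have hy : y ≠ (EQQ W37).negY x y := fun hy => h0 (Point.add_self_of_Y_eq hy)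
  have e := eq37 h.1
  have hn : (EQQ W37).negY x y = -y - 1 := by simp [negY, W37]
  have h1 : 2 * y + 1 ≠ 0 := by
    intro h2
    rw [hn] at hy
    exact hy (by linarith)
  have hs : (EQQ W37).slope x x y y = (3 * x ^ 2 - 1) / (2 * y + 1) := by
    rw [slope_of_Y_ne rfl hy, hn]
    congr 1
    · simp [W37]
      ring
    · ring
  have hX : xc ((Point.some x y h : G37) + Point.some x y h) =
      ((3 * x ^ 2 - 1) / (2 * y + 1)) ^ 2 - 2 * x := by
    rw [Point.add_self_of_Y_ne hy, xc_some, hs]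
    simp [addX, W37]
    ring
  have e2 : 4 * x ^ 3 - 4 * x + 1 = (2 * y + 1) ^ 2 := by linear_combination -4 * e
  rw [hX, e2]
  field_simp
  linear_combination (-8 * x) * e

theorem exists_int_half {n : ℕ} (hn : n ≠ 0) {X : ℤ}
    (h : 4 * xc ((2 * n) • (P37 : G37)) = X) : ∃ a : ℤ, xc (n • (P37 : G37)) = a := by
  have h2 : (2 * n) • (P37 : G37) = n • (P37 : G37) + n • (P37 : G37) := by
    rw [two_mul, add_nsmul]
  have h0 : n • (P37 : G37) + n • (P37 : G37) ≠ 0 := by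
    rw [← h2]
    exact nsmul_ne_zero (by omega)
  rw [h2] at h
  rcases hP : n • (P37 : G37) with _ | ⟨x, y, hns⟩
  · exact absurd hP (nsmul_ne_zero hn)
  · rw [hP] at h h0
    have h3 := double_formula hns h0
    obtain ⟨a, ha⟩ := exists_int_of_double (x := x) (X := X) (by rw [← h, ← h3]; ring)
    exact ⟨a, by rw [xc_some, ha]⟩

theorem X_of_even {n : ℕ} (hn : n ≠ 0) {X : ℤ} (h : 4 * xc ((2 * n) • (P37 : G37)) = X) :
    X = 4 ∨ X = 8 ∨ X = 24 := by
  obtain ⟨a, ha⟩ := exists_int_half hn h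
  rcases mem_of_int hn ha with rfl | rfl | rfl | rfl | rfl
  · rw [show 2 * 1 = 2 by norm_num, nsmul_two, xc_some] at h
    left
    have : (X : ℚ) = 4 := by rw [← h]; norm_num
    exact_mod_cast this
  · rw [show 2 * 2 = 4 by norm_num, nsmul_four, xc_some] at h
    right; left
    have : (X : ℚ) = 8 := by rw [← h]; norm_num
    exact_mod_cast this
  · rw [show 2 * 3 = 6 by norm_num, nsmul_six, xc_some] at h
    right; right
    have : (X : ℚ) = 24 := by rw [← h]; norm_num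
    exact_mod_cast this
  · rw [show 2 * 4 = 8 by norm_num, nsmul_eight, xc_some] at h
    have h1 : (25 : ℚ) * X = 84 := by rw [← h]; norm_num
    have h2 : (25 : ℤ) * X = 84 := by exact_mod_cast h1
    omega
  · rw [show 2 * 6 = 12 by norm_num, nsmul_twelve, xc_some] at h
    have h1 : (841 : ℚ) * X = 5428 := by rw [← h]; norm_num
    have h2 : (841 : ℤ) * X = 5428 := by exact_mod_cast h1
    omega

theorem X_cases {X Y : ℤ} (h : Y ^ 2 = X ^ 3 - 16 * X + 16) :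
    X < 2 ∨ X = 4 ∨ X = 8 ∨ X = 24 := by
  have hΔ : (W37.map (Int.castRingHom ℚ)).Δ ≠ 0 := by
    rw [WeierstrassCurve.map_Δ, W37_Δ]
    norm_num
  have hns : (EQQ W37).Nonsingular ((X : ℚ) / 4) (((Y : ℚ) - 4) / 8) := by
    refine (Affine.equation_iff_nonsingular_of_Δ_ne_zero hΔ).mp ?_
    rw [Affine.equation_iff]
    have h1 : (Y : ℚ) ^ 2 = X ^ 3 - 16 * X + 16 := by exact_mod_cast h
    simp [W37]
    linear_combination (1 / 64 : ℚ) * h1
  obtain ⟨m, hm⟩ := hgen (Point.some ((X : ℚ) / 4) (((Y : ℚ) - 4) / 8) hns)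
  have hm0 : m ≠ 0 := by
    rintro rfl
    exact Point.some_ne_zero _ (hm.trans (zero_zsmul _))
  have hx : xc (m.natAbs • (P37 : G37)) = (X : ℚ) / 4 := by
    rcases Int.natAbs_eq m with h3 | h3
    · have h4 : m.natAbs • (P37 : G37) = Point.some ((X : ℚ) / 4) (((Y : ℚ) - 4) / 8) hns := by
        rw [hm, ← natCast_zsmul, ← h3]
      rw [h4, xc_some]
    · have h4 : m.natAbs • (P37 : G37) = -Point.some ((X : ℚ) / 4) (((Y : ℚ) - 4) / 8) hns := by
        rw [hm, ← natCast_zsmul, ← neg_smul]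
        congr 1
        omega
      rw [h4, Point.neg_some, xc_some]
  rcases Nat.even_or_odd' m.natAbs with ⟨n, hn | hn⟩
  · right
    rw [hn] at hx
    have hn0 : n ≠ 0 := by
      intro h0
      exact hm0 (Int.natAbs_eq_zero.mp (by omega))
    exact X_of_even hn0 (by rw [hx]; ring)
  · left
    have h5 : Egg (m.natAbs • (P37 : G37)) := (egg_nsmul_iff _).mpr ⟨n, hn⟩
    have h6 := h5.2
    rw [hx] at h6
    have h7 : (X : ℚ) < 2 := by linarith
    exact_mod_cast h7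

end Fermat.Agent.Cor.BSD.Gen37

namespace Fermat.Agent.Cor.BSD

/-- **The integer points of `Y² = X³ - 16 X + 16`**: there are twelve. -/
theorem short37 (X Y : ℤ) :
    Y ^ 2 = X ^ 3 - 16 * X + 16 ↔
      ((X = -4 ∨ X = 0 ∨ X = 4) ∧ (Y = 4 ∨ Y = -4)) ∨ (X = 1 ∧ (Y = 1 ∨ Y = -1)) ∨
        (X = 8 ∧ (Y = 20 ∨ Y = -20)) ∨ (X = 24 ∧ (Y = 116 ∨ Y = -116)) := by
  constructor
  · intro h
    have sq : ∀ c : ℤ, Y ^ 2 = c ^ 2 → Y = c ∨ Y = -c := fun c hc => sq_eq_sq_iff_eq_or_eq_neg.mp hc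
    rcases Gen37.X_cases h with h1 | rfl | rfl | rfl
    · have h2 : -5 < X := by
        by_contra hcon
        have h3 : X ≤ -5 := by omega
        nlinarith [sq_nonneg Y, mul_nonneg (mul_nonneg (by omega : 0 ≤ -X) (by omega : 0 ≤ -X - 5))
          (by norm_num : (0 : ℤ) ≤ 1), mul_nonneg (by omega : 0 ≤ -X) (by omega : 0 ≤ -X - 5),
          mul_nonneg (mul_nonneg (by omega : 0 ≤ -X) (by omega : 0 ≤ -X)) (by omega : 0 ≤ -X - 5)]
      interval_cases X
      · exact Or.inl ⟨by norm_num, sq 4 (by rw [h]; norm_num)⟩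
      · exfalso
        have h3 : Y < 7 := by nlinarith
        have h4 : -7 < Y := by nlinarith
        interval_cases Y <;> omega
      · exfalso
        have h3 : Y < 7 := by nlinarith
        have h4 : -7 < Y := by nlinarith
        interval_cases Y <;> omega
      · exfalso
        have h3 : Y < 7 := by nlinarith
        have h4 : -7 < Y := by nlinarith
        interval_cases Y <;> omega
      · exact Or.inl ⟨by norm_num, sq 4 (by rw [h]; norm_num)⟩
      · exact Or.inr (Or.inl ⟨by norm_num, sq 1 (by rw [h]; norm_num)⟩)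
    · exact Or.inl ⟨by norm_num, sq 4 (by rw [h]; norm_num)⟩
    · exact Or.inr (Or.inr (Or.inl ⟨by norm_num, sq 20 (by rw [h]; norm_num)⟩))
    · exact Or.inr (Or.inr (Or.inr ⟨by norm_num, sq 116 (by rw [h]; norm_num)⟩))
  · rintro (⟨rfl | rfl | rfl, rfl | rfl⟩ | ⟨rfl, rfl | rfl⟩ | ⟨rfl, rfl | rfl⟩ | ⟨rfl, rfl | rfl⟩) <;>
      norm_num

end Fermat.Agent.Cor.BSD
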