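import Fermat.Agent.Corollaries.BSD.Gen65

/-!
# `65a`: the group of the rational points is isomorphic to `ℤ × ZMod 2`
-/

set_option autoImplicit false

noncomputable section

namespace Fermat.Agent.Cor.BSD.Gen65

open WeierstrassCurve
open Fermat.Agent.Cor.BSD.One

/-- `g` of infinite order, `T` of order two, every element is `n g` or `n g + T`. -/
theorem nonempty_equiv {A : Type*} [AddCommGroup A] {T g : A} (hT : T + T = 0) (hT0 : T ≠ 0)
    (hg : ¬ IsOfFinAddOrder g) (h : ∀ P : A, ∃ n : ℤ, P = n • g ∨ P = n • g + T) :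
    Nonempty (A ≃+ ℤ × ZMod 2) := by
  let f : ZMod 2 →+ A := ZMod.lift 2 ⟨zmultiplesHom A T, by
    change ((2 : ℕ) : ℤ) • T = 0
    rw [natCast_zsmul, two_nsmul, hT]⟩
  have hf1 : f 1 = T := by
    have h1 := ZMod.lift_coe 2 (⟨zmultiplesHom A T, by
      change ((2 : ℕ) : ℤ) • T = 0
      rw [natCast_zsmul, two_nsmul, hT]⟩ : {f : ℤ →+ A // f 2 = 0}) 1
    rw [Int.cast_one] at h1
    change f 1 = (1 : ℤ) • T at h1
    rw [h1, one_zsmul]
  let F : ℤ × ZMod 2 →+ A := AddMonoidHom.coprod (zmultiplesHom A g) f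
  have hF : ∀ (n : ℤ) (ε : ZMod 2), F (n, ε) = n • g + f ε := fun n ε => rfl
  have hng : ∀ n : ℤ, n • g = 0 → n = 0 := by
    intro n hn
    by_contra h0
    apply hg
    refine isOfFinAddOrder_iff_nsmul_eq_zero.mpr ⟨n.natAbs, by omega, ?_⟩
    rcases Int.natAbs_eq n with h1 | h1
    · rw [h1, natCast_zsmul] at hn
      exact hn
    · rw [h1, neg_smul, neg_eq_zero, natCast_zsmul] at hn
      exact hn
  have hε : ∀ ε : ZMod 2, ε = 0 ∨ ε = 1 := by decide
  refine ⟨(AddEquiv.ofBijective F ⟨?_, ?_⟩).symm⟩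
  · rw [injective_iff_map_eq_zero]
    rintro ⟨n, ε⟩ h0
    rw [hF] at h0
    rcases hε ε with rfl | rfl
    · rw [map_zero, add_zero] at h0
      rw [hng n h0]
      rfl
    · exfalso
      rw [hf1] at h0
      have h1 : (2 * n) • g = 0 := by
        have h2 : n • g = -T := eq_neg_of_add_eq_zero_left h0
        rw [two_mul, add_smul, h2, ← neg_add, hT, neg_zero]
      have h2 : n = 0 := by
        have := hng _ h1
        omega
      rw [h2, zero_smul, zero_add] at h0
      exact hT0 h0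
  · intro P
    obtain ⟨n, h1 | h1⟩ := h P
    · exact ⟨(n, 0), by rw [hF, map_zero, add_zero, h1]⟩
    · exact ⟨(n, 1), by rw [hF, hf1, h1]⟩

/-- **The curve `65a`**: the group of the rational points is isomorphic to `ℤ × ZMod 2`. -/
theorem equiv_E65 : Nonempty (E65.toAffine.Point ≃+ ℤ × ZMod 2) :=
  nonempty_equiv T65_add (by simp [T65]) not_fin_H65 eq_zsmul_or

end Fermat.Agent.Cor.BSD.Gen65
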