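import Fermat.Agent.Corollaries.BSD.Rank37
import Fermat.Agent.Corollaries.BSD.Rank43
import Fermat.Agent.Corollaries.BSD.TorsFree

/-!
# `E(ℚ) ≅ ℤ` for the curves `37a` and `43a`
-/

set_option autoImplicit false

open WeierstrassCurve Module

namespace Fermat.Agent.Cor.BSD.StructZ

open Fermat.Agent.Cor.HW

/-- **The group of rational points of `y² + y = x³ - x` (the curve `37a`) is infinite cyclic.** -/
theorem equiv_E37 : Nonempty ((E37.map (Int.castRingHom ℚ)).toAffine.Point ≃+ ℤ) :=
  Tors.equiv_int (MordellWeil.mordell_weil ℚ (E37.map (Int.castRingHom ℚ))) R37.finrank_E37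
    Tors.card_torsion37

/-- **The group of rational points of `y² + y = x³ + x²` (the curve `43a`) is infinite cyclic.** -/
theorem equiv_E43 : Nonempty ((E43.map (Int.castRingHom ℚ)).toAffine.Point ≃+ ℤ) :=
  Tors.equiv_int (MordellWeil.mordell_weil ℚ (E43.map (Int.castRingHom ℚ))) R43.finrank_E43
    Tors.card_torsion43

end Fermat.Agent.Cor.BSD.StructZ
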