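import Mathlib.NumberTheory.NumberField.Cyclotomic.PID
import Mathlib.NumberTheory.NumberField.Cyclotomic.Three
import Mathlib.Tactic

/-!
# The cubic equation `X ^ 3 + Y ^ 3 + Z ^ 3 = 2 X Y Z`

It has no integral solution with `X Y Z ≠ 0` (Sylvester; it is a model of an elliptic curve of
conductor `19` with three rational points). Descent through the ring `ℤ[ω]` of Eisenstein integers.
-/

set_option autoImplicit false

noncomputable section

open NumberField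

namespace Fermat.Agent.Cor.BSD

namespace Syl

/-! ### Cubes in the ring of Eisenstein integers -/

section Eisenstein

variable {K : Type} [Field K] [NumberField K]

theorem int_eq_zero {η : 𝓞 K} (hη : η ^ 2 + η + 1 = 0) {a b : ℤ} (h : (a : 𝓞 K) + b * η = 0) :
    a = 0 ∧ b = 0 := by
  have h1 : ((a ^ 2 - a * b + b ^ 2 : ℤ) : 𝓞 K) = 0 := by
    push_cast
    linear_combination ((a : 𝓞 K) - b - b * η) * h + (b : 𝓞 K) ^ 2 * hη
  have h2 : a ^ 2 - a * b + b ^ 2 = 0 := by exact_mod_cast h1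
  constructor
  · nlinarith [sq_nonneg (2 * b - a), sq_nonneg a]
  · nlinarith [sq_nonneg (2 * a - b), sq_nonneg b]

theorem int_ext {η : 𝓞 K} (hη : η ^ 2 + η + 1 = 0) {a b c d : ℤ}
    (h : (a : 𝓞 K) + b * η = c + d * η) : a = c ∧ b = d := by
  have h1 : (((a - c : ℤ) : 𝓞 K)) + ((b - d : ℤ) : 𝓞 K) * η = 0 := by
    push_cast
    linear_combination h
  obtain ⟨h2, h3⟩ := int_eq_zero hη h1
  omega

end Eisenstein

theorem not_three_dvd_both {s t : ℤ} (hst : IsCoprime s t) (hs : 3 ∣ s) (ht : 3 ∣ t) : False := by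
  obtain ⟨a, b, hab⟩ := hst
  have h : (3 : ℤ) ∣ 1 := by
    rw [← hab]
    exact dvd_add (hs.mul_left a) (ht.mul_left b)
  omega

/-- A primitive element `s + t ω` of `ℤ[ω]` with `3 ∣ t` whose norm is a cube prime to `3` is a cube. -/
theorem exists_cube {s t n : ℤ} (hst : IsCoprime s t) (hn : s ^ 2 - s * t + t ^ 2 = n ^ 3)
    (h3 : ¬ 3 ∣ n) (ht : 3 ∣ t) :
    ∃ u v : ℤ, s = u ^ 3 + v ^ 3 - 3 * u * v ^ 2 ∧ t = 3 * u * v * (u - v) ∧
      n = u ^ 2 - u * v + v ^ 2 := by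
  have hcyc : IsCyclotomicExtension {3} ℚ (CyclotomicField 3 ℚ) :=
    CyclotomicField.isCyclotomicExtension 3 ℚ
  have hζ := IsCyclotomicExtension.zeta_spec 3 ℚ (CyclotomicField 3 ℚ)
  obtain ⟨η, hηdef⟩ : ∃ η : 𝓞 (CyclotomicField 3 ℚ), η = hζ.toInteger := ⟨_, rfl⟩
  have hη : η ^ 2 + η + 1 = 0 := by
    rw [hηdef]
    exact IsCyclotomicExtension.Rat.Three.eta_sq_add_eta_add_one hζ
  have hpid : IsPrincipalIdealRing (𝓞 (CyclotomicField 3 ℚ)) :=
    IsCyclotomicExtension.Rat.three_pid (CyclotomicField 3 ℚ)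
  have hex : ∀ z : 𝓞 (CyclotomicField 3 ℚ), ∃ x y : ℤ, z = x + y * η := by
    intro z
    obtain ⟨f, hf, hz⟩ := hζ.integralPowerBasis.exists_eq_aeval z
    rw [hζ.integralPowerBasis_dim] at hf
    have hf1 : f.natDegree ≤ 1 := by
      have : Nat.totient 3 = 2 := by decide
      omega
    obtain ⟨a, b, rfl⟩ := Polynomial.exists_eq_X_add_C_of_natDegree_le_one hf1
    refine ⟨b, a, ?_⟩
    rw [hz, hζ.integralPowerBasis_gen, hηdef]
    simp [add_comm]
  -- coprimality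
  obtain ⟨α, β, hα⟩ := hst
  have h3n : IsCoprime (3 : ℤ) (n ^ 3) :=
    ((Int.prime_three.coprime_iff_not_dvd).mpr h3).pow_right
  obtain ⟨γ, δ, hγ⟩ := h3n
  have hα' : (α : 𝓞 (CyclotomicField 3 ℚ)) * s + β * t = 1 := by exact_mod_cast hα
  have hγ' : (γ : 𝓞 (CyclotomicField 3 ℚ)) * 3 + δ * (n : 𝓞 (CyclotomicField 3 ℚ)) ^ 3 = 1 := by
    exact_mod_cast hγ
  have hn' : (s : 𝓞 (CyclotomicField 3 ℚ)) ^ 2 - s * t + (t : 𝓞 (CyclotomicField 3 ℚ)) ^ 2 =
      (n : 𝓞 (CyclotomicField 3 ℚ)) ^ 3 := by exact_mod_cast hn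
  obtain ⟨m, hm⟩ : ∃ m : 𝓞 (CyclotomicField 3 ℚ), m = s + t * η := ⟨_, rfl⟩
  obtain ⟨m', hm'⟩ : ∃ m' : 𝓞 (CyclotomicField 3 ℚ), m' = s - t - t * η := ⟨_, rfl⟩
  have e1 : (1 + 2 * η) = α * (η * m' - η ^ 2 * m) + β * (m - m') := by
    rw [hm, hm']
    linear_combination (-(1 + 2 * η)) * hα' + (α : 𝓞 (CyclotomicField 3 ℚ)) * (s + t * η) * hη
  have e2 : (1 + 2 * η) ^ 2 = -3 := by linear_combination 4 * hη
  have e3 : m * m' = (n : 𝓞 (CyclotomicField 3 ℚ)) ^ 3 := by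
    rw [hm, hm']
    linear_combination hn' - (t : 𝓞 (CyclotomicField 3 ℚ)) ^ 2 * hη
  have hcop : IsCoprime m m' := by
    refine ⟨-γ * (1 + 2 * η) * (β - α * η ^ 2) + δ * m', -γ * (1 + 2 * η) * (α * η - β), ?_⟩
    linear_combination (γ : 𝓞 (CyclotomicField 3 ℚ)) * (1 + 2 * η) * e1 -
      (γ : 𝓞 (CyclotomicField 3 ℚ)) * e2 + (δ : 𝓞 (CyclotomicField 3 ℚ)) * e3 + hγ'
  obtain ⟨d, ε, hd⟩ := exists_associated_pow_of_mul_eq_pow' hcop e3
  obtain ⟨u, v, huv⟩ := hex d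
  have hd3 : d ^ 3 = ((u ^ 3 + v ^ 3 - 3 * u * v ^ 2 : ℤ) : 𝓞 (CyclotomicField 3 ℚ)) +
      ((3 * u * v * (u - v) : ℤ) : 𝓞 (CyclotomicField 3 ℚ)) * η := by
    rw [huv]
    push_cast
    linear_combination ((v : 𝓞 (CyclotomicField 3 ℚ)) ^ 3 * (η - 1) +
      3 * (u : 𝓞 (CyclotomicField 3 ℚ)) * (v : 𝓞 (CyclotomicField 3 ℚ)) ^ 2) * hη
  set A : ℤ := u ^ 3 + v ^ 3 - 3 * u * v ^ 2 with hA
  set B : ℤ := 3 * u * v * (u - v) with hB
  have hB3 : (3 : ℤ) ∣ B := ⟨u * v * (u - v), by rw [hB]; ring⟩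
  have hfin : ∀ u v : ℤ, s = u ^ 3 + v ^ 3 - 3 * u * v ^ 2 → t = 3 * u * v * (u - v) →
      n = u ^ 2 - u * v + v ^ 2 := by
    intro u v h1 h2
    have h4 : n ^ 3 = (u ^ 2 - u * v + v ^ 2) ^ 3 := by
      rw [← hn, h1, h2]; ring
    exact (Odd.strictMono_pow (by decide : Odd 3)).injective h4
  have hst' : IsCoprime s t := ⟨α, β, hα⟩
  have hmem := IsCyclotomicExtension.Rat.Three.Units.mem hζ ε
  simp only [List.mem_cons, List.not_mem_nil, or_false] at hmem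
  have hcoe : ∀ x : 𝓞 (CyclotomicField 3 ℚ), (ε : 𝓞 (CyclotomicField 3 ℚ)) = x →
      (A + B * η) * x = (s : 𝓞 (CyclotomicField 3 ℚ)) + t * η := by
    intro x hx
    rw [← hx, ← hd3, hd, hm]
  rcases hmem with h | h | h | h | h | h
  · have h1 := hcoe 1 (by rw [h]; rfl)
    obtain ⟨h4, h5⟩ := int_ext hη (a := A) (b := B) (c := s) (d := t) (by linear_combination h1)
    exact ⟨u, v, h4.symm, h5.symm, hfin u v h4.symm h5.symm⟩
  · have h1 := hcoe (-1) (by rw [h]; rfl)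
    obtain ⟨h4, h5⟩ := int_ext hη (a := -A) (b := -B) (c := s) (d := t)
      (by push_cast; linear_combination h1)
    have h6 : s = (-u) ^ 3 + (-v) ^ 3 - 3 * (-u) * (-v) ^ 2 := by rw [← h4, hA]; ring
    have h7 : t = 3 * (-u) * (-v) * ((-u) - (-v)) := by rw [← h5, hB]; ring
    exact ⟨-u, -v, h6, h7, hfin _ _ h6 h7⟩
  · exfalso
    have h1 := hcoe η (by rw [h, hηdef]; rfl)
    obtain ⟨h4, h5⟩ := int_ext hη (a := -B) (b := A - B) (c := s) (d := t)
      (by push_cast; linear_combination h1 - (B : 𝓞 (CyclotomicField 3 ℚ)) * hη)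
    exact not_three_dvd_both hst' (by omega) ht
  · exfalso
    have h1 := hcoe (-η) (by rw [h, hηdef]; rfl)
    obtain ⟨h4, h5⟩ := int_ext hη (a := B) (b := B - A) (c := s) (d := t)
      (by push_cast; linear_combination h1 + (B : 𝓞 (CyclotomicField 3 ℚ)) * hη)
    exact not_three_dvd_both hst' (by omega) ht
  · exfalso
    have h1 := hcoe (η ^ 2) (by rw [h, hηdef]; rfl)
    obtain ⟨h4, h5⟩ := int_ext hη (a := B - A) (b := -A) (c := s) (d := t)
      (by push_cast; linear_combination h1 -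
        ((A : 𝓞 (CyclotomicField 3 ℚ)) + B * (η - 1)) * hη)
    exact not_three_dvd_both hst' (by omega) ht
  · exfalso
    have h1 := hcoe (-η ^ 2) (by rw [h, hηdef]; rfl)
    obtain ⟨h4, h5⟩ := int_ext hη (a := A - B) (b := A) (c := s) (d := t)
      (by push_cast; linear_combination h1 +
        ((A : 𝓞 (CyclotomicField 3 ℚ)) + B * (η - 1)) * hη)
    exact not_three_dvd_both hst' (by omega) ht

theorem not_dvd_of_coprime {x y z : ℤ} (hz : Prime z) (h : IsCoprime x y) (hx : z ∣ x) (hy : z ∣ y) :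
    False :=
  hz.not_isUnit (h.isUnit_of_dvd' hx hy)

theorem cube_injective {a b : ℤ} (h : a ^ 3 = b ^ 3) : a = b :=
  (Odd.strictMono_pow (by decide : Odd 3)).injective h

theorem three_dvd_of_dvd_three {z : ℤ} (hz : Prime z) (h : z ∣ 3) : 3 ∣ z :=
  hz.irreducible.dvd_symm Int.prime_three.irreducible h

/-- The first step of the descent: `2 X + 3 Y + 3 Z` is `- 19` times a cube and
`2 X + 3 ω² Y + 3 ω Z` is a cube in `ℤ[ω]`. -/
theorem exists_uvw {X Y Z : ℤ} (h : X ^ 3 + Y ^ 3 + Z ^ 3 = 2 * X * Y * Z) (hX : X ≠ 0)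
    (hXY : IsCoprime X Y) (hXZ : IsCoprime X Z) (h19 : 19 ∣ 2 * X + 3 * Y + 3 * Z) :
    ∃ u v W : ℤ, 2 * X + 3 * Y + 3 * Z = -19 * W ^ 3 ∧ X = W * (u ^ 2 - u * v + v ^ 2) ∧
      2 * X - 3 * Y = u ^ 3 + v ^ 3 - 3 * u * v ^ 2 ∧ 3 * (Z - Y) = 3 * u * v * (u - v) := by
  obtain ⟨k, hk⟩ := h19
  by_cases h3 : (3 : ℤ) ∣ X
  · obtain ⟨X', rfl⟩ := h3
    have h3Y : ¬ (3 : ℤ) ∣ Y := fun hY =>
      not_dvd_of_coprime Int.prime_three hXY (dvd_mul_right 3 X') hY
    have hYZ3 : (3 : ℤ) ∣ Y + Z := by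
      have h1 : (3 : ℤ) ∣ (Y + Z) ^ 3 :=
        ⟨2 * X' * Y * Z - 9 * X' ^ 3 + Y * Z * (Y + Z), by linear_combination h⟩
      exact Int.prime_three.dvd_of_dvd_pow h1
    obtain ⟨t, ht⟩ := hYZ3
    obtain rfl : Z = 3 * t - Y := by linear_combination ht
    have h1 : (3 : ℤ) ∣ X' := by
      have h2 : (3 : ℤ) ∣ 2 * X' * Y ^ 2 := by
        refine ⟨-3 * X' ^ 3 - 3 * t ^ 3 + 3 * t ^ 2 * Y - t * Y ^ 2 + 2 * X' * Y * t, ?_⟩
        have : 3 * (2 * X' * Y ^ 2) = 3 * (3 *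
            (-3 * X' ^ 3 - 3 * t ^ 3 + 3 * t ^ 2 * Y - t * Y ^ 2 + 2 * X' * Y * t)) := by
          linear_combination h
        linarith
      rcases Int.prime_three.dvd_or_dvd h2 with h4 | h4
      · omega
      · exact absurd (Int.prime_three.dvd_of_dvd_pow h4) h3Y
    obtain ⟨x, rfl⟩ := h1
    have h2 : (3 : ℤ) ∣ t + 2 * x := by
      have h4 : (3 : ℤ) ∣ Y ^ 2 * (t + 2 * x) := by
        refine ⟨-27 * x ^ 3 - t ^ 3 + t ^ 2 * Y + 2 * x * Y * t, ?_⟩
        have : 9 * (Y ^ 2 * (t + 2 * x)) = 9 * (3 *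
            (-27 * x ^ 3 - t ^ 3 + t ^ 2 * Y + 2 * x * Y * t)) := by
          linear_combination h
        linarith
      rcases Int.prime_three.dvd_or_dvd h4 with h5 | h5
      · exact absurd (Int.prime_three.dvd_of_dvd_pow h5) h3Y
      · exact h5
    obtain ⟨m, hm⟩ := h2
    obtain ⟨k', rfl⟩ : ∃ k', m = 19 * k' := by
      have h4 : (19 : ℤ) ∣ m := by omega
      exact h4
    have hx0 : x ≠ 0 := by rintro rfl; exact hX (by ring)
    obtain ⟨Q, hQ⟩ : ∃ Q : ℤ, Q = 12 * x ^ 2 + Y ^ 2 + 3 * t ^ 2 - 3 * t * Y - 6 * x * t := ⟨_, rfl⟩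
    have hprod : Q * (-k') = x ^ 3 := by
      have h4 : 13851 * (Q * (-k')) = 13851 * x ^ 3 := by
        rw [hQ]
        have h5 : 243 * (3 * (19 * k')) * (12 * x ^ 2 + Y ^ 2 + 3 * t ^ 2 - 3 * t * Y - 6 * x * t) =
            -19 * 729 * x ^ 3 := by
          rw [← hm]
          linear_combination 27 * h
        linear_combination -h5
      linarith
    have hcop : IsCoprime Q (-k') := by
      refine isCoprime_of_prime_dvd ?_ fun z hz hzQ hzk => ?_
      · rintro ⟨h4, -⟩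
        rw [h4, zero_mul] at hprod
        exact hx0 (pow_eq_zero_iff three_ne_zero |>.mp hprod.symm)
      · have hzx : z ∣ x := hz.dvd_of_dvd_pow (hprod ▸ hzQ.mul_right _)
        have hzk' : z ∣ k' := (dvd_neg).mp hzk
        have hzt : z ∣ t := by
          have h4 : t = 3 * (19 * k') - 2 * x := by linear_combination hm
          rw [h4]
          exact dvd_sub ((hzk'.mul_left 19).mul_left 3) (hzx.mul_left 2)
        have hzY : z ∣ Y ^ 2 := by
          have h4 : Y ^ 2 = Q - 12 * x ^ 2 - 3 * t ^ 2 + 3 * t * Y + 6 * x * t := by rw [hQ]; ring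
          rw [h4]
          obtain ⟨a, rfl⟩ := hzx
          obtain ⟨b, rfl⟩ := hzt
          obtain ⟨c, hc⟩ := hzQ
          rw [hc]
          exact ⟨c - 12 * a ^ 2 * z - 3 * b ^ 2 * z + 3 * b * Y + 6 * a * b * z, by ring⟩
        exact not_dvd_of_coprime hz hXY ((hzx.mul_left 3).mul_left 3) (hz.dvd_of_dvd_pow hzY)
    obtain ⟨⟨n, hn⟩, w, hw⟩ := Int.eq_pow_of_mul_eq_pow_odd hcop (by decide : Odd 3) hprod
    have hxn : x = n * w := by
      apply cube_injective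
      rw [← hprod, hn, hw]; ring
    obtain ⟨s', hs'⟩ : ∃ s' : ℤ, s' = -Y + 2 * t - 2 * x := ⟨_, rfl⟩
    obtain ⟨y', hy'⟩ : ∃ y' : ℤ, y' = t - 4 * x := ⟨_, rfl⟩
    have hN : s' ^ 2 - s' * y' + y' ^ 2 = n ^ 3 := by
      rw [← hn, hQ, hs', hy']; ring
    have hy3 : 3 ∣ y' := ⟨19 * k' - 2 * x, by rw [hy']; linear_combination hm⟩
    have hcop2 : IsCoprime s' y' := by
      refine isCoprime_of_prime_dvd ?_ fun z hz hzs hzy => ?_
      · rintro ⟨h4, h5⟩
        rw [h4, h5] at hN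
        have h6 : n = 0 := pow_eq_zero_iff three_ne_zero |>.mp (by rw [← hN]; ring)
        exact hx0 (by rw [hxn, h6, zero_mul])
      · have hzn : z ∣ n := by
          refine hz.dvd_of_dvd_pow (n := 3) ?_
          rw [← hN]
          exact dvd_add (dvd_sub (dvd_pow hzs two_ne_zero) (hzs.mul_right _))
            (dvd_pow hzy two_ne_zero)
        have hzx : z ∣ x := by rw [hxn]; exact hzn.mul_right w
        have hzt : z ∣ t := by
          have h4 : t = y' + 4 * x := by rw [hy']; ring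
          rw [h4]
          exact dvd_add hzy (hzx.mul_left 4)
        have hzY : z ∣ Y := by
          have h4 : Y = 2 * t - 2 * x - s' := by rw [hs']; ring
          rw [h4]
          exact dvd_sub (dvd_sub (hzt.mul_left 2) (hzx.mul_left 2)) hzs
        exact not_dvd_of_coprime hz hXY ((hzx.mul_left 3).mul_left 3) hzY
    have hn3 : ¬ 3 ∣ n := by
      rintro ⟨c, hc⟩
      have h4 : (3 : ℤ) ∣ Y ^ 2 := by
        refine ⟨9 * c ^ 3 - 4 * x ^ 2 - t ^ 2 + t * Y + 2 * x * t, ?_⟩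
        rw [hc] at hn
        linear_combination hn - hQ
      exact h3Y (Int.prime_three.dvd_of_dvd_pow h4)
    obtain ⟨u, v, hu, hv, huv⟩ := exists_cube hcop2 hN hn3 hy3
    refine ⟨2 * v - u, v - 2 * u, 3 * w, ?_, ?_, ?_, ?_⟩
    · linear_combination 9 * hm - 513 * hw
    · rw [hxn, huv]; ring
    · linear_combination 3 * (hu - 2 * hv) - 3 * (hs' - 2 * hy')
    · linear_combination 3 * (2 * hu - hv) - 3 * (2 * hs' - hy')
  · obtain ⟨Q, hQ⟩ : ∃ Q : ℤ, Q = 4 * X ^ 2 + 9 * Y ^ 2 + 9 * Z ^ 2 - 6 * X * Y - 6 * X * Z -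
        9 * Y * Z := ⟨_, rfl⟩
    have hprod : Q * (-k) = X ^ 3 := by
      have h4 : (19 * k) * Q = -19 * X ^ 3 := by
        rw [← hk, hQ]
        linear_combination 27 * h
      linarith
    have hcop : IsCoprime Q (-k) := by
      refine isCoprime_of_prime_dvd ?_ fun z hz hzQ hzk => ?_
      · rintro ⟨h4, -⟩
        rw [h4, zero_mul] at hprod
        exact hX (pow_eq_zero_iff three_ne_zero |>.mp hprod.symm)
      · have hzX : z ∣ X := hz.dvd_of_dvd_pow (hprod ▸ hzQ.mul_right _)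
        have hzk' : z ∣ k := (dvd_neg).mp hzk
        have h5 : z ∣ 27 * (Y * Z) := by
          have h4 : 27 * (Y * Z) = (19 * k) * (19 * k) - Q - X * (18 * Y + 18 * Z) := by
            rw [← hk, hQ]; ring
          rw [h4]
          exact dvd_sub (dvd_sub ((hzk'.mul_left 19).mul_right _) hzQ) (hzX.mul_right _)
        rcases hz.dvd_or_dvd h5 with h6 | h6
        · have h7 : z ∣ (3 : ℤ) := hz.dvd_of_dvd_pow (n := 3) (by norm_num; exact h6)
          exact h3 ((three_dvd_of_dvd_three hz h7).trans hzX)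
        · rcases hz.dvd_or_dvd h6 with h7 | h7
          · exact not_dvd_of_coprime hz hXY hzX h7
          · exact not_dvd_of_coprime hz hXZ hzX h7
    obtain ⟨⟨n, hn⟩, w, hw⟩ := Int.eq_pow_of_mul_eq_pow_odd hcop (by decide : Odd 3) hprod
    have hXn : X = n * w := by
      apply cube_injective
      rw [← hprod, hn, hw]; ring
    have hN : (2 * X - 3 * Y) ^ 2 - (2 * X - 3 * Y) * (3 * (Z - Y)) + (3 * (Z - Y)) ^ 2 = n ^ 3 := by
      rw [← hn, hQ]; ring
    have hcop2 : IsCoprime (2 * X - 3 * Y) (3 * (Z - Y)) := by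
      refine isCoprime_of_prime_dvd ?_ fun z hz hzs hzy => ?_
      · rintro ⟨h4, h5⟩
        rw [h4, h5] at hN
        have h6 : n = 0 := pow_eq_zero_iff three_ne_zero |>.mp (by rw [← hN]; ring)
        exact hX (by rw [hXn, h6, zero_mul])
      · have hzn : z ∣ n := by
          refine hz.dvd_of_dvd_pow (n := 3) ?_
          rw [← hN]
          exact dvd_add (dvd_sub (dvd_pow hzs two_ne_zero) (hzs.mul_right _))
            (dvd_pow hzy two_ne_zero)
        have hzX : z ∣ X := by rw [hXn]; exact hzn.mul_right w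
        have hz3 : z ∣ 3 * Y := by
          have h4 : 3 * Y = 2 * X - (2 * X - 3 * Y) := by ring
          rw [h4]
          exact dvd_sub (hzX.mul_left 2) hzs
        rcases hz.dvd_or_dvd hz3 with h6 | h6
        · exact h3 ((three_dvd_of_dvd_three hz h6).trans hzX)
        · exact not_dvd_of_coprime hz hXY hzX h6
    have hn3 : ¬ 3 ∣ n := fun hn3 => h3 (by rw [hXn]; exact hn3.mul_right w)
    obtain ⟨u, v, hu, hv, huv⟩ := exists_cube hcop2 hN hn3 (dvd_mul_right 3 _)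
    refine ⟨u, v, w, ?_, ?_, hu, hv⟩
    · linear_combination hk - 19 * hw
    · rw [← huv, mul_comm]; exact hXn

/-- The second step of the descent: three integers with sum `2 e` and product `e ^ 3`. -/
theorem exists_smaller {l₁ l₂ l₃ e : ℤ} (he : e ≠ 0) (hsum : l₁ + l₂ + l₃ = 2 * e)
    (hprod : l₁ * l₂ * l₃ = e ^ 3) :
    ∃ a b c : ℤ, a ^ 3 + b ^ 3 + c ^ 3 = 2 * a * b * c ∧ a * b * c ≠ 0 ∧ |a * b * c| ≤ |e| := by
  set g : ℤ := ((Int.gcd (Int.gcd l₁ l₂) l₃ : ℕ) : ℤ) with hg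
  have hg12 : g ∣ ((Int.gcd l₁ l₂ : ℕ) : ℤ) := Int.gcd_dvd_left _ _
  have hg1 : g ∣ l₁ := hg12.trans (Int.gcd_dvd_left _ _)
  have hg2 : g ∣ l₂ := hg12.trans (Int.gcd_dvd_right _ _)
  have hg3 : g ∣ l₃ := Int.gcd_dvd_right _ _
  have hgu : ∀ z : ℤ, z ∣ l₁ → z ∣ l₂ → z ∣ l₃ → z ∣ g := fun z h1 h2 h3 =>
    Int.dvd_coe_gcd (Int.dvd_coe_gcd h1 h2) h3
  obtain ⟨x, hx⟩ := hg1
  obtain ⟨y, hy⟩ := hg2
  obtain ⟨z, hz⟩ := hg3
  have hge : g ∣ e := by
    have h1 : g ^ 3 ∣ e ^ 3 := ⟨x * y * z, by rw [← hprod, hx, hy, hz]; ring⟩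
    exact (Int.pow_dvd_pow_iff three_ne_zero).mp h1
  obtain ⟨f, hf⟩ := hge
  have hg0 : g ≠ 0 := by
    intro h0
    rw [h0, zero_mul] at hf
    exact he hf
  have hf0 : f ≠ 0 := by
    rintro rfl
    exact he (by rw [hf, mul_zero])
  have hsum' : x + y + z = 2 * f := by
    apply mul_left_cancel₀ hg0
    rw [hx, hy, hz, hf] at hsum
    linear_combination hsum
  have hprod' : x * y * z = f ^ 3 := by
    apply mul_left_cancel₀ (pow_ne_zero 3 hg0)
    rw [hx, hy, hz, hf] at hprod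
    linear_combination hprod
  have hall : ∀ p : ℤ, Prime p → p ∣ x → p ∣ y → p ∣ z → False := by
    intro p hp h1 h2 h3
    have h4 : g * p ∣ g := hgu _ (by rw [hx]; exact mul_dvd_mul_left g h1)
      (by rw [hy]; exact mul_dvd_mul_left g h2) (by rw [hz]; exact mul_dvd_mul_left g h3)
    have h5 : g * p ∣ g * 1 := by rwa [mul_one]
    exact hp.not_isUnit (isUnit_of_dvd_one ((mul_dvd_mul_iff_left hg0).mp h5))
  have hpf : ∀ p : ℤ, Prime p → p ∣ x * y * z → p ∣ f := fun p hp h1 =>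
    hp.dvd_of_dvd_pow (hprod' ▸ h1)
  have hx0 : x ≠ 0 := by
    rintro rfl
    rw [zero_mul, zero_mul] at hprod'
    exact hf0 (pow_eq_zero_iff three_ne_zero |>.mp hprod'.symm)
  have hy0 : y ≠ 0 := by
    rintro rfl
    rw [mul_zero, zero_mul] at hprod'
    exact hf0 (pow_eq_zero_iff three_ne_zero |>.mp hprod'.symm)
  have hcxy : IsCoprime x y := by
    refine isCoprime_of_prime_dvd (fun h0 => hx0 h0.1) fun p hp h1 h2 => ?_
    have h3 := hpf p hp ((h1.mul_right y).mul_right z)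
    refine hall p hp h1 h2 ?_
    have h4 : z = 2 * f - x - y := by linear_combination hsum'
    rw [h4]
    exact dvd_sub (dvd_sub (h3.mul_left 2) h1) h2
  have hcxz : IsCoprime x z := by
    refine isCoprime_of_prime_dvd (fun h0 => hx0 h0.1) fun p hp h1 h2 => ?_
    have h3 := hpf p hp ((h1.mul_right y).mul_right z)
    refine hall p hp h1 ?_ h2
    have h4 : y = 2 * f - x - z := by linear_combination hsum'
    rw [h4]
    exact dvd_sub (dvd_sub (h3.mul_left 2) h1) h2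
  have hcyz : IsCoprime y z := by
    refine isCoprime_of_prime_dvd (fun h0 => hy0 h0.1) fun p hp h1 h2 => ?_
    have h3 := hpf p hp (h2.mul_left (x * y))
    refine hall p hp ?_ h1 h2
    have h4 : x = 2 * f - y - z := by linear_combination hsum'
    rw [h4]
    exact dvd_sub (dvd_sub (h3.mul_left 2) h1) h2
  obtain ⟨⟨a, ha⟩, d, hd⟩ := Int.eq_pow_of_mul_eq_pow_odd (hcxy.mul_right hcxz)
    (by decide : Odd 3) (by rw [← hprod']; ring : x * (y * z) = f ^ 3)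
  obtain ⟨⟨b, hb⟩, c, hc⟩ := Int.eq_pow_of_mul_eq_pow_odd hcyz (by decide : Odd 3) hd
  have habc : a * b * c = f := by
    apply cube_injective
    rw [← hprod', ha, hb, hc]; ring
  refine ⟨a, b, c, ?_, by rw [habc]; exact hf0, ?_⟩
  · rw [← ha, ← hb, ← hc, hsum']
    linear_combination -2 * habc
  · rw [habc, hf, abs_mul]
    have h1 : 1 ≤ |g| := Int.one_le_abs hg0
    nlinarith [abs_nonneg f]

/-- One step of the descent. -/
theorem descent {X Y Z : ℤ} (h : X ^ 3 + Y ^ 3 + Z ^ 3 = 2 * X * Y * Z) (hX : X ≠ 0)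
    (hXY : IsCoprime X Y) (hXZ : IsCoprime X Z) (h19 : 19 ∣ 2 * X + 3 * Y + 3 * Z) :
    ∃ a b c : ℤ, a ^ 3 + b ^ 3 + c ^ 3 = 2 * a * b * c ∧ a * b * c ≠ 0 ∧
      |a * b * c| ≤ 3 * |X| := by
  obtain ⟨u, v, W, h1, h2, h3, h4⟩ := exists_uvw h hX hXY hXZ h19
  have hW : W ≠ 0 := by
    rintro rfl
    exact hX (by rw [h2, zero_mul])
  have hN : 1 ≤ u ^ 2 - u * v + v ^ 2 := by
    by_contra hlt
    have h5 : u ^ 2 - u * v + v ^ 2 = 0 := by nlinarith [sq_nonneg (2 * u - v), sq_nonneg v]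
    exact hX (by rw [h2, h5, mul_zero])
  have key : -19 * W ^ 3 + 2 * (u ^ 3 + v ^ 3 - 3 * u * v ^ 2) - 3 * u * v * (u - v) =
      6 * W * (u ^ 2 - u * v + v ^ 2) := by
    linear_combination -h1 - 2 * h3 + h4 + 6 * h2
  obtain ⟨a, b, c, h5, h6, h7⟩ := exists_smaller (l₁ := u + v - 2 * W) (l₂ := -2 * u + v - 2 * W)
    (l₃ := u - 2 * v - 2 * W) (e := -3 * W) (mul_ne_zero (by norm_num) hW) (by ring)
    (by linear_combination -key)
  refine ⟨a, b, c, h5, h6, h7.trans ?_⟩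
  rw [abs_mul, h2, abs_mul]
  have h8 : 1 ≤ |u ^ 2 - u * v + v ^ 2| := hN.trans (le_abs_self _)
  have h9 : |(-3 : ℤ)| = 3 := by norm_num
  rw [h9]
  nlinarith [abs_nonneg W]

theorem small {X Y Z : ℤ} (h : X ^ 3 + Y ^ 3 + Z ^ 3 = 2 * X * Y * Z) (hYZ : |Y * Z| ≤ 3)
    (hX : X ≠ 0) (hY : Y ≠ 0) (hZ : Z ≠ 0) : False := by
  have hY1 : 1 ≤ |Y| := Int.one_le_abs hY
  have hZ1 : 1 ≤ |Z| := Int.one_le_abs hZ
  rw [abs_mul] at hYZ
  have hY3 : |Y| ≤ 3 := by nlinarith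
  have hZ3 : |Z| ≤ 3 := by nlinarith
  have hX4 : |X| ≤ 4 := by
    by_contra hlt
    have h5 : 5 ≤ |X| := by omega
    have h6 : X ^ 3 = 2 * X * (Y * Z) - Y ^ 3 - Z ^ 3 := by linear_combination h
    have h7 : |X| ^ 3 ≤ 2 * |X| * (|Y| * |Z|) + |Y| ^ 3 + |Z| ^ 3 := by
      rw [← abs_pow, h6]
      calc |2 * X * (Y * Z) - Y ^ 3 - Z ^ 3| ≤ |2 * X * (Y * Z) - Y ^ 3| + |Z ^ 3| := abs_sub _ _
        _ ≤ |2 * X * (Y * Z)| + |Y ^ 3| + |Z ^ 3| := by
          have := abs_sub (2 * X * (Y * Z)) (Y ^ 3)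
          linarith
        _ = _ := by
          rw [abs_mul, abs_mul, abs_mul, abs_pow, abs_pow]
          norm_num
    have h8 : |Y| ^ 3 ≤ 27 := by nlinarith [pow_le_pow_left₀ (abs_nonneg Y) hY3 3]
    have h9 : |Z| ^ 3 ≤ 27 := by nlinarith [pow_le_pow_left₀ (abs_nonneg Z) hZ3 3]
    have h10 : 2 * |X| * (|Y| * |Z|) ≤ 2 * |X| * 3 := mul_le_mul_of_nonneg_left hYZ (by positivity)
    have h11 : 25 ≤ |X| ^ 2 := by nlinarith
    have h12 : |X| ^ 3 = |X| * |X| ^ 2 := by ring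
    nlinarith
  rw [abs_le] at hX4 hY3 hZ3
  have key : ∀ x ∈ Finset.Icc (-4 : ℤ) 4, ∀ y ∈ Finset.Icc (-3 : ℤ) 3, ∀ z ∈ Finset.Icc (-3 : ℤ) 3,
      x ^ 3 + y ^ 3 + z ^ 3 = 2 * x * y * z → x = 0 ∨ y = 0 ∨ z = 0 := by decide +kernel
  rcases key X (Finset.mem_Icc.mpr hX4) Y (Finset.mem_Icc.mpr hY3) Z (Finset.mem_Icc.mpr hZ3) h with
    h1 | h1 | h1
  exacts [hX h1, hY h1, hZ h1]

/-- If `19` divides `2 X + 3 Y + 3 Z` then there is a smaller solution. -/
theorem exists_lt {X Y Z : ℤ} (h : X ^ 3 + Y ^ 3 + Z ^ 3 = 2 * X * Y * Z) (hX : X ≠ 0) (hY : Y ≠ 0)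
    (hZ : Z ≠ 0) (hXY : IsCoprime X Y) (hXZ : IsCoprime X Z)
    (h19 : 19 ∣ 2 * X + 3 * Y + 3 * Z) :
    ∃ a b c : ℤ, a ^ 3 + b ^ 3 + c ^ 3 = 2 * a * b * c ∧ a * b * c ≠ 0 ∧
      (a * b * c).natAbs < (X * Y * Z).natAbs := by
  obtain ⟨a, b, c, h1, h2, h3⟩ := descent h hX hXY hXZ h19
  refine ⟨a, b, c, h1, h2, ?_⟩
  have h4 : 4 ≤ |Y * Z| := by
    by_contra hlt
    exact small h (by omega) hX hY hZ
  have h5 : 1 ≤ |X| := Int.one_le_abs hX
  zify
  refine lt_of_le_of_lt h3 ?_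
  rw [mul_assoc, abs_mul]
  nlinarith

end Syl

open Syl in
/-- **Sylvester's theorem**: `X ^ 3 + Y ^ 3 + Z ^ 3 = 2 X Y Z` has no solution in integers different
from zero. -/
theorem sylvester {X Y Z : ℤ} (h : X ^ 3 + Y ^ 3 + Z ^ 3 = 2 * X * Y * Z) :
    X = 0 ∨ Y = 0 ∨ Z = 0 := by
  suffices H : ∀ n : ℕ, ∀ X Y Z : ℤ, (X * Y * Z).natAbs = n →
      X ^ 3 + Y ^ 3 + Z ^ 3 = 2 * X * Y * Z → X = 0 ∨ Y = 0 ∨ Z = 0 from H _ X Y Z rfl h
  intro n
  induction n using Nat.strong_induction_on with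
  | _ n ih =>
    intro X Y Z hn h
    by_contra hne
    push Not at hne
    obtain ⟨hX, hY, hZ⟩ := hne
    have hmin : ∀ a b c : ℤ, a ^ 3 + b ^ 3 + c ^ 3 = 2 * a * b * c → a * b * c ≠ 0 →
        ¬ (a * b * c).natAbs < (X * Y * Z).natAbs := by
      intro a b c h1 h2 h3
      rcases ih _ (hn ▸ h3) a b c rfl h1 with h4 | h4 | h4 <;> exact h2 (by rw [h4]; ring)
    -- no common prime factor
    have hall : ∀ p : ℤ, Prime p → p ∣ X → p ∣ Y → p ∣ Z → False := by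
      rintro p hp ⟨x, rfl⟩ ⟨y, rfl⟩ ⟨z, rfl⟩
      have hp0 := hp.ne_zero
      have h1 : x * y * z ≠ 0 := by
        refine mul_ne_zero (mul_ne_zero ?_ ?_) ?_
        · rintro rfl; exact hX (mul_zero p)
        · rintro rfl; exact hY (mul_zero p)
        · rintro rfl; exact hZ (mul_zero p)
      refine hmin x y z ?_ h1 ?_
      · apply mul_left_cancel₀ (pow_ne_zero 3 hp0)
        linear_combination h
      · have h2 : p * x * (p * y) * (p * z) = p ^ 3 * (x * y * z) := by ring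
        rw [h2, Int.natAbs_mul (p ^ 3) (x * y * z), Int.natAbs_pow]
        have h3 : 2 ≤ p.natAbs := (Int.prime_iff_natAbs_prime.mp hp).two_le
        have h4 : 0 < (x * y * z).natAbs := Int.natAbs_pos.mpr h1
        have h5 : 2 ^ 3 ≤ p.natAbs ^ 3 := Nat.pow_le_pow_left h3 3
        nlinarith
    have hXY : IsCoprime X Y := by
      refine isCoprime_of_prime_dvd (fun h0 => hX h0.1) fun p hp h1 h2 => hall p hp h1 h2 ?_
      refine hp.dvd_of_dvd_pow (n := 3) ?_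
      have h3 : Z ^ 3 = X * (2 * Y * Z - X ^ 2) - Y ^ 2 * Y := by linear_combination h
      rw [h3]
      exact dvd_sub (h1.mul_right _) (h2.mul_left _)
    have hXZ : IsCoprime X Z := by
      refine isCoprime_of_prime_dvd (fun h0 => hX h0.1) fun p hp h1 h2 => hall p hp h1 ?_ h2
      refine hp.dvd_of_dvd_pow (n := 3) ?_
      have h3 : Y ^ 3 = X * (2 * Y * Z - X ^ 2) - Z ^ 2 * Z := by linear_combination h
      rw [h3]
      exact dvd_sub (h1.mul_right _) (h2.mul_left _)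
    have hYZ : IsCoprime Y Z := by
      refine isCoprime_of_prime_dvd (fun h0 => hY h0.1) fun p hp h1 h2 => hall p hp ?_ h1 h2
      refine hp.dvd_of_dvd_pow (n := 3) ?_
      have h3 : X ^ 3 = Y * (2 * X * Z - Y ^ 2) - Z ^ 2 * Z := by linear_combination h
      rw [h3]
      exact dvd_sub (h1.mul_right _) (h2.mul_left _)
    -- one of the three linear forms is divisible by 19
    have h19 : (19 : ℤ) ∣ (2 * X + 3 * Y + 3 * Z) * (2 * Y + 3 * X + 3 * Z) *
        (2 * Z + 3 * X + 3 * Y) := by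
      refine ⟨8 * (X * Y * Z) + 3 * (X ^ 2 * Y + X ^ 2 * Z + Y ^ 2 * X + Y ^ 2 * Z + Z ^ 2 * X +
        Z ^ 2 * Y), ?_⟩
      linear_combination 18 * h
    have hp19 : Prime (19 : ℤ) := by
      have := Nat.prime_iff_prime_int.mp (by norm_num : Nat.Prime 19)
      exact_mod_cast this
    rcases hp19.dvd_or_dvd h19 with h1 | h1
    · rcases hp19.dvd_or_dvd h1 with h2 | h2
      · obtain ⟨a, b, c, h3, h4, h5⟩ := exists_lt h hX hY hZ hXY hXZ h2
        exact hmin a b c h3 h4 h5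
      · obtain ⟨a, b, c, h3, h4, h5⟩ := exists_lt (X := Y) (Y := X) (Z := Z)
          (by linear_combination h) hY hX hZ hXY.symm hYZ h2
        refine hmin a b c h3 h4 ?_
        rwa [mul_comm Y X] at h5
    · obtain ⟨a, b, c, h3, h4, h5⟩ := exists_lt (X := Z) (Y := X) (Z := Y)
        (by linear_combination h) hZ hX hY hXZ.symm hYZ.symm h1
      refine hmin a b c h3 h4 ?_
      rwa [show Z * X * Y = X * Y * Z by ring] at h5


end Fermat.Agent.Cor.BSD
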