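import Fermat.Agent.Corollaries.BSD.TwoDesc
import Fermat.Agent.Corollaries.MordellWeil.Main

/-!
# Tate's bound for the rank of an elliptic curve with a rational point of order two

`E : y² = x³ + a x² + b x`, `a`, `b` integers, `b ≠ 0`, `a² - 4 b` not a square: the rank of `E(ℚ)` plus
one is at most the number of primes dividing `b` plus the number of primes dividing `a² - 4 b`
(`finrank_add_one_le`).
-/

set_option autoImplicit false

noncomputable section

namespace Fermat.Agent.Cor.BSD.One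

open WeierstrassCurve
open Fermat.Agent.Cor.MordellWeil

/-! ### Groups -/

section group

variable {A T : Type*} [AddCommGroup A] [AddCommGroup T] [Finite T] {r : ℕ}

theorem finrank_le_of_equiv (e : A ≃+ T × (Fin r → ℤ)) : Module.finrank ℤ A ≤ r := by
  have h1 : Module.finrank ℤ A = Module.finrank ℤ (T × (Fin r → ℤ)) :=
    LinearEquiv.finrank_eq e.toIntLinearEquiv
  rw [h1]
  have h2 := Submodule.finrank_quotient_add_finrank (LinearMap.ker (LinearMap.snd ℤ T (Fin r → ℤ)))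
  have h3 : Module.finrank ℤ (LinearMap.ker (LinearMap.snd ℤ T (Fin r → ℤ))) = 0 := by
    rw [Module.finrank_eq_zero_iff]
    rintro ⟨⟨t, v⟩, hv⟩
    have hv' : v = 0 := hv
    subst hv'
    refine ⟨(Nat.card T : ℤ), by exact_mod_cast Nat.card_pos.ne', ?_⟩
    apply Subtype.ext
    change ((Nat.card T : ℤ) • t, (Nat.card T : ℤ) • (0 : Fin r → ℤ)) = 0
    rw [natCast_zsmul, card_nsmul_eq_zero', smul_zero]
    rfl
  have h4 := (LinearMap.quotKerEquivOfSurjective (LinearMap.snd ℤ T (Fin r → ℤ))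
    LinearMap.snd_surjective).finrank_eq
  rw [Module.finrank_fin_fun] at h4
  omega

/-- The subgroup `2 A`. -/
def dbl (A : Type*) [AddCommGroup A] : AddSubgroup A := (nsmulAddMonoidHom 2 : A →+ A).range

theorem mem_dbl {x : A} : x ∈ dbl A ↔ ∃ y : A, y + y = x := by
  rw [dbl, AddMonoidHom.mem_range]
  simp only [nsmulAddMonoidHom_apply, two_nsmul]

theorem two_pow_le_card (e : A ≃+ T × (Fin r → ℤ)) {t : A} (ht : t + t = 0) (ht0 : t ≠ 0)
    [Finite (A ⧸ dbl A)] : 2 ^ (r + 1) ≤ Nat.card (A ⧸ dbl A) := by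
  -- `2 T ≠ T`
  have hT : dbl T ≠ ⊤ := by
    intro htop
    have hsurj : Function.Surjective (fun x : T => x + x) := by
      intro y
      have : y ∈ dbl T := by rw [htop]; trivial
      exact mem_dbl.mp this
    have hinj := Finite.injective_iff_surjective.mpr hsurj
    have h1 : e t + e t = 0 := by rw [← map_add, ht, map_zero]
    have h2 : (e t).1 + (e t).1 = 0 := congrArg Prod.fst h1
    have h3 : (e t).2 + (e t).2 = 0 := congrArg Prod.snd h1
    have h4 : (e t).1 = 0 := hinj (by simpa using h2)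
    have h5 : (e t).2 = 0 := by
      funext i
      have := congrFun h3 i
      simp only [Pi.add_apply, Pi.zero_apply] at this
      simp only [Pi.zero_apply]
      omega
    exact ht0 (e.injective (by rw [map_zero]; exact Prod.ext h4 h5))
  have hcard : 2 ≤ Nat.card (T ⧸ dbl T) := by
    have h1 : (dbl T).index ≠ 1 := fun h => hT (AddSubgroup.index_eq_one.mp h)
    have h2 : (dbl T).index ≠ 0 := AddSubgroup.FiniteIndex.index_ne_zero
    change 2 ≤ (dbl T).index
    omega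
  let f : A →+ (T ⧸ dbl T) × (Fin r → ZMod 2) :=
    { toFun := fun x => (QuotientAddGroup.mk (e x).1, fun i => ((e x).2 i : ZMod 2))
      map_zero' := by
        rw [map_zero]
        refine Prod.ext rfl ?_
        funext i
        simp
      map_add' := fun x y => by
        rw [map_add]
        refine Prod.ext rfl ?_
        funext i
        simp }
  have hf : Function.Surjective f := by
    rintro ⟨u, v⟩
    obtain ⟨u, rfl⟩ := QuotientAddGroup.mk_surjective u
    refine ⟨e.symm (u, fun i => ((v i).val : ℤ)), ?_⟩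
    change ((QuotientAddGroup.mk (e (e.symm _)).1 : T ⧸ dbl T), _) = _
    refine Prod.ext ?_ ?_
    · simp
    · funext i
      change (((e (e.symm (u, fun i => ((v i).val : ℤ)))).2 i : ℤ) : ZMod 2) = v i
      rw [e.apply_symm_apply]
      push_cast
      exact ZMod.natCast_zmod_val (v i)
  have hker : dbl A ≤ f.ker := by
    intro x hx
    obtain ⟨y, rfl⟩ := mem_dbl.mp hx
    rw [AddMonoidHom.mem_ker, map_add]
    refine Prod.ext ?_ ?_
    · change (QuotientAddGroup.mk (e y).1 + QuotientAddGroup.mk (e y).1 : T ⧸ dbl T) = 0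
      rw [← QuotientAddGroup.mk_add]
      exact (QuotientAddGroup.eq_zero_iff _).mpr (mem_dbl.mpr ⟨_, rfl⟩)
    · funext i
      change ((e y).2 i : ZMod 2) + ((e y).2 i : ZMod 2) = 0
      exact CharTwo.add_self_eq_zero _
  have h1 : f.ker.index = Nat.card ((T ⧸ dbl T) × (Fin r → ZMod 2)) := by
    rw [AddSubgroup.index_ker, AddMonoidHom.range_eq_top.mpr hf]
    exact Nat.card_congr AddSubgroup.topEquiv.toEquiv
  have h2 : Nat.card ((T ⧸ dbl T) × (Fin r → ZMod 2)) = Nat.card (T ⧸ dbl T) * 2 ^ r := by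
    rw [Nat.card_prod, Nat.card_fun, Nat.card_zmod, Nat.card_fin]
  have h3 : f.ker.index ∣ (dbl A).index := AddSubgroup.index_dvd_of_le hker
  have h4 : 0 < (dbl A).index := Nat.card_pos
  have h5 := Nat.le_of_dvd h4 h3
  rw [h1, h2] at h5
  calc 2 ^ (r + 1) = 2 * 2 ^ r := by ring
    _ ≤ Nat.card (T ⧸ dbl T) * 2 ^ r := Nat.mul_le_mul_right _ hcard
    _ ≤ _ := h5

/-- Counting classes modulo a subgroup `D` by two kinds of labels. -/
theorem card_le_of_labels (D : AddSubgroup A) (S U : Finset ℤ) (Al Be : A → ℤ → Prop)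
    (h1 : ∀ P, ∃ d ∈ S, Al P d) (h2 : ∀ P Q, ∀ d ∈ S, Al P d → Al Q d → Al (P - Q) 1)
    (h3 : ∀ R, Al R 1 → ∃ c ∈ U, Be R c)
    (h4 : ∀ R, ∀ c ∈ U, Be R c → ∃ c' ∈ U, Be R c' ∧ c' ≠ c)
    (h5 : ∀ R R', ∀ c ∈ U, Be R c → Be R' c → R - R' ∈ D) :
    Finite (A ⧸ D) ∧ 2 * Nat.card (A ⧸ D) ≤ S.card * U.card := by
  classical
  choose lab hlabS hlab using h1
  -- a base point for every label
  let base : ℤ → A := fun d => if h : ∃ P, lab P = d then h.choose else 0
  have hbase : ∀ P, lab (base (lab P)) = lab P := by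
    intro P
    have h : ∃ P', lab P' = lab P := ⟨P, rfl⟩
    simp only [base, dif_pos h]
    exact h.choose_spec
  have hR : ∀ P, Al (P - base (lab P)) 1 := by
    intro P
    refine h2 _ _ (lab P) (hlabS P) (hlab P) ?_
    have := hlab (base (lab P))
    rwa [hbase] at this
  have hc : ∀ P, ∃ c ∈ U, Be (P - base (lab P)) c := fun P => h3 _ (hR P)
  choose c hcU hc using hc
  have hc' : ∀ P, ∃ c' ∈ U, Be (P - base (lab P)) c' ∧ c' ≠ c P := fun P => h4 _ _ (hcU P) (hc P)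
  choose c' hcU' hc' hcc' using hc'
  let F : (A ⧸ D) × Bool → S × U := fun x =>
    (⟨lab x.1.out, hlabS _⟩, if x.2 then ⟨c x.1.out, hcU _⟩ else ⟨c' x.1.out, hcU' _⟩)
  have key : ∀ (q q' : A ⧸ D) (u : ℤ), u ∈ U → lab q.out = lab q'.out →
      Be (q.out - base (lab q.out)) u → Be (q'.out - base (lab q'.out)) u → q = q' := by
    intro q q' u hu hl hb hb'
    have h6 := h5 _ _ u hu hb hb'
    rw [hl, sub_sub_sub_cancel_right] at h6
    rw [← QuotientAddGroup.out_eq' q, ← QuotientAddGroup.out_eq' q']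
    refine (QuotientAddGroup.eq.mpr ?_).symm
    rwa [neg_add_eq_sub]
  have hF : Function.Injective F := by
    rintro ⟨q, i⟩ ⟨q', i'⟩ h
    have hl : lab q.out = lab q'.out := congrArg (fun x => (x.1 : ℤ)) h
    have hu := congrArg (fun x => (x.2 : ℤ)) h
    cases i <;> cases i'
    · have hu : c' q.out = c' q'.out := hu
      rw [key q q' _ (hcU' q.out) hl (hc' q.out) (by rw [hu]; exact (hc' q'.out))]
    · have hu : c' q.out = c q'.out := hu
      have := key q q' _ (hcU' q.out) hl (hc' q.out) (by rw [hu]; exact hc q'.out)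
      subst this
      exact absurd hu (hcc' _)
    · have hu : c q.out = c' q'.out := hu
      have := key q q' _ (hcU q.out) hl (hc q.out) (by rw [hu]; exact (hc' q'.out))
      subst this
      exact absurd hu.symm (hcc' _)
    · have hu : c q.out = c q'.out := hu
      rw [key q q' _ (hcU q.out) hl (hc q.out) (by rw [hu]; exact hc q'.out)]
  have hfin : Finite ((A ⧸ D) × Bool) := Finite.of_injective F hF
  have hfin' : Finite (A ⧸ D) := Finite.prod_left Bool
  refine ⟨hfin', ?_⟩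
  have h6 := Nat.card_le_card_of_injective F hF
  rw [Nat.card_prod, Nat.card_prod] at h6
  simp only [Nat.card_eq_fintype_card, Fintype.card_bool, Fintype.card_coe] at h6
  rw [mul_comm]
  simpa [Nat.card_eq_fintype_card] using h6

end group

/-! ### Squarefree divisors -/

/-- The positive squarefree divisors. -/
def posDiv (n : ℤ) : Finset ℤ := (n.natAbs.divisors.filter Squarefree).map Nat.castEmbedding

/-- The squarefree divisors. -/
def allDiv (n : ℤ) : Finset ℤ := posDiv n ∪ (posDiv n).map (Equiv.neg ℤ).toEmbedding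

theorem mem_posDiv {n c : ℤ} (hn : n ≠ 0) : c ∈ posDiv n ↔ Squarefree c ∧ c ∣ n ∧ 0 < c := by
  rw [posDiv, Finset.mem_map]
  constructor
  · rintro ⟨d, hd, rfl⟩
    rw [Finset.mem_filter, Nat.mem_divisors] at hd
    refine ⟨Int.squarefree_natCast.mpr hd.2, Int.natCast_dvd.mpr hd.1.1, ?_⟩
    have : d ≠ 0 := hd.2.ne_zero
    change (0 : ℤ) < (d : ℤ)
    omega
  · rintro ⟨h1, h2, h3⟩
    refine ⟨c.natAbs, ?_, ?_⟩
    · rw [Finset.mem_filter, Nat.mem_divisors]
      exact ⟨⟨Int.natAbs_dvd_natAbs.mpr h2, Int.natAbs_ne_zero.mpr hn⟩,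
        Int.squarefree_natAbs.mpr h1⟩
    · change (c.natAbs : ℤ) = c
      omega

theorem mem_allDiv {n c : ℤ} (hn : n ≠ 0) : c ∈ allDiv n ↔ Squarefree c ∧ c ∣ n := by
  rw [allDiv, Finset.mem_union, mem_posDiv hn, Finset.mem_map]
  constructor
  · rintro (h | ⟨d, hd, rfl⟩)
    · exact ⟨h.1, h.2.1⟩
    · rw [mem_posDiv hn] at hd
      refine ⟨?_, ?_⟩
      · change Squarefree (-d)
        rw [← Int.squarefree_natAbs, Int.natAbs_neg, Int.squarefree_natAbs]
        exact hd.1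
      · change -d ∣ n
        exact (neg_dvd).mpr hd.2.1
  · rintro ⟨h1, h2⟩
    rcases lt_trichotomy c 0 with h | h | h
    · right
      refine ⟨-c, (mem_posDiv hn).mpr ⟨?_, (neg_dvd).mpr h2, by omega⟩, neg_neg c⟩
      rw [← Int.squarefree_natAbs, Int.natAbs_neg, Int.squarefree_natAbs]
      exact h1
    · exact absurd h h1.ne_zero
    · exact Or.inl ⟨h1, h2, h⟩

/-- The number of prime divisors. -/
def omg (n : ℤ) : ℕ := n.natAbs.primeFactors.card

theorem card_posDiv {n : ℤ} (hn : n ≠ 0) : (posDiv n).card = 2 ^ omg n := by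
  have hn' : n.natAbs ≠ 0 := Int.natAbs_ne_zero.mpr hn
  rw [posDiv, Finset.card_map, Finset.card_eq_sum_ones,
    Nat.sum_divisors_filter_squarefree hn' (f := fun _ => 1), ← Finset.card_eq_sum_ones,
    Finset.card_powerset, omg, Nat.factors_eq, Nat.primeFactors]
  rfl

theorem card_allDiv {n : ℤ} (hn : n ≠ 0) : (allDiv n).card ≤ 2 * 2 ^ omg n := by
  rw [allDiv, ← card_posDiv hn, two_mul]
  refine (Finset.card_union_le _ _).trans ?_
  rw [Finset.card_map]

/-! ### The curve -/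

section curve

/-- `y² = x³ + a x² + b x` over `ℚ`. -/
def Eab (a b : ℤ) : WeierstrassCurve ℚ := ⟨0, a, 0, b, 0⟩

variable {a b : ℤ}

theorem eab_iff {x y : ℚ} : (Eab a b).toAffine.Equation x y ↔ y ^ 2 = x ^ 3 + a * x ^ 2 + b * x := by
  rw [Affine.equation_iff]
  change y ^ 2 + 0 * x * y + 0 * y = x ^ 3 + a * x ^ 2 + b * x + 0 ↔ _
  constructor <;> intro h <;> linear_combination h

theorem splits_ab : Splits1 (Eab a b) 0 a b := by
  refine ⟨?_, ?_, ?_⟩
  · change (0 : ℚ) ^ 2 + 4 * a = _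
    ring
  · change 2 * (b : ℚ) + 0 * 0 = _
    ring
  · change (0 : ℚ) ^ 2 + 4 * 0 = _
    ring

theorem eta_ab (x y : ℚ) : eta (Eab a b) x y = y := by
  change y + ((0 : ℚ) * x + 0) / 2 = y
  ring

theorem Δ_ab : (Eab a b).Δ = 16 * (b ^ 2 * (a ^ 2 - 4 * b)) := by
  have h := disc_one (splits_ab (a := a) (b := b))
  linear_combination h / 4

/-- The hypotheses: `b ≠ 0` and `a² - 4 b` is not a square. -/
structure Gen (a b : ℤ) : Prop where
  hb : b ≠ 0
  hD : ¬ IsSquare (a ^ 2 - 4 * b)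

namespace Gen

variable (H : Gen a b)

include H

theorem b_ne : (b : ℚ) ≠ 0 := by exact_mod_cast H.hb

theorem D_ne' : a ^ 2 - 4 * b ≠ 0 := fun h => H.hD (by rw [h]; exact IsSquare.zero)

theorem notSq : ¬ IsSquare ((a : ℚ) ^ 2 - 4 * b) := by
  intro h
  apply H.hD
  rw [← Rat.isSquare_intCast_iff]
  push_cast
  exact h

theorem D_ne : (a : ℚ) ^ 2 - 4 * b ≠ 0 := fun h => H.notSq (by rw [h]; exact IsSquare.zero)

theorem Δ_ne : (Eab a b).Δ ≠ 0 := by
  rw [Δ_ab]
  exact mul_ne_zero (by norm_num) (mul_ne_zero (pow_ne_zero 2 H.b_ne) H.D_ne)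

theorem irr (r : ℚ) : r ^ 2 ≠ -(b : ℚ) + -(a : ℚ) * r := by
  intro h
  exact H.notSq ⟨2 * r + a, by linear_combination -4 * h⟩

theorem isElliptic : (Eab a b).IsElliptic := ⟨isUnit_iff_ne_zero.mpr H.Δ_ne⟩

theorem nonsingular {x y : ℚ} (h : y ^ 2 = x ^ 3 + a * x ^ 2 + b * x) :
    (Eab a b).toAffine.Nonsingular x y :=
  (Affine.equation_iff_nonsingular_of_Δ_ne_zero H.Δ_ne).1 (eab_iff.mpr h)

/-- The point of order `2`. -/
def T : (Eab a b).toAffine.Point := Affine.Point.some 0 0 (H.nonsingular (by ring))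

theorem eq_T {y : ℚ} (h : (Eab a b).toAffine.Nonsingular 0 y) : Affine.Point.some 0 y h = H.T := by
  have h1 := eab_iff.mp h.1
  have h2 : y = 0 := by
    have h3 : y ^ 2 = 0 := by linear_combination h1
    exact pow_eq_zero_iff two_ne_zero |>.mp h3
  subst h2
  rfl

theorem T_add : H.T + H.T = 0 := by
  refine Affine.Point.add_of_Y_eq rfl ?_
  change (0 : ℚ) = -0 - 0 * 0 - 0
  ring

theorem T_ne : H.T ≠ 0 := by simp [T]

/-- Translation by the point of order `2`. -/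
theorem add_T {x y : ℚ} (h : (Eab a b).toAffine.Nonsingular x y) (hx : x ≠ 0) :
    ∃ y' h', Affine.Point.some x y h + H.T = Affine.Point.some ((b : ℚ) / x) y' h' := by
  have h0 : (Eab a b).toAffine.Nonsingular 0 0 := H.nonsingular (by ring)
  have hX : (Eab a b).toAffine.addX x 0 ((Eab a b).toAffine.slope x 0 y 0) = b / x := by
    rw [Affine.slope_of_X_ne hx]
    change ((y - 0) / (x - 0)) ^ 2 + 0 * ((y - 0) / (x - 0)) - a - x - 0 = b / x
    have h1 := eab_iff.mp h.1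
    rw [sub_zero, sub_zero]
    field_simp
    linear_combination x * h1
  have hns := Affine.nonsingular_add h h0 (fun h => hx h.1)
  have h4 : Affine.Point.some x y h + H.T = Affine.Point.some _ _ hns :=
    Affine.Point.add_some fun h => hx h.1
  rw [hX] at hns
  refine ⟨_, hns, ?_⟩
  rw [h4]
  simp only [Affine.Point.some.injEq, and_true]
  exact hX

end Gen

/-! ### The two kinds of labels -/

/-- `X(P) d` is a square (`X(T) = b`). -/
def Al (P : (Eab a b).toAffine.Point) (d : ℤ) : Prop :=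
  match P with
  | .zero => IsSquare (d : ℚ)
  | .some x _ _ => (x = 0 → IsSquare ((b : ℚ) * d)) ∧ (x ≠ 0 → IsSquare (x * d))

/-- `(2 X + a + 2 s) c` is a square up to the factor `a² - 4 b`. -/
def Be (P : (Eab a b).toAffine.Point) (c : ℤ) : Prop :=
  match P with
  | .zero => IsSquare (c : ℚ) ∨ IsSquare (((a : ℚ) ^ 2 - 4 * b) * c)
  | .some x y _ => ∃ r s : ℚ, x = r ^ 2 ∧ x ^ 2 + a * x + b = s ^ 2 ∧ y = r * s ∧
      (IsSquare ((2 * x + a + 2 * s) * c) ∨
        IsSquare (((a : ℚ) ^ 2 - 4 * b) * ((2 * x + a + 2 * s) * c)))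

theorem isSquare_of_eq_div {u v w : ℚ} (hw : w ≠ 0) (h : u * (w * w) = v) (hv : IsSquare v) :
    IsSquare u := by
  have : u = v / (w * w) := by
    rw [eq_div_iff (mul_ne_zero hw hw)]
    exact h
  rw [this]
  exact hv.div (IsSquare.mul_self w)

theorem al_neg {P : (Eab a b).toAffine.Point} {d : ℤ} (h : Al P d) : Al (-P) d := by
  rcases P with _ | ⟨x, y, hP⟩
  · exact h
  · exact h

theorem be_neg {P : (Eab a b).toAffine.Point} {c : ℤ} (h : Be P c) : Be (-P) c := by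
  rcases P with _ | ⟨x, y, hP⟩
  · exact h
  · obtain ⟨r, s, h1, h2, h3, h4⟩ := h
    refine ⟨-r, s, by rw [h1]; ring, h2, ?_, h4⟩
    change -y - 0 * x - 0 = -r * s
    rw [h3]
    ring

theorem al_add (H : Gen a b) {P Q : (Eab a b).toAffine.Point} {d : ℤ} (hd : d ≠ 0) (hP : Al P d)
    (hQ : Al Q d) : Al (P + Q) 1 := by
  have hd0 : (d : ℚ) ≠ 0 := by exact_mod_cast hd
  have h0 : ∀ {Q : (Eab a b).toAffine.Point}, IsSquare (d : ℚ) → Al Q d → Al Q 1 := by
    intro Q h1 hQ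
    obtain ⟨w, hw⟩ := h1
    have hw0 : w ≠ 0 := by
      rintro rfl
      rw [mul_zero] at hw
      exact hd0 hw
    rcases Q with _ | ⟨x, y, h⟩
    · change IsSquare ((1 : ℤ) : ℚ)
      simp
    · refine ⟨fun hx => ?_, fun hx => ?_⟩
      · refine isSquare_of_eq_div hw0 ?_ (hQ.1 hx)
        rw [← hw]
        push_cast
        ring
      · refine isSquare_of_eq_div hw0 ?_ (hQ.2 hx)
        rw [← hw]
        push_cast
        ring
  have hT : ∀ {x y : ℚ} (h : (Eab a b).toAffine.Nonsingular x y), x ≠ 0 → Al H.T d →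
      Al (Affine.Point.some x y h) d → Al (Affine.Point.some x y h + H.T) 1 := by
    intro x y h hx h1 h2
    obtain ⟨y', h', he⟩ := H.add_T h hx
    rw [he]
    refine ⟨fun h3 => absurd h3 (div_ne_zero H.b_ne hx), fun _ => ?_⟩
    refine isSquare_of_eq_div (w := x * d) (mul_ne_zero hx hd0) ?_ ((h1.1 rfl).mul (h2.2 hx))
    push_cast
    field_simp
  rcases P with _ | ⟨x₁, y₁, h₁⟩
  · change Al (0 + Q) 1
    rw [zero_add]
    exact h0 hP hQ
  rcases Q with _ | ⟨x₂, y₂, h₂⟩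
  · change Al (Affine.Point.some x₁ y₁ h₁ + 0) 1
    rw [add_zero]
    exact h0 hQ hP
  by_cases hx₁ : x₁ = 0
  · subst hx₁
    rw [H.eq_T] at hP ⊢
    by_cases hx₂ : x₂ = 0
    · subst hx₂
      rw [H.eq_T, H.T_add]
      change IsSquare ((1 : ℤ) : ℚ)
      simp
    · rw [add_comm]
      exact hT h₂ hx₂ hP hQ
  by_cases hx₂ : x₂ = 0
  · subst hx₂
    rw [H.eq_T] at hQ ⊢
    exact hT h₁ hx₁ hQ hP
  rcases hPQ : Affine.Point.some x₁ y₁ h₁ + Affine.Point.some x₂ y₂ h₂ with _ | ⟨x₃, y₃, h₃⟩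
  · change IsSquare ((1 : ℤ) : ℚ)
    simp
  · refine ⟨fun hx₃ => ?_, fun hx₃ => ?_⟩
    · subst hx₃
      rw [H.eq_T] at hPQ
      have h4 : Affine.Point.some x₁ y₁ h₁ = -Affine.Point.some x₂ y₂ h₂ + H.T := by
        rw [← hPQ]
        abel
      rw [Affine.Point.neg_some] at h4
      obtain ⟨y', h', he⟩ := H.add_T ((Affine.nonsingular_neg x₂ y₂).mpr h₂) hx₂
      rw [he] at h4
      simp only [Affine.Point.some.injEq] at h4
      have h5 := h4.1
      refine isSquare_of_eq_div (w := d) hd0 ?_ ((hP.2 hx₁).mul (hQ.2 hx₂))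
      rw [h5]
      push_cast
      field_simp
    · have h4 := isSquare_of_add two_ne_zero (root_one splits_ab) hPQ
      rw [sub_zero, sub_zero, sub_zero] at h4
      refine isSquare_of_eq_div (w := x₁ * x₂ * d) (mul_ne_zero (mul_ne_zero hx₁ hx₂) hd0) ?_
        (((hP.2 hx₁).mul (hQ.2 hx₂)).mul h4)
      push_cast
      ring

/-- A point with trivial first label has `X = r²`, `X² + a X + b = s²`. -/
theorem exists_rs {x y : ℚ} {h : (Eab a b).toAffine.Nonsingular x y}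
    (hP : Al (Affine.Point.some x y h) 1) :
    ∃ r s : ℚ, x = r ^ 2 ∧ x ^ 2 + a * x + b = s ^ 2 ∧ y = r * s := by
  have h1 := eab_iff.mp h.1
  by_cases hx : x = 0
  · obtain ⟨s, hs⟩ := hP.1 hx
    rw [Int.cast_one, mul_one] at hs
    subst hx
    refine ⟨0, s, by ring, by rw [hs]; ring, ?_⟩
    rw [zero_mul]
    have h3 : y ^ 2 = 0 := by linear_combination h1
    exact pow_eq_zero_iff two_ne_zero |>.mp h3
  · obtain ⟨r, hr⟩ := hP.2 hx
    rw [Int.cast_one, mul_one] at hr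
    have hr0 : r ≠ 0 := by
      rintro rfl
      exact hx (by rw [hr]; ring)
    refine ⟨r, y / r, by rw [hr]; ring, ?_, by field_simp⟩
    rw [div_pow, eq_div_iff (pow_ne_zero 2 hr0), h1, sq r, ← hr]
    ring

theorem al_of_be {P : (Eab a b).toAffine.Point} {c : ℤ} (h : Be P c) : Al P 1 := by
  rcases P with _ | ⟨x, y, hP⟩
  · change IsSquare ((1 : ℤ) : ℚ)
    simp
  · obtain ⟨r, s, h1, h2, h3, -⟩ := h
    refine ⟨fun hx => ?_, fun hx => ?_⟩
    · rw [hx] at h2
      exact ⟨s, by push_cast; linear_combination h2⟩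
    · exact ⟨r, by rw [h1]; push_cast; ring⟩

/-- Trivial classes. -/
theorem mem_dbl_of_class (H : Gen a b) {x y r s : ℚ} (h : (Eab a b).toAffine.Nonsingular x y)
    (hr : x = r ^ 2) (hs : x ^ 2 + a * x + b = s ^ 2) (hy : y = r * s)
    (hu : IsSquare (2 * x + a + 2 * s) ∨ IsSquare (((a : ℚ) ^ 2 - 4 * b) * (2 * x + a + 2 * s))) :
    Affine.Point.some x y h ∈ dbl (Eab a b).toAffine.Point := by
  rw [mem_dbl]
  have hprod : (2 * x + a + 2 * s) * (2 * x + a + 2 * -s) = (a : ℚ) ^ 2 - 4 * b := by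
    linear_combination 4 * hs
  rcases hu with ⟨t, ht⟩ | ⟨t, ht⟩
  · exact exists_half_one two_ne_zero H.Δ_ne splits_ab h (r := r) (s := s) (t := t)
      (by rw [sub_zero, hr]) (by rw [sub_zero, hs]) (by rw [sub_zero, ht]; ring)
      (by rw [eta_ab, hy])
  · have hu0 : 2 * x + a + 2 * s ≠ 0 := fun h0 => H.D_ne (by rw [← hprod, h0, zero_mul])
    refine exists_half_one two_ne_zero H.Δ_ne splits_ab h (r := -r) (s := -s)
      (t := t / (2 * x + a + 2 * s)) (by rw [sub_zero, hr]; ring) (by rw [sub_zero, hs]; ring) ?_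
      (by rw [eta_ab, hy]; ring)
    rw [sub_zero, div_pow, eq_div_iff (pow_ne_zero 2 hu0), sq t, ← ht, ← hprod]
    ring

theorem cls_aux {D u c : ℚ} (hD : D ≠ 0) (hc : c ≠ 0)
    (h1 : IsSquare c ∨ IsSquare (D * c)) (h2 : IsSquare (u * c) ∨ IsSquare (D * (u * c))) :
    IsSquare u ∨ IsSquare (D * u) := by
  rcases h1 with h1 | h1 <;> rcases h2 with h2 | h2
  · exact Or.inl (isSquare_of_eq_div hc (by ring) (h1.mul h2))
  · exact Or.inr (isSquare_of_eq_div hc (by ring) (h1.mul h2))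
  · exact Or.inr (isSquare_of_eq_div hc (by ring) (h1.mul h2))
  · exact Or.inl (isSquare_of_eq_div (mul_ne_zero hD hc) (by ring) (h1.mul h2))

theorem be_add (H : Gen a b) {P Q : (Eab a b).toAffine.Point} {c : ℤ} (hc : c ≠ 0) (hP : Be P c)
    (hQ : Be Q c) : P + Q ∈ dbl (Eab a b).toAffine.Point := by
  have hc0 : (c : ℚ) ≠ 0 := by exact_mod_cast hc
  have hD := H.D_ne
  have h0 : ∀ {Q : (Eab a b).toAffine.Point},
      (IsSquare (c : ℚ) ∨ IsSquare (((a : ℚ) ^ 2 - 4 * b) * c)) → Be Q c →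
      Q ∈ dbl (Eab a b).toAffine.Point := by
    intro Q h1 hQ
    rcases Q with _ | ⟨x, y, h⟩
    · exact AddSubgroup.zero_mem _
    · obtain ⟨r, s, h2, h3, h4, h5⟩ := hQ
      exact mem_dbl_of_class H h h2 h3 h4 (cls_aux hD hc0 h1 h5)
  rcases P with _ | ⟨x₁, y₁, h₁⟩
  · change 0 + Q ∈ _
    rw [zero_add]
    exact h0 hP hQ
  rcases Q with _ | ⟨x₂, y₂, h₂⟩
  · change Affine.Point.some x₁ y₁ h₁ + 0 ∈ _
    rw [add_zero]
    exact h0 hQ hP
  have hal := al_add H one_ne_zero (al_of_be hP) (al_of_be hQ)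
  obtain ⟨r₁, s₁, -, k₁, -, e₁⟩ := hP
  obtain ⟨r₂, s₂, -, k₂, -, e₂⟩ := hQ
  rcases hPQ : Affine.Point.some x₁ y₁ h₁ + Affine.Point.some x₂ y₂ h₂ with _ | ⟨x₃, y₃, h₃⟩
  · exact AddSubgroup.zero_mem _
  · rw [hPQ] at hal
    obtain ⟨r₃, s₃, hr₃, k₃, hy₃⟩ := exists_rs hal
    refine mem_dbl_of_class H h₃ hr₃ k₃ hy₃ ?_
    have h := isSquare_mul_of_add two_ne_zero splits_ab H.irr hPQ (s₁ := s₁) (s₂ := s₂) (s₃ := s₃)
      (by rw [sub_zero, k₁]) (by rw [sub_zero, k₂]) (by rw [sub_zero, k₃])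
    rw [sub_zero, sub_zero, sub_zero] at h
    have hu : ∀ {x s : ℚ}, x ^ 2 + a * x + b = s ^ 2 → 2 * x + a + 2 * s ≠ 0 := by
      intro x s hs h0
      apply H.D_ne
      have hprod : (2 * x + a + 2 * s) * (2 * x + a + 2 * -s) = (a : ℚ) ^ 2 - 4 * b := by
        linear_combination 4 * hs
      rw [← hprod, h0, zero_mul]
    have hu₁ := hu k₁
    have hu₂ := hu k₂
    set u₁ : ℚ := 2 * x₁ + a + 2 * s₁
    set u₂ : ℚ := 2 * x₂ + a + 2 * s₂
    set u₃ : ℚ := 2 * x₃ + a + 2 * s₃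
    -- `u₁ u₂` is a square up to `D`
    have h12 : IsSquare (u₁ * u₂) ∨ IsSquare (((a : ℚ) ^ 2 - 4 * b) * (u₁ * u₂)) := by
      rcases e₁ with e₁ | e₁ <;> rcases e₂ with e₂ | e₂
      · exact Or.inl (isSquare_of_eq_div hc0 (by ring) (e₁.mul e₂))
      · exact Or.inr (isSquare_of_eq_div hc0 (by ring) (e₁.mul e₂))
      · exact Or.inr (isSquare_of_eq_div hc0 (by ring) (e₁.mul e₂))
      · exact Or.inl (isSquare_of_eq_div (mul_ne_zero hD hc0) (by ring) (e₁.mul e₂))
    exact cls_aux hD (mul_ne_zero hu₁ hu₂) h12 (by rwa [mul_comm u₃])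

theorem sign_of_mul_sq {u : ℚ} {c : ℤ} {t : ℚ} (h : u = c * t ^ 2) (hu : 0 < u) : 0 < c := by
  by_contra hcon
  push Not at hcon
  have h1 : (c : ℚ) ≤ 0 := by exact_mod_cast hcon
  have h2 : (c : ℚ) * t ^ 2 ≤ 0 := mul_nonpos_of_nonpos_of_nonneg h1 (sq_nonneg t)
  linarith

/-- The first labels. -/
theorem exists_al (H : Gen a b) (σ : Prop)
    (hσ : σ → 0 < b ∧ ∀ x y : ℚ, y ^ 2 = x ^ 3 + a * x ^ 2 + b * x → 0 ≤ x)
    (P : (Eab a b).toAffine.Point) :
    ∃ d : ℤ, (Squarefree d ∧ d ∣ b ∧ (σ → 0 < d)) ∧ Al P d := by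
  rcases P with _ | ⟨x, y, h⟩
  · exact ⟨1, ⟨squarefree_one, one_dvd _, fun _ => one_pos⟩, by
      change IsSquare ((1 : ℤ) : ℚ)
      simp⟩
  by_cases hx : x = 0
  · obtain ⟨d, r, hd, hr0, hr⟩ := exists_squarefree_mul_sq H.b_ne
    obtain ⟨m, hm⟩ := exists_int_of_mul_sq hd hr.symm
    refine ⟨d, ⟨hd, ⟨m ^ 2, ?_⟩, fun hs => ?_⟩, fun _ => ?_, fun h' => absurd hx h'⟩
    · rw [hm] at hr
      exact_mod_cast hr
    · exact sign_of_mul_sq hr (by exact_mod_cast (hσ hs).1)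
    · exact ⟨d * r, by rw [hr]; ring⟩
  · obtain ⟨d, r, s, hd, hdvd, hr0, hr, -, -⟩ := exists_alpha (k := 1) (a := a) (b := b)
      (by ring) (by ring) splits_ab h.1 (by rwa [sub_zero])
    rw [sub_zero] at hr
    refine ⟨d, ⟨hd, hdvd, fun hs => ?_⟩, fun h' => absurd h' hx, fun _ => ⟨d * r, by
      rw [hr]; ring⟩⟩
    have h1 := (hσ hs).2 x y (eab_iff.mp h.1)
    exact sign_of_mul_sq hr (lt_of_le_of_ne h1 (Ne.symm hx))

/-- The second labels. -/
theorem exists_be (H : Gen a b) (τ : Prop)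
    (hτ : τ → 0 < a ^ 2 - 4 * b ∧ ∀ r s : ℚ, (r ^ 2) ^ 2 + a * r ^ 2 + b = s ^ 2 →
      0 < 2 * r ^ 2 + a + 2 * s)
    {P : (Eab a b).toAffine.Point} (hP : Al P 1) :
    ∃ c : ℤ, (Squarefree c ∧ c ∣ a ^ 2 - 4 * b ∧ (τ → 0 < c)) ∧ Be P c := by
  rcases P with _ | ⟨x, y, h⟩
  · exact ⟨1, ⟨squarefree_one, one_dvd _, fun _ => one_pos⟩, Or.inl (by simp)⟩
  · obtain ⟨r, s, hr, hs, hy⟩ := exists_rs hP
    obtain ⟨c, t, hc, hdvd, ht0, ht⟩ := exists_beta (k := 1) (a := a) (b := b) (by ring) (by ring)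
      H.Δ_ne splits_ab (x := x) (r := r) (s := s) (by rw [sub_zero, hr]) (by rw [sub_zero, hs])
    rw [sub_zero] at ht
    refine ⟨c, ⟨hc, hdvd, fun h' => ?_⟩, r, s, hr, hs, hy, Or.inl ⟨c * t, by rw [ht]; ring⟩⟩
    refine sign_of_mul_sq ht ?_
    have := (hτ h').2 r s (by rw [← hr]; exact hs)
    rwa [← hr] at this

/-- The other second label. -/
theorem exists_be' (H : Gen a b) (τ : Prop) (hτ : τ → 0 < a ^ 2 - 4 * b)
    {P : (Eab a b).toAffine.Point} {c : ℤ} (hc : Squarefree c) (hcd : c ∣ a ^ 2 - 4 * b)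
    (hcτ : τ → 0 < c) (hP : Be P c) :
    ∃ c' : ℤ, (Squarefree c' ∧ c' ∣ a ^ 2 - 4 * b ∧ (τ → 0 < c')) ∧ Be P c' ∧ c' ≠ c := by
  have hc0 : (c : ℚ) ≠ 0 := by exact_mod_cast hc.ne_zero
  have hD := H.D_ne
  obtain ⟨c', t, hc', ht0, ht⟩ := exists_squarefree_mul_sq (mul_ne_zero hD hc0)
  have hc'0 : (c' : ℚ) ≠ 0 := by exact_mod_cast hc'.ne_zero
  obtain ⟨m, hm⟩ := exists_int_of_mul_sq (c := (a ^ 2 - 4 * b) * c) hc' (by
    rw [← ht]
    push_cast
    ring)
  have hdvd : c' ∣ (a ^ 2 - 4 * b) * c := ⟨m ^ 2, by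
    rw [hm] at ht
    exact_mod_cast ht⟩
  have hcls : ∀ {v : ℚ}, (IsSquare (v * c) ∨ IsSquare (((a : ℚ) ^ 2 - 4 * b) * (v * c))) →
      (IsSquare (v * c') ∨ IsSquare (((a : ℚ) ^ 2 - 4 * b) * (v * c'))) := by
    intro v hv
    rcases hv with hv | hv
    · right
      refine isSquare_of_eq_div (w := t) ht0 ?_
        (hv.mul (IsSquare.mul_self ((a : ℚ) ^ 2 - 4 * b)))
      linear_combination -(((a : ℚ) ^ 2 - 4 * b) * v) * ht
    · left
      refine isSquare_of_eq_div (w := t) ht0 ?_ hv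
      linear_combination -v * ht
  refine ⟨c', ⟨hc', ?_, fun h' => ?_⟩, ?_, ?_⟩
  · rw [← Int.natAbs_dvd_natAbs,
      ← Nat.prod_primeFactors_of_squarefree (Int.squarefree_natAbs.mpr hc')]
    refine Finset.prod_primes_dvd _ (fun p hp => (Nat.prime_of_mem_primeFactors hp).prime)
      fun p hp => ?_
    have hpp := Nat.prime_of_mem_primeFactors hp
    have h1 : p ∣ ((a ^ 2 - 4 * b) * c).natAbs :=
      (Nat.dvd_of_mem_primeFactors hp).trans (Int.natAbs_dvd_natAbs.mpr hdvd)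
    rw [Int.natAbs_mul] at h1
    rcases hpp.dvd_mul.mp h1 with h2 | h2
    · exact h2
    · exact h2.trans (Int.natAbs_dvd_natAbs.mpr hcd)
  · refine sign_of_mul_sq ht (mul_pos ?_ (by exact_mod_cast hcτ h'))
    exact_mod_cast hτ h'
  · rcases P with _ | ⟨x, y, h⟩
    · have h1 := hcls (v := 1) (by simpa [Be] using hP)
      change IsSquare (c' : ℚ) ∨ IsSquare (((a : ℚ) ^ 2 - 4 * b) * c')
      simpa using h1
    · obtain ⟨r, s, h1, h2, h3, h4⟩ := hP
      exact ⟨r, s, h1, h2, h3, hcls h4⟩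
  · rintro rfl
    apply H.notSq
    exact isSquare_of_eq_div (w := c') hc'0 (by linear_combination c' * ht)
      (IsSquare.mul_self ((c' : ℚ) * t))

/-- The count. -/
theorem card_quotient_le (H : Gen a b) (σ τ : Prop)
    (hσ : σ → 0 < b ∧ ∀ x y : ℚ, y ^ 2 = x ^ 3 + a * x ^ 2 + b * x → 0 ≤ x)
    (hτ : τ → 0 < a ^ 2 - 4 * b ∧ ∀ r s : ℚ, (r ^ 2) ^ 2 + a * r ^ 2 + b = s ^ 2 →
      0 < 2 * r ^ 2 + a + 2 * s) {S U : Finset ℤ}
    (hS : ∀ d, d ∈ S ↔ Squarefree d ∧ d ∣ b ∧ (σ → 0 < d))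
    (hU : ∀ c, c ∈ U ↔ Squarefree c ∧ c ∣ a ^ 2 - 4 * b ∧ (τ → 0 < c)) :
    Finite ((Eab a b).toAffine.Point ⧸ dbl (Eab a b).toAffine.Point) ∧
      2 * Nat.card ((Eab a b).toAffine.Point ⧸ dbl (Eab a b).toAffine.Point) ≤
        S.card * U.card := by
  refine card_le_of_labels _ S U Al Be ?_ ?_ ?_ ?_ ?_
  · intro P
    obtain ⟨d, h1, h2⟩ := exists_al H σ hσ P
    exact ⟨d, (hS d).mpr h1, h2⟩
  · intro P Q d hd hP hQ
    rw [sub_eq_add_neg]
    exact al_add H ((hS d).mp hd).1.ne_zero hP (al_neg hQ)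
  · intro R hR
    obtain ⟨c, h1, h2⟩ := exists_be H τ hτ hR
    exact ⟨c, (hU c).mpr h1, h2⟩
  · intro R c hc hR
    obtain ⟨h1, h2, h3⟩ := (hU c).mp hc
    obtain ⟨c', h4, h5, h6⟩ := exists_be' H τ (fun h => (hτ h).1) h1 h2 h3 hR
    exact ⟨c', (hU c').mpr h4, h5, h6⟩
  · intro R R' c hc hR hR'
    rw [sub_eq_add_neg]
    exact be_add H ((hU c).mp hc).1.ne_zero hR (be_neg hR')

/-- **Tate's bound.** `E : y² = x³ + a x² + b x`, `b ≠ 0`, `a² - 4 b` not a square: the rank of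
`E(ℚ)` plus one is at most the number of primes dividing `b` plus the number of primes dividing
`a² - 4 b`. -/
theorem finrank_add_one_le (hb : b ≠ 0) (hD : ¬ IsSquare (a ^ 2 - 4 * b)) :
    Module.finrank ℤ (Eab a b).toAffine.Point + 1 ≤
      b.natAbs.primeFactors.card + (a ^ 2 - 4 * b).natAbs.primeFactors.card := by
  have H : Gen a b := ⟨hb, hD⟩
  have hell := H.isElliptic
  obtain ⟨r, T, hT, hTfin, ⟨e⟩⟩ := exists_equiv ℚ (Eab a b)
  have hr := finrank_le_of_equiv e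
  -- the sign cases
  have key : Finite ((Eab a b).toAffine.Point ⧸ dbl (Eab a b).toAffine.Point) ∧
      2 * Nat.card ((Eab a b).toAffine.Point ⧸ dbl (Eab a b).toAffine.Point) ≤
        2 * 2 ^ omg b * 2 ^ omg (a ^ 2 - 4 * b) := by
    have hσcase : (0 < b ∧ ∀ x y : ℚ, y ^ 2 = x ^ 3 + a * x ^ 2 + b * x → 0 ≤ x) →
        Finite ((Eab a b).toAffine.Point ⧸ dbl (Eab a b).toAffine.Point) ∧
        2 * Nat.card ((Eab a b).toAffine.Point ⧸ dbl (Eab a b).toAffine.Point) ≤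
          2 * 2 ^ omg b * 2 ^ omg (a ^ 2 - 4 * b) := by
      intro hpos
      obtain ⟨h1, h2⟩ := card_quotient_le H True False (fun _ => hpos) False.elim
        (S := posDiv b) (U := allDiv (a ^ 2 - 4 * b))
        (fun d => by rw [mem_posDiv hb]; simp) (fun c => by rw [mem_allDiv H.D_ne']; simp)
      refine ⟨h1, h2.trans ?_⟩
      rw [card_posDiv hb]
      calc 2 ^ omg b * (allDiv (a ^ 2 - 4 * b)).card
          ≤ 2 ^ omg b * (2 * 2 ^ omg (a ^ 2 - 4 * b)) :=
            Nat.mul_le_mul_left _ (card_allDiv H.D_ne')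
        _ = _ := by ring
    have hτcase : (0 < a ^ 2 - 4 * b ∧ ∀ r s : ℚ, (r ^ 2) ^ 2 + a * r ^ 2 + b = s ^ 2 →
        0 < 2 * r ^ 2 + a + 2 * s) →
        Finite ((Eab a b).toAffine.Point ⧸ dbl (Eab a b).toAffine.Point) ∧
        2 * Nat.card ((Eab a b).toAffine.Point ⧸ dbl (Eab a b).toAffine.Point) ≤
          2 * 2 ^ omg b * 2 ^ omg (a ^ 2 - 4 * b) := by
      intro hpos
      obtain ⟨h1, h2⟩ := card_quotient_le H False True False.elim (fun _ => hpos)
        (S := allDiv b) (U := posDiv (a ^ 2 - 4 * b))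
        (fun d => by rw [mem_allDiv hb]; simp) (fun c => by rw [mem_posDiv H.D_ne']; simp)
      refine ⟨h1, h2.trans ?_⟩
      rw [card_posDiv H.D_ne']
      exact Nat.mul_le_mul_right _ (card_allDiv hb)
    have hprod : ∀ r s : ℚ, (r ^ 2) ^ 2 + a * r ^ 2 + b = s ^ 2 →
        (2 * r ^ 2 + a + 2 * s) * (2 * r ^ 2 + a - 2 * s) = (a : ℚ) ^ 2 - 4 * b := by
      intro r s h
      linear_combination 4 * h
    -- positivity of `2 X + a + 2 s` from that of `2 X + a`
    have hu : 0 < a ^ 2 - 4 * b → ∀ r s : ℚ, (r ^ 2) ^ 2 + a * r ^ 2 + b = s ^ 2 →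
        0 ≤ 2 * r ^ 2 + a → 0 < 2 * r ^ 2 + a + 2 * s := by
      intro hDpos r s h h0
      have hDq : (0 : ℚ) < (a : ℚ) ^ 2 - 4 * b := by exact_mod_cast hDpos
      by_contra hcon
      push Not at hcon
      have h1 := hprod r s h
      have h2 : 0 ≤ 2 * r ^ 2 + a - 2 * s := by linarith
      nlinarith
    rcases lt_trichotomy (a ^ 2 - 4 * b) 0 with hneg | hzero | hDpos
    · refine hσcase ⟨by nlinarith, fun x y h => ?_⟩
      have hDq : (a : ℚ) ^ 2 - 4 * b < 0 := by exact_mod_cast hneg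
      by_contra hcon
      push Not at hcon
      have h1 : 0 < x ^ 2 + a * x + b := by nlinarith [sq_nonneg (2 * x + a)]
      nlinarith [sq_nonneg y, mul_pos_of_neg_of_neg hcon (show -(x ^ 2 + a * x + b) < 0 by linarith)]
    · exact absurd hzero H.D_ne'
    · rcases lt_trichotomy b 0 with hbneg | hb0 | hbpos
      · refine hτcase ⟨hDpos, fun r s h => hu hDpos r s h ?_⟩
        have hbq : (b : ℚ) < 0 := by exact_mod_cast hbneg
        by_contra hcon
        push Not at hcon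
        have h1 : (0 : ℚ) ≤ r ^ 2 := sq_nonneg r
        nlinarith [sq_nonneg s, mul_nonneg h1 (show (0 : ℚ) ≤ -(r ^ 2 + a) by nlinarith)]
      · exact absurd hb0 hb
      · by_cases ha : 0 ≤ a
        · refine hτcase ⟨hDpos, fun r s h => hu hDpos r s h ?_⟩
          have haq : (0 : ℚ) ≤ a := by exact_mod_cast ha
          positivity
        · push Not at ha
          refine hσcase ⟨hbpos, fun x y h => ?_⟩
          have haq : (a : ℚ) < 0 := by exact_mod_cast ha
          have hbq : (0 : ℚ) < b := by exact_mod_cast hbpos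
          by_contra hcon
          push Not at hcon
          have h1 : 0 < x ^ 2 + a * x + b := by nlinarith [mul_pos_of_neg_of_neg haq hcon]
          nlinarith [sq_nonneg y,
            mul_pos_of_neg_of_neg hcon (show -(x ^ 2 + a * x + b) < 0 by linarith)]
  obtain ⟨hfin, hle⟩ := key
  have h2 := two_pow_le_card e H.T_add H.T_ne
  have h3 : 2 ^ (r + 1) * 2 ≤ 2 ^ (omg b + omg (a ^ 2 - 4 * b)) * 2 := by
    calc 2 ^ (r + 1) * 2 ≤
        Nat.card ((Eab a b).toAffine.Point ⧸ dbl (Eab a b).toAffine.Point) * 2 :=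
          Nat.mul_le_mul_right _ h2
      _ ≤ 2 * 2 ^ omg b * 2 ^ omg (a ^ 2 - 4 * b) := by rw [mul_comm]; exact hle
      _ = _ := by rw [pow_add]; ring
  have h4 : r + 1 ≤ omg b + omg (a ^ 2 - 4 * b) :=
    (Nat.pow_le_pow_iff_right (by norm_num)).mp (Nat.le_of_mul_le_mul_right h3 (by norm_num))
  exact (Nat.add_le_add_right hr 1).trans h4

end curve

end Fermat.Agent.Cor.BSD.One
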