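import Fermat.Agent.Corollaries.BSD.Hesse
import Fermat.Agent.Corollaries.BSD.Nineteen
import Fermat.Agent.Corollaries.BSD.Criterion
import Fermat.Agent.Corollaries.Table.ThreeCurves
import Fermat.Agent.Corollaries.HW.LOne

/-!
# The curves `37b`: rational points, and the rank part of the conjecture of Birch and Swinnerton-Dyer

`y² + a x y + y = x³` has for `a = 2` (the curve `19a3`) and `a = 4` (the curve `37b3`) no rational point
with `x ≠ 0`: such a point gives integers with `u v w = t³`, `u + v + w = a t`, `t ≠ 0`, hence a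
solution of `X³ + Y³ + Z³ = a X Y Z` with `X Y Z ≠ 0`. The curves `37b1` and `37b2` are mapped
to `37b3` by isogenies of degree three.
-/

set_option autoImplicit false

noncomputable section

open WeierstrassCurve

namespace Fermat.Agent.Cor.BSD

namespace ThirtySeven

open Short Fermat.Agent.Cor.Table

/-- An integral solution of `y² z + a x y z + y z² = x³`. -/
theorem x_eq_int {a X Y D : ℤ} (ha : a = 2 ∨ a = 4) (h : D * Y * (Y + a * X + D) = X ^ 3) :
    X = 0 := by
  by_contra hX
  obtain ⟨X', Y', Z', h1, h2, -⟩ := Hesse.exists_of_mul_eq_cube (a := a) (u := D) (v := Y)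
    (w := -(Y + a * X + D)) (t := -X) _ le_rfl (neg_ne_zero.mpr hX) (by linear_combination -h)
    (by ring)
  exact h2 (Hesse.mul_eq_zero_of_sum_cubes ha h1)

/-- **`y² + a x y + y = x³`, `a = 2` or `a = 4`, has no rational point with `x ≠ 0`.** -/
theorem x_eq {a : ℤ} (ha : a = 2 ∨ a = 4) {x y : ℚ} (h : y ^ 2 + a * x * y + y = x ^ 3) :
    x = 0 := by
  have hx : (x.den : ℚ) ≠ 0 := by exact_mod_cast x.den_ne_zero
  have hy : (y.den : ℚ) ≠ 0 := by exact_mod_cast y.den_ne_zero
  have hxn := Rat.mul_den_eq_num x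
  have hyn := Rat.mul_den_eq_num y
  have h1 : ((x.den * y.den : ℤ) : ℚ) * ((y.num * x.den : ℤ) : ℚ) *
      (((y.num * x.den : ℤ) : ℚ) + a * ((x.num * y.den : ℤ) : ℚ) + ((x.den * y.den : ℤ) : ℚ)) =
      ((x.num * y.den : ℤ) : ℚ) ^ 3 := by
    push_cast
    rw [← hxn, ← hyn]
    linear_combination ((x.den : ℚ) * y.den) ^ 3 * h
  have h2 := x_eq_int ha (X := x.num * y.den) (Y := y.num * x.den) (D := x.den * y.den)
    (by exact_mod_cast h1)
  have h3 : x.num = 0 := by
    rcases mul_eq_zero.mp h2 with h4 | h4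
    · exact h4
    · exact absurd h4 (by exact_mod_cast y.den_ne_zero)
  exact Rat.num_eq_zero.mp h3

/-- **There are no non-zero rational numbers with `x / y + y / z + z / x = 2` or `= 4`.** -/
theorem div_add_div_add_div_ne {a : ℤ} (ha : a = 2 ∨ a = 4) {x y z : ℚ} (hx : x ≠ 0) (hy : y ≠ 0)
    (hz : z ≠ 0) : x / y + y / z + z / x ≠ a := by
  intro h
  have h1 : (y ^ 2 / (x * z)) ^ 2 + a * (-y / x) * (y ^ 2 / (x * z)) + y ^ 2 / (x * z) =
      (-y / x) ^ 3 := by
    rw [← h]
    field_simp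
    ring
  have h2 := x_eq ha h1
  rw [div_eq_zero_iff, neg_eq_zero] at h2
  rcases h2 with h3 | h3
  · exact hy h3
  · exact hx h3

/-- The curve `y² + a x y + y = x³`. -/
def EA (a : ℤ) : WeierstrassCurve ℚ := ⟨a, 0, 1, 0, 0⟩

theorem EA_nonsingular_zero (a : ℤ) : (EA a).toAffine.Nonsingular 0 0 := by
  rw [Affine.nonsingular_iff, Affine.equation_iff]
  simp [EA]

theorem EA_nonsingular_neg (a : ℤ) : (EA a).toAffine.Nonsingular 0 (-1) := by
  rw [Affine.nonsingular_iff, Affine.equation_iff]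
  simp [EA]

/-- The three rational points. -/
def ptA (a : ℤ) : Fin 3 → (EA a).toAffine.Point :=
  ![0, Affine.Point.some 0 0 (EA_nonsingular_zero a), Affine.Point.some 0 (-1) (EA_nonsingular_neg a)]

/-- **`y² + a x y + y = x³` has exactly three rational points for `a = 2` and for `a = 4`.** -/
theorem ptA_bijective {a : ℤ} (ha : a = 2 ∨ a = 4) : Function.Bijective (ptA a) := by
  constructor
  · intro i j h
    fin_cases i <;> fin_cases j <;> simp_all [ptA]
  · rintro (_ | ⟨x, y, h⟩)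
    · exact ⟨0, rfl⟩
    · have he := (Affine.equation_iff _ _).mp h.1
      simp only [EA] at he
      have hx : x = 0 := x_eq ha (y := y) (by linear_combination he)
      subst hx
      have hy : y * (y + 1) = 0 := by linear_combination he
      rcases mul_eq_zero.mp hy with h0 | h0
      · subst h0
        exact ⟨1, rfl⟩
      · obtain rfl : y = -1 := eq_neg_of_add_eq_zero_left h0
        exact ⟨2, rfl⟩

theorem card_EA {a : ℤ} (ha : a = 2 ∨ a = 4) : Nat.card (EA a).toAffine.Point = 3 := by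
  rw [← Nat.card_congr (Equiv.ofBijective _ (ptA_bijective ha)), Nat.card_eq_fintype_card,
    Fintype.card_fin]

/-- The curve `37b3`. -/
theorem finite_S_37b3 : (S (-4320) 108432).Finite := by
  refine (Set.toFinite {48}).subset ?_
  rintro u ⟨v, hv⟩
  have h : ((v / 108 - 4 * ((u - 48) / 36) - 1) / 2) ^ 2 + (4 : ℤ) * ((u - 48) / 36) *
      ((v / 108 - 4 * ((u - 48) / 36) - 1) / 2) + (v / 108 - 4 * ((u - 48) / 36) - 1) / 2 =
      ((u - 48) / 36) ^ 3 := by
    push_cast
    linear_combination (-1 / 46656) * hv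
  have h0 := x_eq (Or.inr rfl) h
  rw [Set.mem_singleton_iff]
  linarith

/-- The curve `37b1`. -/
theorem finite_S_37b1 : (S (-30240) (-1959984)).Finite := by
  refine finite_of_cubic (k := 3) (by norm_num) 144 288 84672 6841152
    (fun u => u ^ 3 + 432 * u ^ 2 - 1728 * u - 1489536) ?_ finite_S_37b3
  intro u
  ring

/-- The curve `37b2`. -/
theorem finite_S_37b2 : (S (-2427840) (-1456056432)).Finite := by
  refine finite_of_cubic (k := 3) (by norm_num) 900 1800 814320 3886272
    (fun u => u ^ 3 + 2700 * u ^ 2 + 2425680 * u + 725115456) ?_ finite_S_37b1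
  intro u
  ring

/-- The three curves `37b`. -/
theorem finite_of_iso {W E : WeierstrassCurve ℤ} (hE : E = E37b1 ∨ E = E37b2 ∨ E = E37b3)
    {r s t : ℤ} (h : (⟨1, r, s, t⟩ : VariableChange ℤ) • W = E) :
    Finite (W.map (Int.castRingHom ℚ)).toAffine.Point := by
  have h4 : W.c₄ = E.c₄ := by rw [← h, WeierstrassCurve.variableChange_c₄]; simp
  have h6 : W.c₆ = E.c₆ := by rw [← h, WeierstrassCurve.variableChange_c₆]; simp
  refine finite_of_S ?_
  rw [WeierstrassCurve.map_c₄, WeierstrassCurve.map_c₆, h4, h6]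
  rcases hE with rfl | rfl | rfl
  · rw [E37b1_inv.1, E37b1_inv.2.1]
    norm_num
    exact finite_S_37b1
  · rw [E37b2_inv.1, E37b2_inv.2.1]
    norm_num
    exact finite_S_37b2
  · rw [E37b3_inv.1, E37b3_inv.2.1]
    norm_num
    exact finite_S_37b3

end ThirtySeven

open ThirtySeven Table HW

/-- The only prime dividing the discriminant is the conductor. -/
theorem eq_of_dvd_of_conductorLevel {W : WeierstrassCurve ℤ} (hΔ : W.Δ ≠ 0) {q : ℕ}
    (hq : q.Prime) (hN : W.conductorLevel = q) (ℓ : ℕ) (hℓ : ℓ.Prime) (hd : (ℓ : ℤ) ∣ W.Δ) :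
    ℓ = q := by
  have h1 := (W.prime_dvd_conductorLevel_iff hΔ hℓ).mpr hd
  rw [hN] at h1
  exact (Nat.prime_dvd_prime_iff_eq hℓ hq).mp h1

/-- **A semistable elliptic curve over `ℚ` of prime conductor with a rational isogeny of degree three has
only finitely many rational points.** -/
theorem finite_of_reducible_three {W : WeierstrassCurve ℤ} (hΔ : W.Δ ≠ 0)
    (hW : W.IsSemistableModel) {q : ℕ} (hq : q.Prime) (hN : W.conductorLevel = q)
    (hred : ¬ W.ModRepIsIrreducible 3) : Finite (W.map (Int.castRingHom ℚ)).toAffine.Point := by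
  obtain ⟨E, ⟨h, -⟩ | ⟨-, hE⟩, r, s, t, hi⟩ := exists_iso_of_reducible_three hΔ hW hq
    (eq_of_dvd_of_conductorLevel hΔ hq hN) hred
  · exact finite_nineteen hΔ hW (hN.trans h)
  · exact finite_of_iso hE hi

/-- The root number. -/
theorem rootNumber_of_reducible_three {W : WeierstrassCurve ℤ} (hΔ : W.Δ ≠ 0)
    (hW : W.IsSemistableModel) {q : ℕ} (hq : q.Prime) (hN : W.conductorLevel = q)
    (hred : ¬ W.ModRepIsIrreducible 3) : rootNumber W = 1 := by
  have h19 : Fact (Nat.Prime 19) := ⟨by norm_num⟩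
  have h37 : Fact (Nat.Prime 37) := ⟨by norm_num⟩
  have hrad : W.Δ.natAbs.primeFactors = {q} := by
    rw [← Nat.primeFactors_radical]
    change W.conductorLevel.primeFactors = {q}
    rw [hN, hq.primeFactors]
  have hroot : rootNumber W = ap W q := by
    rw [rootNumber, hrad, Finset.prod_singleton, neg_neg]
  have hqd : (q : ℤ) ∣ W.Δ := (W.prime_dvd_conductorLevel_iff hΔ hq).mp (by rw [hN])
  obtain ⟨E, hE, r, s, t, hi⟩ := exists_iso_of_reducible_three hΔ hW hq
    (eq_of_dvd_of_conductorLevel hΔ hq hN) hred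
  have h6 : W.c₆ = E.c₆ := by rw [← hi, WeierstrassCurve.variableChange_c₆]; simp
  have key : ∀ {r : ℕ} [Fact r.Prime], q = r → r ≠ 2 → ap W q = legendreSym r (-W.c₆) := by
    intro r hr h h2
    subst h
    rw [ap, if_pos hqd, apOfModel_eq_legendreSym ⟨hq, hqd, hW q hq hqd, hΔ⟩ h2]
  rw [hroot]
  rcases hE with ⟨h, hE⟩ | ⟨h, hE⟩
  · rw [key h (by norm_num), h6]
    rcases hE with rfl | rfl | rfl
    · rw [E19a1_inv.2.1]; norm_num
    · rw [E19a2_inv.2.1]; norm_num
    · rw [E19a3_inv.2.1]; norm_num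
  · rw [key h (by norm_num), h6]
    rcases hE with rfl | rfl | rfl
    · rw [E37b1_inv.2.1]; norm_num
    · rw [E37b2_inv.2.1]; norm_num
    · rw [E37b3_inv.2.1]; norm_num

/-- **The conjecture of Birch and Swinnerton-Dyer (rank part) for the semistable elliptic curves over `ℚ`
of prime conductor with a rational isogeny of degree three** (`19a1`, `19a2`, `19a3`, `37b1`, `37b2`, `37b3`). -/
theorem bsd_of_reducible_three {W : WeierstrassCurve ℤ} (hΔ : W.Δ ≠ 0)
    (hW : W.IsSemistableModel) {q : ℕ} (hq : q.Prime) (hN : W.conductorLevel = q)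
    (hred : ¬ W.ModRepIsIrreducible 3) :
    Finite (W.map (Int.castRingHom ℚ)).toAffine.Point ∧
    ∃ L : ℂ → ℂ, IsHasseWeil W L ∧ (∀ L' : ℂ → ℂ, IsHasseWeil W L' → L' = L) ∧ L 1 ≠ 0 ∧
      analyticOrderNatAt L 1 = Module.finrank ℤ (W.map (Int.castRingHom ℚ)).toAffine.Point := by
  have hfin := finite_of_reducible_three hΔ hW hq hN hred
  have hw := rootNumber_of_reducible_three hΔ hW hq hN hred
  have h50 : W.conductorLevel ≤ 50 := by
    obtain ⟨E, ⟨h, -⟩ | ⟨h, -⟩, -⟩ := exists_iso_of_reducible_three hΔ hW hq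
      (eq_of_dvd_of_conductorLevel hΔ hq hN) hred <;> rw [hN, h] <;> norm_num
  obtain ⟨L, hL, hun⟩ := existsUnique_isHasseWeil hΔ hW
  refine ⟨hfin, L, hL, hun, (L_one_ne_zero_iff hΔ hW hL h50).2 hw, ?_⟩
  rw [analyticOrderNatAt_eq hΔ hW hL h50, if_pos hw, finrank_eq_zero]

end Fermat.Agent.Cor.BSD
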