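import Fermat.Agent.Corollaries.BSD.TwoIsog

/-!
# Descent through one rational point of order two, the two descent maps

`W` is a Weierstrass curve over `F`, `2 ≠ 0`, with 2-torsion polynomial `4 X (X² + A X + B)`,
`X = x - e`, `X² + A X + B` irreducible.

* `isSquare_mul_of_add` : for `P + Q = R` with `X = r²`, `X² + A X + B = s²` at the three points, the
  product of the three numbers `u = 2 X + A + 2 s` is a square up to the factor `A² - 4 B`;
* `exists_half_of_class` : if `X = r² ≠ 0` and `u` is a square up to the factor `A² - 4 B`, the point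
  is divisible by `2`;
* `exists_alpha`, `exists_beta` : over `ℚ`, the possible classes of `X` and `u` modulo squares.
-/

set_option autoImplicit false

namespace Fermat.Agent.Cor.BSD.One

open WeierstrassCurve
open Fermat.Agent.Cor.MordellWeil

section Quad

variable {F : Type*} [Field F] {A B : F}

/-- The root `ω` of `X² + A X + B` in the quadratic algebra. -/
def om (A B : F) : QuadraticAlgebra F (-B) (-A) := ⟨0, 1⟩

theorem om_sq (A B : F) : om A B ^ 2 + algebraMap F _ A * om A B + algebraMap F _ B = 0 := by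
  ext <;> simp [om, sq]

/-- A number whose image in the quadratic algebra is a square. -/
theorem isSquare_or_of_isSquare {U : F} (h2 : (2 : F) ≠ 0)
    (h : IsSquare (algebraMap F (QuadraticAlgebra F (-B) (-A)) U)) :
    IsSquare U ∨ IsSquare ((A ^ 2 - 4 * B) * U) := by
  obtain ⟨⟨p, q⟩, hz⟩ := h
  have hre := congrArg QuadraticAlgebra.re hz
  have him := congrArg QuadraticAlgebra.im hz
  simp only [QuadraticAlgebra.re_mul, QuadraticAlgebra.im_mul, QuadraticAlgebra.algebraMap_re,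
    QuadraticAlgebra.algebraMap_im] at hre him
  by_cases hq : q = 0
  · left
    rw [hq] at hre
    exact ⟨p, by rw [hre]; ring⟩
  · right
    have hp : 2 * p = A * q := by
      refine mul_left_cancel₀ hq ?_
      linear_combination -him
    refine ⟨(A ^ 2 - 4 * B) * q / 2, ?_⟩
    have h4 : (4 : F) ≠ 0 := four_ne h2
    have h5 : 4 * U = q ^ 2 * (A ^ 2 - 4 * B) := by
      rw [hre]
      linear_combination (2 * p + A * q) * hp
    field_simp
    linear_combination (A ^ 2 - 4 * B) * h5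

variable [DecidableEq F] {W : WeierstrassCurve F} {e : F}

theorem isSquare_mul_of_add (h2 : (2 : F) ≠ 0) (hs : Splits1 W e A B)
    (hirr : ∀ r : F, r ^ 2 ≠ -B + -A * r) {x₁ x₂ x₃ y₁ y₂ y₃ : F}
    {h₁ : W.toAffine.Nonsingular x₁ y₁} {h₂ : W.toAffine.Nonsingular x₂ y₂}
    {h₃ : W.toAffine.Nonsingular x₃ y₃}
    (h : Affine.Point.some x₁ y₁ h₁ + Affine.Point.some x₂ y₂ h₂ = Affine.Point.some x₃ y₃ h₃)
    {s₁ s₂ s₃ : F} (k₁ : (x₁ - e) ^ 2 + A * (x₁ - e) + B = s₁ ^ 2)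
    (k₂ : (x₂ - e) ^ 2 + A * (x₂ - e) + B = s₂ ^ 2)
    (k₃ : (x₃ - e) ^ 2 + A * (x₃ - e) + B = s₃ ^ 2) :
    IsSquare ((2 * (x₁ - e) + A + 2 * s₁) * (2 * (x₂ - e) + A + 2 * s₂) *
        (2 * (x₃ - e) + A + 2 * s₃)) ∨
      IsSquare ((A ^ 2 - 4 * B) * ((2 * (x₁ - e) + A + 2 * s₁) * (2 * (x₂ - e) + A + 2 * s₂) *
        (2 * (x₃ - e) + A + 2 * s₃))) := by
  classical
  have : Fact (∀ r : F, r ^ 2 ≠ -B + -A * r) := ⟨hirr⟩
  refine isSquare_or_of_isSquare h2 ?_
  set K := QuadraticAlgebra F (-B) (-A)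
  set f : F →+* K := algebraMap F K with hf
  set ω : K := om A B with hω
  have hω2 : ω ^ 2 + f A * ω + f B = 0 := om_sq A B
  have h2K : (2 : K) ≠ 0 := by
    rw [← map_ofNat f 2]
    exact (map_ne_zero f).mpr h2
  have hroot : 4 * (f e + ω) ^ 3 + (W.map f).b₂ * (f e + ω) ^ 2 + 2 * (W.map f).b₄ * (f e + ω) +
      (W.map f).b₆ = 0 := by
    rw [map_b₂, map_b₄, map_b₆, hs.h2, hs.h4, hs.h6]
    simp only [map_add, map_sub, map_mul, map_pow, map_neg, map_ofNat]
    linear_combination 4 * ω * hω2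
  have key : ∀ X s : F, X ^ 2 + A * X + B = s ^ 2 →
      (f X - ω) * f (2 * X + A + 2 * s) = (f X - ω + f s) ^ 2 := by
    intro X s h
    have h' : f X ^ 2 + f A * f X + f B = f s ^ 2 := by
      rw [← map_pow, ← map_pow, ← h]
      simp only [map_add, map_mul, map_pow]
    simp only [map_add, map_mul, map_ofNat]
    linear_combination h' - hω2
  have ne : ∀ X : F, f X - ω ≠ 0 := by
    intro X h
    have h1 : (0 : F) - 1 = 0 := congrArg QuadraticAlgebra.im h
    simp at h1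
  -- the line
  have hxy : ¬(x₁ = x₂ ∧ y₁ = W.toAffine.negY x₂ y₂) := by
    intro hxy
    rw [Affine.Point.add_of_Y_eq hxy.1 hxy.2] at h
    exact absurd h.symm (by simp)
  rw [Affine.Point.add_some hxy] at h
  simp only [Affine.Point.some.injEq] at h
  have hxy' : ¬(f x₁ = f x₂ ∧ f y₁ = (W.map f).toAffine.negY (f x₂) (f y₂)) := by
    rintro ⟨ha, hb⟩
    refine hxy ⟨f.injective ha, f.injective ?_⟩
    rw [hb]
    exact Affine.map_negY (W' := W.toAffine) f x₂ y₂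
  have hsq := isSquare_line h2K hroot ((Affine.map_equation W.toAffine f.injective x₁ y₁).mpr h₁.1)
    ((Affine.map_equation W.toAffine f.injective x₂ y₂).mpr h₂.1) hxy'
  have hX : (W.map f).toAffine.addX (f x₁) (f x₂)
      ((W.map f).toAffine.slope (f x₁) (f x₂) (f y₁) (f y₂)) = f x₃ := by
    rw [← h.1]
    have e1 : (W.map f).toAffine.slope (f x₁) (f x₂) (f y₁) (f y₂) =
      f (W.toAffine.slope x₁ x₂ y₁ y₂) := Affine.map_slope f x₁ x₂ y₁ y₂
    rw [e1]
    exact Affine.map_addX f x₁ x₂ _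
  rw [hX] at hsq
  obtain ⟨ρ, hρ⟩ := hsq
  have q₁ := key _ _ k₁
  have q₂ := key _ _ k₂
  have q₃ := key _ _ k₃
  have n₁ := ne (x₁ - e)
  have n₂ := ne (x₂ - e)
  have n₃ := ne (x₃ - e)
  have hρ' : (f (x₁ - e) - ω) * (f (x₂ - e) - ω) * (f (x₃ - e) - ω) = ρ * ρ := by
    rw [← hρ]
    simp only [map_sub]
    ring
  have hρ0 : ρ ≠ 0 := by
    rintro rfl
    rw [mul_zero] at hρ'
    exact mul_ne_zero (mul_ne_zero n₁ n₂) n₃ hρ'
  refine ⟨(f (x₁ - e) - ω + f s₁) * (f (x₂ - e) - ω + f s₂) * (f (x₃ - e) - ω + f s₃) / ρ, ?_⟩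
  rw [div_mul_div_comm, eq_div_iff (mul_ne_zero hρ0 hρ0), ← hρ', map_mul, map_mul]
  calc _ = ((f (x₁ - e) - ω) * f (2 * (x₁ - e) + A + 2 * s₁)) *
      ((f (x₂ - e) - ω) * f (2 * (x₂ - e) + A + 2 * s₂)) *
      ((f (x₃ - e) - ω) * f (2 * (x₃ - e) + A + 2 * s₃)) := by ring
    _ = _ := by
      rw [q₁, q₂, q₃]
      ring

/-- **Points with trivial classes are divisible by `2`.** -/
theorem exists_half_of_class (h2 : (2 : F) ≠ 0) (hΔ : W.Δ ≠ 0) (hs : Splits1 W e A B) {x y : F}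
    (h : W.toAffine.Nonsingular x y) {r s : F} (hr : x - e = r ^ 2) (hr0 : r ≠ 0)
    (hη : eta W x y = r * s)
    (hu : IsSquare (2 * (x - e) + A + 2 * s) ∨
      IsSquare ((A ^ 2 - 4 * B) * (2 * (x - e) + A + 2 * s))) :
    ∃ Q : W.toAffine.Point, Q + Q = Affine.Point.some x y h := by
  obtain ⟨-, hD⟩ := ne_zero_of_splits h2 hΔ hs
  have hs2 : (x - e) ^ 2 + A * (x - e) + B = s ^ 2 := by
    have h1 := eta_sq_one h2 hs h.1
    rw [hη] at h1
    have h3 : (x - e) * s ^ 2 = (x - e) * ((x - e) ^ 2 + A * (x - e) + B) := by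
      rw [← h1, hr]
      ring
    exact (mul_left_cancel₀ (by rw [hr]; exact pow_ne_zero 2 hr0) h3).symm
  have hprod : (2 * (x - e) + A + 2 * s) * (2 * (x - e) + A + 2 * -s) = A ^ 2 - 4 * B := by
    linear_combination 4 * hs2
  rcases hu with ⟨t, ht⟩ | ⟨t, ht⟩
  · exact exists_half_one h2 hΔ hs h hr hs2 (t := t) (by rw [ht]; ring) hη
  · have hu0 : 2 * (x - e) + A + 2 * s ≠ 0 := fun h0 => hD (by rw [← hprod, h0, zero_mul])
    refine exists_half_one h2 hΔ hs h (r := -r) (s := -s) (by rw [hr]; ring) (by rw [hs2]; ring)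
      (t := t / (2 * (x - e) + A + 2 * s)) ?_ (by rw [hη]; ring)
    rw [div_pow, eq_div_iff (pow_ne_zero 2 hu0), sq t, ← ht, ← hprod]
    ring

end Quad

/-! ### The classes over `ℚ` -/

section Rat

variable {W : WeierstrassCurve ℚ} {e A B : ℚ}

/-- The first descent map. -/
theorem exists_alpha {k : ℚ} {a b : ℤ} (hA : k ^ 2 * A = a) (hB : k ^ 4 * B = b)
    (hs : Splits1 W e A B) {x y : ℚ} (h : W.toAffine.Equation x y) (hx : x - e ≠ 0) :
    ∃ (d : ℤ) (r s : ℚ), Squarefree d ∧ d ∣ b ∧ r ≠ 0 ∧ x - e = d * r ^ 2 ∧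
      (x - e) ^ 2 + A * (x - e) + B = d * s ^ 2 ∧ eta W x y = d * r * s := by
  obtain ⟨d, r, hd, hr0, hr⟩ := exists_squarefree_mul_sq hx
  have hd0 : (d : ℚ) ≠ 0 := by exact_mod_cast hd.ne_zero
  have h1 := eta_sq_one two_ne_zero hs h
  set s := eta W x y / (d * r) with hsdef
  have h3 : eta W x y = d * r * s := by
    rw [hsdef]
    field_simp
  have h4 : (x - e) ^ 2 + A * (x - e) + B = d * s ^ 2 := by
    rw [h3, hr] at h1
    rw [hr]
    refine mul_left_cancel₀ (mul_ne_zero hd0 (pow_ne_zero 2 hr0)) ?_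
    linear_combination -h1
  refine ⟨d, r, s, hd, dvd_of_quartic_eq (a := a) (b := b) (r := k * r) (s := k ^ 2 * s) hd ?_, hr0, hr, h4,
    h3⟩
  rw [hr] at h4
  rw [← hA, ← hB]
  linear_combination k ^ 4 * h4

/-- The second descent map. -/
theorem exists_beta {k : ℚ} {a b : ℤ} (hA : k ^ 2 * A = a) (hB : k ^ 4 * B = b)
    (hΔ : W.Δ ≠ 0) (hs : Splits1 W e A B) {x r s : ℚ} (hr : x - e = r ^ 2)
    (hs2 : (x - e) ^ 2 + A * (x - e) + B = s ^ 2) :
    ∃ (c : ℤ) (t : ℚ), Squarefree c ∧ c ∣ a ^ 2 - 4 * b ∧ t ≠ 0 ∧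
      2 * (x - e) + A + 2 * s = c * t ^ 2 := by
  obtain ⟨-, hD⟩ := ne_zero_of_splits two_ne_zero hΔ hs
  have hprod : (2 * (x - e) + A + 2 * s) * (2 * (x - e) + A - 2 * s) = A ^ 2 - 4 * B := by
    linear_combination 4 * hs2
  have hu0 : 2 * (x - e) + A + 2 * s ≠ 0 := fun h0 => hD (by rw [← hprod, h0, zero_mul])
  obtain ⟨c, t, hc, ht0, ht⟩ := exists_squarefree_mul_sq hu0
  refine ⟨c, t, hc, dvd_of_quartic_eq (a := -2 * a) (b := a ^ 2 - 4 * b) (r := k * t)
    (s := 2 * k ^ 2 * t * r) hc ?_, ht0, ht⟩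
  push_cast
  rw [← hA, ← hB]
  have e1 : (c : ℚ) * t ^ 2 * (4 * r ^ 2 + 2 * A - c * t ^ 2) = A ^ 2 - 4 * B := by
    rw [← hprod, ← ht, ← hr]
    ring
  linear_combination -k ^ 4 * e1

end Rat

end Fermat.Agent.Cor.BSD.One
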