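import Fermat.Agent.Corollaries.BSD.Analytic
import Fermat.Agent.Corollaries.K4.Small.Desc7

/-!
# The rank part of the conjecture of Birch and Swinnerton-Dyer for the modular curve `X₁(14)`

`E : y² + xy + y = x³ - x`, the elliptic curve of conductor `14` and discriminant `-28`. Its group
of rational points is cyclic of order `6`; in particular the rank is `0`, the order of vanishing of
its `L`-function at `s = 1`.
-/

set_option autoImplicit false

noncomputable section

namespace Fermat.Agent.Cor.BSD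

open Fermat.Agent.Cor.HW WeierstrassCurve

/-- The rational solutions of `y² + xy + y = x³ - x`. -/
theorem solutions_X14 {x y : ℚ} (h : y ^ 2 + x * y + y = x ^ 3 - x) :
    (x = -1 ∧ y = 0) ∨ (x = 0 ∧ y = 0) ∨ (x = 0 ∧ y = -1) ∨ (x = 1 ∧ y = 0) ∨
      (x = 1 ∧ y = -2) := by
  have h1 : (4 * (2 * y + x + 1)) ^ 2 =
      (4 * (x + 1)) * ((4 * (x + 1)) ^ 2 - 11 * (4 * (x + 1)) + 32) := by
    linear_combination 64 * h
  rcases Small.no_sq7 h1 with h2 | h2 | h2
  · have hx : x = -1 := by linarith
    subst hx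
    refine Or.inl ⟨rfl, ?_⟩
    have h3 : y ^ 2 = 0 := by linear_combination h
    exact pow_eq_zero_iff (two_ne_zero) |>.mp h3
  · have hx : x = 0 := by linarith
    subst hx
    have h3 : y * (y + 1) = 0 := by linear_combination h
    rcases mul_eq_zero.mp h3 with h4 | h4
    · exact Or.inr (Or.inl ⟨rfl, h4⟩)
    · exact Or.inr (Or.inr (Or.inl ⟨rfl, by linarith⟩))
  · have hx : x = 1 := by linarith
    subst hx
    have h3 : y * (y + 2) = 0 := by linear_combination h
    rcases mul_eq_zero.mp h3 with h4 | h4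
    · exact Or.inr (Or.inr (Or.inr (Or.inl ⟨rfl, h4⟩)))
    · exact Or.inr (Or.inr (Or.inr (Or.inr ⟨rfl, by linarith⟩)))

/-- The modular curve `X₁(14)`: `y² + xy + y = x³ - x`, over `ℤ`. -/
def X14 : WeierstrassCurve ℤ := ⟨1, 0, 1, -1, 0⟩

/-- The curve `X₁(14)` over `ℚ`. -/
abbrev E14 : WeierstrassCurve ℚ := X14.map (Int.castRingHom ℚ)

theorem equation_E14 (x y : ℚ) :
    E14.toAffine.Equation x y ↔ y ^ 2 + x * y + y = x ^ 3 - x := by
  rw [Affine.equation_iff]
  simp [E14, X14]
  ring_nf

theorem Δ_E14 : E14.Δ = -28 := by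
  rw [map_Δ, show X14.Δ = -28 from by decide]
  norm_num

instance : E14.IsElliptic := by
  rw [isElliptic_iff, Δ_E14]
  norm_num

theorem nonsing14 {x y : ℚ} (h : y ^ 2 + x * y + y = x ^ 3 - x) :
    E14.toAffine.Nonsingular x y :=
  (Affine.equation_iff_nonsingular ..).mp ((equation_E14 x y).mpr h)

/-- The six points. -/
def pt14 : Fin 6 → E14.toAffine.Point :=
  ![0, .some (-1) 0 (nonsing14 (by norm_num)), .some 0 0 (nonsing14 (by norm_num)),
    .some 0 (-1) (nonsing14 (by norm_num)), .some 1 0 (nonsing14 (by norm_num)),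
    .some 1 (-2) (nonsing14 (by norm_num))]

theorem pt14_surjective : Function.Surjective pt14 := by
  intro P
  cases P with
  | zero => exact ⟨0, rfl⟩
  | some x y h =>
    rcases solutions_X14 ((equation_E14 x y).mp h.1) with
      ⟨rfl, rfl⟩ | ⟨rfl, rfl⟩ | ⟨rfl, rfl⟩ | ⟨rfl, rfl⟩ | ⟨rfl, rfl⟩
    · exact ⟨1, rfl⟩
    · exact ⟨2, rfl⟩
    · exact ⟨3, rfl⟩
    · exact ⟨4, rfl⟩
    · exact ⟨5, rfl⟩

theorem pt14_injective : Function.Injective pt14 := by
  intro i j h
  fin_cases i <;> fin_cases j <;> first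
    | rfl
    | (exfalso; revert h; simp [pt14, Affine.Point.zero_def]; try norm_num)

instance : Finite E14.toAffine.Point := Finite.of_surjective _ pt14_surjective

/-- `E(ℚ)` has six elements. -/
theorem card_E14 : Nat.card E14.toAffine.Point = 6 := by
  rw [← Nat.card_eq_of_bijective pt14 ⟨pt14_injective, pt14_surjective⟩, Nat.card_fin]

/-- **`E(ℚ)` is cyclic of order `6`.** -/
theorem isAddCyclic_E14 : IsAddCyclic E14.toAffine.Point := by
  have h1 : Nat.card (Multiplicative E14.toAffine.Point) = 6 := by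
    rw [← card_E14]
    rfl
  have h2 : IsZGroup (Multiplicative E14.toAffine.Point) := by
    apply IsZGroup.of_squarefree
    rw [h1]
    decide +kernel
  have h3 : IsCyclic (Multiplicative E14.toAffine.Point) := inferInstance
  exact isCyclic_multiplicative_iff.mp h3

/-- The rank of `E(ℚ)` is `0`. -/
theorem finrank_E14 : Module.finrank ℤ E14.toAffine.Point = 0 := by
  rw [Module.finrank_eq_zero_iff_isTorsion]
  intro P
  refine ⟨⟨6, by norm_num⟩, ?_⟩
  have h := card_nsmul_eq_zero' (x := P)
  rw [card_E14] at h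
  exact_mod_cast h

/-! ### The analytic side -/

/-- The reduction modulo `2`. -/
abbrev R14 : WeierstrassCurve (ZMod 2) := X14.reductionMod 2

theorem nonsingular_R14 : ∀ x y : ZMod 2, R14.toAffine.Nonsingular x y ↔ x = 0 := by
  intro x y
  rw [Affine.nonsingular_iff, Affine.equation_iff]
  simp only [R14, reductionMod, X14, map_a₁, map_a₂, map_a₃, map_a₄, map_a₆]
  revert x y
  simp only [eq_intCast]
  decide

def ptR14 : Fin 3 → R14.toAffine.Point :=
  ![0, .some 0 0 ((nonsingular_R14 0 0).mpr rfl), .some 0 1 ((nonsingular_R14 0 1).mpr rfl)]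

theorem ptR14_bijective : Function.Bijective ptR14 := by
  constructor
  · intro i j h
    fin_cases i <;> fin_cases j <;> first
      | rfl
      | (exfalso; revert h; simp [ptR14, Affine.Point.zero_def])
  · intro P
    cases P with
    | zero => exact ⟨0, rfl⟩
    | some x y h =>
      have hx := (nonsingular_R14 x y).mp h
      subst hx
      fin_cases y
      · exact ⟨1, rfl⟩
      · exact ⟨2, rfl⟩

theorem ap_two_X14 : ap X14 2 = -1 := by
  have h1 : ((2 : ℕ) : ℤ) ∣ X14.Δ := by decide
  have h2 : Nat.card R14.toAffine.Point = 3 := by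
    rw [← Nat.card_eq_of_bijective ptR14 ptR14_bijective, Nat.card_fin]
  rw [ap, if_pos h1, apOfModel, traceOfFrobenius, WeierstrassCurve.card, h2, Nat.card_zmod]
  norm_num

theorem dataX14 : X14.Δ ≠ 0 ∧ X14.IsSemistableModel ∧ X14.conductorLevel = 14 ∧
    rootNumber X14 = 1 := by
  have h : X14.Δ.natAbs = 2 ^ 2 * 7 ^ 1 := by decide
  have h0 : X14.Δ ≠ 0 := by decide
  have hs : X14.Δ.natAbs.primeFactors = {2, 7} := by
    rw [h]
    exact primeFactors_two_pow (by norm_num) (by norm_num) 2 1 (by norm_num) (by norm_num)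
  refine ⟨h0, isSemistableModel_of_primeFactors h0 hs ?_, ?_, ?_⟩
  · intro r hr
    rw [Finset.mem_insert, Finset.mem_singleton] at hr
    rcases hr with rfl | rfl <;> decide
  · rw [conductorLevel_of_primeFactors hs, Finset.prod_pair (by norm_num)]
    norm_num
  · rw [rootNumber_of_primeFactors hs, Finset.prod_pair (by norm_num), ap_two_X14,
      ap_of_dvd (by norm_num) (by norm_num) h0 (by decide) (by decide),
      show -X14.c₆ = 253 from by decide]
    norm_num

/-- `y² + xy + y = x³ - x`: analytic rank `0`, `L(E, 1) > 0`. -/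
theorem analyticX14 {L : ℂ → ℂ} (hL : IsHasseWeil X14 L) :
    analyticOrderNatAt L 1 = 0 ∧ analyticOrderAt L 1 = 0 ∧ ∃ y : ℝ, 0 < y ∧ L 1 = y :=
  analytic_of_rootNumber dataX14.1 dataX14.2.1 (by rw [dataX14.2.2.1]; norm_num) dataX14.2.2.2 hL

/-- **The rank part of the conjecture of Birch and Swinnerton-Dyer for `X₁(14)`**:
the order of vanishing of `L(E, s)` at `s = 1` is the rank of `E(ℚ)` (both are `0`). -/
theorem bsd_X14 {L : ℂ → ℂ} (hL : IsHasseWeil X14 L) :
    analyticOrderNatAt L 1 = Module.finrank ℤ (X14.map (Int.castRingHom ℚ)).toAffine.Point := by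
  rw [(analyticX14 hL).1]
  exact finrank_E14.symm

end Fermat.Agent.Cor.BSD

end
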